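import Mathlib
import Fermat.Agent.S59.Asm.Min2
import Fermat.Agent.S59.NumCrit.H90_OmegaFree

/-!
# S59, package RT-NONMIN (planner helper85): interface

Wiles' induction on the set `Sig` of auxiliary primes (Wiles Ch. 2, in Diamond's form), see
`NOTES/plan/S59_NONMIN.md`.

* `NMState 𝒪`   : a state of the induction: a level `N`, a finite set `S` of primes, a character
                  `θ` of the Hecke algebra of level `N` away from `S` and a Hecke module `M`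
                  (finite free over `𝒪`, local at `θ`).
* `NMState.eigen` : the eigenspace `M[x]` of a character `x` lifting `θ`.
* `cq`          : the element `(q - 1) (T_q² - (q + 1)²)` of the Hecke algebra (`q ∤ N`, `q ∉ S`).
* `NMStep`      : the geometric data of one step `Sig ↦ Sig ∪ {q}`: the module at level `N q²`,
                  the level raising map `α` (Ihara: saturated), its adjoint `α'` (onto),
                  `α' ∘ α = unit · cq`, and multiplicity one (`rank`).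
* `omegaCard`   : the cardinality of Diamond's congruence module `M / (M[𝔭] + M[Ann 𝔭])`.
* `RTProp`      : the statement carried by the induction: `R = T` at the state, and
                  `(#Φ_R)^d = #Ω(M)`.
* `Stmt_STEP`, `Stmt_BASE`, `Stmt_NMGEOM`, `Stmt_CQNE`, `Stmt_ETANE`, `Stmt_PRES`, `Stmt_TAU2`,
  `Stmt_MLTnm` : the leaves and the target.

No `sorry`; definitions only.
-/

set_option autoImplicit false

open Polynomial CuspForm CongruenceSubgroup ModularFormClass IsLocalRing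

namespace Fermat.Agent.S59.NonMin

open Fermat.Agent.S59 Fermat.Agent.S59.Asm

/-! ## 1. States and steps -/

/-- A state of the induction on the set of auxiliary primes. -/
structure NMState (𝒪 : Type) [CommRing 𝒪] [IsLocalRing 𝒪] : Type 1 where
  /-- the level -/
  N : ℕ
  [neZero : NeZero N]
  /-- the set of primes away from which the Hecke algebra is taken -/
  S : Finset ℕ
  /-- the residual character -/
  θ : CuspForm.heckeAlgebra N 2 (↑S : Set ℕ) →+* ResidueField 𝒪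
  /-- the Hecke module -/
  M : HMod 𝒪 N (↑S : Set ℕ) θ

attribute [instance] NMState.neZero

section

variable {𝒪 : Type} [CommRing 𝒪] [IsLocalRing 𝒪]

/-- The eigenspace `M[x]` of a character `x` of the Hecke algebra. -/
def NMState.eigen (s : NMState 𝒪) (x : CuspForm.heckeAlgebra s.N 2 (↑s.S : Set ℕ) →+* 𝒪) :
    Submodule 𝒪 s.M.V :=
  ⨅ t : CuspForm.heckeAlgebra s.N 2 (↑s.S : Set ℕ),
    LinearMap.ker (s.M.η t - x t • (1 : Module.End 𝒪 s.M.V))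

theorem NMState.mem_eigen (s : NMState 𝒪)
    (x : CuspForm.heckeAlgebra s.N 2 (↑s.S : Set ℕ) →+* 𝒪) (v : s.M.V) :
    v ∈ s.eigen x ↔ ∀ t : CuspForm.heckeAlgebra s.N 2 (↑s.S : Set ℕ), s.M.η t v = x t • v := by
  simp only [NMState.eigen, Submodule.mem_iInf, LinearMap.mem_ker, LinearMap.sub_apply,
    LinearMap.smul_apply, Module.End.one_apply, sub_eq_zero]

end

/-- The element `c_q = (q - 1) (T_q² - (q + 1)²)` of the Hecke algebra of level `N` away from `S`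
(`q ∤ N`, `q ∉ S`). -/
noncomputable def cq (N : ℕ) [NeZero N] (S : Set ℕ) {q : ℕ} (hq : q.Prime) (hqN : ¬ q ∣ N)
    (hqS : q ∉ S) : CuspForm.heckeAlgebra N 2 S :=
  ((q : CuspForm.heckeAlgebra N 2 S) - 1) *
    (CuspForm.heckeAlgebra.T hq hqN hqS ^ 2 - ((q : CuspForm.heckeAlgebra N 2 S) + 1) ^ 2)

/-- The geometric data of one step of the induction: from the state `s` to a state at the level
`N q²`, the Hecke algebra being taken away from `S ∪ {q}`. -/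
structure NMStep {𝒪 : Type} [CommRing 𝒪] [IsLocalRing 𝒪] (s : NMState 𝒪) {q : ℕ}
    (hq : q.Prime) (hqN : ¬ q ∣ s.N) (hqS : q ∉ (↑s.S : Set ℕ)) [NeZero (s.N * q ^ 2)] :
    Type 1 where
  /-- restriction of Hecke operators (package REST) -/
  rest : CuspForm.heckeAlgebra (s.N * q ^ 2) 2 (↑(insert q s.S) : Set ℕ) →+*
    CuspForm.heckeAlgebra s.N 2 (↑s.S : Set ℕ)
  rest_T : ∀ (ℓ : ℕ) (hℓ : ℓ.Prime) (hℓN' : ¬ ℓ ∣ s.N * q ^ 2)
    (hℓS' : ℓ ∉ (↑(insert q s.S) : Set ℕ)) (hℓN : ¬ ℓ ∣ s.N) (hℓS : ℓ ∉ (↑s.S : Set ℕ)),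
    rest (CuspForm.heckeAlgebra.T hℓ hℓN' hℓS') = CuspForm.heckeAlgebra.T hℓ hℓN hℓS
  /-- the Hecke module at the level `N q²` (cut by `U_q = 0`) -/
  M' : HMod 𝒪 (s.N * q ^ 2) (↑(insert q s.S) : Set ℕ) (s.θ.comp rest)
  /-- the level raising map `x ↦ q i₁^* x - i₂^* T_q x + i₃^* x` -/
  α : s.M.V →ₗ[𝒪] M'.V
  /-- its adjoint -/
  α' : M'.V →ₗ[𝒪] s.M.V
  α_η : ∀ (t : CuspForm.heckeAlgebra (s.N * q ^ 2) 2 (↑(insert q s.S) : Set ℕ)) (v : s.M.V),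
    α (s.M.η (rest t) v) = M'.η t (α v)
  α'_η : ∀ (t : CuspForm.heckeAlgebra (s.N * q ^ 2) 2 (↑(insert q s.S) : Set ℕ)) (w : M'.V),
    α' (M'.η t w) = s.M.η (rest t) (α' w)
  /-- Ihara's lemma: `α` is injective with saturated image -/
  α_inj : Function.Injective α
  α_sat : ∀ (a : 𝒪) (w : M'.V), a ≠ 0 → a • w ∈ LinearMap.range α → w ∈ LinearMap.range α
  /-- dual Ihara -/
  α'_surj : Function.Surjective α'
  /-- a unit -/
  u : 𝒪ˣ
  /-- `α' ∘ α = u · (q - 1) (T_q² - (q + 1)²)` -/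
  comp : ∀ v : s.M.V, α' (α v) = (u : 𝒪) • s.M.η (cq s.N (↑s.S : Set ℕ) hq hqN hqS) v
  /-- multiplicity one: the eigenspaces do not grow -/
  rank : ∀ (x : CuspForm.heckeAlgebra s.N 2 (↑s.S : Set ℕ) →+* 𝒪),
    (∀ t, residue 𝒪 (x t) = s.θ t) →
    Module.finrank 𝒪 (NMState.eigen ⟨s.N * q ^ 2, insert q s.S, s.θ.comp rest, M'⟩
      (x.comp rest)) ≤ Module.finrank 𝒪 (s.eigen x)

/-- The next state. -/
noncomputable def NMStep.next {𝒪 : Type} [CommRing 𝒪] [IsLocalRing 𝒪] {s : NMState 𝒪} {q : ℕ}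
    {hq : q.Prime} {hqN : ¬ q ∣ s.N} {hqS : q ∉ (↑s.S : Set ℕ)} [NeZero (s.N * q ^ 2)]
    (st : NMStep s hq hqN hqS) : NMState 𝒪 :=
  ⟨s.N * q ^ 2, insert q s.S, s.θ.comp st.rest, st.M'⟩

/-! ## 2. The property carried by the induction -/

/-- The cardinality of Diamond's congruence module `Ω = V / (V[𝔭] + V[Ann 𝔭])`, `𝔭 = ker π`,
of a module `V` over `T` (the structure being given by `ηhat`). -/
noncomputable def omegaCard {𝒪 T V : Type} [CommRing 𝒪] [CommRing T] [Algebra 𝒪 T]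
    [AddCommGroup V] [Module 𝒪 V] (ηhat : T →ₐ[𝒪] Module.End 𝒪 V) (π : T →ₐ[𝒪] 𝒪) : ℕ :=
  letI : Module T V := Module.compHom V (ηhat : T →+* Module.End 𝒪 V)
  Nat.card (V ⧸ Fermat.Agent.S59.NumCrit.H90.omegaSub π V)

section RT

variable (𝒪 : Type) [CommRing 𝒪] [IsDomain 𝒪] [IsDiscreteValuationRing 𝒪]
  [IsAdicComplete (maximalIdeal 𝒪) 𝒪]

/-- The hypotheses on the level of a state, for the set `Sig` of auxiliary primes. -/
structure LevelHyp (p : ℕ) (fl : Bool) (Smin Sig : Finset ℕ) (s : NMState 𝒪) : Prop where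
  hS : s.S = Smin ∪ Sig
  hSig : ∀ q ∈ Sig, q.Prime ∧ q ∉ Smin
  dvd_mem : ∀ q : ℕ, q.Prime → q ∣ s.N → q ∈ s.S
  hmin : ∀ q ∈ Smin, q ≠ p → q ∣ s.N ∧ ¬ q ^ 2 ∣ s.N
  hcube : ∀ q : ℕ, q.Prime → ¬ q ^ 3 ∣ s.N
  hfl : fl = true → ¬ p ∣ s.N
  hso : fl = false → p ∣ s.N ∧ ¬ p ^ 2 ∣ s.N

/-- **`R = T` at a state**, with the numerical equality which drives the induction:
the eigenspace of `x` has rank `d`, and there are a universal deformation ring `D` of type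
`cond … Sig`, a Hecke–Galois datum `H` over the full local Hecke ring `T` and a compatible
surjection `φ : D.R → T` such that `φ` is injective, the cotangent space `Φ` of `D.R` at the
point `x` is finite and `(#Φ)^d = #Ω_x(M)`. -/
def RTProp (p : ℕ) (fl : Bool) (ρbar : ResidualGaloisRep (ResidueField 𝒪)) (Smin Sig : Finset ℕ)
    (s : NMState 𝒪) [Fact (CuspForm.HasIntegralStructure s.N 2)]
    (x : CuspForm.heckeAlgebra s.N 2 (↑s.S : Set ℕ) →+* 𝒪) (d : ℕ) : Prop :=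
  Module.finrank 𝒪 (s.eigen x) = d ∧
  ∃ (D : GaloisRep.DeformationRingData 𝒪 ρbar (cond 𝒪 p fl Smin Sig))
    (H : CuspForm.HeckeGaloisRepDatum s.N (↑s.S : Set ℕ) 𝒪 s.θ
      (CuspForm.heckeLocal s.N (↑s.S : Set ℕ) 𝒪 s.θ))
    (φ : D.R →ₐ[𝒪] CuspForm.heckeLocal s.N (↑s.S : Set ℕ) 𝒪 s.θ)
    (hφ : IsLocalHom (φ : D.R →+* CuspForm.heckeLocal s.N (↑s.S : Set ℕ) 𝒪 s.θ))
    (ηhat : CuspForm.heckeLocal s.N (↑s.S : Set ℕ) 𝒪 s.θ →ₐ[𝒪] Module.End 𝒪 s.M.V)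
    (πx : CuspForm.heckeLocal s.N (↑s.S : Set ℕ) 𝒪 s.θ →ₐ[𝒪] 𝒪),
    H.π = CuspForm.heckeLocal.π s.N (↑s.S : Set ℕ) 𝒪 s.θ ∧
    Function.Bijective φ ∧
    (D.ρ.baseChangeAlong (φ : D.R →+* CuspForm.heckeLocal s.N (↑s.S : Set ℕ) 𝒪 s.θ) hφ).IsEquiv
      H.ρ ∧
    (∀ t, ηhat (CuspForm.heckeLocal.π s.N (↑s.S : Set ℕ) 𝒪 s.θ t) = s.M.η t) ∧
    (∀ t, πx (CuspForm.heckeLocal.π s.N (↑s.S : Set ℕ) 𝒪 s.θ t) = x t) ∧
    Finite (RingHom.ker ((πx.comp φ : D.R →ₐ[𝒪] 𝒪) : D.R →+* 𝒪)).Cotangent ∧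
    Nat.card (RingHom.ker ((πx.comp φ : D.R →ₐ[𝒪] 𝒪) : D.R →+* 𝒪)).Cotangent ^ d =
      omegaCard ηhat πx

end RT

/-! ## 3. The leaves -/

/-- **STEP** (pure algebra + deformation theory; all inputs landed or leaves of this package):
`RTProp` passes from a state to the next one along an `NMStep`.
Proof: see `NOTES/plan/S59_NONMIN.md` §3. -/
def Stmt_STEP : Prop :=
  ∀ (𝒪 : Type) [CommRing 𝒪] [IsDomain 𝒪] [IsDiscreteValuationRing 𝒪]
    [IsAdicComplete (maximalIdeal 𝒪) 𝒪] [Finite (ResidueField 𝒪)] [CharZero 𝒪]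
    (p : ℕ) [Fact p.Prime], p ≠ 2 → (p : 𝒪) ∈ maximalIdeal 𝒪 →
    ∀ (fl : Bool) (ρbar : ResidualGaloisRep (ResidueField 𝒪)) (Smin : Finset ℕ),
    ResHyp p ρbar Smin →
    cond 𝒪 p fl Smin ∅ (GaloisRepAdic.ofResidualGaloisRep ρbar) →
    (fl = false → ¬ (GaloisRepAdic.ofResidualGaloisRep ρbar).IsFlatAt p) →
    ∀ (Sig : Finset ℕ) (s : NMState 𝒪) [Fact (CuspForm.HasIntegralStructure s.N 2)],
    LevelHyp 𝒪 p fl Smin Sig s →
    Fermat.Agent.S59.Datum.FrobHyp ρbar s.N s.S s.θ →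
    ∀ (x : CuspForm.heckeAlgebra s.N 2 (↑s.S : Set ℕ) →+* 𝒪),
    (∀ t, residue 𝒪 (x t) = s.θ t) →
    ∀ (d : ℕ), 0 < d → RTProp 𝒪 p fl ρbar Smin Sig s x d →
    ∀ (q : ℕ) (hq : q.Prime) (_hqp : q ≠ p) (hqN : ¬ q ∣ s.N) (hqS : q ∉ (↑s.S : Set ℕ))
      [NeZero (s.N * q ^ 2)] (st : NMStep s hq hqN hqS)
      [Fact (CuspForm.HasIntegralStructure (s.N * q ^ 2) 2)],
      RTProp 𝒪 p fl ρbar Smin (insert q Sig)
        (⟨s.N * q ^ 2, insert q s.S, s.θ.comp st.rest, st.M'⟩ : NMState 𝒪) (x.comp st.rest) d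

/-- **BASE**: at the minimal level `RTProp` holds (with `d` = the rank of `M` over `T`) as soon as
`M` is free over the deformation ring and the deformation ring is a complete intersection: the
output of the Taylor–Wiles patching (`S57`, `eigenform_of_patchingDatum`), `NumCrit.H90.nc2` and
`NumCrit.H90.card_omega_of_free`. -/
def Stmt_BASE : Prop :=
  ∀ (𝒪 : Type) [CommRing 𝒪] [IsDomain 𝒪] [IsDiscreteValuationRing 𝒪]
    [IsAdicComplete (maximalIdeal 𝒪) 𝒪] [Finite (ResidueField 𝒪)] [CharZero 𝒪]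
    (p : ℕ) [Fact p.Prime], p ≠ 2 → (p : 𝒪) ∈ maximalIdeal 𝒪 →
    ∀ (fl : Bool) (ρbar : ResidualGaloisRep (ResidueField 𝒪)) (Smin : Finset ℕ),
    ResHyp p ρbar Smin →
    ∀ (s : NMState 𝒪) [Fact (CuspForm.HasIntegralStructure s.N 2)],
    LevelHyp 𝒪 p fl Smin ∅ s →
    ∀ (x : CuspForm.heckeAlgebra s.N 2 (↑s.S : Set ℕ) →+* 𝒪),
    (∀ t, residue 𝒪 (x t) = s.θ t) →
    ∀ (D : GaloisRep.DeformationRingData 𝒪 ρbar (cond 𝒪 p fl Smin ∅))
      (H : CuspForm.HeckeGaloisRepDatum s.N (↑s.S : Set ℕ) 𝒪 s.θ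
        (CuspForm.heckeLocal s.N (↑s.S : Set ℕ) 𝒪 s.θ)),
    H.π = CuspForm.heckeLocal.π s.N (↑s.S : Set ℕ) 𝒪 s.θ →
    ∀ (φ : D.R →ₐ[𝒪] CuspForm.heckeLocal s.N (↑s.S : Set ℕ) 𝒪 s.θ)
      (hφ : IsLocalHom (φ : D.R →+* CuspForm.heckeLocal s.N (↑s.S : Set ℕ) 𝒪 s.θ)),
    Function.Surjective φ →
    (D.ρ.baseChangeAlong
      (φ : D.R →+* CuspForm.heckeLocal s.N (↑s.S : Set ℕ) 𝒪 s.θ) hφ).IsEquiv H.ρ →
    ∀ (ηhat : CuspForm.heckeLocal s.N (↑s.S : Set ℕ) 𝒪 s.θ →ₐ[𝒪] Module.End 𝒪 s.M.V),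
    (∀ t, ηhat (CuspForm.heckeLocal.π s.N (↑s.S : Set ℕ) 𝒪 s.θ t) = s.M.η t) →
    -- the output of the patching argument (S57): `D.R` is a complete intersection and the
    -- module is free over it
    ∀ (r : ℕ) (γ : MvPowerSeries (Fin r) 𝒪 →ₐ[𝒪] D.R) (g : Fin r → MvPowerSeries (Fin r) 𝒪),
    Function.Surjective γ →
    RingHom.ker (γ : MvPowerSeries (Fin r) 𝒪 →+* D.R) = Ideal.span (Set.range g) →
    @Module.Free D.R s.M.V _ _ (Module.compHom s.M.V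
        ((ηhat.comp φ : D.R →ₐ[𝒪] Module.End 𝒪 s.M.V) : D.R →+* Module.End 𝒪 s.M.V)) →
    Nontrivial s.M.V →
    ∃ d : ℕ, 0 < d ∧ RTProp 𝒪 p fl ρbar Smin ∅ s x d

/-- **CQ-NE**: `T_q² ≠ (q + 1)²` at every characteristic zero point of the Hecke algebra
(`q ∤ N`).  [`|a_q(f)| < q + 1` for every normalised eigenform `f` of weight `2`: the maximum of
`|f(z)| Im z`, see the plan §5; no Weil bound.] -/
def Stmt_CQNE : Prop :=
  ∀ (N : ℕ) [NeZero N] (S : Set ℕ) (q : ℕ) (hq : q.Prime) (hqN : ¬ q ∣ N) (hqS : q ∉ S)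
    (K : Type) [Field K] [CharZero K] (x : CuspForm.heckeAlgebra N 2 S →+* K),
    x (CuspForm.heckeAlgebra.T hq hqN hqS) ^ 2 ≠ ((q : K) + 1) ^ 2

/-- **ETA-NE**: the congruence ideal of the full local Hecke ring at a point is nonzero
(the Hecke algebra is reduced: `R.Pet.H98.stmt_HeckeReduced`). -/
def Stmt_ETANE : Prop :=
  ∀ (𝒪 : Type) [CommRing 𝒪] [IsDomain 𝒪] [IsDiscreteValuationRing 𝒪]
    [IsAdicComplete (maximalIdeal 𝒪) 𝒪] [CharZero 𝒪]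
    (N : ℕ) [NeZero N] [Fact (CuspForm.HasIntegralStructure N 2)] (S : Finset ℕ),
    (∀ q : ℕ, q.Prime → q ∣ N → q ∈ S) →
    ∀ (θ : CuspForm.heckeAlgebra N 2 (↑S : Set ℕ) →+* ResidueField 𝒪)
      (π : CuspForm.heckeLocal N (↑S : Set ℕ) 𝒪 θ →ₐ[𝒪] 𝒪),
      Fermat.Agent.S59.NumCrit.eta π ≠ ⊥

/-- **PRES**: a universal deformation ring is a quotient of a power series ring. -/
def Stmt_PRES : Prop :=
  ∀ (𝒪 : Type) [CommRing 𝒪] [IsDomain 𝒪] [IsDiscreteValuationRing 𝒪]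
    [IsAdicComplete (maximalIdeal 𝒪) 𝒪]
    (ρbar : ResidualGaloisRep (ResidueField 𝒪))
    (𝒟 : ∀ ⦃A : Type⦄ [CommRing A] [IsLocalRing A] [Algebra 𝒪 A], GaloisRepAdic A → Prop)
    (D : GaloisRep.DeformationRingData 𝒪 ρbar 𝒟),
    ∃ (n : ℕ) (γ : MvPowerSeries (Fin n) 𝒪 →ₐ[𝒪] D.R), Function.Surjective γ

/-- **TAU2**: the surjection between the deformation rings for `Sig ⊆ Sig'`
(as `Asm.H99.stmt_TAU`, with `Asm.cond_mono`). -/
def Stmt_TAU2 : Prop :=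
  ∀ (𝒪 : Type) [CommRing 𝒪] [IsDomain 𝒪] [IsDiscreteValuationRing 𝒪]
    [IsAdicComplete (maximalIdeal 𝒪) 𝒪] [Finite (ResidueField 𝒪)]
    (p : ℕ) [Fact p.Prime], p ≠ 2 → (p : 𝒪) ∈ maximalIdeal 𝒪 →
    ∀ (fl : Bool) (ρbar : ResidualGaloisRep (ResidueField 𝒪)) (Smin Sig Sig' : Finset ℕ),
    Sig ⊆ Sig' → p ∈ Smin → (∀ q ∈ Smin ∪ Sig', q.Prime) →
    ∀ (D : GaloisRep.DeformationRingData 𝒪 ρbar (cond 𝒪 p fl Smin Sig))
      (D' : GaloisRep.DeformationRingData 𝒪 ρbar (cond 𝒪 p fl Smin Sig')),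
    ∃ τ : D'.R →ₐ[𝒪] D.R, Function.Surjective τ ∧
      ∃ h : IsLocalHom (τ : D'.R →+* D.R),
        (D'.ρ.baseChangeAlong (τ : D'.R →+* D.R) h).IsEquiv D.ρ

/-- **NMGEOM** (geometry: Betti/Tate module of `X₀(N q²)`, Ihara's lemma for three degeneracy maps,
Poincaré duality, multiplicity one): the Hecke module of the minimal case (`Asm.Stmt_TWGEOM`)
can be chosen inside a class `G` of states which is closed under the steps of the induction. -/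
def Stmt_NMGEOM : Prop :=
  ∀ (𝒪 : Type) [CommRing 𝒪] [IsDomain 𝒪] [IsDiscreteValuationRing 𝒪]
    [IsAdicComplete (maximalIdeal 𝒪) 𝒪] [Finite (ResidueField 𝒪)] [CharZero 𝒪]
    (p : ℕ) [Fact p.Prime], p ≠ 2 → (p : 𝒪) ∈ maximalIdeal 𝒪 →
    ∀ (ρbar : ResidualGaloisRep (ResidueField 𝒪)) (Smin : Finset ℕ), ResHyp p ρbar Smin →
    ∀ (N : ℕ) [NeZero N] [Fact (CuspForm.HasIntegralStructure N 2)],
    (∀ q : ℕ, q.Prime → q ∣ N → q ∈ Smin) → Squarefree N →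
    ∀ (θ : CuspForm.heckeAlgebra N 2 (↑Smin : Set ℕ) →+* ResidueField 𝒪),
    Fermat.Agent.S59.Datum.FrobHyp ρbar N Smin θ →
    ∃ (M : HMod 𝒪 N (↑Smin : Set ℕ) θ) (G : NMState 𝒪 → Prop), Nontrivial M.V ∧
      (∀ (r n : ℕ) (qv : Fin r → ℕ), Fermat.Agent.S56.IsTWFamily ρbar p n Smin qv →
        ∀ [NeZero (twLevel N qv)] [Fact (CuspForm.HasIntegralStructure (twLevel N qv) 2)],
          Nonempty (TWGeom 𝒪 p ρbar N Smin θ M n qv)) ∧
      G ⟨N, Smin, θ, M⟩ ∧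
      ∀ s : NMState 𝒪, G s → ∀ (q : ℕ) (hq : q.Prime), q ≠ p → ∀ (hqN : ¬ q ∣ s.N)
        (hqS : q ∉ (↑s.S : Set ℕ)) [NeZero (s.N * q ^ 2)],
        ∃ st : NMStep s hq hqN hqS, G st.next

/-- **Modularity lifting, non-minimal case**: the target of the package.  `x₀` is a
characteristic zero point of the Hecke algebra at the minimal level lifting `θ` (leaf AUG: it
exists after a finite extension of `𝒪`). -/
def Stmt_MLTnm : Prop :=
  ∀ (𝒪 : Type) [CommRing 𝒪] [IsDomain 𝒪] [IsDiscreteValuationRing 𝒪]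
    [IsAdicComplete (maximalIdeal 𝒪) 𝒪] [Finite (ResidueField 𝒪)] [CharZero 𝒪]
    (p : ℕ) [Fact p.Prime], p ≠ 2 → (p : 𝒪) ∈ maximalIdeal 𝒪 →
    ∀ (fl : Bool) (ρbar : ResidualGaloisRep (ResidueField 𝒪)) (Smin : Finset ℕ),
    ResHyp p ρbar Smin →
    cond 𝒪 p fl Smin ∅ (GaloisRepAdic.ofResidualGaloisRep ρbar) →
    (fl = false → ¬ (GaloisRepAdic.ofResidualGaloisRep ρbar).IsFlatAt p) →
    ∀ (N : ℕ) [NeZero N], N = minLevel p fl Smin →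
    ∀ (θ : CuspForm.heckeAlgebra N 2 (↑Smin : Set ℕ) →+* ResidueField 𝒪),
    Fermat.Agent.S59.Datum.FrobHyp ρbar N Smin θ →
    ∀ (x₀ : CuspForm.heckeAlgebra N 2 (↑Smin : Set ℕ) →+* 𝒪),
    (∀ t, residue 𝒪 (x₀ t) = θ t) →
    ∀ (Sig : Finset ℕ), (∀ q ∈ Sig, q.Prime ∧ q ∉ Smin) →
    ∀ (ρ : GaloisRepAdic 𝒪), cond 𝒪 p fl Smin Sig ρ →
    ρ.residual.IsEquiv (ρbar.baseChangeAlong (ResidueField.map (algebraMap 𝒪 𝒪))) →
    ∀ (a : ℕ → ℤ),
    (∀ ℓ : ℕ, ℓ.Prime → ℓ ∉ Smin ∪ Sig →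
      ∀ A : ValuationSubring (AlgebraicClosure ℚ), A.LiesOverPrime ℓ →
        ∀ σ : AlgebraicClosure ℚ ≃ₐ[ℚ] AlgebraicClosure ℚ, A.IsFrobeniusAt σ ℓ →
          LinearMap.charpoly (ρ.ρ σ) = X ^ 2 - C (((a ℓ : ℤ) : 𝒪)) * X + C ((ℓ : 𝒪))) →
    ∃ N' : ℕ, ¬ p ^ 2 ∣ N' ∧ (∀ q : ℕ, q.Prime → ¬ q ^ 3 ∣ N') ∧
      ∃ g : CuspForm (Gamma0 N') 2, g.IsNormalizedEigenform ∧
        ∀ ℓ : ℕ, ℓ.Prime → ¬ ℓ ∣ N' → ℓ ∉ Smin ∪ Sig → qCoeff ⇑g ℓ = (a ℓ : ℂ)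

end Fermat.Agent.S59.NonMin
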