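import Mathlib
import Fermat.Agent.S59.NonMin.Defs
import Fermat.Agent.R.Transfer

/-!
# S59, package RT-NONMIN (planner helper85): interface of CASE C (package PSTEP) and AUG

Case C: `ρbar` is flat at `p` (so the minimal problem is the flat one, `fl = true`), but the lift
`ρ` is strictly ordinary and not flat at `p` (multiplicative reduction at `p`, `p ∣ v_p(Δ)`).
Wiles' passage from the flat to the Selmer (= ordinary) condition: ONE more step of the induction,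
at the prime `p`, from the level `N'` (prime to `p`) to the level `N' p`.
Plan: `NOTES/plan/S59_NONMIN.md` §8.

* `condOrd`     : the ordinary deformation condition (prelude `GaloisRep.ordinaryCondition`).
* `peuUnits P`, `Ipeu p P` : the units of the inertia field at `P`, and the "peu ramifié inertia":
                  the elements of the inertia group at `P` which fix all `p`-power roots of these
                  units.  An ordinary representation is "peu ramifié" iff it is trivial on `Ipeu`.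
* `FixesPRoots p g` : `g` fixes the `p`-power roots of unity.
* `PStep`       : the geometric data of the step at `p`.
* `RTPropC`     : `RTProp` for the ordinary condition.
* `Stmt_AUG`, `Stmt_KUMp`, `Stmt_PEUFLAT`, `Stmt_SELMERp`, `Stmt_DEFord`, `Stmt_TAUord`,
  `Stmt_CONDord`, `Stmt_PSTEP`, `Stmt_NMGEOMC`, `Stmt_MLTnmC`, `Stmt_MLTall` : leaves and targets.

No `sorry`; definitions only.
-/

set_option autoImplicit false

open Polynomial CuspForm CongruenceSubgroup ModularFormClass IsLocalRing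

namespace Fermat.Agent.S59.NonMin

open Fermat.Agent.S59 Fermat.Agent.S59.Asm

/-! ## 0. AUG -/

/-- **AUG**: after a finite extension of `𝒪` the local Hecke ring has a point: there is a
character of the Hecke algebra with values in `𝒪'` lifting `θ`.
[`R.H2.nonempty_algTPoint` for `T := heckeLocal N S 𝒪 θ`.] -/
def Stmt_AUG : Prop :=
  ∀ (𝒪 : Type) [CommRing 𝒪] [IsDomain 𝒪] [IsDiscreteValuationRing 𝒪]
    [IsAdicComplete (maximalIdeal 𝒪) 𝒪] [Finite (ResidueField 𝒪)] [CharZero 𝒪]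
    (N : ℕ) [NeZero N] [Fact (CuspForm.HasIntegralStructure N 2)] (S : Finset ℕ)
    (θ : CuspForm.heckeAlgebra N 2 (↑S : Set ℕ) →+* ResidueField 𝒪),
    ∃ (𝒪' : Type) (_ : CommRing 𝒪') (_ : IsDomain 𝒪') (_ : IsDiscreteValuationRing 𝒪')
      (_ : IsAdicComplete (maximalIdeal 𝒪') 𝒪') (_ : Finite (ResidueField 𝒪'))
      (_ : CharZero 𝒪') (_ : Algebra 𝒪 𝒪') (_ : Module.Finite 𝒪 𝒪') (_ : Module.Free 𝒪 𝒪')
      (_ : IsLocalHom (algebraMap 𝒪 𝒪'))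
      (x₀ : CuspForm.heckeAlgebra N 2 (↑S : Set ℕ) →+* 𝒪'),
      ∀ t, residue 𝒪' (x₀ t) = ResidueField.map (algebraMap 𝒪 𝒪') (θ t)

/-! ## 1. The ordinary condition and the peu ramifié inertia -/

/-- The ordinary deformation condition with auxiliary set `T` (as `S56.condFl`, `S56.condSO`). -/
def condOrd (𝒪 : Type) [CommRing 𝒪] (p : ℕ) (Smin T : Finset ℕ) :
    ∀ ⦃A : Type⦄ [CommRing A] [IsLocalRing A] [Algebra 𝒪 A], GaloisRepAdic A → Prop :=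
  fun _A _ _ _ ρ => GaloisRep.ordinaryCondition 𝒪 p (Smin ∪ T) ρ ∧
    ∀ q ∈ Smin, q.Prime → q ≠ p → ρ.IsUnipotentOnInertiaAt q

/-- The units of the valuation ring `P` which are fixed by the inertia group of `P`
(the units of the inertia field). -/
def peuUnits (P : ValuationSubring (AlgebraicClosure ℚ)) : Set (AlgebraicClosure ℚ) :=
  {u | u ∈ P ∧ u⁻¹ ∈ P ∧ u ≠ 0 ∧ ∀ s ∈ P.inertiaSubgroupIn ℚ, s u = u}

/-- The peu ramifié inertia: the elements of the inertia group at `P` which fix every `y` some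
`p`-power of which is a unit of the inertia field. -/
def Ipeu (p : ℕ) (P : ValuationSubring (AlgebraicClosure ℚ)) :
    Set (AlgebraicClosure ℚ ≃ₐ[ℚ] AlgebraicClosure ℚ) :=
  {σ | σ ∈ P.inertiaSubgroupIn ℚ ∧
    ∀ (y : AlgebraicClosure ℚ) (n : ℕ), y ^ p ^ n ∈ peuUnits P → σ y = y}

/-- `g` fixes the `p`-power roots of unity. -/
def FixesPRoots (p : ℕ) (g : AlgebraicClosure ℚ ≃ₐ[ℚ] AlgebraicClosure ℚ) : Prop :=
  ∀ (n : ℕ) (μ : AlgebraicClosure ℚ), μ ^ p ^ n = 1 → g μ = μ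

/-- A representation is peu ramifié at `p` if it is trivial on the peu ramifié inertia. -/
def IsPeuAt {A : Type} [CommRing A] [IsLocalRing A] (ρ : GaloisRepAdic A) (p : ℕ) : Prop :=
  ∀ P : ValuationSubring (AlgebraicClosure ℚ), P.LiesOverPrime p → ∀ σ ∈ Ipeu p P, ρ.ρ σ = 1

/-! ## 2. The Galois side -/

/-- **KUM-p** (Kummer theory of the inertia field at `p`; the analogue of PV-TAME T0/T1):
there is ONE element `τ₀` of the peu ramifié inertia such that, for every ordinary representation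
with cyclotomic determinant over a noetherian local ring of residue characteristic `p`,
1. `ρ(τ₀)` commutes with `ρ(g)` for every `g` in the decomposition group fixing `μ_{p^∞}`;
2. for every ideal `J`: `ρ(τ₀) ≡ 1 mod J` implies `ρ(σ) ≡ 1 mod J` for all `σ ∈ Ipeu`.
[On `N := I ∩ ker ε` an ordinary `ρ` is `1 + X_σ`, `X_σ V ⊂ L`, `X_σ L = 0`, additive in `σ`, and
`X_{gσg⁻¹} = ε(g) X_σ` for `g ∈ I`; so modulo `𝔪ⁿ` it factors through a Kummer extension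
`L_m(a₁^{1/p^m}, …)` with `a_i` in the inertia field, `a_i = p^{k_i} u_i` (`UnramVal`); on `Ipeu`
only the `k_i` matter: the image of `Ipeu` is procyclic, generated by any `τ₀ ∈ Ipeu` with
`τ₀ (p^{1/p^m}) = ζ_{p^m} p^{1/p^m}` for all `m` (compactness, as `exists_uniform_tame_generator`),
and `g τ₀ g⁻¹ ≡ τ₀` when `ε(g) = 1`.] -/
def Stmt_KUMp : Prop :=
  ∀ (p : ℕ), p.Prime → p ≠ 2 →
  ∀ (P : ValuationSubring (AlgebraicClosure ℚ)), P.LiesOverPrime p →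
  ∃ τ₀ ∈ Ipeu p P,
    ∀ (A : Type) [CommRing A] [IsLocalRing A] [IsNoetherianRing A],
      (p : A) ∈ maximalIdeal A →
      ∀ ρ : GaloisRepAdic A, ρ.DetIsCyclotomic p → ρ.IsOrdinaryAt p →
        (∀ g ∈ P.decompositionSubgroup ℚ, FixesPRoots p g →
          ρ.ρ g * ρ.ρ τ₀ = ρ.ρ τ₀ * ρ.ρ g) ∧
        ∀ J : Ideal A, (∀ v : ρ.V, ρ.ρ τ₀ v - v ∈ J • (⊤ : Submodule A ρ.V)) →
          ∀ σ ∈ Ipeu p P, ∀ v : ρ.V, ρ.ρ σ v - v ∈ J • (⊤ : Submodule A ρ.V)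

/-- **PEUFLAT**: an ordinary representation with cyclotomic determinant which is trivial on the
peu ramifié inertia is flat at `p`.
[`Lib.HopfOrderLoc.stmt_LocalGen` for `W = V / I V` with the generators `e_v` (indicator of the
class `v ∈ W / W⁰`, `W⁰` = image of the ordinary line) and `t_λ` (`λ : W⁰ → μ_{p^n}` a character):
`t_λ (x) :=` a `P`-unit `y` with `σ y / y = λ (σ x - x)` for `σ` in inertia (Hilbert 90; `y` can be
chosen a unit because `ρ` is trivial on `Ipeu`), `t_λ (x + w) = λ (w) t_λ (x)`; see the plan.] -/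
def Stmt_PEUFLAT : Prop :=
  ∀ (p : ℕ), p.Prime → p ≠ 2 →
  ∀ (A : Type) [CommRing A] [IsLocalRing A] [IsNoetherianRing A],
    Finite (ResidueField A) → (p : A) ∈ maximalIdeal A →
    ∀ ρ : GaloisRepAdic A, ρ.DetIsCyclotomic p → ρ.IsOrdinaryAt p → IsPeuAt ρ p →
      ρ.IsFlatAt p

/-- **DEF-ord**: the universal deformation ring of `condOrd` exists (as `Stmt_DEF`). -/
def Stmt_DEFord : Prop :=
  ∀ (𝒪 : Type) [CommRing 𝒪] [IsDomain 𝒪] [IsDiscreteValuationRing 𝒪]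
    [IsAdicComplete (maximalIdeal 𝒪) 𝒪] [Finite (ResidueField 𝒪)]
    (p : ℕ) [Fact p.Prime], p ≠ 2 → (p : 𝒪) ∈ maximalIdeal 𝒪 →
    ∀ (ρbar : ResidualGaloisRep (ResidueField 𝒪)),
    ρbar.IsAbsolutelyIrreducible →
    ∀ (Smin T : Finset ℕ), p ∈ Smin → (∀ q ∈ Smin ∪ T, q.Prime) →
    condOrd 𝒪 p Smin T (GaloisRepAdic.ofResidualGaloisRep ρbar) →
    Nonempty (GaloisRep.DeformationRingData 𝒪 ρbar (condOrd 𝒪 p Smin T))

/-- **TAU-ord**: the surjection from the ordinary to the flat deformation ring, as soon as the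
universal flat deformation is ordinary (which follows from `R = T` at the flat level and
`Stmt_CONDord` at the level prime to `p`). -/
def Stmt_TAUord : Prop :=
  ∀ (𝒪 : Type) [CommRing 𝒪] [IsDomain 𝒪] [IsDiscreteValuationRing 𝒪]
    [IsAdicComplete (maximalIdeal 𝒪) 𝒪] [Finite (ResidueField 𝒪)]
    (p : ℕ) [Fact p.Prime], p ≠ 2 → (p : 𝒪) ∈ maximalIdeal 𝒪 →
    ∀ (ρbar : ResidualGaloisRep (ResidueField 𝒪)) (Smin Sig : Finset ℕ),
    p ∈ Smin → (∀ q ∈ Smin ∪ Sig, q.Prime) →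
    ∀ (D : GaloisRep.DeformationRingData 𝒪 ρbar (cond 𝒪 p true Smin Sig))
      (D' : GaloisRep.DeformationRingData 𝒪 ρbar (condOrd 𝒪 p Smin Sig)),
    D.ρ.IsOrdinaryAt p →
    ∃ τ : D'.R →ₐ[𝒪] D.R, Function.Surjective τ ∧
      ∃ h : IsLocalHom (τ : D'.R →+* D.R),
        (D'.ρ.baseChangeAlong (τ : D'.R →+* D.R) h).IsEquiv D.ρ

/-- **SELMER-p**: passing from the flat to the ordinary condition lets the cotangent space at a
point `x` of the flat deformation ring grow at most by `#(𝒪 / c)`, `c² = tr ρ_x(g)² - 4`, for any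
`g` in the decomposition group at `p` which fixes `μ_{p^∞}` (`c = ±(a - a⁻¹)`, `a` the eigenvalue
of `g` on the unramified quotient).
[`ker τ ⊆` the ideal of the entries of `D'.ρ(σ) - 1`, `σ ∈ Ipeu` (`Stmt_PEUFLAT` + universal
properties) `=` the ideal of the entries of `D'.ρ(τ₀) - 1` (`Stmt_KUMp` (2)); in an ordinary basis
`D'.ρ(τ₀) = [[1, w], [0, 1]]`, and `(χ₁(g) - χ₂(g)) w = 0` by `Stmt_KUMp` (1); `χ₁ χ₂ (g) = 1`.] -/
def Stmt_SELMERp : Prop :=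
  ∀ (𝒪 : Type) [CommRing 𝒪] [IsDomain 𝒪] [IsDiscreteValuationRing 𝒪]
    [IsAdicComplete (maximalIdeal 𝒪) 𝒪] [Finite (ResidueField 𝒪)]
    (p : ℕ) [Fact p.Prime], p ≠ 2 → (p : 𝒪) ∈ maximalIdeal 𝒪 →
    ∀ (ρbar : ResidualGaloisRep (ResidueField 𝒪)) (Smin Sig : Finset ℕ),
    p ∈ Smin → (∀ q' ∈ Smin ∪ Sig, q'.Prime) →
    ∀ (D : GaloisRep.DeformationRingData 𝒪 ρbar (cond 𝒪 p true Smin Sig))
      (D' : GaloisRep.DeformationRingData 𝒪 ρbar (condOrd 𝒪 p Smin Sig))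
      (τ : D'.R →ₐ[𝒪] D.R) (hτ : IsLocalHom (τ : D'.R →+* D.R)),
    (D'.ρ.baseChangeAlong (τ : D'.R →+* D.R) hτ).IsEquiv D.ρ →
    ∀ (x : D.R →ₐ[𝒪] 𝒪) (P : ValuationSubring (AlgebraicClosure ℚ)), P.LiesOverPrime p →
    ∀ g ∈ P.decompositionSubgroup ℚ, FixesPRoots p g →
    ∀ c : 𝒪, c ^ 2 = x (D.ρ.trace g) ^ 2 - 4 → c ≠ 0 →
    Finite (RingHom.ker (x : D.R →+* 𝒪)).Cotangent →
    Finite (RingHom.ker ((x.comp τ : D'.R →ₐ[𝒪] 𝒪) : D'.R →+* 𝒪)).Cotangent ∧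
      Nat.card (RingHom.ker ((x.comp τ : D'.R →ₐ[𝒪] 𝒪) : D'.R →+* 𝒪)).Cotangent ≤
        Nat.card (RingHom.ker (x : D.R →+* 𝒪)).Cotangent * Nat.card (𝒪 ⧸ Ideal.span {c})

/-- **COND-ord**: the Hecke–Galois datum of a level `N'` with `p² ∤ N'` is of ordinary type,
if `ρbar` is.
[unramified outside `S'`: `S31`; unipotent at `Smin ∖ {p}`: `S34`; ordinary at `p`: the frozen
`S33` if `p ∣ N'`, and `S32` + `S33.H86.stmt_FlatOrd` at the points + gluing (`S33.of_ordPoint`) if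
`p ∤ N'`.] -/
def Stmt_CONDord : Prop :=
  ∀ (𝒪 : Type) [CommRing 𝒪] [IsDomain 𝒪] [IsDiscreteValuationRing 𝒪]
    [IsAdicComplete (maximalIdeal 𝒪) 𝒪] [Finite (ResidueField 𝒪)] [CharZero 𝒪]
    (p : ℕ) [Fact p.Prime], p ≠ 2 → (p : 𝒪) ∈ maximalIdeal 𝒪 →
    ∀ (ρbar : ResidualGaloisRep (ResidueField 𝒪)) (Smin : Finset ℕ),
    ResHyp p ρbar Smin →
    condOrd 𝒪 p Smin ∅ (GaloisRepAdic.ofResidualGaloisRep ρbar) →
    ∀ (Q : Finset ℕ) (N' : ℕ) [NeZero N'] [Fact (CuspForm.HasIntegralStructure N' 2)]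
      (S' : Finset ℕ),
    S' = Smin ∪ Q →
    (∀ q : ℕ, q.Prime → q ∣ N' → q ∈ S') →
    (∀ q ∈ Smin, q ≠ p → q ∣ N' ∧ ¬ q ^ 2 ∣ N') →
    ¬ p ^ 2 ∣ N' →
    ∀ (θ : CuspForm.heckeAlgebra N' 2 (↑S' : Set ℕ) →+* ResidueField 𝒪),
    Fermat.Agent.S59.Datum.FrobHyp ρbar N' S' θ →
    ∀ (H : CuspForm.HeckeGaloisRepDatum N' (↑S' : Set ℕ) 𝒪 θ
        (CuspForm.heckeLocal N' (↑S' : Set ℕ) 𝒪 θ)),
    H.π = CuspForm.heckeLocal.π N' (↑S' : Set ℕ) 𝒪 θ →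
    H.ρ.DetIsCyclotomic p →
    H.ρ.residual.IsEquiv (ρbar.baseChangeAlong
      (ResidueField.map (algebraMap 𝒪 (CuspForm.heckeLocal N' (↑S' : Set ℕ) 𝒪 θ)))) →
    condOrd 𝒪 p Smin Q H.ρ

/-! ## 3. The Hecke side -/

/-- The geometric data of the step at `p`: from the state `s` (level prime to `p`) to a state at
the level `N p`, the Hecke algebra being taken away from the same set `S ∋ p`. -/
structure PStep {𝒪 : Type} [CommRing 𝒪] [IsLocalRing 𝒪] (p : ℕ) (s : NMState 𝒪)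
    [NeZero (s.N * p)] : Type 1 where
  /-- restriction of Hecke operators -/
  rest : CuspForm.heckeAlgebra (s.N * p) 2 (↑s.S : Set ℕ) →+*
    CuspForm.heckeAlgebra s.N 2 (↑s.S : Set ℕ)
  rest_T : ∀ (ℓ : ℕ) (hℓ : ℓ.Prime) (hℓN' : ¬ ℓ ∣ s.N * p) (hℓS : ℓ ∉ (↑s.S : Set ℕ))
    (hℓN : ¬ ℓ ∣ s.N),
    rest (CuspForm.heckeAlgebra.T hℓ hℓN' hℓS) = CuspForm.heckeAlgebra.T hℓ hℓN hℓS
  /-- the Hecke module at the level `N p` (the `U_p`-ordinary part) -/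
  M' : HMod 𝒪 (s.N * p) (↑s.S : Set ℕ) (s.θ.comp rest)
  /-- the unit root of `X² - T_p X + p` on the module of level `N` -/
  A : Module.End 𝒪 s.M.V
  A_comm : ∀ (t : CuspForm.heckeAlgebra s.N 2 (↑s.S : Set ℕ)), A * s.M.η t = s.M.η t * A
  /-- the level raising map `x ↦ i₁^* A x - i₂^* x` -/
  α : s.M.V →ₗ[𝒪] M'.V
  /-- its adjoint -/
  α' : M'.V →ₗ[𝒪] s.M.V
  α_η : ∀ (t : CuspForm.heckeAlgebra (s.N * p) 2 (↑s.S : Set ℕ)) (v : s.M.V),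
    α (s.M.η (rest t) v) = M'.η t (α v)
  α'_η : ∀ (t : CuspForm.heckeAlgebra (s.N * p) 2 (↑s.S : Set ℕ)) (w : M'.V),
    α' (M'.η t w) = s.M.η (rest t) (α' w)
  /-- Ihara's lemma at `p`: `α` is injective with saturated image -/
  α_inj : Function.Injective α
  α_sat : ∀ (a : 𝒪) (w : M'.V), a ≠ 0 → a • w ∈ LinearMap.range α → w ∈ LinearMap.range α
  /-- dual Ihara -/
  α'_surj : Function.Surjective α'
  /-- a unit -/
  u : 𝒪ˣ
  /-- `α' ∘ α = u · (A² - 1)` -/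
  comp : ∀ v : s.M.V, α' (α v) = (u : 𝒪) • (A (A v) - v)
  /-- multiplicity one: the eigenspaces do not grow -/
  rank : ∀ (x : CuspForm.heckeAlgebra s.N 2 (↑s.S : Set ℕ) →+* 𝒪),
    (∀ t, residue 𝒪 (x t) = s.θ t) →
    Module.finrank 𝒪 (NMState.eigen ⟨s.N * p, s.S, s.θ.comp rest, M'⟩ (x.comp rest)) ≤
      Module.finrank 𝒪 (s.eigen x)
  /-- local-global compatibility at `p` (Eichler–Shimura at `p` on the étale quotient): on the
  eigenspace of `x` the operator `A` is a scalar `a`, `a² ≠ 1`, and `tr ρ_x(g) = a + a⁻¹` for every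
  Frobenius element `g` at `p` fixing `μ_{p^∞}` -/
  lgc : ∀ (x : CuspForm.heckeAlgebra s.N 2 (↑s.S : Set ℕ) →+* 𝒪),
    (∀ t, residue 𝒪 (x t) = s.θ t) →
    ∃ a : 𝒪ˣ, (a : 𝒪) ^ 2 ≠ 1 ∧ (∀ v ∈ s.eigen x, A v = (a : 𝒪) • v) ∧
      ∀ ρ : GaloisRepAdic 𝒪, Fermat.Agent.R.HasFrobCharpoly x ρ →
        ρ.residual.IsAbsolutelyIrreducible → ρ.DetIsCyclotomic p →
        ∀ (P : ValuationSubring (AlgebraicClosure ℚ)), P.LiesOverPrime p →
        ∀ g : AlgebraicClosure ℚ ≃ₐ[ℚ] AlgebraicClosure ℚ, P.IsFrobeniusAt g p →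
          FixesPRoots p g → ρ.trace g = (a : 𝒪) + ((a⁻¹ : 𝒪ˣ) : 𝒪)

/-- The state after the step at `p`. -/
noncomputable def PStep.next {𝒪 : Type} [CommRing 𝒪] [IsLocalRing 𝒪] {p : ℕ} {s : NMState 𝒪}
    [NeZero (s.N * p)] (st : PStep p s) : NMState 𝒪 :=
  ⟨s.N * p, s.S, s.θ.comp st.rest, st.M'⟩

section RTC

variable (𝒪 : Type) [CommRing 𝒪] [IsDomain 𝒪] [IsDiscreteValuationRing 𝒪]
  [IsAdicComplete (maximalIdeal 𝒪) 𝒪]

/-- `RTProp` for the ordinary condition. -/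
def RTPropC (p : ℕ) (ρbar : ResidualGaloisRep (ResidueField 𝒪)) (Smin Sig : Finset ℕ)
    (s : NMState 𝒪) [Fact (CuspForm.HasIntegralStructure s.N 2)]
    (x : CuspForm.heckeAlgebra s.N 2 (↑s.S : Set ℕ) →+* 𝒪) (d : ℕ) : Prop :=
  Module.finrank 𝒪 (s.eigen x) = d ∧
  ∃ (D : GaloisRep.DeformationRingData 𝒪 ρbar (condOrd 𝒪 p Smin Sig))
    (H : CuspForm.HeckeGaloisRepDatum s.N (↑s.S : Set ℕ) 𝒪 s.θ
      (CuspForm.heckeLocal s.N (↑s.S : Set ℕ) 𝒪 s.θ))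
    (φ : D.R →ₐ[𝒪] CuspForm.heckeLocal s.N (↑s.S : Set ℕ) 𝒪 s.θ)
    (hφ : IsLocalHom (φ : D.R →+* CuspForm.heckeLocal s.N (↑s.S : Set ℕ) 𝒪 s.θ))
    (ηhat : CuspForm.heckeLocal s.N (↑s.S : Set ℕ) 𝒪 s.θ →ₐ[𝒪] Module.End 𝒪 s.M.V)
    (πx : CuspForm.heckeLocal s.N (↑s.S : Set ℕ) 𝒪 s.θ →ₐ[𝒪] 𝒪),
    H.π = CuspForm.heckeLocal.π s.N (↑s.S : Set ℕ) 𝒪 s.θ ∧
    Function.Bijective φ ∧
    (D.ρ.baseChangeAlong (φ : D.R →+* CuspForm.heckeLocal s.N (↑s.S : Set ℕ) 𝒪 s.θ) hφ).IsEquiv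
      H.ρ ∧
    (∀ t, ηhat (CuspForm.heckeLocal.π s.N (↑s.S : Set ℕ) 𝒪 s.θ t) = s.M.η t) ∧
    (∀ t, πx (CuspForm.heckeLocal.π s.N (↑s.S : Set ℕ) 𝒪 s.θ t) = x t) ∧
    Finite (RingHom.ker ((πx.comp φ : D.R →ₐ[𝒪] 𝒪) : D.R →+* 𝒪)).Cotangent ∧
    Nat.card (RingHom.ker ((πx.comp φ : D.R →ₐ[𝒪] 𝒪) : D.R →+* 𝒪)).Cotangent ^ d =
      omegaCard ηhat πx

end RTC

/-! ## 4. The step at `p`, the geometry, the targets -/

/-- **PSTEP** (pure algebra + deformation theory, as `Stmt_STEP`): `RTProp` for the flat condition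
at a state of level prime to `p` gives `RTPropC` at the state after the step at `p`.
[As STEP (plan §3) with `Stmt_SELMERp` (constant `c = a - a⁻¹`, `lgc`), `Stmt_TAUord`,
`Stmt_DEFord`, `Stmt_CONDord`, `NumCrit.H90.card_omega_growth` with the constant `u (a² - 1)`.] -/
def Stmt_PSTEP : Prop :=
  ∀ (𝒪 : Type) [CommRing 𝒪] [IsDomain 𝒪] [IsDiscreteValuationRing 𝒪]
    [IsAdicComplete (maximalIdeal 𝒪) 𝒪] [Finite (ResidueField 𝒪)] [CharZero 𝒪]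
    (p : ℕ) [Fact p.Prime], p ≠ 2 → (p : 𝒪) ∈ maximalIdeal 𝒪 →
    ∀ (ρbar : ResidualGaloisRep (ResidueField 𝒪)) (Smin : Finset ℕ),
    ResHyp p ρbar Smin →
    cond 𝒪 p true Smin ∅ (GaloisRepAdic.ofResidualGaloisRep ρbar) →
    (GaloisRepAdic.ofResidualGaloisRep ρbar).IsOrdinaryAt p →
    ∀ (Sig : Finset ℕ) (s : NMState 𝒪) [Fact (CuspForm.HasIntegralStructure s.N 2)],
    LevelHyp 𝒪 p true Smin Sig s →
    Fermat.Agent.S59.Datum.FrobHyp ρbar s.N s.S s.θ →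
    ∀ (x : CuspForm.heckeAlgebra s.N 2 (↑s.S : Set ℕ) →+* 𝒪),
    (∀ t, residue 𝒪 (x t) = s.θ t) →
    ∀ (d : ℕ), 0 < d → RTProp 𝒪 p true ρbar Smin Sig s x d →
    ∀ [NeZero (s.N * p)] (st : PStep p s)
      [Fact (CuspForm.HasIntegralStructure (s.N * p) 2)],
      RTPropC 𝒪 p ρbar Smin Sig
        (⟨s.N * p, s.S, s.θ.comp st.rest, st.M'⟩ : NMState 𝒪) (x.comp st.rest) d

/-- **NMGEOM-C**: `Stmt_NMGEOM` (for the flat minimal problem) with a class `G` of states which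
moreover admits the step at `p`. -/
def Stmt_NMGEOMC : Prop :=
  ∀ (𝒪 : Type) [CommRing 𝒪] [IsDomain 𝒪] [IsDiscreteValuationRing 𝒪]
    [IsAdicComplete (maximalIdeal 𝒪) 𝒪] [Finite (ResidueField 𝒪)] [CharZero 𝒪]
    (p : ℕ) [Fact p.Prime], p ≠ 2 → (p : 𝒪) ∈ maximalIdeal 𝒪 →
    ∀ (ρbar : ResidualGaloisRep (ResidueField 𝒪)) (Smin : Finset ℕ), ResHyp p ρbar Smin →
    (GaloisRepAdic.ofResidualGaloisRep ρbar).IsOrdinaryAt p →
    ∀ (N : ℕ) [NeZero N] [Fact (CuspForm.HasIntegralStructure N 2)],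
    (∀ q : ℕ, q.Prime → q ∣ N → q ∈ Smin) → Squarefree N → ¬ p ∣ N →
    ∀ (θ : CuspForm.heckeAlgebra N 2 (↑Smin : Set ℕ) →+* ResidueField 𝒪),
    Fermat.Agent.S59.Datum.FrobHyp ρbar N Smin θ →
    ∃ (M : HMod 𝒪 N (↑Smin : Set ℕ) θ) (G : NMState 𝒪 → Prop), Nontrivial M.V ∧
      (∀ (r n : ℕ) (qv : Fin r → ℕ), Fermat.Agent.S56.IsTWFamily ρbar p n Smin qv →
        ∀ [NeZero (twLevel N qv)] [Fact (CuspForm.HasIntegralStructure (twLevel N qv) 2)],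
          Nonempty (TWGeom 𝒪 p ρbar N Smin θ M n qv)) ∧
      G ⟨N, Smin, θ, M⟩ ∧
      (∀ s : NMState 𝒪, G s → ∀ (q : ℕ) (hq : q.Prime), q ≠ p → ∀ (hqN : ¬ q ∣ s.N)
        (hqS : q ∉ (↑s.S : Set ℕ)) [NeZero (s.N * q ^ 2)],
        ∃ st : NMStep s hq hqN hqS, G st.next) ∧
      ∀ s : NMState 𝒪, G s → ¬ p ∣ s.N → ∀ [NeZero (s.N * p)], Nonempty (PStep p s)

/-- **Modularity lifting, case C**: `ρbar` flat and ordinary, `ρ` ordinary. -/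
def Stmt_MLTnmC : Prop :=
  ∀ (𝒪 : Type) [CommRing 𝒪] [IsDomain 𝒪] [IsDiscreteValuationRing 𝒪]
    [IsAdicComplete (maximalIdeal 𝒪) 𝒪] [Finite (ResidueField 𝒪)] [CharZero 𝒪]
    (p : ℕ) [Fact p.Prime], p ≠ 2 → (p : 𝒪) ∈ maximalIdeal 𝒪 →
    ∀ (ρbar : ResidualGaloisRep (ResidueField 𝒪)) (Smin : Finset ℕ),
    ResHyp p ρbar Smin →
    cond 𝒪 p true Smin ∅ (GaloisRepAdic.ofResidualGaloisRep ρbar) →
    ∀ (N : ℕ) [NeZero N], N = minLevel p true Smin →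
    ∀ (θ : CuspForm.heckeAlgebra N 2 (↑Smin : Set ℕ) →+* ResidueField 𝒪),
    Fermat.Agent.S59.Datum.FrobHyp ρbar N Smin θ →
    ∀ (x₀ : CuspForm.heckeAlgebra N 2 (↑Smin : Set ℕ) →+* 𝒪),
    (∀ t, residue 𝒪 (x₀ t) = θ t) →
    ∀ (Sig : Finset ℕ), (∀ q ∈ Sig, q.Prime ∧ q ∉ Smin) →
    ∀ (ρ : GaloisRepAdic 𝒪), condOrd 𝒪 p Smin Sig ρ →
    ρ.residual.IsEquiv (ρbar.baseChangeAlong (ResidueField.map (algebraMap 𝒪 𝒪))) →
    ∀ (a : ℕ → ℤ),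
    (∀ ℓ : ℕ, ℓ.Prime → ℓ ∉ Smin ∪ Sig →
      ∀ A : ValuationSubring (AlgebraicClosure ℚ), A.LiesOverPrime ℓ →
        ∀ σ : AlgebraicClosure ℚ ≃ₐ[ℚ] AlgebraicClosure ℚ, A.IsFrobeniusAt σ ℓ →
          LinearMap.charpoly (ρ.ρ σ) = X ^ 2 - C (((a ℓ : ℤ) : 𝒪)) * X + C ((ℓ : 𝒪))) →
    ∃ N' : ℕ, ¬ p ^ 2 ∣ N' ∧ (∀ q : ℕ, q.Prime → ¬ q ^ 3 ∣ N') ∧
      ∃ g : CuspForm (Gamma0 N') 2, g.IsNormalizedEigenform ∧
        ∀ ℓ : ℕ, ℓ.Prime → ¬ ℓ ∣ N' → ℓ ∉ Smin ∪ Sig → qCoeff ⇑g ℓ = (a ℓ : ℂ)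

/-- **Modularity lifting over the minimal level, all cases** (= `Asm.Stmt_MLTgen` with a base
point `x₀`): the target of RT-NONMIN. -/
def Stmt_MLTall : Prop :=
  ∀ (𝒪 : Type) [CommRing 𝒪] [IsDomain 𝒪] [IsDiscreteValuationRing 𝒪]
    [IsAdicComplete (maximalIdeal 𝒪) 𝒪] [Finite (ResidueField 𝒪)] [CharZero 𝒪]
    (p : ℕ) [Fact p.Prime], p ≠ 2 → (p : 𝒪) ∈ maximalIdeal 𝒪 →
    ∀ (fl : Bool) (ρbar : ResidualGaloisRep (ResidueField 𝒪)) (Smin : Finset ℕ),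
    ResHyp p ρbar Smin →
    cond 𝒪 p fl Smin ∅ (GaloisRepAdic.ofResidualGaloisRep ρbar) →
    (fl = false → ¬ (GaloisRepAdic.ofResidualGaloisRep ρbar).IsFlatAt p) →
    ∀ (N : ℕ) [NeZero N], N = minLevel p fl Smin →
    ∀ (θ : CuspForm.heckeAlgebra N 2 (↑Smin : Set ℕ) →+* ResidueField 𝒪),
    Fermat.Agent.S59.Datum.FrobHyp ρbar N Smin θ →
    ∀ (x₀ : CuspForm.heckeAlgebra N 2 (↑Smin : Set ℕ) →+* 𝒪),
    (∀ t, residue 𝒪 (x₀ t) = θ t) →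
    ∀ (Sig : Finset ℕ), (∀ q ∈ Sig, q.Prime ∧ q ∉ Smin) →
    ∀ (ρ : GaloisRepAdic 𝒪), ρ.DetIsCyclotomic p →
    (∀ q : ℕ, q.Prime → q ∉ Smin → q ∉ Sig → ρ.IsUnramifiedAt q) →
    (∀ q ∈ Smin, q ≠ p → ρ.IsUnipotentOnInertiaAt q) →
    (∀ q ∈ Sig, ρ.IsUnipotentOnInertiaAt q) →
    (ρ.IsFlatAt p ∨ ρ.IsStrictOrdinaryAt p) →
    ρ.residual.IsEquiv (ρbar.baseChangeAlong (ResidueField.map (algebraMap 𝒪 𝒪))) →
    ∀ (a : ℕ → ℤ),
    (∀ ℓ : ℕ, ℓ.Prime → ℓ ∉ Smin → ℓ ∉ Sig →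
      ∀ A : ValuationSubring (AlgebraicClosure ℚ), A.LiesOverPrime ℓ →
        ∀ σ : AlgebraicClosure ℚ ≃ₐ[ℚ] AlgebraicClosure ℚ, A.IsFrobeniusAt σ ℓ →
          LinearMap.charpoly (ρ.ρ σ) = X ^ 2 - C (((a ℓ : ℤ) : 𝒪)) * X + C ((ℓ : 𝒪))) →
    ∃ N' : ℕ, ¬ p ^ 2 ∣ N' ∧ (∀ q : ℕ, q.Prime → ¬ q ^ 3 ∣ N') ∧
      ∃ g : CuspForm (Gamma0 N') 2, g.IsNormalizedEigenform ∧
        ∀ ℓ : ℕ, ℓ.Prime → ℓ ∉ Smin → ℓ ∉ Sig → ¬ ℓ ∣ N' → qCoeff ⇑g ℓ = (a ℓ : ℂ)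

/-- **RESFLAT**: the reduction of a flat representation is flat (used in the case `fl = false`:
`ρ` flat would make `ρbar` flat). -/
def Stmt_RESFLAT : Prop :=
  ∀ (𝒪 : Type) [CommRing 𝒪] [IsDomain 𝒪] [IsDiscreteValuationRing 𝒪]
    [IsAdicComplete (maximalIdeal 𝒪) 𝒪] [Finite (ResidueField 𝒪)]
    (p : ℕ) [Fact p.Prime] (ρbar : ResidualGaloisRep (ResidueField 𝒪)) (ρ : GaloisRepAdic 𝒪),
    ρ.residual.IsEquiv (ρbar.baseChangeAlong (ResidueField.map (algebraMap 𝒪 𝒪))) →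
    ρ.IsFlatAt p → (GaloisRepAdic.ofResidualGaloisRep ρbar).IsFlatAt p

/-- The wirings to be proved. -/
def Stmt_WIREC : Prop :=
  Stmt_NMGEOMC → Stmt_STEP → Stmt_BASE → Stmt_PSTEP → Asm.Stmt_COND →
    Fermat.Agent.S59.Datum.Stmt_DATUM → Stmt_TWprimes → Asm.Stmt_ASM → Stmt_MLTnmC

def Stmt_WIREall : Prop :=
  Stmt_MLTnm → Stmt_MLTnmC → Stmt_RESFLAT → Stmt_MLTall

end Fermat.Agent.S59.NonMin
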