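/-
S59, RT-NONMIN case C, leaf COND-ord (helper7): the Hecke–Galois datum of a level `N'` with
`p² ∤ N'` is of ordinary type (`NonMin.condOrd`) if `ρbar` is.

* `resOrd_of_isEquiv`, `resOrd_baseChangeAlong` : ordinarity of a residual representation is
  invariant under equivalence and under extension of the coefficient field.
* `ordinary_of_points` : gluing (the proof of `S33.wiring` with the input at the points as a
  hypothesis): a datum is ordinary at `p` as soon as it is residually ordinary and all its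
  points are ordinary.
* `ordinary_of_flat` : the case `p ∤ N`: the points are flat (`R.Stmt_FlatPoint`), hence ordinary
  (`R.Stmt_FlatOrd`).
* `Stmt_OrdDatum` : the type of the frozen S33 for the full local Hecke ring.
* `stmt_CONDord_core` : `Stmt_CONDord` from these and the types of the frozen S31, S34.
-/
import Fermat.Agent.S59.NonMin.Defs2
import Fermat.Agent.S59.Asm.H7_Cond
import Fermat.Agent.S33.Final

set_option autoImplicit false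
set_option linter.style.haveILetI false

open Polynomial IsLocalRing CuspForm
open scoped TensorProduct

namespace Fermat.Agent.S59.NonMin.H7

open Fermat.Agent.R Fermat.Agent.R.H86 Fermat.Agent.S59 Fermat.Agent.S59.Datum

/-! ## Ordinarity of residual representations -/

section Res

variable {k : Type} [Field k]

/-- The ordinary line is transported by an equivariant linear equivalence. -/
theorem ordLine_equiv {V₁ V₂ : Type} [AddCommGroup V₁] [Module k V₁]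
    [AddCommGroup V₂] [Module k V₂]
    (r₁ : (AlgebraicClosure ℚ ≃ₐ[ℚ] AlgebraicClosure ℚ) → Module.End k V₁)
    (r₂ : (AlgebraicClosure ℚ ≃ₐ[ℚ] AlgebraicClosure ℚ) → Module.End k V₂)
    (e : V₁ ≃ₗ[k] V₂) (he : ∀ σ x, e (r₁ σ x) = r₂ σ (e x))
    (P : ValuationSubring (AlgebraicClosure ℚ))
    (h : ∃ L : Submodule k V₁, (∃ b : Module.Basis (Fin 2) k V₁, L = k ∙ b 0) ∧
      (∀ σ ∈ P.decompositionSubgroup ℚ, ∀ v ∈ L, r₁ σ v ∈ L) ∧
      (∀ σ ∈ P.inertiaSubgroupIn ℚ, ∀ v : V₁, r₁ σ v - v ∈ L)) :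
    ∃ L : Submodule k V₂, (∃ b : Module.Basis (Fin 2) k V₂, L = k ∙ b 0) ∧
      (∀ σ ∈ P.decompositionSubgroup ℚ, ∀ v ∈ L, r₂ σ v ∈ L) ∧
      (∀ σ ∈ P.inertiaSubgroupIn ℚ, ∀ v : V₂, r₂ σ v - v ∈ L) := by
  obtain ⟨L, ⟨b, hb⟩, hD, hI⟩ := h
  refine ⟨L.map (e : V₁ →ₗ[k] V₂), ⟨b.map e, ?_⟩, ?_, ?_⟩
  · rw [hb, Submodule.map_span, Set.image_singleton]
    rfl
  · intro σ hσ v hv
    obtain ⟨w, hw, rfl⟩ := hv
    exact ⟨r₁ σ w, hD σ hσ w hw, he σ w⟩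
  · intro σ hσ v
    obtain ⟨w, rfl⟩ := e.surjective v
    refine ⟨r₁ σ w - w, hI σ hσ w, ?_⟩
    change e (r₁ σ w - w) = _
    rw [map_sub, he]

/-- Ordinarity is invariant under equivalence of residual representations. -/
theorem resOrd_of_isEquiv {ρ₁ ρ₂ : ResidualGaloisRep k} (he : ρ₁.IsEquiv ρ₂) (p : ℕ)
    (h : (GaloisRepAdic.ofResidualGaloisRep ρ₁).IsOrdinaryAt p) :
    (GaloisRepAdic.ofResidualGaloisRep ρ₂).IsOrdinaryAt p := by
  obtain ⟨e⟩ := he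
  intro P hP
  exact ordLine_equiv (fun σ => ρ₁.ρ σ) (fun σ => ρ₂.ρ σ) e.toLinearEquiv e.map_apply P (h P hP)

/-- The ordinary line extends to `k' ⊗ V`. -/
theorem ordLine_baseChange {k' : Type} [Field k'] [Algebra k k']
    {V : Type} [AddCommGroup V] [Module k V]
    (r : (AlgebraicClosure ℚ ≃ₐ[ℚ] AlgebraicClosure ℚ) → Module.End k V)
    (P : ValuationSubring (AlgebraicClosure ℚ))
    (h : ∃ L : Submodule k V, (∃ b : Module.Basis (Fin 2) k V, L = k ∙ b 0) ∧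
      (∀ σ ∈ P.decompositionSubgroup ℚ, ∀ v ∈ L, r σ v ∈ L) ∧
      (∀ σ ∈ P.inertiaSubgroupIn ℚ, ∀ v : V, r σ v - v ∈ L)) :
    ∃ L : Submodule k' (k' ⊗[k] V),
      (∃ b : Module.Basis (Fin 2) k' (k' ⊗[k] V), L = k' ∙ b 0) ∧
      (∀ σ ∈ P.decompositionSubgroup ℚ, ∀ v ∈ L, (r σ).baseChange k' v ∈ L) ∧
      (∀ σ ∈ P.inertiaSubgroupIn ℚ, ∀ v : k' ⊗[k] V, (r σ).baseChange k' v - v ∈ L) := by
  classical
  obtain ⟨L, ⟨b, hb⟩, hD, hI⟩ := h
  let b' : Module.Basis (Fin 2) k' (k' ⊗[k] V) := Algebra.TensorProduct.basis k' b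
  have hb' : ∀ i, b' i = (1 : k') ⊗ₜ[k] b i := fun i => Algebra.TensorProduct.basis_apply _ _
  have hrepr : ∀ (c : k') (v : V) (i : Fin 2),
      b'.repr (c ⊗ₜ[k] v) i = c * algebraMap k k' (b.repr v i) := by
    intro c v i
    rw [Algebra.TensorProduct.basis_repr_tmul, Finsupp.smul_apply, Finsupp.mapRange_apply,
      smul_eq_mul]
  have hL : ∀ v : V, v ∈ L ↔ b.repr v 1 = 0 := fun v => by
    rw [hb]
    exact mem_span_basis_zero_iff b v
  refine ⟨Submodule.span k' {b' 0}, ⟨b', rfl⟩, ?_, ?_⟩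
  · intro σ hσ v hv
    obtain ⟨c, rfl⟩ := Submodule.mem_span_singleton.1 hv
    rw [map_smul]
    refine Submodule.smul_mem _ _ ?_
    rw [mem_span_basis_zero_iff, hb', LinearMap.baseChange_tmul, hrepr]
    have h0 : b.repr (r σ (b 0)) 1 = 0 :=
      (hL _).1 (hD σ hσ (b 0) (by rw [hb]; exact Submodule.mem_span_singleton_self _))
    rw [h0, map_zero, mul_zero]
  · intro σ hσ v
    rw [mem_span_basis_zero_iff]
    induction v using TensorProduct.induction_on with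
    | zero => simp
    | tmul c v =>
      rw [LinearMap.baseChange_tmul, ← TensorProduct.tmul_sub, hrepr]
      have h0 : b.repr (r σ v - v) 1 = 0 := (hL _).1 (hI σ hσ v)
      rw [h0, map_zero, mul_zero]
    | add x y hx hy =>
      rw [map_add, add_sub_add_comm, map_add, Finsupp.add_apply, hx, hy, add_zero]

/-- Ordinarity is preserved by extension of the coefficient field. -/
theorem resOrd_baseChangeAlong {k' : Type} [Field k'] (φ : k →+* k')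
    (ρ : ResidualGaloisRep k) (p : ℕ)
    (h : (GaloisRepAdic.ofResidualGaloisRep ρ).IsOrdinaryAt p) :
    (GaloisRepAdic.ofResidualGaloisRep (ρ.baseChangeAlong φ)).IsOrdinaryAt p := by
  letI : Algebra k k' := φ.toAlgebra
  intro P hP
  exact ordLine_baseChange (fun σ => ρ.ρ σ) P (h P hP)

end Res

/-! ## Gluing -/

section Glue

variable {p : ℕ} {N : ℕ} [NeZero N] {S : Finset ℕ}
  {𝒪 : Type} [CommRing 𝒪] [IsDomain 𝒪] [IsDiscreteValuationRing 𝒪]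
  [IsAdicComplete (IsLocalRing.maximalIdeal 𝒪) 𝒪]
  {θ : CuspForm.heckeAlgebra N 2 (↑S : Set ℕ) →+* IsLocalRing.ResidueField 𝒪}
  {T : Type} [CommRing T] [IsLocalRing T] [IsNoetherianRing T]
  [IsAdicComplete (IsLocalRing.maximalIdeal T) T] [Algebra 𝒪 T] [IsLocalHom (algebraMap 𝒪 T)]
  [Module.Finite 𝒪 T] [Module.Free 𝒪 T]

/-- **Gluing**: a residually ordinary datum all of whose points are ordinary at `p` is ordinary
at `p`.  (The proof of `S33.wiring`, the input at the points being a hypothesis.) -/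
theorem ordinary_of_points (hSepT : Stmt_SepT) (hFD : Stmt_FD)
    (hCyc : Stmt_CycInertia) (hFrob : Stmt_FrobCyc)
    [Finite (IsLocalRing.ResidueField 𝒪)] [CharZero 𝒪]
    (hp : p.Prime) (hp2 : p ≠ 2) (hp𝒪 : (p : 𝒪) ∈ IsLocalRing.maximalIdeal 𝒪) (hpS : p ∈ S)
    (hNS : ∀ q : ℕ, q.Prime → q ∣ N → q ∈ S)
    (H : CuspForm.HeckeGaloisRepDatum N (↑S : Set ℕ) 𝒪 θ T)
    (hres : (GaloisRepAdic.ofResidualGaloisRep H.ρ.residual).IsOrdinaryAt p)
    (hpt : ∀ (𝒪' : Type) [CommRing 𝒪'] [IsDomain 𝒪'] [IsDiscreteValuationRing 𝒪']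
      [IsAdicComplete (maximalIdeal 𝒪') 𝒪'] [Finite (ResidueField 𝒪')] [CharZero 𝒪']
      (ψ : T →+* 𝒪') (hψ : IsLocalHom ψ), (p : 𝒪') ∈ maximalIdeal 𝒪' →
      (H.ρ.baseChangeAlong ψ hψ).IsOrdinaryAt p) :
    H.ρ.IsOrdinaryAt p := by
  classical
  intro P hP
  have hpT : (p : T) ∈ maximalIdeal T := Fermat.Agent.R.natCast_mem_maximalIdeal_of_algebra hp𝒪
  obtain ⟨σ₀, hσ₀, v₀, hw₀⟩ := exists_inertia_notMem hFD hCyc hFrob hp hp2 hpS hNS hpT
    H.π H.ρ (hasFrobCharpoly_datum H) P hP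
  obtain ⟨b, hb⟩ := exists_resOrdAt (fun σ => H.ρ.ρ σ) P
    ((residual_isOrdinaryAt_iff _ _).1 hres P hP)
  -- coordinates of `w₀`
  have hβ₀ : b.repr (H.ρ.ρ σ₀ v₀ - v₀) 1 ∈ maximalIdeal T := hb.2 σ₀ hσ₀ v₀
  have hα₀ : IsUnit (b.repr (H.ρ.ρ σ₀ v₀ - v₀) 0) := by
    by_contra hnu
    apply hw₀
    rw [← b.sum_repr (H.ρ.ρ σ₀ v₀ - v₀), Fin.sum_univ_two]
    exact add_mem (Submodule.smul_mem_smul ((mem_maximalIdeal _).2 hnu) trivial)
      (Submodule.smul_mem_smul hβ₀ trivial)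
  obtain ⟨b₂, hb₂0, -⟩ := Fermat.Agent.S33.exists_basis_replace b _ hα₀
  -- main claim
  have hmain : ∀ σ ∈ P.inertiaSubgroupIn ℚ, ∀ v : H.ρ.V,
      b₂.repr (H.ρ.ρ σ v - v) 1 = 0 := by
    intro σ hσ v
    by_contra hne
    obtain ⟨𝒪', i1, i2, i3, i4, i5, i6, ψ, hψ, hψne⟩ := hSepT N S 𝒪 θ T hNS H _ hne
    have hp𝒪' : (p : 𝒪') ∈ maximalIdeal 𝒪' := by
      have h1 : (p : 𝒪') = ψ (p : T) := by rw [map_natCast]
      rw [h1]
      exact (mem_maximalIdeal _).2 (map_nonunit ψ _ ((mem_maximalIdeal _).1 hpT))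
    have hord' := hpt 𝒪' ψ hψ hp𝒪'
    obtain ⟨L', ⟨b'', hL'⟩, -, hI'⟩ := hord' P hP
    letI : Algebra T 𝒪' := ψ.toAlgebra
    exact hψne (Fermat.Agent.S33.coord_eq_zero_of_point (B := 𝒪') (fun s => H.ρ.ρ s) b₂ P hσ₀ v₀
      hb₂0 L' b'' hL' hI' hσ v)
  refine ⟨Submodule.span T {b₂ 0}, ⟨b₂, rfl⟩, ?_, ?_⟩
  · intro τ hτ v hv
    obtain ⟨c, rfl⟩ := Submodule.mem_span_singleton.1 hv
    rw [map_smul]
    refine Submodule.smul_mem _ _ ?_
    have hconj := Fermat.Agent.S33.conj_mem_inertiaSubgroupIn P hτ hσ₀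
    have e : H.ρ.ρ τ (b₂ 0)
        = H.ρ.ρ (τ * σ₀ * τ⁻¹) (H.ρ.ρ τ v₀) - H.ρ.ρ τ v₀ := by
      rw [hb₂0, map_sub, ← Module.End.mul_apply, ← Module.End.mul_apply, ← map_mul, ← map_mul,
        inv_mul_cancel_right]
    rw [e, mem_span_basis_zero_iff]
    exact hmain _ hconj _
  · intro σ hσ v
    rw [mem_span_basis_zero_iff]
    exact hmain σ hσ v

/-- **The case `p ∤ N`**: a residually ordinary datum of level prime to `p` is ordinary at `p`: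
its points are flat, hence ordinary. -/
theorem ordinary_of_flat (hFP : Stmt_FlatPoint) (hFO : Stmt_FlatOrd) (hSepT : Stmt_SepT)
    (hFD : Stmt_FD) (hCyc : Stmt_CycInertia) (hFrob : Stmt_FrobCyc)
    [Finite (IsLocalRing.ResidueField 𝒪)] [CharZero 𝒪]
    (hp : p.Prime) (hp2 : p ≠ 2) (hp𝒪 : (p : 𝒪) ∈ IsLocalRing.maximalIdeal 𝒪) (hpS : p ∈ S)
    (hpN : ¬ p ∣ N)
    (hNS : ∀ q : ℕ, q.Prime → q ∣ N → q ∈ S)
    (H : CuspForm.HeckeGaloisRepDatum N (↑S : Set ℕ) 𝒪 θ T)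
    (hres : (GaloisRepAdic.ofResidualGaloisRep H.ρ.residual).IsOrdinaryAt p) :
    H.ρ.IsOrdinaryAt p := by
  refine ordinary_of_points hSepT hFD hCyc hFrob hp hp2 hp𝒪 hpS hNS H hres ?_
  intro 𝒪' _ _ _ _ _ _ ψ hψ hp𝒪'
  have hfrob : HasFrobCharpoly (ψ.comp H.π) (H.ρ.baseChangeAlong ψ hψ) :=
    hasFrobCharpoly_baseChangeAlong ψ hψ H.π H.ρ (hasFrobCharpoly_datum H)
  have habs : (H.ρ.baseChangeAlong ψ hψ).residual.IsAbsolutelyIrreducible :=
    residual_absIrr_baseChangeAlong ψ hψ H.ρ H.residual_absIrr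
  have hflat : (H.ρ.baseChangeAlong ψ hψ).IsFlatAt p :=
    hFP p N S 𝒪' hp hp2 hp𝒪' hpN hpS hNS (ψ.comp H.π) _ hfrob habs
  refine hFO p hp hp2 𝒪' hp𝒪' _ hflat ?_
    (residual_isOrdinaryAt_baseChangeAlong ψ hψ H.ρ p hres)
  intro P hP
  exact exists_inertia_notMem hFD hCyc hFrob hp hp2 hpS hNS hp𝒪' (ψ.comp H.π) _ hfrob P hP

end Glue

/-! ## COND-ord -/

/-- The type of the frozen S33 for the full local Hecke ring. -/
def Stmt_OrdDatum : Prop :=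
  ∀ (𝒪 : Type) [CommRing 𝒪] [IsDomain 𝒪] [IsDiscreteValuationRing 𝒪]
    [IsAdicComplete (maximalIdeal 𝒪) 𝒪] [Finite (ResidueField 𝒪)] [CharZero 𝒪]
    (p : ℕ), p.Prime → p ≠ 2 → (p : 𝒪) ∈ maximalIdeal 𝒪 →
    ∀ (N : ℕ) [NeZero N] [Fact (CuspForm.HasIntegralStructure N 2)] (S : Finset ℕ),
    (p ∣ N ∧ ¬ p ^ 2 ∣ N) → (∀ q : ℕ, q.Prime → q ∣ N → q ∈ S) →
    ∀ (θ : CuspForm.heckeAlgebra N 2 (↑S : Set ℕ) →+* ResidueField 𝒪)
      (H : CuspForm.HeckeGaloisRepDatum N (↑S : Set ℕ) 𝒪 θ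
        (CuspForm.heckeLocal N (↑S : Set ℕ) 𝒪 θ)),
    (GaloisRepAdic.ofResidualGaloisRep H.ρ.residual).IsOrdinaryAt p → H.ρ.IsOrdinaryAt p

/-- `Stmt_OrdDatum` from S33 at the points. -/
theorem stmt_OrdDatum_of_ordPoint (hOrd : Stmt_OrdPoint) : Stmt_OrdDatum :=
  fun _ _ _ _ _ _ _ _ hp hp2 hp𝒪 _ _ _ _ hN hNS _ H hres =>
    Fermat.Agent.S33.of_ordPoint hOrd hp hp2 hp𝒪 hN hNS H hres

/-- **COND-ord**, core. -/
theorem stmt_CONDord_core (hUnr : Asm.H7.Stmt_UnrDatum) (hUnip : Asm.H7.Stmt_UnipDatum)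
    (hOrdD : Stmt_OrdDatum) (hFP : Stmt_FlatPoint) (hFO : Stmt_FlatOrd) (hSepT : Stmt_SepT)
    (hFD : Stmt_FD) (hCyc : Stmt_CycInertia) (hFrob : Stmt_FrobCyc) : Stmt_CONDord := by
  intro 𝒪 _ _ _ _ _ _ p _ hp2 hp𝒪 ρbar Smin hyp hρbar Q N' _ _ S' hS' hNS hSmin hp2N θ _ H _
    hcyc hequiv
  have hp : p.Prime := Fact.out
  have hpS : p ∈ S' := by rw [hS']; exact Finset.mem_union_left _ hyp.hpSmin
  have hunr : ∀ q : ℕ, q.Prime → q ∉ Smin ∪ Q → H.ρ.IsUnramifiedAt q := fun q hq hqS =>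
    hUnr 𝒪 p hp hp𝒪 N' S' hpS hNS θ H q hq (by rw [hS']; exact hqS)
  have hunip : ∀ q ∈ Smin, q.Prime → q ≠ p → H.ρ.IsUnipotentOnInertiaAt q := fun q hqS hq hqp =>
    hUnip 𝒪 p hp hp𝒪 N' S' hpS hNS θ H q hq hqp (hSmin q hqS hqp).1 (hSmin q hqS hqp).2
  -- the residual representation of the datum is ordinary
  have hres : (GaloisRepAdic.ofResidualGaloisRep H.ρ.residual).IsOrdinaryAt p := by
    obtain ⟨e⟩ := hequiv
    exact resOrd_of_isEquiv ⟨e.symm⟩ p (resOrd_baseChangeAlong _ ρbar p hρbar.1.2.1)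
  have hord : H.ρ.IsOrdinaryAt p := by
    by_cases hpN : p ∣ N'
    · exact hOrdD 𝒪 p hp hp2 hp𝒪 N' S' ⟨hpN, hp2N⟩ hNS θ H hres
    · exact ordinary_of_flat hFP hFO hSepT hFD hCyc hFrob hp hp2 hp𝒪 hpS hpN hNS H hres
  exact ⟨⟨hcyc, hord, hunr⟩, hunip⟩

end Fermat.Agent.S59.NonMin.H7
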