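/-
S59, RT-NONMIN case C, leaf COND-ord / ORD-T (helper7), final form.

* `H7.stmt_FlatPoint`  : `R.Stmt_FlatPoint` (S32 at the points), from the frozen S19.
* `H7.stmt_ORDT`       : `CaseC.Stmt_ORDT`, unconditional: a datum of level prime to `p` over the
  full local Hecke ring is ordinary at `p` if `ρbar` is.
* `H7.stmt_CONDord`    : `NonMin.Stmt_CONDord`, unconditional (with the frozen S33,
  `Fermat.Agent.S33.result`).
* `H7.stmt_CONDord_of` : `Stmt_OrdDatum → NonMin.Stmt_CONDord` (`Stmt_OrdDatum` = the frozen S33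
  for the full local Hecke ring); `H7.stmt_CONDord_of_S33 : CaseC.Stmt_S33 → Stmt_CONDord`,
  `H7.stmt_CONDord_of_ordPoint : R.Stmt_OrdPoint → Stmt_CONDord`.
-/
import Fermat.Agent.S59.NonMin.H7_CondOrd
import Fermat.Agent.S59.CaseC.Defs
import Fermat.Agent.S59.Asm.H7_CondFinal
import Fermat.Agent.S33.H86_Final2
import Fermat.Agent.S32.H86_Bridge
import Fermat.Agent.S19
import Fermat.Agent.S33

set_option autoImplicit false

open Polynomial IsLocalRing CuspForm

namespace Fermat.Agent.S59.NonMin.H7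

open Fermat.Agent.R Fermat.Agent.S59 Fermat.Agent.S59.Datum

/-- S32 at the points, from the frozen S19. -/
theorem stmt_FlatPoint : Stmt_FlatPoint :=
  Fermat.Agent.S32.H86.stmt_FlatPoint_of_S19
    (fun N _ ℓ _ hℓN k => Fermat.Agent.S19.result N ℓ hℓN k)

/-- **ORD-T**: a Hecke–Galois datum over the full local Hecke ring of a level prime to `p` is
ordinary at `p` if the residual representation is. -/
theorem stmt_ORDT : Fermat.Agent.S59.CaseC.Stmt_ORDT := by
  intro 𝒪 _ _ _ _ _ _ p _ hp2 hp𝒪 ρbar _ _ hord N _ _ S hpS hNS hpN θ H _ _ hequiv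
  have hp : p.Prime := Fact.out
  have hres : (GaloisRepAdic.ofResidualGaloisRep H.ρ.residual).IsOrdinaryAt p := by
    obtain ⟨e⟩ := hequiv
    exact resOrd_of_isEquiv ⟨e.symm⟩ p (resOrd_baseChangeAlong _ ρbar p hord)
  exact ordinary_of_flat stmt_FlatPoint Fermat.Agent.S33.H86.stmt_FlatOrd H2.stmt_SepT_final
    Fermat.Agent.Lib.FrobDensity.stmt_FD H2.stmt_CycInertia H2.stmt_FrobCyc hp hp2 hp𝒪 hpS hpN
    hNS H hres

/-- **COND-ord** from the frozen S33 for the full local Hecke ring. -/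
theorem stmt_CONDord_of (hOrdD : Stmt_OrdDatum) : Stmt_CONDord :=
  stmt_CONDord_core Asm.H7.stmt_UnrDatum Asm.H7.stmt_UnipDatum hOrdD stmt_FlatPoint
    Fermat.Agent.S33.H86.stmt_FlatOrd H2.stmt_SepT_final Fermat.Agent.Lib.FrobDensity.stmt_FD
    H2.stmt_CycInertia H2.stmt_FrobCyc

/-- **COND-ord** from the frozen type of S33. -/
theorem stmt_CONDord_of_S33 (h : Fermat.Agent.S59.CaseC.Stmt_S33) : Stmt_CONDord :=
  stmt_CONDord_of fun _ _ _ _ _ _ _ _ hp hp2 hp𝒪 _ _ _ _ hN hNS _ H hres =>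
    h hp hp2 hp𝒪 hN hNS H hres

/-- **COND-ord** from S33 at the points. -/
theorem stmt_CONDord_of_ordPoint (hOrd : Stmt_OrdPoint) : Stmt_CONDord :=
  stmt_CONDord_of (stmt_OrdDatum_of_ordPoint hOrd)

/-- **COND-ord** from the `p`-new case of S33 at the points. -/
theorem stmt_CONDord_of_ordNew (hNew : Fermat.Agent.R.Stmt_OrdNew) : Stmt_CONDord :=
  stmt_CONDord_of_ordPoint
    (Fermat.Agent.S33.H86.ordPoint_of_flatPoint_ordNew stmt_FlatPoint hNew)

/-- The frozen S33 for the full local Hecke ring. -/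
theorem stmt_OrdDatum : Stmt_OrdDatum :=
  fun _ _ _ _ _ _ _ _ hp hp2 hp𝒪 _ _ _ _ hN hNS _ H hres =>
    Fermat.Agent.S33.result hp hp2 hp𝒪 hN hNS H hres

/-- **COND-ord**, unconditional. -/
theorem stmt_CONDord : Stmt_CONDord := stmt_CONDord_of stmt_OrdDatum

end Fermat.Agent.S59.NonMin.H7
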