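import Fermat.Agent.S59.H99_DefSO
import Fermat.Agent.S59.H99_DefEquiv

/-!
# S59, package RT-NONMIN, case C, leaf DEF-ord, part 1 (helper47): the ordinary line is intrinsic

The analogue of `S59/H99_DefSO.lean` (helper99) for the prelude's `GaloisRepAdic.IsOrdinaryAt`
(no condition on the eigenvalues): for `σ₀` in the inertia group of `P` whose cyclotomic exponent
is not `1` modulo `p`, and `ρ` with cyclotomic determinant, an ordinary line `L` of `ρ` at `P` is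
the image of `F = ρ(σ₀) - 1`, `t = tr F = det ρ(σ₀) - 1` is a unit, `F ∘ F = t F`, and the
conditions on `L` are polynomial identities (`OrdInt`), which descend along jointly injective
families (`jfam_ordInt`, `jfam_isOrdinaryAt`).  Also: `isOrdinaryAt_of_isEquiv`,
`isOrdinaryAt_baseChangeAlong`.
-/

set_option autoImplicit false
set_option linter.unusedSectionVars false
set_option linter.style.haveILetI false
set_option linter.unusedVariables false

open IsLocalRing TensorProduct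

namespace Fermat.Agent.S59.NonMin.H47

open Fermat.Agent.S59.H99 Fermat.Agent.S56.H92

variable {A : Type} [CommRing A] [IsLocalRing A]

/-- The prelude's condition on an ordinary line `L` at the place `P`. -/
def IsOrdLineAt (ρ : GaloisRepAdic A) (P : ValuationSubring (AlgebraicClosure ℚ))
    (L : Submodule A ρ.V) : Prop :=
  (∃ b : Module.Basis (Fin 2) A ρ.V, L = Submodule.span A {b 0}) ∧
  (∀ σ ∈ P.decompositionSubgroup ℚ, ∀ v ∈ L, ρ.ρ σ v ∈ L) ∧
  (∀ σ ∈ P.inertiaSubgroupIn ℚ, ∀ v : ρ.V, ρ.ρ σ v - v ∈ L)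

theorem isOrdinaryAt_iff (ρ : GaloisRepAdic A) (p : ℕ) :
    ρ.IsOrdinaryAt p ↔ ∀ P : ValuationSubring (AlgebraicClosure ℚ), P.LiesOverPrime p →
      ∃ L : Submodule A ρ.V, IsOrdLineAt ρ P L := Iff.rfl

/-- The intrinsic form of the ordinary condition at `P`. -/
structure OrdInt (ρ : GaloisRepAdic A) (P : ValuationSubring (AlgebraicClosure ℚ))
    (σ₀ : AlgebraicClosure ℚ ≃ₐ[ℚ] AlgebraicClosure ℚ) : Prop where
  unit : IsUnit (soT ρ σ₀)
  sq : soF ρ σ₀ * soF ρ σ₀ = soT ρ σ₀ • soF ρ σ₀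
  stab : ∀ σ ∈ P.decompositionSubgroup ℚ,
    soT ρ σ₀ • (ρ.ρ σ * soF ρ σ₀) = soF ρ σ₀ * (ρ.ρ σ * soF ρ σ₀)
  inert : ∀ σ ∈ P.inertiaSubgroupIn ℚ, soT ρ σ₀ • (ρ.ρ σ - 1) = soF ρ σ₀ * (ρ.ρ σ - 1)

/-! ### From the intrinsic form to the line -/

section ToLine

variable {ρ : GaloisRepAdic A} {P : ValuationSubring (AlgebraicClosure ℚ)}
  {σ₀ : AlgebraicClosure ℚ ≃ₐ[ℚ] AlgebraicClosure ℚ}

/-- `t u = F w` implies `u ∈ range F`. -/
theorem ord_mem_range_of_smul_eq (hu : IsUnit (soT ρ σ₀)) {u w : ρ.V}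
    (huw : soT ρ σ₀ • u = soF ρ σ₀ w) : u ∈ LinearMap.range (soF ρ σ₀) := by
  obtain ⟨s, hs⟩ := hu
  refine ⟨((s⁻¹ : Aˣ) : A) • w, ?_⟩
  rw [map_smul, ← huw, smul_smul, ← hs, Units.inv_mul, one_smul]

theorem isOrdLineAt_of_ordInt (h : OrdInt ρ P σ₀) :
    IsOrdLineAt ρ P (LinearMap.range (soF ρ σ₀)) := by
  obtain ⟨s, hs⟩ := h.unit
  have hsq : ∀ v, soF ρ σ₀ (soF ρ σ₀ v) = soT ρ σ₀ • soF ρ σ₀ v := fun v =>
    LinearMap.congr_fun h.sq v
  refine ⟨?_, ?_, ?_⟩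
  · -- the basis
    let e : ρ.V →ₗ[A] ρ.V := ((s⁻¹ : Aˣ) : A) • soF ρ σ₀
    have he : ∀ v, e (e v) = e v := by
      intro v
      simp only [e, LinearMap.smul_apply, map_smul]
      rw [hsq, smul_smul, smul_smul, ← hs, mul_assoc, Units.inv_mul, mul_one]
    have htr : LinearMap.trace A ρ.V e = 1 := by
      simp only [e, map_smul, smul_eq_mul]
      change ((s⁻¹ : Aˣ) : A) * soT ρ σ₀ = 1
      rw [← hs, Units.inv_mul]
    obtain ⟨b, hb⟩ := exists_basis_range_of_idempotent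
      (Module.finBasisOfFinrankEq A ρ.V ρ.finrank_eq) e he htr
    refine ⟨b, ?_⟩
    rw [← hb]
    apply le_antisymm
    · rintro _ ⟨v, rfl⟩
      refine ⟨(s : A) • v, ?_⟩
      simp only [e, LinearMap.smul_apply, map_smul]
      rw [smul_smul, Units.mul_inv, one_smul]
    · rintro _ ⟨v, rfl⟩
      exact ⟨((s⁻¹ : Aˣ) : A) • v, by simp only [e, LinearMap.smul_apply, map_smul]⟩
  · -- stability
    rintro σ hσ _ ⟨v, rfl⟩
    apply ord_mem_range_of_smul_eq h.unit (w := ρ.ρ σ (soF ρ σ₀ v))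
    exact LinearMap.congr_fun (h.stab σ hσ) v
  · -- inertia
    intro σ hσ v
    apply ord_mem_range_of_smul_eq h.unit (w := ρ.ρ σ v - v)
    exact LinearMap.congr_fun (h.inert σ hσ) v

end ToLine

/-! ### From the line to the intrinsic form -/

section OfLine

/-- The determinant of an endomorphism which is `x` on the line `A b₀` and `z` modulo the
line. -/
theorem det_of_line_quot {V : Type} [AddCommGroup V] [Module A V]
    (b : Module.Basis (Fin 2) A V) (H : V →ₗ[A] V) (x z : A)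
    (h1 : H (b 0) = x • b 0) (h2 : H (b 1) - z • b 1 ∈ Submodule.span A {b 0}) :
    LinearMap.det H = x * z := by
  rw [← LinearMap.det_toMatrix b, Matrix.det_fin_two]
  simp only [LinearMap.toMatrix_apply]
  have h3 := repr_one_eq_zero_of_mem_span b h2
  rw [map_sub, Finsupp.sub_apply, map_smul, Finsupp.smul_apply, Module.Basis.repr_self,
    Finsupp.single_eq_same, smul_eq_mul, mul_one, sub_eq_zero] at h3
  rw [h1, h3, map_smul, Finsupp.smul_apply, Finsupp.smul_apply, Module.Basis.repr_self,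
    Finsupp.single_eq_same, Finsupp.single_apply, if_neg (by decide), smul_eq_mul, mul_one,
    smul_zero, mul_zero, sub_zero]

variable {ρ : GaloisRepAdic A} {p : ℕ} {P : ValuationSubring (AlgebraicClosure ℚ)}
  {σ₀ : AlgebraicClosure ℚ ≃ₐ[ℚ] AlgebraicClosure ℚ}

theorem ordInt_of_isOrdLineAt (hdet : ρ.DetIsCyclotomic p)
    (hσ₀ : σ₀ ∈ P.inertiaSubgroupIn ℚ) (a₀ : ℕ) (ha₀ : ActsPow p σ₀ 1 a₀)
    (hu : IsUnit ((a₀ : A) - 1)) {L : Submodule A ρ.V} (hL : IsOrdLineAt ρ P L) :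
    OrdInt ρ P σ₀ := by
  obtain ⟨⟨b, rfl⟩, hstab, hin⟩ := hL
  have hσ₀D := mem_decomposition_of_mem_inertia' P σ₀ hσ₀
  have hb0 : b 0 ∈ Submodule.span A {b 0} := Submodule.mem_span_singleton_self _
  obtain ⟨x₀, hx₀'⟩ := Submodule.mem_span_singleton.1 (hstab σ₀ hσ₀D (b 0) hb0)
  have hx₀ : ∀ w ∈ Submodule.span A {b 0}, ρ.ρ σ₀ w = x₀ • w := by
    intro w hw
    obtain ⟨c, rfl⟩ := Submodule.mem_span_singleton.1 hw
    rw [map_smul, ← hx₀', smul_comm]
  have hdetx : LinearMap.det (ρ.ρ σ₀) = x₀ := by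
    have h1 := det_of_line_quot b (ρ.ρ σ₀) x₀ 1 hx₀'.symm
      (by rw [one_smul]; exact hin σ₀ hσ₀ (b 1))
    rw [mul_one] at h1
    exact h1
  -- `t₀ = x₀ - 1` is a unit
  have hxa : x₀ - (a₀ : A) ∈ maximalIdeal A := by
    have h1 := hdet.2 1 σ₀ a₀ ha₀
    rw [hdetx] at h1
    have h2 : Ideal.span {((p ^ 1 : ℕ) : A)} ≤ maximalIdeal A := by
      rw [Ideal.span_singleton_le_iff_mem, pow_one]
      exact hdet.1
    exact h2 h1
  have ht₀ : IsUnit (x₀ - 1) := by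
    have := isUnit_of_isUnit_add_mem hu hxa
    have e : (a₀ : A) - 1 + (x₀ - (a₀ : A)) = x₀ - 1 := by ring
    rwa [e] at this
  have hFL : ∀ v, soF ρ σ₀ v ∈ Submodule.span A {b 0} := fun v => hin σ₀ hσ₀ v
  have hFw : ∀ w ∈ Submodule.span A {b 0}, soF ρ σ₀ w = (x₀ - 1) • w := by
    intro w hw
    change ρ.ρ σ₀ w - w = _
    rw [hx₀ w hw, sub_smul, one_smul]
  have hT : soT ρ σ₀ = x₀ - 1 :=
    trace_of_range_le_line b (soF ρ σ₀) (x₀ - 1) hFL (hFw _ hb0)
  refine ⟨?_, ?_, ?_, ?_⟩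
  · rw [hT]; exact ht₀
  · ext v
    change soF ρ σ₀ (soF ρ σ₀ v) = soT ρ σ₀ • soF ρ σ₀ v
    rw [hFw _ (hFL v), hT]
  · intro σ hσ
    ext v
    change soT ρ σ₀ • ρ.ρ σ (soF ρ σ₀ v) = soF ρ σ₀ (ρ.ρ σ (soF ρ σ₀ v))
    rw [hFw _ (hstab σ hσ _ (hFL v)), hT]
  · intro σ hσ
    ext v
    change soT ρ σ₀ • (ρ.ρ σ v - v) = soF ρ σ₀ (ρ.ρ σ v - v)
    rw [hFw _ (hin σ hσ v), hT]

end OfLine

/-! ### Descent of the intrinsic form -/

section Descent

variable {p : ℕ} (F : JFam A p) (ρ : GaloisRepAdic A)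
  (P : ValuationSubring (AlgebraicClosure ℚ))
  (σ₀ : AlgebraicClosure ℚ ≃ₐ[ℚ] AlgebraicClosure ℚ)

theorem jfam_ordInt (h : ∀ i, OrdInt (ρ.baseChangeAlong (F.φ i) (F.hφ i)) P σ₀) :
    OrdInt ρ P σ₀ := by
  refine ⟨?_, ?_, ?_, ?_⟩
  · apply F.isUnit
    intro i
    have := (h i).unit
    rwa [soT_baseChangeAlong] at this
  · apply F.end_eq
    intro i
    letI := (F.φ i).toAlgebra
    have hi := (h i).sq
    rw [soT_baseChangeAlong, soF_baseChangeAlong] at hi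
    rw [LinearMap.baseChange_mul, smul_baseChange_eq]
    exact hi
  · intro σ hσ
    apply F.end_eq
    intro i
    letI := (F.φ i).toAlgebra
    have hi := (h i).stab σ hσ
    rw [soT_baseChangeAlong, soF_baseChangeAlong] at hi
    rw [LinearMap.baseChange_mul, smul_baseChange_eq, LinearMap.baseChange_mul]
    exact hi
  · intro σ hσ
    apply F.end_eq
    intro i
    letI := (F.φ i).toAlgebra
    have hi := (h i).inert σ hσ
    rw [soT_baseChangeAlong, soF_baseChangeAlong] at hi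
    rw [LinearMap.baseChange_mul, smul_baseChange_eq, LinearMap.baseChange_sub,
      LinearMap.baseChange_one]
    exact hi

end Descent

/-! ### The ordinary condition descends -/

section Final

variable {p : ℕ} [Fact p.Prime] (F : JFam A p) (ρ : GaloisRepAdic A)

theorem jfam_isOrdinaryAt (hp2 : p ≠ 2)
    (hdet : ∀ i, (ρ.baseChangeAlong (F.φ i) (F.hφ i)).DetIsCyclotomic p)
    (h : ∀ i, (ρ.baseChangeAlong (F.φ i) (F.hφ i)).IsOrdinaryAt p) :
    ρ.IsOrdinaryAt p := by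
  have hpp : p.Prime := Fact.out
  intro P hP
  obtain ⟨σ₀, hσ₀, ζ, hζ, hne⟩ := Fermat.Agent.R.H2.stmt_CycInertia p hpp hp2 P hP
  obtain ⟨a₀, ha₀⟩ := exists_actsPow p σ₀ 1
  have hmod := not_modEq_one_of_ne ha₀ hζ hne
  have hint : OrdInt ρ P σ₀ := by
    apply jfam_ordInt F
    intro i
    obtain ⟨L, hL⟩ := h i P hP
    exact ordInt_of_isOrdLineAt (hdet i) hσ₀ a₀ ha₀
      (isUnit_natCast_sub_one hpp (hdet i).1 hmod) hL
  exact ⟨_, isOrdLineAt_of_ordInt hint⟩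

end Final

/-! ### Equivalence and base change -/

section Equiv

variable {ρ ρ' : GaloisRepAdic A}

theorem isOrdinaryAt_of_isEquiv (he : ρ.IsEquiv ρ') (p : ℕ)
    (h : ρ.IsOrdinaryAt p) : ρ'.IsOrdinaryAt p := by
  obtain ⟨e⟩ := he
  intro P hP
  obtain ⟨L, ⟨b, hb⟩, hD, hI⟩ := h P hP
  refine ⟨L.map (e.toLinearEquiv : ρ.V →ₗ[A] ρ'.V), ⟨b.map e.toLinearEquiv, ?_⟩, ?_, ?_⟩
  · rw [hb, Submodule.map_span, Set.image_singleton]
    rfl
  · intro σ hσ v hv
    obtain ⟨w, hw, rfl⟩ := hv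
    refine ⟨ρ.ρ σ w, hD σ hσ w hw, ?_⟩
    exact e.map_apply σ w
  · intro σ hσ v
    obtain ⟨w, rfl⟩ := e.toLinearEquiv.surjective v
    refine ⟨ρ.ρ σ w - w, hI σ hσ w, ?_⟩
    change e.toLinearEquiv (ρ.ρ σ w - w) = _
    rw [map_sub, e.map_apply]

end Equiv

section BaseChange

variable {B : Type} [CommRing B] [IsLocalRing B]

/-- Core of the ordinary base change, stated on `B ⊗[A] V` directly. -/
theorem ordinary_core (φ : A →+* B) (ρ : GaloisRepAdic A)
    (P : ValuationSubring (AlgebraicClosure ℚ))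
    (h : ∃ L : Submodule A ρ.V,
      (∃ b : Module.Basis (Fin 2) A ρ.V, L = Submodule.span A {b 0}) ∧
      (∀ σ ∈ P.decompositionSubgroup ℚ, ∀ v ∈ L, ρ.ρ σ v ∈ L) ∧
      (∀ σ ∈ P.inertiaSubgroupIn ℚ, ∀ v : ρ.V, ρ.ρ σ v - v ∈ L)) :
    letI : Algebra A B := φ.toAlgebra
    ∃ L : Submodule B (B ⊗[A] ρ.V),
      (∃ b : Module.Basis (Fin 2) B (B ⊗[A] ρ.V), L = Submodule.span B {b 0}) ∧
      (∀ σ ∈ P.decompositionSubgroup ℚ, ∀ v ∈ L, (ρ.ρ σ).baseChange B v ∈ L) ∧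
      (∀ σ ∈ P.inertiaSubgroupIn ℚ, ∀ v : B ⊗[A] ρ.V, (ρ.ρ σ).baseChange B v - v ∈ L) := by
  letI : Algebra A B := φ.toAlgebra
  obtain ⟨L, ⟨b, hb⟩, hD, hI⟩ := h
  have hb0 : b 0 ∈ L := by rw [hb]; exact Submodule.mem_span_singleton_self _
  refine ⟨Submodule.span B {(1 : B) ⊗ₜ[A] b 0}, ⟨b.baseChange B, ?_⟩, ?_, ?_⟩
  · rw [Module.Basis.baseChange_apply]
  · intro σ hσ v hv
    obtain ⟨c, rfl⟩ := Submodule.mem_span_singleton.1 hv
    rw [map_smul, LinearMap.baseChange_tmul]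
    refine Submodule.smul_mem _ _ ?_
    have := hD σ hσ (b 0) hb0
    rw [hb] at this
    exact tmul_mem_span φ 1 this
  · intro σ hσ v
    induction v using TensorProduct.induction_on with
    | zero => rw [LinearMap.map_zero, sub_zero]; exact Submodule.zero_mem _
    | tmul c v =>
      rw [LinearMap.baseChange_tmul, ← TensorProduct.tmul_sub]
      have := hI σ hσ v
      rw [hb] at this
      exact tmul_mem_span φ c this
    | add x y hx hy =>
      rw [map_add, add_sub_add_comm]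
      exact Submodule.add_mem _ hx hy

theorem isOrdinaryAt_baseChangeAlong (φ : A →+* B) (hφ : IsLocalHom φ)
    (ρ : GaloisRepAdic A) (p : ℕ) (h : ρ.IsOrdinaryAt p) :
    (ρ.baseChangeAlong φ hφ).IsOrdinaryAt p :=
  fun P hP => ordinary_core φ ρ P (h P hP)

end BaseChange

end Fermat.Agent.S59.NonMin.H47
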