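import Mathlib
import Fermat.Agent.S59.NonMin.Defs
import Fermat.Agent.S59.Asm.H2_Min2
import Fermat.Agent.S59.Patch.Main
import Fermat.Agent.S57

/-!
# S59, package RT-NONMIN, leaf WIRE (helper2)

`mltnm_of : Stmt_NMGEOM → Stmt_STEP → Stmt_BASE → Asm.Stmt_COND → Datum.Stmt_DATUM →
  Stmt_TWprimes → Asm.Stmt_ASM → Stmt_MLTnm`

Wiles' induction on the set `Sig` of auxiliary primes:
* `levelHyp_base`, `levelHyp_next` : the arithmetic of the levels;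
* `frobHyp_comp` : the Frobenius hypothesis along a restriction map;
* `rtProp_base` : `RTProp` at the minimal state (Taylor–Wiles patching + `Stmt_BASE`);
* `mltnm_of` : the induction.
-/

set_option autoImplicit false
set_option linter.style.haveILetI false
set_option linter.unusedSectionVars false
set_option linter.unusedVariables false
set_option maxHeartbeats 1000000

open Polynomial CuspForm CongruenceSubgroup ModularFormClass IsLocalRing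

namespace Fermat.Agent.S59.NonMin.H2

open Fermat.Agent.S59 Fermat.Agent.S59.Asm Fermat.Agent.S59.NonMin

/-! ### The Frobenius hypothesis along a restriction map -/

theorem frobHyp_comp {k : Type} [Field k] {ρbar : ResidualGaloisRep k} {N N' : ℕ} [NeZero N]
    [NeZero N'] {S S' : Finset ℕ} {θ : CuspForm.heckeAlgebra N 2 (↑S : Set ℕ) →+* k}
    (hθ : Fermat.Agent.S59.Datum.FrobHyp ρbar N S θ) (hN : N ∣ N') (hS : S ⊆ S')
    (rest : CuspForm.heckeAlgebra N' 2 (↑S' : Set ℕ) →+* CuspForm.heckeAlgebra N 2 (↑S : Set ℕ))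
    (rest_T : ∀ (ℓ : ℕ) (hℓ : ℓ.Prime) (hℓN' : ¬ ℓ ∣ N') (hℓS' : ℓ ∉ (↑S' : Set ℕ))
      (hℓN : ¬ ℓ ∣ N) (hℓS : ℓ ∉ (↑S : Set ℕ)),
      rest (CuspForm.heckeAlgebra.T hℓ hℓN' hℓS') = CuspForm.heckeAlgebra.T hℓ hℓN hℓS) :
    Fermat.Agent.S59.Datum.FrobHyp ρbar N' S' (θ.comp rest) := by
  intro ℓ hℓ hℓN' hℓS' A hA σ hσ
  have hℓN : ¬ ℓ ∣ N := fun h => hℓN' (h.trans hN)
  have hℓS : ℓ ∉ (↑S : Set ℕ) := fun h => hℓS' (by
    rw [Finset.mem_coe] at h ⊢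
    exact hS h)
  rw [RingHom.comp_apply, rest_T ℓ hℓ hℓN' hℓS' hℓN hℓS]
  exact hθ ℓ hℓ hℓN hℓS A hA σ hσ

/-! ### Arithmetic of the levels -/

section Level

variable (𝒪 : Type) [CommRing 𝒪] [IsDomain 𝒪] [IsDiscreteValuationRing 𝒪]
  [IsAdicComplete (maximalIdeal 𝒪) 𝒪]

theorem not_cube_dvd_of_squarefree {N q : ℕ} (hN : Squarefree N) (hq : q.Prime) :
    ¬ q ^ 3 ∣ N := fun h =>
  Asm.H2.not_sq_dvd_of_squarefree hN hq ((pow_dvd_pow q (by norm_num : 2 ≤ 3)).trans h)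

/-- the level hypotheses at the minimal state -/
theorem levelHyp_base {p : ℕ} (hp : p.Prime) (fl : Bool) {Smin : Finset ℕ}
    (hS : ∀ q ∈ Smin, q.Prime) (hpS : p ∈ Smin) {N : ℕ} [NeZero N]
    (hN : N = minLevel p fl Smin)
    (θ : CuspForm.heckeAlgebra N 2 (↑Smin : Set ℕ) →+* ResidueField 𝒪)
    (M : HMod 𝒪 N (↑Smin : Set ℕ) θ) :
    LevelHyp 𝒪 p fl Smin ∅ (⟨N, Smin, θ, M⟩ : NMState 𝒪) := by
  have hsqf : Squarefree N := by
    rw [hN]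
    exact Asm.H2.squarefree_minLevel hp fl hS
  refine ⟨(Finset.union_empty _).symm, fun q hq => absurd hq (Finset.notMem_empty q), ?_, ?_,
    ?_, ?_, ?_⟩
  · intro q hq hqN
    have hqN' : q ∣ N := hqN
    rw [hN] at hqN'
    exact Asm.H2.prime_dvd_minLevel hp fl hS hpS hq hqN'
  · intro q hq hqp
    refine ⟨?_, Asm.H2.not_sq_dvd_of_squarefree hsqf (hS q hq)⟩
    show q ∣ N
    rw [hN]
    exact Asm.H2.dvd_minLevel_of_mem fl hq hqp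
  · intro q hq
    exact not_cube_dvd_of_squarefree hsqf hq
  · intro hfl
    show ¬ p ∣ N
    rw [hN, hfl]
    exact Asm.H2.not_dvd_minLevel_of_fl hp hS
  · intro hfl
    refine ⟨?_, Asm.H2.not_sq_dvd_of_squarefree hsqf hp⟩
    show p ∣ N
    rw [hN, hfl]
    exact Asm.H2.dvd_minLevel_of_not_fl

/-- a prime power prime to `q` divides `N q²` iff it divides `N` -/
theorem pow_dvd_mul_sq_iff {N q q' : ℕ} (hq : q.Prime) (hq' : q'.Prime) (hne : q' ≠ q)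
    (k : ℕ) : q' ^ k ∣ N * q ^ 2 ↔ q' ^ k ∣ N := by
  have hcop : Nat.Coprime (q' ^ k) (q ^ 2) :=
    Nat.Coprime.pow k 2 ((Nat.coprime_primes hq' hq).mpr hne)
  exact ⟨fun h => hcop.dvd_of_dvd_mul_right h, fun h => Dvd.dvd.mul_right h _⟩

/-- the level hypotheses pass to the next state -/
theorem levelHyp_next {p : ℕ} (hp : p.Prime) {fl : Bool} {Smin Sig : Finset ℕ}
    (hpS : p ∈ Smin) (hSmin : ∀ q ∈ Smin, q.Prime) {s : NMState 𝒪}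
    (h : LevelHyp 𝒪 p fl Smin Sig s) {q : ℕ} (hq : q.Prime) (hqSmin : q ∉ Smin)
    (hqN : ¬ q ∣ s.N) [NeZero (s.N * q ^ 2)] (s' : NMState 𝒪) (hN' : s'.N = s.N * q ^ 2)
    (hS' : s'.S = insert q s.S) :
    LevelHyp 𝒪 p fl Smin (insert q Sig) s' := by
  have hqp : q ≠ p := fun e => hqSmin (e ▸ hpS)
  refine ⟨?_, ?_, ?_, ?_, ?_, ?_, ?_⟩
  · rw [hS', h.hS, Finset.union_insert]
  · intro q' hq'
    rcases Finset.mem_insert.mp hq' with e | hq''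
    · rw [e]
      exact ⟨hq, hqSmin⟩
    · exact h.hSig q' hq''
  · intro q' hq' hq'N
    rw [hN'] at hq'N
    rw [hS']
    rcases (Nat.Prime.dvd_mul hq').mp hq'N with h1 | h1
    · exact Finset.mem_insert_of_mem (h.dvd_mem q' hq' h1)
    · have := (Nat.prime_dvd_prime_iff_eq hq' hq).mp (hq'.dvd_of_dvd_pow h1)
      rw [this]
      exact Finset.mem_insert_self q s.S
  · intro q' hq' hq'p
    have hne : q' ≠ q := fun e => hqSmin (e ▸ hq')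
    have h1 := pow_dvd_mul_sq_iff (N := s.N) hq (hSmin q' hq') hne 1
    have h2 := pow_dvd_mul_sq_iff (N := s.N) hq (hSmin q' hq') hne 2
    rw [pow_one] at h1
    rw [hN']
    exact ⟨h1.mpr (h.hmin q' hq' hq'p).1, fun h3 => (h.hmin q' hq' hq'p).2 (h2.mp h3)⟩
  · intro q' hq'
    rw [hN']
    by_cases hne : q' = q
    · rw [hne]
      intro h3
      apply hqN
      have h4 : q ^ 2 * q ∣ q ^ 2 * s.N := by
        rw [← pow_succ, mul_comm (q ^ 2) s.N]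
        exact h3
      exact (Nat.mul_dvd_mul_iff_left (pow_pos hq.pos 2)).mp h4
    · intro h3
      exact h.hcube q' hq' ((pow_dvd_mul_sq_iff (N := s.N) hq hq' hne 3).mp h3)
  · intro hfl h3
    rw [hN'] at h3
    have h1 := pow_dvd_mul_sq_iff (N := s.N) hq hp (Ne.symm hqp) 1
    rw [pow_one] at h1
    exact h.hfl hfl (h1.mp h3)
  · intro hfl
    have h1 := pow_dvd_mul_sq_iff (N := s.N) hq hp (Ne.symm hqp) 1
    have h2 := pow_dvd_mul_sq_iff (N := s.N) hq hp (Ne.symm hqp) 2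
    rw [pow_one] at h1
    rw [hN']
    exact ⟨h1.mpr (h.hso hfl).1, fun h3 => (h.hso hfl).2 (h2.mp h3)⟩

end Level

/-! ### The base of the induction -/

section Base

variable (𝒪 : Type) [CommRing 𝒪] [IsDomain 𝒪] [IsDiscreteValuationRing 𝒪]
  [IsAdicComplete (maximalIdeal 𝒪) 𝒪] [Finite (ResidueField 𝒪)] [CharZero 𝒪]
  (p : ℕ) [Fact p.Prime]

/-- **`RTProp` at the minimal state**: Taylor–Wiles patching (`Asm.H2.exists_patchingDatum`,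
`Patch.patch`, `S57.result`) and `Stmt_BASE`. -/
theorem rtProp_base (hBASE : Stmt_BASE) (hCOND : Asm.Stmt_COND)
    (hDATUM : Fermat.Agent.S59.Datum.Stmt_DATUM) (hTWP : Stmt_TWprimes) (hASM : Asm.Stmt_ASM)
    (hp2 : p ≠ 2) (hp𝒪 : (p : 𝒪) ∈ maximalIdeal 𝒪)
    (fl : Bool) (ρbar : ResidualGaloisRep (ResidueField 𝒪)) (Smin : Finset ℕ)
    (hyp : ResHyp p ρbar Smin)
    (hbar : cond 𝒪 p fl Smin ∅ (GaloisRepAdic.ofResidualGaloisRep ρbar))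
    (hnf : fl = false → ¬ (GaloisRepAdic.ofResidualGaloisRep ρbar).IsFlatAt p)
    (N : ℕ) [NeZero N] [hI : Fact (CuspForm.HasIntegralStructure N 2)]
    (hN : N = minLevel p fl Smin)
    (θ : CuspForm.heckeAlgebra N 2 (↑Smin : Set ℕ) →+* ResidueField 𝒪)
    (hθ : Fermat.Agent.S59.Datum.FrobHyp ρbar N Smin θ)
    (x₀ : CuspForm.heckeAlgebra N 2 (↑Smin : Set ℕ) →+* 𝒪)
    (hx₀ : ∀ t, residue 𝒪 (x₀ t) = θ t)
    (M : HMod 𝒪 N (↑Smin : Set ℕ) θ) (hMnt : Nontrivial M.V)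
    (hG : ∀ (r n : ℕ) (qv : Fin r → ℕ), Fermat.Agent.S56.IsTWFamily ρbar p n Smin qv →
      ∀ [NeZero (twLevel N qv)] [Fact (CuspForm.HasIntegralStructure (twLevel N qv) 2)],
        Nonempty (TWGeom 𝒪 p ρbar N Smin θ M n qv)) :
    ∃ d : ℕ, 0 < d ∧
      @RTProp 𝒪 _ _ _ _ p fl ρbar Smin ∅ (⟨N, Smin, θ, M⟩ : NMState 𝒪) hI x₀ d := by
  have hpP : p.Prime := Fact.out
  obtain ⟨D⟩ := Fermat.Agent.S59.H99.stmt_DEF 𝒪 p hp2 hp𝒪 fl ρbar hyp.habs Smin ∅ hyp.hpSmin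
    (fun q hq => hyp.hS q (by simpa using hq)) hbar
  obtain ⟨H, φ, hφ, ηM, r, hHπ, hHcond, hHres, hφs, hφe, hηM, ⟨P⟩⟩ :=
    Asm.H2.exists_patchingDatum 𝒪 p hCOND hDATUM hTWP hASM hp2 hp𝒪 fl ρbar Smin hyp hbar hnf
      N hN θ hθ D M hG
  letI iM : Module D.R M.V := Module.compHom M.V
    ((ηM.comp φ : D.R →ₐ[𝒪] Module.End 𝒪 M.V) : D.R →+* Module.End 𝒪 M.V)
  obtain ⟨L⟩ := Fermat.Agent.S59.Patch.patch hp𝒪 D.residue_surjective P
  obtain ⟨hfree, -, hker⟩ := Fermat.Agent.S57.result L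
  exact hBASE 𝒪 p hp2 hp𝒪 fl ρbar Smin hyp (⟨N, Smin, θ, M⟩ : NMState 𝒪)
    (levelHyp_base 𝒪 hpP fl hyp.hS hyp.hpSmin hN θ M) x₀ hx₀ D H hHπ φ hφ hφs hφe ηM hηM r
    L.ψ (fun i => L.φ (MvPowerSeries.X i)) L.ψ_surjective hker hfree hMnt

/-- **The induction on `Sig`**: `RTProp` at some state of the class `G` for every finite set
`Sig` of auxiliary primes. -/
theorem rtProp_of_step (hSTEP : Stmt_STEP)
    (hp2 : p ≠ 2) (hp𝒪 : (p : 𝒪) ∈ maximalIdeal 𝒪)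
    (fl : Bool) (ρbar : ResidualGaloisRep (ResidueField 𝒪)) (Smin : Finset ℕ)
    (hyp : ResHyp p ρbar Smin)
    (hbar : cond 𝒪 p fl Smin ∅ (GaloisRepAdic.ofResidualGaloisRep ρbar))
    (hnf : fl = false → ¬ (GaloisRepAdic.ofResidualGaloisRep ρbar).IsFlatAt p)
    (G : NMState 𝒪 → Prop)
    (hGstep : ∀ s : NMState 𝒪, G s → ∀ (q : ℕ) (hq : q.Prime), q ≠ p → ∀ (hqN : ¬ q ∣ s.N)
      (hqS : q ∉ (↑s.S : Set ℕ)) [NeZero (s.N * q ^ 2)],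
      ∃ st : NMStep s hq hqN hqS, G st.next)
    (d : ℕ) (hd : 0 < d)
    (s₀ : NMState 𝒪) (hI₀ : Fact (CuspForm.HasIntegralStructure s₀.N 2))
    (x₀ : CuspForm.heckeAlgebra s₀.N 2 (↑s₀.S : Set ℕ) →+* 𝒪)
    (hG₀ : G s₀) (hL₀ : LevelHyp 𝒪 p fl Smin ∅ s₀)
    (hF₀ : Fermat.Agent.S59.Datum.FrobHyp ρbar s₀.N s₀.S s₀.θ)
    (hx₀ : ∀ t, residue 𝒪 (x₀ t) = s₀.θ t)
    (hRT₀ : @RTProp 𝒪 _ _ _ _ p fl ρbar Smin ∅ s₀ hI₀ x₀ d)
    (Sig : Finset ℕ) (hSig : ∀ q ∈ Sig, q.Prime ∧ q ∉ Smin) :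
    ∃ (s : NMState 𝒪) (hI : Fact (CuspForm.HasIntegralStructure s.N 2))
      (x : CuspForm.heckeAlgebra s.N 2 (↑s.S : Set ℕ) →+* 𝒪),
      G s ∧ LevelHyp 𝒪 p fl Smin Sig s ∧
      Fermat.Agent.S59.Datum.FrobHyp ρbar s.N s.S s.θ ∧
      (∀ t, residue 𝒪 (x t) = s.θ t) ∧
      @RTProp 𝒪 _ _ _ _ p fl ρbar Smin Sig s hI x d := by
  classical
  have hpP : p.Prime := Fact.out
  induction Sig using Finset.induction_on with
  | empty => exact ⟨s₀, hI₀, x₀, hG₀, hL₀, hF₀, hx₀, hRT₀⟩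
  | insert q Sig' hqSig ih =>
    obtain ⟨s, hI, x, hGs, hLev, hFrob, hx, hRT⟩ :=
      ih (fun q' hq' => hSig q' (Finset.mem_insert_of_mem hq'))
    obtain ⟨hqP, hqSmin⟩ := hSig q (Finset.mem_insert_self q Sig')
    have hqp : q ≠ p := fun e => hqSmin (e ▸ hyp.hpSmin)
    have hqS : q ∉ (↑s.S : Set ℕ) := by
      rw [Finset.mem_coe, hLev.hS, Finset.mem_union]
      rintro (h | h)
      · exact hqSmin h
      · exact hqSig h
    have hqN : ¬ q ∣ s.N := fun h => hqS (Finset.mem_coe.mpr (hLev.dvd_mem q hqP h))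
    haveI : NeZero (s.N * q ^ 2) :=
      ⟨mul_ne_zero (NeZero.ne s.N) (pow_ne_zero 2 hqP.ne_zero)⟩
    obtain ⟨st, hGst⟩ := hGstep s hGs q hqP hqp hqN hqS
    haveI hI' : Fact (CuspForm.HasIntegralStructure (s.N * q ^ 2) 2) :=
      ⟨Fermat.Agent.S23.result (s.N * q ^ 2)⟩
    haveI := hI
    have hRT' := hSTEP 𝒪 p hp2 hp𝒪 fl ρbar Smin hyp hbar hnf Sig' s hLev hFrob x hx d hd hRT
      q hqP hqp hqN hqS st
    refine ⟨st.next, hI', x.comp st.rest, hGst, ?_, ?_, ?_, hRT'⟩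
    · exact levelHyp_next 𝒪 hpP hyp.hpSmin hyp.hS hLev hqP hqSmin hqN st.next rfl rfl
    · exact frobHyp_comp (N := s.N) (N' := s.N * q ^ 2) (S := s.S) (S' := insert q s.S) hFrob
        (Dvd.intro _ rfl) (Finset.subset_insert q s.S) st.rest st.rest_T
    · intro t
      exact hx (st.rest t)

end Base

/-! ### The wiring -/

/-- **WIRE of RT-NONMIN**: modularity lifting in the non-minimal case from the geometry
(`Stmt_NMGEOM`), the step (`Stmt_STEP`), the base (`Stmt_BASE`) and the inputs of the minimal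
case. -/
theorem mltnm_of (hNM : Stmt_NMGEOM) (hSTEP : Stmt_STEP) (hBASE : Stmt_BASE)
    (hCOND : Asm.Stmt_COND) (hDATUM : Fermat.Agent.S59.Datum.Stmt_DATUM)
    (hTWP : Stmt_TWprimes) (hASM : Asm.Stmt_ASM) : Stmt_MLTnm := by
  intro 𝒪 _ _ _ _ _ _ p _ hp2 hp𝒪 fl ρbar Smin hyp hbar hnf N _ hN θ hθ x₀ hx₀ Sig hSig ρ hρ
    hres a hfrob
  have hpP : p.Prime := Fact.out
  haveI hI : Fact (CuspForm.HasIntegralStructure N 2) := ⟨Fermat.Agent.S23.result N⟩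
  have hNS : ∀ q : ℕ, q.Prime → q ∣ N → q ∈ Smin := by
    intro q hq hqN
    rw [hN] at hqN
    exact Asm.H2.prime_dvd_minLevel hpP fl hyp.hS hyp.hpSmin hq hqN
  have hsqf : Squarefree N := by
    rw [hN]
    exact Asm.H2.squarefree_minLevel hpP fl hyp.hS
  obtain ⟨M, G, hMnt, hG, hG₀, hGstep⟩ := hNM 𝒪 p hp2 hp𝒪 ρbar Smin hyp N hNS hsqf θ hθ
  obtain ⟨d, hd, hRT₀⟩ := rtProp_base 𝒪 p hBASE hCOND hDATUM hTWP hASM hp2 hp𝒪 fl ρbar Smin hyp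
    hbar hnf N hN θ hθ x₀ hx₀ M hMnt hG
  obtain ⟨s, hIs, x, -, hLev, -, -, hRT⟩ := rtProp_of_step 𝒪 p hSTEP hp2 hp𝒪 fl ρbar Smin hyp
    hbar hnf G hGstep d hd (⟨N, Smin, θ, M⟩ : NMState 𝒪) hI x₀ hG₀
    (levelHyp_base 𝒪 hpP fl hyp.hS hyp.hpSmin hN θ M) hθ hx₀ hRT₀ Sig hSig
  haveI := hIs
  obtain ⟨-, D, H, φ, hφ, ηhat, πx, hHπ, hφbij, hφe, -, -, -, -⟩ := hRT
  have hmem : ∀ ℓ : ℕ, ℓ ∉ (↑s.S : Set ℕ) → ℓ ∉ Smin ∪ Sig := by
    intro ℓ hℓ h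
    apply hℓ
    rw [Finset.mem_coe, hLev.hS]
    exact h
  have hmem' : ∀ ℓ : ℕ, ℓ ∉ Smin ∪ Sig → ℓ ∉ (↑s.S : Set ℕ) := by
    intro ℓ hℓ h
    apply hℓ
    rw [Finset.mem_coe, hLev.hS] at h
    exact h
  obtain ⟨g, hg, hga⟩ := eigenform_of_RT D H φ hφbij.2 hφbij.1 hφ hφe ρ hρ hres a
    (fun ℓ hℓ hℓN hℓS A hA σ hσ => hfrob ℓ hℓ (hmem ℓ hℓS) A hA σ hσ)
  refine ⟨s.N, ?_, hLev.hcube, g, hg, fun ℓ hℓ hℓN hℓS => hga ℓ hℓ hℓN (hmem' ℓ hℓS)⟩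
  cases hfl : fl with
  | false => exact (hLev.hso hfl).2
  | true =>
    intro h
    exact hLev.hfl hfl ((dvd_pow_self p (by norm_num : (2 : ℕ) ≠ 0)).trans h)

end Fermat.Agent.S59.NonMin.H2
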