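import Mathlib
import Fermat.Agent.S59.NonMin.Defs2
import Fermat.Agent.S59.NonMin.H2_Wire
import Fermat.Agent.S59.Datum.Defs3
import Fermat.Agent.S59.Datum.H78_FlatDesc

/-!
# S59, package RT-NONMIN, case C: the wirings `WIREC`, `WIREall`, `RESFLAT` (helper2)

* `stmt_RESFLAT : Stmt_RESFLAT` (from `Datum.H78.stmt_FlatDesc`);
* `Stmt_RESORD` : the reduction of an ordinary representation is ordinary (the analogue of
  `Stmt_RESFLAT`; needed to feed `Stmt_NMGEOMC` and `Stmt_PSTEP`);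
* `wirec_of : Stmt_RESORD → Stmt_WIREC`;
* `stmt_WIREall : Stmt_WIREall`.
-/

set_option autoImplicit false
set_option linter.style.haveILetI false
set_option linter.unusedSectionVars false
set_option linter.unusedVariables false
set_option maxHeartbeats 1000000

open Polynomial CuspForm CongruenceSubgroup ModularFormClass IsLocalRing

namespace Fermat.Agent.S59.NonMin.H2

open Fermat.Agent.S59 Fermat.Agent.S59.Asm Fermat.Agent.S59.NonMin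

/-- **RESFLAT**. -/
theorem stmt_RESFLAT : Stmt_RESFLAT := by
  intro 𝒪 _ _ _ _ _ p hp ρbar ρ hres hflat
  exact Fermat.Agent.S59.Datum.H78.stmt_FlatDesc p hp.out (ResidueField 𝒪) ρbar 𝒪
    (ResidueField.map (algebraMap 𝒪 𝒪)) ρ hres hflat

/-- **RESORD**: the reduction of an ordinary representation is ordinary. -/
def Stmt_RESORD : Prop :=
  ∀ (𝒪 : Type) [CommRing 𝒪] [IsDomain 𝒪] [IsDiscreteValuationRing 𝒪]
    [IsAdicComplete (maximalIdeal 𝒪) 𝒪] [Finite (ResidueField 𝒪)]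
    (p : ℕ) [Fact p.Prime] (ρbar : ResidualGaloisRep (ResidueField 𝒪)) (ρ : GaloisRepAdic 𝒪),
    ρ.residual.IsEquiv (ρbar.baseChangeAlong (ResidueField.map (algebraMap 𝒪 𝒪))) →
    ρ.IsOrdinaryAt p → (GaloisRepAdic.ofResidualGaloisRep ρbar).IsOrdinaryAt p

/-- the level `N p` is cube-free and not divisible by `p²` -/
theorem level_mul_p {p N : ℕ} (hp : p.Prime) (hpN : ¬ p ∣ N)
    (hcube : ∀ q : ℕ, q.Prime → ¬ q ^ 3 ∣ N) :
    ¬ p ^ 2 ∣ N * p ∧ ∀ q : ℕ, q.Prime → ¬ q ^ 3 ∣ N * p := by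
  constructor
  · intro h
    apply hpN
    have h4 : p * p ∣ p * N := by
      rw [← pow_two, mul_comm p N]
      exact h
    exact (Nat.mul_dvd_mul_iff_left hp.pos).mp h4
  · intro q hq h
    by_cases hqp : q = p
    · rw [hqp] at h
      apply hpN
      have h4 : p * p ^ 2 ∣ p * N := by
        rw [← pow_succ', mul_comm p N]
        exact h
      exact (dvd_pow_self p (by norm_num : (2 : ℕ) ≠ 0)).trans
        ((Nat.mul_dvd_mul_iff_left hp.pos).mp h4)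
    · have hcop : Nat.Coprime (q ^ 3) p :=
        Nat.Coprime.pow_left 3 ((Nat.coprime_primes hq hp).mpr hqp)
      exact hcube q hq (hcop.dvd_of_dvd_mul_right h)

/-- **WIREC** from RESORD. -/
theorem wirec_of (hRESORD : Stmt_RESORD) : Stmt_WIREC := by
  intro hNMC hSTEP hBASE hPSTEP hCOND hDATUM hTWP hASM
  intro 𝒪 _ _ _ _ _ _ p _ hp2 hp𝒪 ρbar Smin hyp hbar N _ hN θ hθ x₀ hx₀ Sig hSig ρ hρ hres a
    hfrob
  have hpP : p.Prime := Fact.out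
  have hord : (GaloisRepAdic.ofResidualGaloisRep ρbar).IsOrdinaryAt p :=
    hRESORD 𝒪 p ρbar ρ hres hρ.1.2.1
  haveI hI : Fact (CuspForm.HasIntegralStructure N 2) := ⟨Fermat.Agent.S23.result N⟩
  have hNS : ∀ q : ℕ, q.Prime → q ∣ N → q ∈ Smin := by
    intro q hq hqN
    rw [hN] at hqN
    exact Asm.H2.prime_dvd_minLevel hpP true hyp.hS hyp.hpSmin hq hqN
  have hsqf : Squarefree N := by
    rw [hN]
    exact Asm.H2.squarefree_minLevel hpP true hyp.hS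
  have hpN : ¬ p ∣ N := by
    rw [hN]
    exact Asm.H2.not_dvd_minLevel_of_fl hpP hyp.hS
  have hnf : true = false → ¬ (GaloisRepAdic.ofResidualGaloisRep ρbar).IsFlatAt p :=
    fun h => absurd h (by decide)
  obtain ⟨M, G, hMnt, hG, hG₀, hGstep, hGp⟩ :=
    hNMC 𝒪 p hp2 hp𝒪 ρbar Smin hyp hord N hNS hsqf hpN θ hθ
  obtain ⟨d, hd, hRT₀⟩ := rtProp_base 𝒪 p hBASE hCOND hDATUM hTWP hASM hp2 hp𝒪 true ρbar Smin
    hyp hbar hnf N hN θ hθ x₀ hx₀ M hMnt hG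
  obtain ⟨s, hIs, x, hGs, hLev, hF, hx, hRT⟩ := rtProp_of_step 𝒪 p hSTEP hp2 hp𝒪 true ρbar Smin
    hyp hbar hnf G hGstep d hd (⟨N, Smin, θ, M⟩ : NMState 𝒪) hI x₀ hG₀
    (levelHyp_base 𝒪 hpP true hyp.hS hyp.hpSmin hN θ M) hθ hx₀ hRT₀ Sig hSig
  haveI := hIs
  have hpsN : ¬ p ∣ s.N := hLev.hfl rfl
  haveI : NeZero (s.N * p) := ⟨mul_ne_zero (NeZero.ne s.N) hpP.ne_zero⟩
  obtain ⟨st⟩ := hGp s hGs hpsN
  haveI hI' : Fact (CuspForm.HasIntegralStructure (s.N * p) 2) :=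
    ⟨Fermat.Agent.S23.result (s.N * p)⟩
  have hRTC := hPSTEP 𝒪 p hp2 hp𝒪 ρbar Smin hyp hbar hord Sig s hLev hF x hx d hd hRT st
  obtain ⟨-, D, H, φ, hφ, ηhat, πx, hHπ, hφbij, hφe, -, -, -, -⟩ := hRTC
  have hmem : ∀ ℓ : ℕ, ℓ ∉ (↑s.S : Set ℕ) → ℓ ∉ Smin ∪ Sig := by
    intro ℓ hℓ h
    apply hℓ
    rw [Finset.mem_coe, hLev.hS]
    exact h
  have hmem' : ∀ ℓ : ℕ, ℓ ∉ Smin ∪ Sig → ℓ ∉ (↑s.S : Set ℕ) := by
    intro ℓ hℓ h
    apply hℓ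
    rw [Finset.mem_coe, hLev.hS] at h
    exact h
  obtain ⟨g, hg, hga⟩ := eigenform_of_RT D H φ hφbij.2 hφbij.1 hφ hφe ρ hρ hres a
    (fun ℓ hℓ hℓN hℓS A hA σ hσ => hfrob ℓ hℓ (hmem ℓ hℓS) A hA σ hσ)
  obtain ⟨h1, h2⟩ := level_mul_p hpP hpsN hLev.hcube
  exact ⟨s.N * p, h1, h2, g, hg, fun ℓ hℓ hℓN hℓS => hga ℓ hℓ hℓN (hmem' ℓ hℓS)⟩

/-- **WIREall**: the three cases. -/
theorem stmt_WIREall : Stmt_WIREall := by
  intro hnm hc hRESFLAT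
  intro 𝒪 _ _ _ _ _ _ p _ hp2 hp𝒪 fl ρbar Smin hyp hbar hnf N _ hN θ hθ x₀ hx₀ Sig hSig ρ hdet
    hunr huni hSiguni htype hres a hfrob
  have hunr' : ∀ q : ℕ, q.Prime → q ∉ Smin ∪ Sig → ρ.IsUnramifiedAt q := by
    intro q hq hqS
    exact hunr q hq (fun h => hqS (Finset.mem_union_left _ h))
      (fun h => hqS (Finset.mem_union_right _ h))
  have huni' : ∀ q ∈ Smin, q.Prime → q ≠ p → ρ.IsUnipotentOnInertiaAt q :=
    fun q hq _ hqp => huni q hq hqp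
  have hfrob' : ∀ ℓ : ℕ, ℓ.Prime → ℓ ∉ Smin ∪ Sig →
      ∀ A : ValuationSubring (AlgebraicClosure ℚ), A.LiesOverPrime ℓ →
        ∀ σ : AlgebraicClosure ℚ ≃ₐ[ℚ] AlgebraicClosure ℚ, A.IsFrobeniusAt σ ℓ →
          LinearMap.charpoly (ρ.ρ σ) = X ^ 2 - C (((a ℓ : ℤ) : 𝒪)) * X + C ((ℓ : 𝒪)) := by
    intro ℓ hℓ hℓS
    exact hfrob ℓ hℓ (fun h => hℓS (Finset.mem_union_left _ h))
      (fun h => hℓS (Finset.mem_union_right _ h))
  have hfin : ∀ (X : ∃ N' : ℕ, ¬ p ^ 2 ∣ N' ∧ (∀ q : ℕ, q.Prime → ¬ q ^ 3 ∣ N') ∧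
      ∃ g : CuspForm (Gamma0 N') 2, g.IsNormalizedEigenform ∧
        ∀ ℓ : ℕ, ℓ.Prime → ¬ ℓ ∣ N' → ℓ ∉ Smin ∪ Sig → qCoeff ⇑g ℓ = (a ℓ : ℂ)),
      ∃ N' : ℕ, ¬ p ^ 2 ∣ N' ∧ (∀ q : ℕ, q.Prime → ¬ q ^ 3 ∣ N') ∧
      ∃ g : CuspForm (Gamma0 N') 2, g.IsNormalizedEigenform ∧
        ∀ ℓ : ℕ, ℓ.Prime → ℓ ∉ Smin → ℓ ∉ Sig → ¬ ℓ ∣ N' → qCoeff ⇑g ℓ = (a ℓ : ℂ) := by
    rintro ⟨N', h1, h2, g, hg, hga⟩
    refine ⟨N', h1, h2, g, hg, fun ℓ hℓ hℓS hℓSig hℓN => hga ℓ hℓ hℓN ?_⟩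
    intro h
    rcases Finset.mem_union.mp h with h | h
    · exact hℓS h
    · exact hℓSig h
  rcases htype with hflat | hso
  · cases fl with
    | false => exact absurd (hRESFLAT 𝒪 p ρbar ρ hres hflat) (hnf rfl)
    | true =>
      have hcond : cond 𝒪 p true Smin Sig ρ := ⟨⟨hdet, hflat, hunr'⟩, huni'⟩
      exact hfin (hnm 𝒪 p hp2 hp𝒪 true ρbar Smin hyp hbar hnf N hN θ hθ x₀ hx₀ Sig hSig ρ hcond
        hres a hfrob')
  · cases fl with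
    | false =>
      have hcond : cond 𝒪 p false Smin Sig ρ := ⟨⟨hdet, hso, hunr'⟩, huni'⟩
      exact hfin (hnm 𝒪 p hp2 hp𝒪 false ρbar Smin hyp hbar hnf N hN θ hθ x₀ hx₀ Sig hSig ρ
        hcond hres a hfrob')
    | true =>
      have hcond : condOrd 𝒪 p Smin Sig ρ := ⟨⟨hdet, hso.isOrdinaryAt, hunr'⟩, huni'⟩
      exact hfin (hc 𝒪 p hp2 hp𝒪 ρbar Smin hyp hbar N hN θ hθ x₀ hx₀ Sig hSig ρ hcond hres a
        hfrob')

end Fermat.Agent.S59.NonMin.H2
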