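import Mathlib
import Fermat.Agent.S59.NonMin.H2_WireC
import Fermat.Agent.R.H86_Point

/-!
# S59, package RT-NONMIN, case C: `RESORD` and the wiring `WIREC` (helper2)

* `residual_isOrdinaryAt` : an ordinary representation has ordinary reduction;
* `ofResidual_isOrdinaryAt_of_isEquiv` : ordinarity of residual representations is invariant
  under equivalence;
* `isOrdinaryAt_of_baseChange` : descent of ordinarity along a bijective change of coefficients;
* `stmt_RESORD : Stmt_RESORD`, `stmt_WIREC : Stmt_WIREC`.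
-/

set_option autoImplicit false
set_option linter.style.haveILetI false
set_option linter.unusedSectionVars false
set_option linter.unusedVariables false
set_option maxHeartbeats 1000000

open Polynomial IsLocalRing
open scoped TensorProduct

namespace Fermat.Agent.S59.NonMin.H2

open Fermat.Agent.S59 Fermat.Agent.S59.Asm Fermat.Agent.S59.NonMin Fermat.Agent.R.H86

/-- Ordinarity at `P` of a family of endomorphisms of a module. -/
def OrdLine {A V : Type} [CommRing A] [AddCommGroup V] [Module A V]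
    (r : (AlgebraicClosure ℚ ≃ₐ[ℚ] AlgebraicClosure ℚ) → Module.End A V)
    (P : ValuationSubring (AlgebraicClosure ℚ)) : Prop :=
  ∃ L : Submodule A V,
    (∃ b : Module.Basis (Fin 2) A V, L = A ∙ b 0) ∧
    (∀ σ ∈ P.decompositionSubgroup ℚ, ∀ v ∈ L, r σ v ∈ L) ∧
    (∀ σ ∈ P.inertiaSubgroupIn ℚ, ∀ v : V, r σ v - v ∈ L)

lemma isOrdinaryAt_iff_ordLine {A : Type} [CommRing A] [IsLocalRing A] (ρ : GaloisRepAdic A)
    (p : ℕ) :
    ρ.IsOrdinaryAt p ↔ ∀ P : ValuationSubring (AlgebraicClosure ℚ), P.LiesOverPrime p →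
      OrdLine (fun σ => ρ.ρ σ) P :=
  Iff.rfl

lemma ofResidual_isOrdinaryAt_iff {k : Type} [Field k] (ρ : ResidualGaloisRep k) (p : ℕ) :
    (GaloisRepAdic.ofResidualGaloisRep ρ).IsOrdinaryAt p ↔
      ∀ P : ValuationSubring (AlgebraicClosure ℚ), P.LiesOverPrime p →
        OrdLine (fun σ => ρ.ρ σ) P :=
  Iff.rfl

lemma ofResidual_baseChange_isOrdinaryAt_iff {k k' : Type} [Field k] [Field k'] [Algebra k k']
    (ρ : ResidualGaloisRep k) (p : ℕ) :
    (GaloisRepAdic.ofResidualGaloisRep (ρ.baseChange k')).IsOrdinaryAt p ↔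
      ∀ P : ValuationSubring (AlgebraicClosure ℚ), P.LiesOverPrime p →
        OrdLine (A := k') (V := k' ⊗[k] ρ.V) (fun σ => (ρ.ρ σ).baseChange k') P :=
  Iff.rfl

/-- An ordinary representation has ordinary reduction. -/
theorem residual_isOrdinaryAt {A : Type} [CommRing A] [IsLocalRing A] (ρ : GaloisRepAdic A)
    (p : ℕ) (h : ρ.IsOrdinaryAt p) :
    (GaloisRepAdic.ofResidualGaloisRep ρ.residual).IsOrdinaryAt p := by
  rw [residual_isOrdinaryAt_iff]
  intro P hP
  obtain ⟨L, ⟨b, rfl⟩, hD, hI⟩ := h P hP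
  refine resOrdLine_of_resOrdAt _ P b ⟨?_, ?_⟩
  · intro τ hτ
    have h1 := hD τ hτ (b 0) (Submodule.mem_span_singleton_self _)
    rw [mem_span_basis_zero_iff] at h1
    rw [h1]
    exact zero_mem _
  · intro σ hσ v
    have h1 := hI σ hσ v
    rw [mem_span_basis_zero_iff] at h1
    rw [h1]
    exact zero_mem _

/-- Transfer of `OrdLine` along an intertwining linear equivalence. -/
theorem ordLine_of_equiv {A V W : Type} [CommRing A] [AddCommGroup V] [Module A V]
    [AddCommGroup W] [Module A W]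
    (r : (AlgebraicClosure ℚ ≃ₐ[ℚ] AlgebraicClosure ℚ) → Module.End A V)
    (r' : (AlgebraicClosure ℚ ≃ₐ[ℚ] AlgebraicClosure ℚ) → Module.End A W)
    (e : V ≃ₗ[A] W) (he : ∀ σ x, e (r σ x) = r' σ (e x))
    (P : ValuationSubring (AlgebraicClosure ℚ)) (h : OrdLine r P) : OrdLine r' P := by
  obtain ⟨L, ⟨b, hb⟩, hD, hI⟩ := h
  refine ⟨L.map (e : V →ₗ[A] W), ⟨b.map e, ?_⟩, ?_, ?_⟩
  · rw [hb, Submodule.map_span, Set.image_singleton]
    rfl
  · intro σ hσ v hv
    obtain ⟨w, hw, rfl⟩ := hv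
    refine ⟨r σ w, hD σ hσ w hw, ?_⟩
    exact he σ w
  · intro σ hσ v
    obtain ⟨w, rfl⟩ := e.surjective v
    refine ⟨r σ w - w, hI σ hσ w, ?_⟩
    change e (r σ w - w) = _
    rw [map_sub, he]

/-- Ordinarity of residual representations is invariant under equivalence. -/
theorem ofResidual_isOrdinaryAt_of_isEquiv {k : Type} [Field k] {ρ₁ ρ₂ : ResidualGaloisRep k}
    (he : ρ₁.IsEquiv ρ₂) (p : ℕ)
    (h : (GaloisRepAdic.ofResidualGaloisRep ρ₁).IsOrdinaryAt p) :
    (GaloisRepAdic.ofResidualGaloisRep ρ₂).IsOrdinaryAt p := by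
  obtain ⟨e⟩ := he
  rw [ofResidual_isOrdinaryAt_iff] at h ⊢
  intro P hP
  exact ordLine_of_equiv _ _ e.toLinearEquiv (fun σ x => e.map_apply σ x) P (h P hP)

/-- Descent of `OrdLine` along a bijective change of coefficients. -/
theorem ordLine_of_baseChange {k k' V : Type} [Field k] [Field k'] [Algebra k k']
    [AddCommGroup V] [Module k V]
    (hφ : Function.Surjective (algebraMap k k'))
    (r : (AlgebraicClosure ℚ ≃ₐ[ℚ] AlgebraicClosure ℚ) → Module.End k V)
    (P : ValuationSubring (AlgebraicClosure ℚ))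
    (h : OrdLine (A := k') (V := k' ⊗[k] V) (fun σ => (r σ).baseChange k') P) :
    OrdLine r P := by
  have hbij : Function.Bijective (algebraMap k k') := ⟨(algebraMap k k').injective, hφ⟩
  let f : k ≃+* k' := RingEquiv.ofBijective (algebraMap k k') hbij
  have hf : ∀ c : k, f c = algebraMap k k' c := fun c => rfl
  let a : k ≃ₗ[k] k' := LinearEquiv.ofBijective (Algebra.linearMap k k') hbij
  have ha : ∀ c : k, a c = algebraMap k k' c := fun c => rfl
  let e : V ≃ₗ[k] k' ⊗[k] V :=
    (TensorProduct.lid k V).symm ≪≫ₗ TensorProduct.congr a (LinearEquiv.refl k V)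
  have he : ∀ v, e v = (1 : k') ⊗ₜ[k] v := by
    intro v
    show TensorProduct.congr a (LinearEquiv.refl k V)
      ((TensorProduct.lid k V).symm v) = _
    rw [TensorProduct.lid_symm_apply, TensorProduct.congr_tmul, ha, map_one]
    rfl
  have hsm : ∀ (c : k') (x : k' ⊗[k] V), f.symm c • x = c • x := by
    intro c x
    rw [algebra_compatible_smul k' (f.symm c) x, ← hf, f.apply_symm_apply]
  have heρ : ∀ (σ : AlgebraicClosure ℚ ≃ₐ[ℚ] AlgebraicClosure ℚ) (v : V),
      e (r σ v) = (r σ).baseChange k' (e v) := by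
    intro σ v
    rw [he, he, LinearMap.baseChange_tmul]
  obtain ⟨L', ⟨b', hb'⟩, hD, hI⟩ := h
  let bk : Module.Basis (Fin 2) k (k' ⊗[k] V) := b'.mapCoeffs f.symm hsm
  let b : Module.Basis (Fin 2) k V := bk.map e.symm
  have hb0 : b 0 = e.symm (b' 0) := by
    show (bk.map e.symm) 0 = _
    rw [Module.Basis.map_apply]
    show e.symm ((b'.mapCoeffs f.symm hsm) 0) = _
    rw [Module.Basis.mapCoeffs_apply]
  have hmemL : ∀ v : V, e v ∈ L' ↔ v ∈ Submodule.span k {b 0} := by
    intro v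
    rw [hb', Submodule.mem_span_singleton, Submodule.mem_span_singleton, hb0]
    constructor
    · rintro ⟨c', hc'⟩
      refine ⟨f.symm c', ?_⟩
      rw [← map_smul, hsm, hc', LinearEquiv.symm_apply_apply]
    · rintro ⟨c, hc⟩
      refine ⟨f c, ?_⟩
      rw [← hc, map_smul, LinearEquiv.apply_symm_apply, hf, ← algebra_compatible_smul]
  refine ⟨Submodule.span k {b 0}, ⟨b, rfl⟩, ?_, ?_⟩
  · intro σ hσ v hv
    rw [← hmemL] at hv ⊢
    have h1 := hD σ hσ (e v) hv
    rw [heρ]
    exact h1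
  · intro σ hσ v
    rw [← hmemL]
    have h1 := hI σ hσ (e v)
    rw [map_sub, heρ]
    exact h1

/-- Descent of ordinarity along a surjective `φ`. -/
theorem isOrdinaryAt_of_baseChangeAlong {k k' : Type} [Field k] [Field k'] (φ : k →+* k')
    (hφ : Function.Surjective φ) (ρbar : ResidualGaloisRep k) (p : ℕ)
    (h : (GaloisRepAdic.ofResidualGaloisRep (ρbar.baseChangeAlong φ)).IsOrdinaryAt p) :
    (GaloisRepAdic.ofResidualGaloisRep ρbar).IsOrdinaryAt p := by
  letI : Algebra k k' := φ.toAlgebra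
  have h' : (GaloisRepAdic.ofResidualGaloisRep (ρbar.baseChange k')).IsOrdinaryAt p := h
  rw [ofResidual_baseChange_isOrdinaryAt_iff] at h'
  rw [ofResidual_isOrdinaryAt_iff]
  intro P hP
  exact ordLine_of_baseChange (k' := k') hφ _ P (h' P hP)

/-- **RESORD**: the reduction of an ordinary representation is ordinary. -/
theorem stmt_RESORD : Stmt_RESORD := by
  intro 𝒪 _ _ _ _ _ p hp ρbar ρ hres hord
  have h1 := residual_isOrdinaryAt ρ p hord
  have h2 := ofResidual_isOrdinaryAt_of_isEquiv hres p h1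
  refine isOrdinaryAt_of_baseChangeAlong (ResidueField.map (algebraMap 𝒪 𝒪)) ?_ ρbar p h2
  intro y
  obtain ⟨x, rfl⟩ := IsLocalRing.residue_surjective y
  exact ⟨residue 𝒪 x, rfl⟩

/-- **WIREC**. -/
theorem stmt_WIREC : Stmt_WIREC := wirec_of stmt_RESORD

end Fermat.Agent.S59.NonMin.H2
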