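import Fermat.Agent.S59.NonMin.H90_StepCore
import Fermat.Agent.S59.Asm.H77_MainCompat
import Fermat.Agent.S59.Asm.H77_MainDelta
import Fermat.Agent.S58.H99_Plumb

/-!
# S59, RT-NONMIN, leaf STEP (helper90): auxiliary lemmas

* `intertwine_of_gen_left` : extension from generators of `α (ηhat (res t) v) = ηhat' t (α v)`.
* `map_trace_of_isEquiv`  : the image of the trace under a classifying map, from the
                            characteristic polynomial of the target.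
* `compat_of_bijective`   : `res ∘ φ' = φ ∘ τ` when `φ` is bijective (uniqueness in the universal
                            property of `D'` with target `D.R`).
-/

set_option autoImplicit false
set_option linter.unusedSectionVars false
set_option linter.unusedVariables false
set_option linter.style.haveILetI false

open Polynomial IsLocalRing

namespace Fermat.Agent.S59.NonMin.H90

open Fermat.Agent.S59 Fermat.Agent.S59.Asm

section Ext

variable {𝒪 T T' : Type} [CommRing 𝒪] [CommRing T] [Algebra 𝒪 T] [CommRing T'] [Algebra 𝒪 T']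
  {V V' : Type} [AddCommGroup V] [Module 𝒪 V] [AddCommGroup V'] [Module 𝒪 V']
  {ι : Type} {g : ι → T'} (hadj : Algebra.adjoin 𝒪 (Set.range g) = ⊤)
  (ηhat : T →ₐ[𝒪] Module.End 𝒪 V) (ηhat' : T' →ₐ[𝒪] Module.End 𝒪 V') (res : T' →ₐ[𝒪] T)

include hadj

theorem intertwine_of_gen_left (α : V →ₗ[𝒪] V')
    (h : ∀ i v, α (ηhat (res (g i)) v) = ηhat' (g i) (α v)) (t : T') :
    ∀ v, α (ηhat (res t) v) = ηhat' t (α v) := by
  refine adjoin_top_induction (𝒪 := 𝒪)
    (P := fun t => ∀ v, α (ηhat (res t) v) = ηhat' t (α v)) hadj ?_ ?_ ?_ ?_ t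
  · rintro _ ⟨i, rfl⟩
    exact h i
  · intro a v
    rw [AlgHom.commutes, AlgHom.commutes, AlgHom.commutes, Module.algebraMap_end_apply,
      Module.algebraMap_end_apply, map_smul]
  · intro x y hx hy v
    rw [map_add, map_add, LinearMap.add_apply, map_add, hx, hy, map_add, LinearMap.add_apply]
  · intro x y hx hy v
    rw [map_mul, map_mul, Module.End.mul_apply, hx, hy, map_mul, Module.End.mul_apply]

theorem intertwine_of_gen_right (α' : V' →ₗ[𝒪] V)
    (h : ∀ i w, α' (ηhat' (g i) w) = ηhat (res (g i)) (α' w)) (t : T') :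
    ∀ w, α' (ηhat' t w) = ηhat (res t) (α' w) := by
  refine adjoin_top_induction (𝒪 := 𝒪)
    (P := fun t => ∀ w, α' (ηhat' t w) = ηhat (res t) (α' w)) hadj ?_ ?_ ?_ ?_ t
  · rintro _ ⟨i, rfl⟩
    exact h i
  · intro a v
    rw [AlgHom.commutes, AlgHom.commutes, AlgHom.commutes, Module.algebraMap_end_apply,
      Module.algebraMap_end_apply, map_smul]
  · intro x y hx hy v
    rw [map_add, LinearMap.add_apply, map_add, hx, hy, map_add, map_add, LinearMap.add_apply]
  · intro x y hx hy v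
    rw [map_mul, Module.End.mul_apply, hx, hy, map_mul, map_mul, Module.End.mul_apply]

end Ext

/-- The image of the trace of `ρ(σ)` under `f`, when the base change along `f` is equivalent to
`ρ'` and `ρ'(σ)` has characteristic polynomial `X² - t X + d`. -/
theorem map_trace_of_isEquiv {A B : Type} [CommRing A] [IsLocalRing A] [CommRing B]
    [IsLocalRing B] (f : A →+* B) (hf : IsLocalHom f) (ρ : GaloisRepAdic A)
    (ρ' : GaloisRepAdic B) (he : (ρ.baseChangeAlong f hf).IsEquiv ρ') (σ : GalQ) {t d : B}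
    (h : LinearMap.charpoly (ρ'.ρ σ) = X ^ 2 - C t * X + C d) :
    f (ρ.trace σ) = t := by
  have h1 : (LinearMap.charpoly (ρ.ρ σ)).map f = X ^ 2 - C t * X + C d := by
    rw [← charpoly_bcAlong f hf ρ σ, charpoly_of_isEquiv he σ, h]
  rw [Fermat.Agent.R.H91.charpoly_eq_of_finrank_two ρ.finrank_eq] at h1
  have h2 := congrArg (fun q : B[X] => q.coeff 1) h1
  simp only [Polynomial.map_add, Polynomial.map_sub, Polynomial.map_mul, Polynomial.map_pow,
    Polynomial.map_X, Polynomial.map_C, coeff_add, coeff_sub, coeff_X_pow, coeff_C_mul,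
    coeff_X_one, coeff_C, mul_one] at h2
  norm_num at h2
  exact h2

/-- **COMPAT for a bijective `φ`**: `res ∘ φ' = φ ∘ τ`, by the uniqueness in the universal
property of `D'` with target `D.R` (no condition on the representation over `T` is needed). -/
theorem compat_of_bijective {𝒪 : Type} [CommRing 𝒪] [IsDomain 𝒪] [IsDiscreteValuationRing 𝒪]
    [IsAdicComplete (maximalIdeal 𝒪) 𝒪]
    (ρbar : ResidualGaloisRep (ResidueField 𝒪))
    (𝒟 𝒟' : ∀ ⦃A : Type⦄ [CommRing A] [IsLocalRing A] [Algebra 𝒪 A], GaloisRepAdic A → Prop)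
    (D : GaloisRep.DeformationRingData 𝒪 ρbar 𝒟)
    (D' : GaloisRep.DeformationRingData 𝒪 ρbar 𝒟')
    (hmono : 𝒟' D.ρ)
    {T : Type} [CommRing T] [IsLocalRing T] [Algebra 𝒪 T] [IsLocalHom (algebraMap 𝒪 T)]
    {T' : Type} [CommRing T'] [IsLocalRing T'] [Algebra 𝒪 T'] [Module.Finite 𝒪 T']
    [IsLocalHom (algebraMap 𝒪 T')]
    (ρT : GaloisRepAdic T) (ρT' : GaloisRepAdic T')
    (τ : D'.R →ₐ[𝒪] D.R) (hτl : IsLocalHom (τ : D'.R →+* D.R))
    (hτe : (D'.ρ.baseChangeAlong (τ : D'.R →+* D.R) hτl).IsEquiv D.ρ)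
    (φ : D.R →ₐ[𝒪] T) (hφb : Function.Bijective φ) (hφ : IsLocalHom (φ : D.R →+* T))
    (hφe : (D.ρ.baseChangeAlong (φ : D.R →+* T) hφ).IsEquiv ρT)
    (φ' : D'.R →ₐ[𝒪] T') (hφ' : IsLocalHom (φ' : D'.R →+* T'))
    (hφ'e : (D'.ρ.baseChangeAlong (φ' : D'.R →+* T') hφ').IsEquiv ρT')
    (res : T' →ₐ[𝒪] T) (S' : Finset ℕ)
    (hfrob : ∀ ℓ : ℕ, ℓ.Prime → ℓ ∉ S' → ∀ B : ValuationSubring (AlgebraicClosure ℚ),
      B.LiesOverPrime ℓ → ∀ σ : GalQ, B.IsFrobeniusAt σ ℓ →
        (LinearMap.charpoly (ρT'.ρ σ)).map (res : T' →+* T) = LinearMap.charpoly (ρT.ρ σ)) :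
    res.comp φ' = φ.comp τ := by
  let e : D.R ≃ₐ[𝒪] T := AlgEquiv.ofBijective φ hφb
  let ψ : T →ₐ[𝒪] D.R := (e.symm : T →ₐ[𝒪] D.R)
  have hφψ : ∀ y : T, φ (ψ y) = y := fun y => e.apply_symm_apply y
  have hψφ : ∀ y : D.R, ψ (φ y) = y := fun y => e.symm_apply_apply y
  have hψl : IsLocalHom (ψ : T →+* D.R) := by
    constructor
    intro y hy
    have h1 : IsUnit ((φ : D.R →+* T) ((ψ : T →+* D.R) y)) := hy.map (φ : D.R →+* T)
    have h2 : (φ : D.R →+* T) ((ψ : T →+* D.R) y) = y := hφψ y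
    rw [h2] at h1
    exact h1
  have hresl : IsLocalHom (res : T' →+* T) := isLocalHom_of_finite (𝒪 := 𝒪) res
  have h₀ : IsLocalHom ((res.comp φ' : D'.R →ₐ[𝒪] T) : D'.R →+* T) :=
    H77.isLocalHom_comp_algHom res φ' hresl hφ'
  have h₁ : IsLocalHom ((ψ.comp (res.comp φ') : D'.R →ₐ[𝒪] D.R) : D'.R →+* D.R) :=
    H77.isLocalHom_comp_algHom ψ (res.comp φ') hψl h₀
  have key : ψ.comp (res.comp φ') = τ := by
    refine H57.stmt_COMPAT 𝒪 ρbar 𝒟' D' D.R D.residue_surjective D.ρ hmono D.residual_isEquiv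
      (ψ.comp (res.comp φ')) τ h₁ hτl S' ?_ hτe
    intro ℓ hℓ hℓS B hB σ hσ
    have h1 : (LinearMap.charpoly (D'.ρ.ρ σ)).map (φ' : D'.R →+* T')
        = LinearMap.charpoly (ρT'.ρ σ) := by
      rw [← charpoly_bcAlong (φ' : D'.R →+* T') hφ' D'.ρ σ, charpoly_of_isEquiv hφ'e σ]
    have h2 : (LinearMap.charpoly (D.ρ.ρ σ)).map (φ : D.R →+* T)
        = LinearMap.charpoly (ρT.ρ σ) := by
      rw [← charpoly_bcAlong (φ : D.R →+* T) hφ D.ρ σ, charpoly_of_isEquiv hφe σ]
    have h3 : ((ψ.comp (res.comp φ') : D'.R →ₐ[𝒪] D.R) : D'.R →+* D.R)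
        = ((ψ : T →+* D.R).comp (res : T' →+* T)).comp (φ' : D'.R →+* T') := rfl
    have h4 : (ψ : T →+* D.R).comp (φ : D.R →+* T) = RingHom.id D.R :=
      RingHom.ext fun y => hψφ y
    rw [charpoly_bcAlong, h3, ← Polynomial.map_map, h1, ← Polynomial.map_map,
      hfrob ℓ hℓ hℓS B hB σ hσ, ← h2, Polynomial.map_map, h4, Polynomial.map_id]
  refine AlgHom.ext fun y => ?_
  have h5 : ψ (res (φ' y)) = τ y := congrArg (fun f : D'.R →ₐ[𝒪] D.R => f y) key
  show res (φ' y) = φ (τ y)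
  rw [← h5, hφψ]

end Fermat.Agent.S59.NonMin.H90
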