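import Fermat.Agent.S59.NonMin.H90_StepCore

/-!
# S59, RT-NONMIN, leaf STEP (helper90): eigenspaces

* `level_facts`                   : arithmetic of the level `N q²`.
* `torsP_eq_eigen`                : `V[𝔭] = M[x]` (the eigenspace of a state).
* `finrank_eigen_le_of_injective` : an injective equivariant map does not decrease the rank of
                                    the eigenspaces.
* `comp_eq_smul_of_mem_torsP`     : `α' (α v) = (u · x (c_q)) • v` on `V[𝔭]`.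
-/

set_option autoImplicit false
set_option linter.unusedSectionVars false
set_option linter.unusedVariables false
set_option linter.style.haveILetI false

open Polynomial CuspForm IsLocalRing

namespace Fermat.Agent.S59.NonMin.H90

open Fermat.Agent.S59 Fermat.Agent.S59.Asm

/-- arithmetic of the level `N q²` -/
theorem level_facts {N q : ℕ} (hq : q.Prime) :
    (∀ q' : ℕ, q'.Prime → q' ∣ N * q ^ 2 → q' ∣ N ∨ q' = q) ∧
    (∀ q' : ℕ, q'.Prime → q' ≠ q → q' ^ 2 ∣ N * q ^ 2 → q' ^ 2 ∣ N) := by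
  refine ⟨fun q' hq' h => ?_, fun q' hq' hne h => ?_⟩
  · rcases (Nat.Prime.dvd_mul hq').mp h with h1 | h1
    · exact Or.inl h1
    · exact Or.inr ((Nat.prime_dvd_prime_iff_eq hq' hq).mp (hq'.dvd_of_dvd_pow h1))
  · have hc : Nat.Coprime (q' ^ 2) (q ^ 2) :=
      Nat.Coprime.pow 2 2 ((Nat.coprime_primes hq' hq).mpr hne)
    exact hc.dvd_of_dvd_mul_right h

section eigen

variable {𝒪 : Type} [CommRing 𝒪] [IsDomain 𝒪] [IsDiscreteValuationRing 𝒪]
  [IsAdicComplete (maximalIdeal 𝒪) 𝒪]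

/-- `V[𝔭]` is the eigenspace of the character. -/
theorem torsP_eq_eigen (s : NMState 𝒪)
    (x : CuspForm.heckeAlgebra s.N 2 (↑s.S : Set ℕ) →+* 𝒪)
    (ηhat : CuspForm.heckeLocal s.N (↑s.S : Set ℕ) 𝒪 s.θ →ₐ[𝒪] Module.End 𝒪 s.M.V)
    (πx : CuspForm.heckeLocal s.N (↑s.S : Set ℕ) 𝒪 s.θ →ₐ[𝒪] 𝒪)
    (hadj : Algebra.adjoin 𝒪 (Set.range (CuspForm.heckeLocal.π s.N (↑s.S : Set ℕ) 𝒪 s.θ)) = ⊤)
    (hηhat : ∀ t, ηhat (CuspForm.heckeLocal.π s.N (↑s.S : Set ℕ) 𝒪 s.θ t) = s.M.η t)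
    (hπx : ∀ t, πx (CuspForm.heckeLocal.π s.N (↑s.S : Set ℕ) 𝒪 s.θ t) = x t) :
    torsP ηhat πx = s.eigen x := by
  ext v
  rw [mem_torsP_iff_of_adjoin hadj, NMState.mem_eigen]
  constructor
  · intro h t
    rw [← hηhat, ← hπx]
    exact h t
  · intro h t
    rw [hηhat, hπx]
    exact h t

/-- an injective Hecke-equivariant map does not decrease the rank of the eigenspaces -/
theorem finrank_eigen_le_of_injective (s s' : NMState 𝒪)
    (rest : CuspForm.heckeAlgebra s'.N 2 (↑s'.S : Set ℕ) →+*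
      CuspForm.heckeAlgebra s.N 2 (↑s.S : Set ℕ))
    (x : CuspForm.heckeAlgebra s.N 2 (↑s.S : Set ℕ) →+* 𝒪)
    (α : s.M.V →ₗ[𝒪] s'.M.V) (hα : ∀ t v, α (s.M.η (rest t) v) = s'.M.η t (α v))
    (hinj : Function.Injective α) :
    Module.finrank 𝒪 (s.eigen x) ≤ Module.finrank 𝒪 (s'.eigen (x.comp rest)) := by
  have hmaps : ∀ v ∈ s.eigen x, α v ∈ s'.eigen (x.comp rest) := by
    intro v hv
    rw [NMState.mem_eigen] at hv ⊢
    intro t
    show s'.M.η t (α v) = x (rest t) • α v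
    rw [← hα t v, hv (rest t), map_smul]
  refine LinearMap.finrank_le_finrank_of_injective (f := α.restrict hmaps) ?_
  intro a b hab
  apply Subtype.ext
  apply hinj
  exact congrArg Subtype.val hab

/-- the value of a character on `c_q` -/
theorem map_cq (N : ℕ) [NeZero N] (S : Set ℕ) {q : ℕ} (hq : q.Prime) (hqN : ¬ q ∣ N)
    (hqS : q ∉ S) (x : CuspForm.heckeAlgebra N 2 S →+* 𝒪) :
    x (cq N S hq hqN hqS)
      = ((q : 𝒪) - 1) * (x (CuspForm.heckeAlgebra.T hq hqN hqS) ^ 2 - ((q : 𝒪) + 1) ^ 2) := by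
  unfold cq
  rw [map_mul, map_sub, map_sub, map_pow, map_pow, map_add, map_natCast, map_one]

/-- `α' ∘ α` is the scalar `u · x (c_q)` on the eigenspace of `x`. -/
theorem comp_eq_smul_of_mem_eigen (s : NMState 𝒪) {q : ℕ} (hq : q.Prime) (hqN : ¬ q ∣ s.N)
    (hqS : q ∉ (↑s.S : Set ℕ)) [NeZero (s.N * q ^ 2)] (st : NMStep s hq hqN hqS)
    (x : CuspForm.heckeAlgebra s.N 2 (↑s.S : Set ℕ) →+* 𝒪) (v : s.M.V) (hv : v ∈ s.eigen x) :
    st.α' (st.α v) = ((st.u : 𝒪) * (((q : 𝒪) - 1) *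
      (x (CuspForm.heckeAlgebra.T hq hqN hqS) ^ 2 - ((q : 𝒪) + 1) ^ 2))) • v := by
  rw [NMState.mem_eigen] at hv
  rw [st.comp v, hv, map_cq, smul_smul]

end eigen

end Fermat.Agent.S59.NonMin.H90
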