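import Fermat.Agent.S59.NonMin.Defs
import Fermat.Agent.S59.Datum.H85_Ring
import Fermat.Agent.R.H2_SepTCore
import Fermat.Agent.R.H58_HeckeReduced
import Fermat.Agent.S22

/-!
# S59, package RT-NONMIN, leaf ETANE (helper92): the congruence ideal is nonzero

* `eta_ne_bot` : GENERAL.  `A` a reduced noetherian ring, integral over a domain `𝒪`,
  `π : A → 𝒪` an augmentation.  Then `η = π (Ann (ker π)) ≠ 0`.
  [`𝔭 = ker π` is a minimal prime (incomparability); `J` := the intersection of the other minimal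
  primes; `𝔭 ∩ J = nilradical = 0`, so `J ⊆ Ann 𝔭`; `J ⊄ 𝔭` since `𝔭` is prime and minimal.]
* `stmt_ETANE : Stmt_ETANE` : the full local Hecke ring is reduced
  (`R.H58.stmt_HeckeReduced`, `R.H2.isReduced_of_flat_of_adjoin_eq_top`, `Datum.H85.stmt_Ring`).
-/

set_option autoImplicit false
set_option linter.unusedSectionVars false
set_option linter.style.haveILetI false
set_option linter.unusedVariables false

namespace Fermat.Agent.S59.NonMin.H92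

open IsLocalRing

section General

variable {𝒪 A : Type} [CommRing 𝒪] [IsDomain 𝒪] [CommRing A] [Algebra 𝒪 A]

/-- The kernel of an augmentation lies over `0`. -/
theorem comap_ker_aug (π : A →ₐ[𝒪] 𝒪) :
    (RingHom.ker (π : A →+* 𝒪)).comap (algebraMap 𝒪 A) = ⊥ := by
  rw [eq_bot_iff]
  intro a ha
  rw [Ideal.mem_comap, RingHom.mem_ker] at ha
  have h1 : (π : A →+* 𝒪) (algebraMap 𝒪 A a) = a := by
    show π (algebraMap 𝒪 A a) = a
    rw [π.commutes]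
    rfl
  rw [h1] at ha
  exact ha

/-- The kernel of an augmentation of an integral algebra is a minimal prime. -/
theorem ker_aug_le_of_le [Algebra.IsIntegral 𝒪 A] (π : A →ₐ[𝒪] 𝒪) (𝔮 : Ideal A) [𝔮.IsPrime]
    (h : 𝔮 ≤ RingHom.ker (π : A →+* 𝒪)) : RingHom.ker (π : A →+* 𝒪) ≤ 𝔮 := by
  by_contra hne
  obtain ⟨x, hx, hxq⟩ := SetLike.not_le_iff_exists.mp hne
  have h1 := Ideal.comap_lt_comap_of_integral_mem_sdiff (R := 𝒪) h
    (show x ∈ ((RingHom.ker (π : A →+* 𝒪) : Ideal A) : Set A) \ (𝔮 : Set A) from ⟨hx, hxq⟩)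
    (Algebra.IsIntegral.isIntegral x)
  rw [comap_ker_aug π] at h1
  exact not_lt_bot h1

/-- **The congruence ideal of an augmentation of a reduced noetherian integral algebra is
nonzero.** -/
theorem eta_ne_bot [IsNoetherianRing A] [IsReduced A] [Algebra.IsIntegral 𝒪 A]
    (π : A →ₐ[𝒪] 𝒪) : Fermat.Agent.S59.NumCrit.eta π ≠ ⊥ := by
  classical
  set 𝔭 : Ideal A := RingHom.ker (π : A →+* 𝒪) with h𝔭
  haveI hprime : 𝔭.IsPrime := RingHom.ker_isPrime _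
  have hfin : (minimalPrimes A).Finite := minimalPrimes.finite_of_isNoetherianRing A
  have hmin : 𝔭 ∈ minimalPrimes A := by
    refine ⟨⟨hprime, bot_le⟩, fun 𝔮 h𝔮 hle => ?_⟩
    haveI := h𝔮.1
    exact ker_aug_le_of_le π 𝔮 hle
  let s : Finset (Ideal A) := hfin.toFinset.erase 𝔭
  let J : Ideal A := s.inf id
  have hJ : 𝔭 ⊓ J = ⊥ := by
    have h1 : 𝔭 ⊓ J = (insert 𝔭 s).inf id := by
      rw [Finset.inf_insert]
      rfl
    have h2 : insert 𝔭 s = hfin.toFinset :=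
      Finset.insert_erase (hfin.mem_toFinset.mpr hmin)
    rw [h1, h2, Finset.inf_id_eq_sInf, Set.Finite.coe_toFinset]
    have h3 : sInf (minimalPrimes A) = (⊥ : Ideal A).radical := Ideal.sInf_minimalPrimes
    rw [h3]
    exact Ideal.radical_bot_of_isReduced
  have hJann : J ≤ (𝔭 : Ideal A).annihilator := by
    intro x hx
    rw [Submodule.mem_annihilator]
    intro y hy
    have h1 : x * y ∈ 𝔭 ⊓ J :=
      ⟨Ideal.mul_mem_left _ x hy, Ideal.mul_mem_right y _ hx⟩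
    rw [hJ] at h1
    exact h1
  have hJp : ¬ J ≤ 𝔭 := by
    intro hle
    obtain ⟨𝔮, h𝔮s, h𝔮p⟩ := (Ideal.IsPrime.inf_le' hprime).mp hle
    have h𝔮min : 𝔮 ∈ minimalPrimes A := hfin.mem_toFinset.mp (Finset.mem_of_mem_erase h𝔮s)
    have h𝔮ne : 𝔮 ≠ 𝔭 := Finset.ne_of_mem_erase h𝔮s
    haveI := h𝔮min.1.1
    exact h𝔮ne (le_antisymm h𝔮p (ker_aug_le_of_le π 𝔮 h𝔮p))
  obtain ⟨x, hxJ, hxp⟩ := SetLike.not_le_iff_exists.mp hJp
  intro hbot
  have h1 : (π : A →+* 𝒪) x ∈ Fermat.Agent.S59.NumCrit.eta π :=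
    Ideal.mem_map_of_mem _ (hJann hxJ)
  rw [hbot, Ideal.mem_bot] at h1
  exact hxp h1

end General

/-- **ETANE**. -/
theorem stmt_ETANE : Stmt_ETANE := by
  intro 𝒪 _ _ _ _ _ N _ _ S hNS θ π
  haveI : Module.Finite ℤ (CuspForm.heckeAlgebra N 2 (↑S : Set ℕ)) :=
    Fermat.Agent.S22.result N 2 (↑S : Set ℕ)
  haveI : IsReduced (CuspForm.heckeAlgebra N 2 (↑S : Set ℕ)) :=
    Fermat.Agent.R.H58.stmt_HeckeReduced N (↑S : Set ℕ) hNS
  have hgen : Algebra.adjoin 𝒪 (Set.range (CuspForm.heckeLocal.π N (↑S : Set ℕ) 𝒪 θ)) = ⊤ :=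
    (Fermat.Agent.S59.Datum.H85.stmt_Ring 𝒪 N (↑S : Set ℕ) θ).2.1
  haveI : IsReduced (CuspForm.heckeLocal N (↑S : Set ℕ) 𝒪 θ) :=
    Fermat.Agent.R.H2.isReduced_of_flat_of_adjoin_eq_top (CuspForm.heckeAlgebra N 2 (↑S : Set ℕ)) 𝒪
      (CuspForm.heckeLocal N (↑S : Set ℕ) 𝒪 θ) (CuspForm.heckeLocal.π N (↑S : Set ℕ) 𝒪 θ) hgen
  haveI : IsNoetherianRing 𝒪 := inferInstance
  haveI : IsNoetherianRing (CuspForm.heckeLocal N (↑S : Set ℕ) 𝒪 θ) :=
    IsNoetherianRing.of_finite 𝒪 (CuspForm.heckeLocal N (↑S : Set ℕ) 𝒪 θ)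
  haveI : Algebra.IsIntegral 𝒪 (CuspForm.heckeLocal N (↑S : Set ℕ) 𝒪 θ) :=
    Algebra.IsIntegral.of_finite 𝒪 (CuspForm.heckeLocal N (↑S : Set ℕ) 𝒪 θ)
  exact eta_ne_bot π

end Fermat.Agent.S59.NonMin.H92
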