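import Fermat.Agent.S59.NonMin.Defs
import Fermat.Agent.S56.H50_Gen

/-!
# S59, package RT-NONMIN, leaf PRES (helper92): a universal deformation ring is a quotient of a
power series ring

`𝔪_R` is finitely generated (`R` noetherian); evaluate power series at generators
(`S56.H50.exists_eval`), surjectivity is `S56.H50.surjective_of_gens`.
-/

set_option autoImplicit false
set_option linter.unusedSectionVars false
set_option linter.style.haveILetI false
set_option linter.unusedVariables false

namespace Fermat.Agent.S59.NonMin.H92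

open IsLocalRing

/-- A complete noetherian local `𝒪`-algebra with residue field `k` is a quotient of a power
series ring over `𝒪`. -/
theorem exists_presentation {𝒪 : Type} [CommRing 𝒪] [IsDomain 𝒪] [IsDiscreteValuationRing 𝒪]
    [IsAdicComplete (maximalIdeal 𝒪) 𝒪]
    (R : Type) [CommRing R] [IsLocalRing R] [IsNoetherianRing R]
    [IsAdicComplete (maximalIdeal R) R] [Algebra 𝒪 R] [IsLocalHom (algebraMap 𝒪 R)]
    (hres : Function.Surjective (residue R ∘ algebraMap 𝒪 R)) :
    ∃ (n : ℕ) (γ : MvPowerSeries (Fin n) 𝒪 →ₐ[𝒪] R), Function.Surjective γ := by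
  have hfg : (maximalIdeal R).FG := IsNoetherian.noetherian _
  obtain ⟨n, x, hx⟩ := Submodule.fg_iff_exists_fin_generating_family.mp hfg
  have hxm : ∀ i, x i ∈ maximalIdeal R := fun i => by
    rw [← hx]
    exact Submodule.subset_span ⟨i, rfl⟩
  obtain ⟨γ, hγ⟩ := Fermat.Agent.S56.H50.exists_eval (𝒪 := 𝒪) n x hxm
  refine ⟨n, γ, Fermat.Agent.S56.H50.surjective_of_gens hres n x γ hγ ?_⟩
  have h1 : maximalIdeal R = Ideal.span (Set.range x) := hx.symm
  rw [h1]
  exact le_sup_left

/-- **PRES**. -/
theorem stmt_PRES : Stmt_PRES := by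
  intro 𝒪 _ _ _ _ ρbar 𝒟 D
  exact exists_presentation D.R D.residue_surjective

end Fermat.Agent.S59.NonMin.H92
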