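import Fermat.Agent.S59.NonMin.Defs2
import Fermat.Agent.S59.NonMin.H47_OrdLine
import Fermat.Agent.S59.H99_Def

/-!
# S59, package RT-NONMIN, case C, leaf DEF-ord (helper47): the universal ordinary deformation ring

`stmt_DEFord : Stmt_DEFord` (`NonMin/Defs2.lean`).  As `S59/H99_Def.lean` (helper99):

* `isDeformationCondition_condOrdB` : `condOrd` is a deformation condition (the ordinary line is
  intrinsic: `NonMin/H47_OrdLine.lean`);
* `tangentFinite_condOrdB` : its tangent space is finite (dictionary with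
  `H¹(G_{ℚ, Smin ∪ T}, ad⁰ ρbar)` and Hermite–Minkowski);
* `Fermat.Agent.S53.result`.
-/

set_option autoImplicit false
set_option linter.unusedSectionVars false
set_option linter.style.haveILetI false
set_option linter.unusedVariables false

open IsLocalRing TensorProduct

namespace Fermat.Agent.S59.NonMin.H47

open Fermat.Agent.S59.H99 Fermat.Agent.S56.H92

section Cond

/-- The ordinary deformation condition, in the form `condJ ∧ IsOrdinaryAt`. -/
def condOrdB (𝒪 : Type) [CommRing 𝒪] (p : ℕ) (Smin T : Finset ℕ) :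
    ∀ ⦃A : Type⦄ [CommRing A] [IsLocalRing A] [Algebra 𝒪 A], GaloisRepAdic A → Prop :=
  fun _A _ _ _ ρ => condJ p Smin T ρ ∧ ρ.IsOrdinaryAt p

theorem condOrd_eq_condOrdB (𝒪 : Type) [CommRing 𝒪] (p : ℕ) (Smin T : Finset ℕ) :
    Fermat.Agent.S59.NonMin.condOrd 𝒪 p Smin T = condOrdB 𝒪 p Smin T := by
  funext A _ _ _ ρ
  exact propext ⟨fun h => ⟨⟨h.1.1, h.1.2.2, h.2⟩, h.1.2.1⟩,
    fun h => ⟨⟨h.1.1, h.2, h.1.2.1⟩, h.1.2.2⟩⟩

variable {A : Type} [CommRing A] [IsLocalRing A]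

theorem ord_of_pair {P B : Type} [CommRing P] [IsLocalRing P] [CommRing B] [IsLocalRing B]
    (p : ℕ) [Fact p.Prime] (hp2 : p ≠ 2) [Finite A] [Finite B]
    (pA : P →+* A) (hpA : IsLocalHom pA) (pB : P →+* B) (hpB : IsLocalHom pB)
    (hinj : ∀ x, pA x = 0 → pB x = 0 → x = 0) (ρ : GaloisRepAdic P)
    (hdA : (ρ.baseChangeAlong pA hpA).DetIsCyclotomic p)
    (hdB : (ρ.baseChangeAlong pB hpB).DetIsCyclotomic p)
    (hA : (ρ.baseChangeAlong pA hpA).IsOrdinaryAt p)
    (hB : (ρ.baseChangeAlong pB hpB).IsOrdinaryAt p) : ρ.IsOrdinaryAt p := by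
  obtain ⟨MA, hMA⟩ := exists_pow_eq_zero_of_finite p hdA.1
  obtain ⟨MB, hMB⟩ := exists_pow_eq_zero_of_finite p hdB.1
  let F := pairFam p pA hpA pB hpB hinj (MA + MB) (hMA _ (Nat.le_add_right _ _))
    (hMB _ (Nat.le_add_left _ _))
  refine jfam_isOrdinaryAt F ρ hp2 (fun i => ?_) fun i => ?_
  · cases i
    · exact hdB
    · exact hdA
  · cases i
    · exact hB
    · exact hA

/-- Descent of `condJ` and `IsOrdinaryAt` from the finite quotients of a noetherian local
ring. -/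
theorem condOrd_of_quot [IsNoetherianRing A] (hres : Finite (ResidueField A))
    (p : ℕ) [Fact p.Prime] (hp2 : p ≠ 2) (Smin T : Finset ℕ) (ρ : GaloisRepAdic A)
    (h : ∀ (J : Ideal A) (hJ : J ≠ ⊤), Finite (A ⧸ J) →
      letI := isLocalRing_quot_of_ne_top hJ
      ∀ hq : IsLocalHom (Ideal.Quotient.mk J),
        condJ p Smin T (ρ.baseChangeAlong (Ideal.Quotient.mk J) hq) ∧
          (ρ.baseChangeAlong (Ideal.Quotient.mk J) hq).IsOrdinaryAt p) :
    condJ p Smin T ρ ∧ ρ.IsOrdinaryAt p := by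
  have hfin : ∀ m : ℕ, Finite (A ⧸ maximalIdeal A ^ (m + 1)) := fun m => by
    have : Finite (A ⧸ maximalIdeal A) := hres
    exact Ideal.finite_quotient_pow (IsNoetherian.noetherian (maximalIdeal A)) (m + 1)
  have hpA : (p : A) ∈ maximalIdeal A := by
    letI := isLocalRing_quot_of_ne_top (pow_succ_ne_top (A := A) 0)
    have hq : IsLocalHom (Ideal.Quotient.mk (maximalIdeal A ^ (0 + 1))) :=
      IsLocalHom.of_surjective _ Ideal.Quotient.mk_surjective
    have := (h _ (pow_succ_ne_top (A := A) 0) (hfin 0) hq).1.1.1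
    exact natCast_mem_of_map_mem (Ideal.Quotient.mk (maximalIdeal A ^ (0 + 1))) p this
  let F : JFam A p := JFam.ofQuot p hpA
  have hF : ∀ i, condJ p Smin T (ρ.baseChangeAlong (F.φ i) (F.hφ i)) ∧
      (ρ.baseChangeAlong (F.φ i) (F.hφ i)).IsOrdinaryAt p := fun i =>
    h _ (pow_succ_ne_top (A := A) i) (hfin i) (F.hφ i)
  exact ⟨F.condJ ρ Smin T fun i => (hF i).1,
    jfam_isOrdinaryAt F ρ hp2 (fun i => (hF i).1.1) fun i => (hF i).2⟩

end Cond

section Main

variable (𝒪 : Type) [CommRing 𝒪] [IsLocalRing 𝒪] [Finite (ResidueField 𝒪)]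

/-- **`condOrdB` is a deformation condition.** -/
theorem isDeformationCondition_condOrdB (p : ℕ) [Fact p.Prime] (hp2 : p ≠ 2)
    (Smin T : Finset ℕ) : GaloisRep.IsDeformationCondition 𝒪 (condOrdB 𝒪 p Smin T) where
  of_isEquiv := by
    intro A _ _ _ _ ρ ρ' he h
    exact ⟨condJ_of_isEquiv he p Smin T h.1, isOrdinaryAt_of_isEquiv he p h.2⟩
  baseChangeAlong := by
    intro A B _ _ _ _ _ _ _ hB φ hφ ρ h
    exact ⟨condJ_baseChangeAlong _ hφ ρ p Smin T h.1,
      isOrdinaryAt_baseChangeAlong _ hφ ρ p h.2⟩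
  of_baseChangeAlong_injective := by
    intro A B _ _ _ _ _ _ hA hB φ hφ hinj ρ h
    have : Finite A := Fermat.Agent.S53.finite_of_isArtinianTestAlgebra hA
    have : Finite B := Fermat.Agent.S53.finite_of_isArtinianTestAlgebra hB
    have hinj' : ∀ x, (φ : A →+* B) x = 0 → (φ : A →+* B) x = 0 → x = 0 := fun x hx _ =>
      hinj (by rw [map_zero]; exact hx)
    exact ⟨condJ_of_pair p _ hφ _ hφ hinj' ρ Smin T h.1 h.1,
      ord_of_pair p hp2 _ hφ _ hφ hinj' ρ h.1.1 h.1.1 h.2 h.2⟩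
  of_fibreProduct := by
    intro A B C P _ _ _ _ _ _ _ _ _ _ _ _ hA hB _ hP f g pA pB hpA hpB _ hinj _ ρ h1 h2
    have : Finite A := Fermat.Agent.S53.finite_of_isArtinianTestAlgebra hA
    have : Finite B := Fermat.Agent.S53.finite_of_isArtinianTestAlgebra hB
    have : Finite P := Fermat.Agent.S53.finite_of_isArtinianTestAlgebra hP
    have hinj' : ∀ x, (pA : P →+* A) x = 0 → (pB : P →+* B) x = 0 → x = 0 := fun x hx hy =>
      hinj (by
        change (pA x, pB x) = (pA 0, pB 0)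
        rw [map_zero, map_zero]
        exact Prod.ext hx hy)
    exact ⟨condJ_of_pair p _ hpA _ hpB hinj' ρ Smin T h1.1 h2.1,
      ord_of_pair p hp2 _ hpA _ hpB hinj' ρ h1.1.1 h2.1.1 h1.2 h2.2⟩
  iff_forall_surjective := by
    intro A _ _ _ _ _ hloc hres ρ
    have hresA : Finite (ResidueField A) :=
      haveI := hloc
      Fermat.Agent.S53.H50.finite_residueField_of_surjective 𝒪 A hres
    constructor
    · intro h B _ _ _ hB q hq _
      exact ⟨condJ_baseChangeAlong _ hq ρ p Smin T h.1,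
        isOrdinaryAt_baseChangeAlong _ hq ρ p h.2⟩
    · intro h
      refine condOrd_of_quot hresA p hp2 Smin T ρ fun J hJ hJf => ?_
      letI := isLocalRing_quot_of_ne_top hJ
      intro hq
      have hlocJ : IsLocalHom (algebraMap 𝒪 (A ⧸ J)) := by
        refine ⟨fun a ha => ?_⟩
        have h1 : IsUnit (algebraMap 𝒪 A a) := by
          haveI := hq
          exact isUnit_of_map_unit (Ideal.Quotient.mk J) _ ha
        haveI := hloc
        exact isUnit_of_map_unit (algebraMap 𝒪 A) a h1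
      have hresJ : Function.Surjective (IsLocalRing.residue (A ⧸ J) ∘ algebraMap 𝒪 (A ⧸ J)) := by
        intro x
        obtain ⟨y, rfl⟩ := IsLocalRing.residue_surjective x
        obtain ⟨a, rfl⟩ := Ideal.Quotient.mk_surjective y
        obtain ⟨c, hc⟩ := Fermat.Agent.S53.exists_sub_mem_maximalIdeal hres a
        refine ⟨c, ?_⟩
        simp only [Function.comp_apply]
        rw [eq_comm, ← sub_eq_zero, ← map_sub, IsLocalRing.residue_eq_zero_iff]
        have h2 : Ideal.Quotient.mk J a - algebraMap 𝒪 (A ⧸ J) c =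
            Ideal.Quotient.mk J (a - algebraMap 𝒪 A c) := by
          rw [map_sub]
          rfl
        rw [h2]
        haveI := hq
        exact map_nonunit (Ideal.Quotient.mk J) _ hc
      have hT : GaloisRep.IsArtinianTestAlgebra 𝒪 (A ⧸ J) :=
        ⟨hlocJ, hresJ, isArtinian_of_finite⟩
      exact h hT (Ideal.Quotient.mkₐ 𝒪 J) hq Ideal.Quotient.mk_surjective

end Main

/-- The tangent space of `condOrdB` is finite. -/
theorem tangentFinite_condOrdB (𝒪 : Type) [CommRing 𝒪] [IsDomain 𝒪]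
    [IsDiscreteValuationRing 𝒪]
    [IsAdicComplete (maximalIdeal 𝒪) 𝒪] [Finite (ResidueField 𝒪)]
    (p : ℕ) [Fact p.Prime] (hp2 : p ≠ 2) (hp𝒪 : (p : 𝒪) ∈ maximalIdeal 𝒪)
    (ρbar : ResidualGaloisRep (ResidueField 𝒪)) (Smin T : Finset ℕ)
    (hbar : condOrdB 𝒪 p Smin T (GaloisRepAdic.ofResidualGaloisRep ρbar)) :
    GaloisRep.TangentFinite 𝒪 ρbar (condOrdB 𝒪 p Smin T) := by
  rw [Fermat.Agent.S53.tangentFinite_iff]
  obtain ⟨hfd, hsm, -⟩ := Fermat.Agent.S56.H47.ad0_basic (ResidueField 𝒪) ρbar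
  haveI := hfd
  have hWfin := Fermat.Agent.S56.H92.stmt_fin_glob (ResidueField 𝒪) (Fermat.Agent.S56.ad0 ρbar)
    hsm (Fermat.Agent.S56.primesOf (Smin ∪ T))
  refine (Fermat.Agent.S56.Dict.tangentLE_of_classes ρbar (condOrdB 𝒪 p Smin T)
    (Module.finrank (ResidueField 𝒪)
      (groupCohomology.continuousH1S (Fermat.Agent.S56.primesOf (Smin ∪ T))
        (Fermat.Agent.S56.ad0 ρbar)))
    (Fermat.Agent.S56.Dict.stmt_dict_exists 𝒪 p ρbar _ hp2 hp𝒪 hbar.1.1
      (fun A _ _ _ ρ h => h.1.1))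
    (Fermat.Agent.S56.Dict.H85.stmt_dict_inj 𝒪 ρbar _)
    (groupCohomology.continuousH1S (Fermat.Agent.S56.primesOf (Smin ∪ T))
      (Fermat.Agent.S56.ad0 ρbar)) hWfin ?_ le_rfl).1
  intro x ξ hx
  refine Fermat.Agent.S56.Dict.stmt_dict_cont 𝒪 ρbar _ _ x ξ ?_ hx
  intro q hq
  letI := Fermat.Agent.S53.dualNumberAlgebra 𝒪
  exact x.2.1.1.2.1 q q.2 (fun h => hq (Fermat.Agent.S56.mem_primesOf.2 h))

/-- **DEF-ord**: the universal deformation ring of `condOrd` exists. -/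
theorem stmt_DEFord : Fermat.Agent.S59.NonMin.Stmt_DEFord := by
  intro 𝒪 _ _ _ _ _ p _ hp2 hp𝒪 ρbar habs Smin T _ _ hbar
  rw [condOrd_eq_condOrdB] at hbar ⊢
  exact Fermat.Agent.S53.result 𝒪 ρbar _ habs (isDeformationCondition_condOrdB 𝒪 p hp2 Smin T)
    hbar (tangentFinite_condOrdB 𝒪 p hp2 hp𝒪 ρbar Smin T hbar)

/-- `condOrd` is a deformation condition. -/
theorem isDeformationCondition_condOrd (𝒪 : Type) [CommRing 𝒪] [IsLocalRing 𝒪]
    [Finite (ResidueField 𝒪)] (p : ℕ) [Fact p.Prime] (hp2 : p ≠ 2) (Smin T : Finset ℕ) :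
    GaloisRep.IsDeformationCondition 𝒪 (Fermat.Agent.S59.NonMin.condOrd 𝒪 p Smin T) := by
  rw [condOrd_eq_condOrdB]
  exact isDeformationCondition_condOrdB 𝒪 p hp2 Smin T

end Fermat.Agent.S59.NonMin.H47
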