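import Fermat.Agent.S59.NonMin.Defs2
import Fermat.Agent.S59.Asm.H99_Tau

/-!
# S59, package RT-NONMIN, case C, leaf TAU-ord (helper47): `R^{ord} ↠ R^{fl}`

As `NonMin.H92.stmt_TAU2`: the universal flat deformation is ordinary by hypothesis, hence of type
`condOrd`; the universal property of the ordinary deformation ring gives `τ`, and
`Asm.H99.surjective_of_isEquiv` its surjectivity.
-/

set_option autoImplicit false
set_option linter.unusedSectionVars false
set_option linter.style.haveILetI false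
set_option linter.unusedVariables false

namespace Fermat.Agent.S59.NonMin.H47

open IsLocalRing Fermat.Agent.S59 Fermat.Agent.S59.Asm

/-- **TAU-ord**. -/
theorem stmt_TAUord : Stmt_TAUord := by
  intro 𝒪 _ _ _ _ _ p _ hp2 _hp𝒪 ρbar Smin Sig _hpS _hprime D D' hord
  have h𝒟 : GaloisRep.IsDeformationCondition 𝒪 (Fermat.Agent.S59.cond 𝒪 p true Smin Sig) := by
    rw [Fermat.Agent.S59.H99.cond_eq_condB]
    exact Fermat.Agent.S59.H99.isDeformationCondition_condB 𝒪 p hp2 true Smin Sig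
  have hD : Fermat.Agent.S56.condFl 𝒪 p Smin Sig D.ρ := D.isOfType
  have hQ : condOrd 𝒪 p Smin Sig D.ρ := ⟨⟨hD.1.1, hord, hD.1.2.2⟩, hD.2⟩
  obtain ⟨τ, ⟨hτ, hτeq⟩, -⟩ := D'.universal D.R D.residue_surjective D.ρ hQ D.residual_isEquiv
  exact ⟨τ, Fermat.Agent.S59.Asm.H99.surjective_of_isEquiv h𝒟 D D'.ρ D'.residual_isEquiv τ hτ
    hτeq, hτ, hτeq⟩

end Fermat.Agent.S59.NonMin.H47
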