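import Fermat.Agent.S59.NonMin.Defs2
import Fermat.Agent.L.Pivot.H59_TameGen

/-!
# S59, case C, leaf KUM-p (helper48): a uniform generator of the Kummer character of `p` on the
peu ramifié inertia

* `IpeuSub p P` : `Ipeu p P` as a subgroup of `G_ℚ`; it is closed (`isClosed_Ipeu`), fixes the
  `p`-power roots of unity (`Ipeu_fix_root`) and is normalised by the decomposition group
  (`conj_mem_Ipeu`).
* `KumGenAt p P n τ` : the value of the Kummer character `σ ↦ σ π₀ / π₀` (`π₀ ^ (p ^ n) = p`) at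
  `τ` generates its image on `Ipeu p P`.
* `exists_kum_generator` : ONE `τ₀ ∈ Ipeu p P` with `KumGenAt p P n τ₀` for all `n`
  (subgroups of the cyclic group `μ_{p^n}` are cyclic; compactness of `G_ℚ`).
  No Kummer theory is needed: `τ₀` generates the image of the Kummer character, whatever it is.
-/

set_option autoImplicit false
set_option linter.style.haveILetI false

namespace Fermat.Agent.S59.NonMin.H48

open Fermat.Agent.L.Pivot

/-- The Galois group of `ℚ`. -/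
local notation "Γℚ" => AlgebraicClosure ℚ ≃ₐ[ℚ] AlgebraicClosure ℚ

variable {p : ℕ} {P : ValuationSubring (AlgebraicClosure ℚ)}

theorem one_mem_peuUnits (P : ValuationSubring (AlgebraicClosure ℚ)) :
    (1 : AlgebraicClosure ℚ) ∈ peuUnits P :=
  ⟨P.one_mem, by rw [inv_one]; exact P.one_mem, one_ne_zero, fun s _ => map_one s⟩

/-- The peu ramifié inertia fixes the `p`-power roots of unity. -/
theorem Ipeu_fix_root {σ : Γℚ} (hσ : σ ∈ Ipeu p P) (n : ℕ) (μ : AlgebraicClosure ℚ)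
    (hμ : μ ^ p ^ n = 1) : σ μ = μ :=
  hσ.2 μ n (by rw [hμ]; exact one_mem_peuUnits P)

/-- The peu ramifié inertia as a subgroup. -/
def IpeuSub (p : ℕ) (P : ValuationSubring (AlgebraicClosure ℚ)) : Subgroup Γℚ where
  carrier := Ipeu p P
  mul_mem' := by
    rintro a b ⟨ha, ha'⟩ ⟨hb, hb'⟩
    refine ⟨mul_mem ha hb, fun y n h1 => ?_⟩
    rw [AlgEquiv.mul_apply, hb' y n h1, ha' y n h1]
  one_mem' := ⟨one_mem _, fun _ _ _ => rfl⟩
  inv_mem' := by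
    rintro a ⟨ha, ha'⟩
    refine ⟨inv_mem ha, fun y n h1 => ?_⟩
    have := ha' y n h1
    calc a⁻¹ y = a⁻¹ (a y) := by rw [this]
      _ = y := by
        change (a⁻¹ * a) y = y
        rw [inv_mul_cancel]; rfl

theorem mem_IpeuSub {σ : Γℚ} : σ ∈ IpeuSub p P ↔ σ ∈ Ipeu p P := Iff.rfl

/-- `Ipeu` is closed in the Krull topology. -/
theorem isClosed_Ipeu (p : ℕ) (P : ValuationSubring (AlgebraicClosure ℚ)) :
    IsClosed (Ipeu p P) := by
  have h1 : Ipeu p P = (P.inertiaSubgroupIn ℚ : Set Γℚ) ∩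
      ⋂ (y : AlgebraicClosure ℚ), ⋂ (n : ℕ), ⋂ (_ : y ^ p ^ n ∈ peuUnits P),
        {σ : Γℚ | σ y ∈ ({y} : Set (AlgebraicClosure ℚ))} := by
    ext σ
    simp only [Ipeu, Set.mem_ofPred_eq, Set.mem_inter_iff, Set.mem_iInter,
      Set.mem_singleton_iff, SetLike.mem_coe]
  rw [h1]
  exact (H59.isClosed_inertiaSubgroupIn P).inter
    (isClosed_iInter fun y => isClosed_iInter fun n => isClosed_iInter fun _ =>
      H59.isClosed_setOf_apply_mem y _)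

/-- A `p ^ n`-th root of `p` is not zero. -/
theorem root_ne_zero (hp : p.Prime) {n : ℕ} {π₀ : AlgebraicClosure ℚ}
    (hπ₀ : π₀ ^ p ^ n = (p : AlgebraicClosure ℚ)) : π₀ ≠ 0 := by
  intro h0
  rw [h0, zero_pow (pow_ne_zero n hp.ne_zero)] at hπ₀
  exact (Nat.cast_ne_zero.2 hp.ne_zero) hπ₀.symm

/-- The value of the Kummer character is a `p ^ n`-th root of unity. -/
theorem kum_pow (hp : p.Prime) {n : ℕ} {π₀ : AlgebraicClosure ℚ}
    (hπ₀ : π₀ ^ p ^ n = (p : AlgebraicClosure ℚ)) (σ : Γℚ) : (σ π₀ / π₀) ^ p ^ n = 1 := by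
  rw [div_pow, ← map_pow, hπ₀, map_natCast]
  exact div_self (Nat.cast_ne_zero.2 hp.ne_zero)

/-- The Kummer character does not depend on the root. -/
theorem kum_indep (hp : p.Prime) {n : ℕ} {π₀ π₁ : AlgebraicClosure ℚ}
    (hπ₀ : π₀ ^ p ^ n = (p : AlgebraicClosure ℚ)) (hπ₁ : π₁ ^ p ^ n = (p : AlgebraicClosure ℚ))
    {σ : Γℚ} (hσ : σ ∈ Ipeu p P) : σ π₁ / π₁ = σ π₀ / π₀ := by
  have h0 := root_ne_zero hp hπ₀
  have h1 := root_ne_zero hp hπ₁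
  have hfix : σ (π₁ / π₀) = π₁ / π₀ := Ipeu_fix_root hσ n _ (by
    rw [div_pow, hπ₀, hπ₁]
    exact div_self (Nat.cast_ne_zero.2 hp.ne_zero))
  rw [map_div₀] at hfix
  have h2 : σ π₀ ≠ 0 := (map_ne_zero_iff σ σ.injective).2 h0
  field_simp at hfix ⊢
  rw [hfix]

/-- The Kummer character is multiplicative on `Ipeu`. -/
theorem kum_mul (hp : p.Prime) {n : ℕ} {π₀ : AlgebraicClosure ℚ}
    (hπ₀ : π₀ ^ p ^ n = (p : AlgebraicClosure ℚ)) {σ : Γℚ} (hσ : σ ∈ Ipeu p P) (τ : Γℚ) :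
    (σ * τ) π₀ / π₀ = (σ π₀ / π₀) * (τ π₀ / π₀) := by
  have h0 := root_ne_zero hp hπ₀
  have hfix : σ (τ π₀ / π₀) = τ π₀ / π₀ := Ipeu_fix_root hσ n _ (kum_pow hp hπ₀ τ)
  have h1 : τ π₀ = (τ π₀ / π₀) * π₀ := by
    field_simp
  rw [AlgEquiv.mul_apply]
  conv_lhs => rw [h1, map_mul, hfix]
  field_simp

/-- The Kummer character of `p` at the level `n`, on the peu ramifié inertia. -/
noncomputable def kumHom (hp : p.Prime) (P : ValuationSubring (AlgebraicClosure ℚ)) (n : ℕ)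
    (π₀ : AlgebraicClosure ℚ) (hπ₀ : π₀ ^ p ^ n = (p : AlgebraicClosure ℚ)) :
    IpeuSub p P →* (AlgebraicClosure ℚ)ˣ where
  toFun σ := Units.mk0 ((σ : Γℚ) π₀ / π₀)
    (div_ne_zero ((map_ne_zero_iff (σ : Γℚ) (σ : Γℚ).injective).2 (root_ne_zero hp hπ₀))
      (root_ne_zero hp hπ₀))
  map_one' := by
    apply Units.ext
    show (1 : Γℚ) π₀ / π₀ = 1
    exact div_self (root_ne_zero hp hπ₀)
  map_mul' σ τ := by
    apply Units.ext
    exact kum_mul hp hπ₀ σ.2 τ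

theorem kumHom_apply (hp : p.Prime) (n : ℕ) (π₀ : AlgebraicClosure ℚ)
    (hπ₀ : π₀ ^ p ^ n = (p : AlgebraicClosure ℚ)) (σ : IpeuSub p P) :
    ((kumHom hp P n π₀ hπ₀ σ : (AlgebraicClosure ℚ)ˣ) : AlgebraicClosure ℚ) =
      (σ : Γℚ) π₀ / π₀ := rfl

/-- At a given level, the image of the Kummer character is cyclic. -/
theorem exists_kum_generator_level (hp : p.Prime) (P : ValuationSubring (AlgebraicClosure ℚ))
    (n : ℕ) (π₀ : AlgebraicClosure ℚ) (hπ₀ : π₀ ^ p ^ n = (p : AlgebraicClosure ℚ)) :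
    ∃ τ ∈ Ipeu p P, ∀ σ ∈ Ipeu p P, ∃ m : ℕ, σ π₀ / π₀ = (τ π₀ / π₀) ^ m := by
  classical
  haveI : NeZero (p ^ n) := ⟨pow_ne_zero n hp.ne_zero⟩
  set K : Subgroup (AlgebraicClosure ℚ)ˣ := (kumHom hp P n π₀ hπ₀).range with hK
  have hle : K ≤ rootsOfUnity (p ^ n) (AlgebraicClosure ℚ) := by
    rintro u ⟨σ, rfl⟩
    rw [mem_rootsOfUnity]
    apply Units.ext
    rw [Units.val_pow_eq_pow_val, kumHom_apply, Units.val_one]
    exact kum_pow hp hπ₀ _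
  haveI : Finite K := Finite.of_injective _ (Subgroup.inclusion_injective hle)
  obtain ⟨x, hx⟩ := IsCyclic.exists_monoid_generator (α := K)
  obtain ⟨τ, hτ⟩ := x.2
  refine ⟨τ.1, τ.2, fun σ hσ => ?_⟩
  obtain ⟨m, hm⟩ := hx ⟨kumHom hp P n π₀ hπ₀ ⟨σ, hσ⟩, ⟨⟨σ, hσ⟩, rfl⟩⟩
  refine ⟨m, ?_⟩
  have h1 := congrArg (fun y : K => ((y : (AlgebraicClosure ℚ)ˣ) : AlgebraicClosure ℚ)) hm
  simp only [SubmonoidClass.coe_pow, Units.val_pow_eq_pow_val] at h1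
  rw [← hτ, kumHom_apply, kumHom_apply] at h1
  exact h1.symm

/-- `τ` generates the image of the Kummer character of `p` at the level `n`. -/
def KumGenAt (p : ℕ) (P : ValuationSubring (AlgebraicClosure ℚ)) (n : ℕ) (τ : Γℚ) : Prop :=
  ∀ π₀ : AlgebraicClosure ℚ, π₀ ^ p ^ n = (p : AlgebraicClosure ℚ) →
    ∀ σ ∈ Ipeu p P, ∃ m : ℕ, σ π₀ / π₀ = (τ π₀ / π₀) ^ m

theorem isClosed_setOf_kumGenAt (p : ℕ) (P : ValuationSubring (AlgebraicClosure ℚ)) (n : ℕ) :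
    IsClosed {τ : Γℚ | KumGenAt p P n τ} := by
  have h1 : {τ : Γℚ | KumGenAt p P n τ} =
      ⋂ (π₀ : AlgebraicClosure ℚ), ⋂ (_ : π₀ ^ p ^ n = (p : AlgebraicClosure ℚ)),
        {τ : Γℚ | τ π₀ ∈ {z : AlgebraicClosure ℚ |
          ∀ σ ∈ Ipeu p P, ∃ m : ℕ, σ π₀ / π₀ = (z / π₀) ^ m}} := by
    ext τ
    simp only [KumGenAt, Set.mem_ofPred_eq, Set.mem_iInter]
  rw [h1]
  exact isClosed_iInter fun π₀ => isClosed_iInter fun _ => H59.isClosed_setOf_apply_mem π₀ _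

/-- A generator at the level `N` is a generator at every level `n ≤ N`. -/
theorem KumGenAt.of_le (hp : p.Prime) {N n : ℕ} (hn : n ≤ N) {τ : Γℚ} (hτ : τ ∈ Ipeu p P)
    (h : KumGenAt p P N τ) : KumGenAt p P n τ := by
  intro π₀ hπ₀ σ hσ
  obtain ⟨π₁, hπ₁⟩ := IsAlgClosed.exists_pow_nat_eq (p : AlgebraicClosure ℚ)
    (pow_pos hp.pos N)
  obtain ⟨m, hm⟩ := h π₁ hπ₁ σ hσ
  refine ⟨m, ?_⟩
  have h1 := root_ne_zero hp hπ₁
  -- the root `π₁ ^ (p ^ (N - n))` of level `n`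
  have hπ₂ : (π₁ ^ p ^ (N - n)) ^ p ^ n = (p : AlgebraicClosure ℚ) := by
    rw [← pow_mul, ← pow_add, Nat.sub_add_cancel hn, hπ₁]
  have e : ∀ g : Γℚ, g (π₁ ^ p ^ (N - n)) / π₁ ^ p ^ (N - n) = (g π₁ / π₁) ^ p ^ (N - n) := by
    intro g
    rw [map_pow, div_pow]
  rw [kum_indep hp hπ₂ hπ₀ hσ, kum_indep hp hπ₂ hπ₀ hτ, e, e, hm, ← pow_mul, ← pow_mul, mul_comm]

/-- **A uniform generator of the Kummer character of `p` on the peu ramifié inertia.** -/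
theorem exists_kum_generator (hp : p.Prime) (P : ValuationSubring (AlgebraicClosure ℚ)) :
    ∃ τ₀ ∈ Ipeu p P, ∀ n : ℕ, KumGenAt p P n τ₀ := by
  classical
  haveI : IsGalois ℚ (AlgebraicClosure ℚ) := Fermat.Agent.Lib.InertiaLift.qbar_isGalois'
  have hfin : ∀ u : Finset ℕ,
      ((Ipeu p P : Set Γℚ) ∩ ⋂ n ∈ u, {τ : Γℚ | KumGenAt p P n τ}).Nonempty := by
    intro u
    obtain ⟨π₁, hπ₁⟩ := IsAlgClosed.exists_pow_nat_eq (p : AlgebraicClosure ℚ)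
      (pow_pos hp.pos (u.sup id))
    obtain ⟨τ, hτ, hgen⟩ := exists_kum_generator_level hp P (u.sup id) π₁ hπ₁
    have hN : KumGenAt p P (u.sup id) τ := by
      intro π₀ hπ₀ σ hσ
      obtain ⟨m, hm⟩ := hgen σ hσ
      exact ⟨m, by rw [kum_indep hp hπ₁ hπ₀ hσ, kum_indep hp hπ₁ hπ₀ hτ, hm]⟩
    refine ⟨τ, hτ, ?_⟩
    simp only [Set.mem_iInter]
    intro n hn
    exact KumGenAt.of_le hp (Finset.le_sup (f := id) hn) hτ hN
  obtain ⟨τ₀, hτ₀, hτ⟩ :=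
    (isClosed_Ipeu p P).isCompact.inter_iInter_nonempty
      (fun n => {τ : Γℚ | KumGenAt p P n τ}) (fun n => isClosed_setOf_kumGenAt p P n) hfin
  exact ⟨τ₀, hτ₀, fun n => Set.mem_iInter.1 hτ n⟩

end Fermat.Agent.S59.NonMin.H48
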