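import Fermat.Agent.S59.NonMin.H48_KumCore
import Fermat.Agent.S59.NonMin.H48_KumGen
import Fermat.Agent.L.Pivot.H59_TameAdic

/-!
# S59, case C, leaf KUM-p (helper48): `stmt_KUMp : Stmt_KUMp`

There is ONE element `τ₀` of the peu ramifié inertia at `P` such that for every ordinary
representation `ρ` with cyclotomic determinant over a noetherian local ring of residue
characteristic `p`:
1. `ρ(τ₀)` commutes with `ρ(g)` for `g` in the decomposition group fixing `μ_{p^∞}`;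
2. `ρ(τ₀) ≡ 1 mod J` implies `ρ(σ) ≡ 1 mod J` for all `σ` in the peu ramifié inertia.

Proof: `τ₀` := a uniform generator of the image of the Kummer character of `p` on `Ipeu`
(`exists_kum_generator`); in an ordinary basis `ρ(σ) = [[χ σ, β σ], [0, 1]]` on inertia, `β` is a
cocycle, and modulo `𝔪 ^ N` the cocycle form `kum_core` gives `β σ ≡ m β τ₀` when the Kummer
character of `σ` is the `m`-th power of that of `τ₀`; Krull.
-/

set_option autoImplicit false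
set_option linter.style.haveILetI false

namespace Fermat.Agent.S59.NonMin.H48

open Fermat.Agent.L.Pivot Fermat.Agent.S59.TWGal IsLocalRing
open Fermat.Agent.Lib.InertiaBridge

/-- The Galois group of `ℚ`. -/
local notation "Γℚ" => AlgebraicClosure ℚ ≃ₐ[ℚ] AlgebraicClosure ℚ

variable {p : ℕ} {P : ValuationSubring (AlgebraicClosure ℚ)}

/-! ### The peu ramifié inertia is normalised by the decomposition group -/

theorem conj_mem_inertia_of_dec {g τ : Γℚ} (hg : g ∈ P.decompositionSubgroup ℚ)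
    (hτ : τ ∈ P.inertiaSubgroupIn ℚ) : g * τ * g⁻¹ ∈ P.inertiaSubgroupIn ℚ := by
  rw [mem_inertiaSubgroupIn_iff_forall] at hτ ⊢
  refine ⟨mul_mem (mul_mem hg hτ.1) (inv_mem hg), fun a ha => ?_⟩
  have hginv : g⁻¹ ∈ P.decompositionSubgroup ℚ := inv_mem hg
  have h1 : g⁻¹ a ∈ P := ((mem_decompositionSubgroup_iff_forall P g⁻¹).1 hginv a).2 ha
  have h2 := hτ.2 _ h1
  have h3 : (g * τ * g⁻¹) a - a = g (τ (g⁻¹ a) - g⁻¹ a) := by
    rw [map_sub]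
    have e : g (g⁻¹ a) = a := AlgEquiv.apply_symm_apply g a
    rw [e]
    rfl
  rw [h3, valuation_map_lt_one_iff P g hg]
  exact h2

theorem map_mem_peuUnits {g : Γℚ} (hg : g ∈ P.decompositionSubgroup ℚ)
    {u : AlgebraicClosure ℚ} (hu : u ∈ peuUnits P) : g u ∈ peuUnits P := by
  obtain ⟨h1, h2, h3, h4⟩ := hu
  have hd := (mem_decompositionSubgroup_iff_forall P g).1 hg
  refine ⟨(hd u).2 h1, ?_, (map_ne_zero_iff g g.injective).2 h3, fun s hs => ?_⟩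
  · rw [← map_inv₀]
    exact (hd _).2 h2
  · have hs' : g⁻¹ * s * (g⁻¹)⁻¹ ∈ P.inertiaSubgroupIn ℚ :=
      conj_mem_inertia_of_dec (inv_mem hg) hs
    have h5 := h4 _ hs'
    have h6 : (g⁻¹ * s * (g⁻¹)⁻¹) u = g⁻¹ (s (g u)) := by
      rw [inv_inv]
      rfl
    rw [h6] at h5
    have h7 := congrArg g h5
    have e : g (g⁻¹ (s (g u))) = s (g u) := AlgEquiv.apply_symm_apply g _
    rw [e] at h7
    exact h7

theorem conj_mem_Ipeu {g τ : Γℚ} (hg : g ∈ P.decompositionSubgroup ℚ) (hτ : τ ∈ Ipeu p P) :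
    g * τ * g⁻¹ ∈ Ipeu p P := by
  refine ⟨conj_mem_inertia_of_dec hg hτ.1, fun y n hy => ?_⟩
  have h1 : (g⁻¹ y) ^ p ^ n ∈ peuUnits P := by
    rw [← map_pow]
    exact map_mem_peuUnits (inv_mem hg) hy
  have h2 := hτ.2 _ n h1
  show g (τ (g⁻¹ y)) = y
  rw [h2]
  exact AlgEquiv.apply_symm_apply g y

/-- The Kummer character of `p` is invariant under conjugation by the elements of the
decomposition group which fix the `p`-power roots of unity. -/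
theorem kum_conj (hp : p.Prime) {g τ : Γℚ} (hg : FixesPRoots p g) (hτ : τ ∈ Ipeu p P) {n : ℕ}
    {π₀ : AlgebraicClosure ℚ} (hπ₀ : π₀ ^ p ^ n = (p : AlgebraicClosure ℚ)) :
    (g * τ * g⁻¹) π₀ = (τ π₀ / π₀) * π₀ := by
  have h0 := root_ne_zero hp hπ₀
  -- `g⁻¹ π₀ = ζ' π₀`
  have hζ' : (g⁻¹ π₀ / π₀) ^ p ^ n = 1 := kum_pow hp hπ₀ g⁻¹
  have h1 : g⁻¹ π₀ = (g⁻¹ π₀ / π₀) * π₀ := by field_simp
  have h2 : τ (g⁻¹ π₀ / π₀) = g⁻¹ π₀ / π₀ := Ipeu_fix_root hτ n _ hζ'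
  have h3 : τ π₀ = (τ π₀ / π₀) * π₀ := by field_simp
  have h4 : g (τ π₀ / π₀) = τ π₀ / π₀ := hg n _ (kum_pow hp hπ₀ τ)
  show g (τ (g⁻¹ π₀)) = _
  have h5 : τ (g⁻¹ π₀) = (τ π₀ / π₀) * g⁻¹ π₀ := by
    conv_lhs => rw [h1, map_mul, h2, h3]
    conv_rhs => rw [h1]
    ring
  rw [h5, map_mul, h4]
  congr 1
  exact AlgEquiv.apply_symm_apply g π₀

/-! ### The shape of an ordinary representation on inertia -/

section shape

variable {A : Type} [CommRing A] [IsLocalRing A]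

/-- In an ordinary basis the matrices of the inertia group are `[[χ, β], [0, 1]]`. -/
theorem ord_shape (ρ : GaloisRepAdic A) (bas : Module.Basis (Fin 2) A ρ.V)
    (hD : ∀ σ ∈ P.decompositionSubgroup ℚ, ∀ v ∈ A ∙ bas 0, ρ.ρ σ v ∈ A ∙ bas 0)
    (hI : ∀ σ ∈ P.inertiaSubgroupIn ℚ, ∀ v : ρ.V, ρ.ρ σ v - v ∈ A ∙ bas 0)
    (σ : Γℚ) (hσ : σ ∈ P.inertiaSubgroupIn ℚ) :
    mat bas (ρ.ρ σ) 1 0 = 0 ∧ mat bas (ρ.ρ σ) 1 1 = 1 := by
  have hσD : σ ∈ P.decompositionSubgroup ℚ := ((mem_inertiaSubgroupIn_iff_forall P σ).1 hσ).1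
  have h01 : (0 : Fin 2) ≠ 1 := by decide
  constructor
  · obtain ⟨x, hx⟩ := Submodule.mem_span_singleton.1
      (hD σ hσD (bas 0) (Submodule.mem_span_singleton_self _))
    rw [mat_apply, ← hx, map_smul, Module.Basis.repr_self, Finsupp.smul_apply,
      Finsupp.single_eq_of_ne' h01, smul_zero]
  · obtain ⟨y, hy⟩ := Submodule.mem_span_singleton.1 (hI σ hσ (bas 1))
    have h1 : ρ.ρ σ (bas 1) = bas 1 + y • bas 0 := by
      rw [hy]
      abel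
    rw [mat_apply, h1, map_add, map_smul, Module.Basis.repr_self, Module.Basis.repr_self,
      Finsupp.add_apply, Finsupp.smul_apply, Finsupp.single_eq_same,
      Finsupp.single_eq_of_ne' h01, smul_zero, add_zero]

/-- The determinant of such a matrix. -/
theorem det_of_shape (ρ : GaloisRepAdic A) (bas : Module.Basis (Fin 2) A ρ.V) (σ : Γℚ)
    (h : mat bas (ρ.ρ σ) 1 0 = 0 ∧ mat bas (ρ.ρ σ) 1 1 = 1) :
    LinearMap.det (ρ.ρ σ) = mat bas (ρ.ρ σ) 0 0 := by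
  have h1 : LinearMap.det (ρ.ρ σ) = (mat bas (ρ.ρ σ)).det :=
    (LinearMap.det_toMatrix bas (ρ.ρ σ)).symm
  rw [h1, Matrix.det_fin_two, h.1, h.2, mul_one, mul_zero, sub_zero]

/-- The cocycle relation. -/
theorem shape_mul (ρ : GaloisRepAdic A) (bas : Module.Basis (Fin 2) A ρ.V) (σ τ : Γℚ)
    (hτ : mat bas (ρ.ρ τ) 1 0 = 0 ∧ mat bas (ρ.ρ τ) 1 1 = 1) :
    mat bas (ρ.ρ (σ * τ)) 0 1 =
      mat bas (ρ.ρ σ) 0 1 + mat bas (ρ.ρ σ) 0 0 * mat bas (ρ.ρ τ) 0 1 := by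
  have h1 : mat bas (ρ.ρ (σ * τ)) = mat bas (ρ.ρ σ) * mat bas (ρ.ρ τ) := by
    rw [map_mul, mat, map_mul]
  rw [h1, Matrix.mul_apply, Fin.sum_univ_two, hτ.2, mul_one]
  ring

end shape

/-! ### The determinant on the peu ramifié inertia -/

/-- Krull: an element divisible by all powers of `p ∈ 𝔪` vanishes. -/
theorem eq_zero_of_forall_mem_span_ppow {A : Type} [CommRing A] [IsLocalRing A]
    [IsNoetherianRing A] (p : ℕ) (hpA : (p : A) ∈ maximalIdeal A) (x : A)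
    (h : ∀ n : ℕ, x ∈ Ideal.span {((p ^ n : ℕ) : A)}) : x = 0 := by
  have hmem : x ∈ (⊥ : Ideal A) := by
    refine H59.mem_of_forall_mem_sup_pow ⊥ x fun n => ?_
    obtain ⟨c, hc⟩ := Ideal.mem_span_singleton.1 (h n)
    rw [hc, Nat.cast_pow]
    exact Ideal.mem_sup_right (Ideal.mul_mem_right _ _ (Ideal.pow_mem_pow hpA n))
  exact (Submodule.mem_bot A).1 hmem

theorem det_eq_one_of_mem_Ipeu {A : Type} [CommRing A] [IsLocalRing A] [IsNoetherianRing A]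
    (ρ : GaloisRepAdic A) (hdet : ρ.DetIsCyclotomic p) {σ : Γℚ} (hσ : σ ∈ Ipeu p P) :
    LinearMap.det (ρ.ρ σ) = 1 := by
  rw [← sub_eq_zero]
  refine eq_zero_of_forall_mem_span_ppow p hdet.1 _ fun n => ?_
  have h := hdet.2 n σ 1 (fun μ hμ => by
    rw [pow_one]
    exact Ipeu_fix_root hσ n μ hμ)
  rwa [Nat.cast_one] at h

/-! ### The cocycle modulo `𝔪 ^ N` -/

/-- The off-diagonal coefficient of an ordinary representation on the peu ramifié inertia,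
modulo `𝔪 ^ N`, is proportional to the Kummer character of `p`. -/
theorem ord_coeff_mod (hp : p.Prime) (hP : P.LiesOverPrime p)
    {A : Type} [CommRing A] [IsLocalRing A] [IsNoetherianRing A]
    (ρ : GaloisRepAdic A) (hdet : ρ.DetIsCyclotomic p) (bas : Module.Basis (Fin 2) A ρ.V)
    (hshape : ∀ σ ∈ P.inertiaSubgroupIn ℚ,
      mat bas (ρ.ρ σ) 1 0 = 0 ∧ mat bas (ρ.ρ σ) 1 1 = 1)
    (N : ℕ) (π₀ ξ : AlgebraicClosure ℚ) (hπ₀ : π₀ ^ p ^ N = (p : AlgebraicClosure ℚ))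
    (h₀ : Γℚ) (hh₀ : h₀ ∈ Ipeu p P) (hξ : h₀ π₀ = ξ * π₀)
    (h : Γℚ) (hh : h ∈ Ipeu p P) (m : ℕ) (hm : h π₀ = ξ ^ m * π₀) :
    mat bas (ρ.ρ h) 0 1 - m * mat bas (ρ.ρ h₀) 0 1 ∈ maximalIdeal A ^ N := by
  obtain ⟨F, hFfin, hcont⟩ := ρ.isAdicContinuous N
  haveI := hFfin
  have h01 : (0 : Fin 2) ≠ 1 := by decide
  have hpN : ((p ^ N : ℕ) : A) ∈ maximalIdeal A ^ N := by
    rw [Nat.cast_pow]
    exact Ideal.pow_mem_pow hdet.1 N
  let b : Γℚ → A ⧸ maximalIdeal A ^ N := fun σ =>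
    Ideal.Quotient.mk (maximalIdeal A ^ N) (mat bas (ρ.ρ σ) 0 1)
  have hA : ∀ x : A ⧸ maximalIdeal A ^ N, (p ^ N) • x = 0 := by
    intro x
    rw [nsmul_eq_mul]
    have : ((p ^ N : ℕ) : A ⧸ maximalIdeal A ^ N) = 0 := by
      have e : ((p ^ N : ℕ) : A ⧸ maximalIdeal A ^ N) =
          Ideal.Quotient.mk (maximalIdeal A ^ N) ((p ^ N : ℕ) : A) := by
        rw [map_natCast]
      rw [e]
      exact Ideal.Quotient.eq_zero_iff_mem.2 hpN
    rw [this, zero_mul]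
  have hF : ∀ σ ∈ P.inertiaSubgroupIn ℚ, (∀ x ∈ F, σ x = x) → b σ = 0 := by
    intro σ _ hfix
    have h1 := mat_sub_one_mem bas _ (ρ.ρ σ) (hcont σ hfix) 0 1
    rw [Matrix.sub_apply, Matrix.one_apply_ne h01, sub_zero] at h1
    exact Ideal.Quotient.eq_zero_iff_mem.2 h1
  have hcoc : ∀ σ ∈ P.inertiaSubgroupIn ℚ, ∀ τ ∈ P.inertiaSubgroupIn ℚ, ∀ a : ℕ,
      (∀ μ : AlgebraicClosure ℚ, μ ^ p ^ N = 1 → σ μ = μ ^ a) → b (σ * τ) = b σ + a • b τ := by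
    intro σ hσ τ hτ a ha
    have h1 := hdet.2 N σ a ha
    rw [det_of_shape ρ bas σ (hshape σ hσ)] at h1
    have h2 : mat bas (ρ.ρ σ) 0 0 - (a : A) ∈ maximalIdeal A ^ N := by
      obtain ⟨c, hc⟩ := Ideal.mem_span_singleton.1 h1
      rw [hc]
      exact Ideal.mul_mem_right _ _ hpN
    have h3 : Ideal.Quotient.mk (maximalIdeal A ^ N) (mat bas (ρ.ρ σ) 0 0) =
        ((a : ℕ) : A ⧸ maximalIdeal A ^ N) := by
      rw [← sub_eq_zero, ← map_natCast (Ideal.Quotient.mk (maximalIdeal A ^ N)), ← map_sub]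
      exact Ideal.Quotient.eq_zero_iff_mem.2 h2
    show Ideal.Quotient.mk _ (mat bas (ρ.ρ (σ * τ)) 0 1) = _
    rw [shape_mul ρ bas σ τ (hshape τ hτ), map_add, map_mul, h3, nsmul_eq_mul]
  have key := kum_core p hp P hP (A ⧸ maximalIdeal A ^ N) N hA b F hF hcoc π₀ ξ hπ₀ h₀ hh₀ hξ
    h hh m hm
  have h4 : Ideal.Quotient.mk (maximalIdeal A ^ N)
      (mat bas (ρ.ρ h) 0 1 - m * mat bas (ρ.ρ h₀) 0 1) = 0 := by
    rw [map_sub, map_mul, map_natCast, sub_eq_zero, ← nsmul_eq_mul]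
    exact key
  exact Ideal.Quotient.eq_zero_iff_mem.1 h4

/-! ### KUM-p -/

/-- **`Stmt_KUMp`.** -/
theorem stmt_KUMp : Stmt_KUMp := by
  intro p hp _ P hP
  obtain ⟨τ₀, hτ₀, hgen⟩ := exists_kum_generator hp P
  refine ⟨τ₀, hτ₀, ?_⟩
  intro A _ _ _ hpA ρ hdet hord
  classical
  obtain ⟨L, ⟨bas, hL⟩, hD, hI⟩ := hord P hP
  subst hL
  have h01 : (0 : Fin 2) ≠ 1 := by decide
  have hshape := ord_shape (P := P) ρ bas hD hI
  -- the matrix on `Ipeu`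
  have hone : ∀ σ ∈ Ipeu p P, mat bas (ρ.ρ σ) 0 0 = 1 := by
    intro σ hσ
    rw [← det_of_shape ρ bas σ (hshape σ hσ.1)]
    exact det_eq_one_of_mem_Ipeu ρ hdet hσ
  -- proportionality modulo `𝔪 ^ N`
  have hprop : ∀ σ ∈ Ipeu p P, ∀ N : ℕ, ∃ m : ℕ,
      mat bas (ρ.ρ σ) 0 1 - m * mat bas (ρ.ρ τ₀) 0 1 ∈ maximalIdeal A ^ N := by
    intro σ hσ N
    obtain ⟨π₀, hπ₀⟩ := IsAlgClosed.exists_pow_nat_eq (p : AlgebraicClosure ℚ)
      (pow_pos hp.pos N)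
    have h0 := root_ne_zero hp hπ₀
    obtain ⟨m, hm⟩ := hgen N π₀ hπ₀ σ hσ
    refine ⟨m, ord_coeff_mod hp hP ρ hdet bas hshape N π₀ (τ₀ π₀ / π₀) hπ₀ τ₀ hτ₀ ?_ σ hσ m ?_⟩
    · field_simp
    · rw [← hm]
      field_simp
  refine ⟨fun g hg hgfix => ?_, fun J hJ σ hσ v => ?_⟩
  · -- (1)
    have hτ₁ : g * τ₀ * g⁻¹ ∈ Ipeu p P := conj_mem_Ipeu hg hτ₀
    have hcoef : mat bas (ρ.ρ (g * τ₀ * g⁻¹)) 0 1 = mat bas (ρ.ρ τ₀) 0 1 := by
      rw [← sub_eq_zero]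
      have hmem : mat bas (ρ.ρ (g * τ₀ * g⁻¹)) 0 1 - mat bas (ρ.ρ τ₀) 0 1 ∈ (⊥ : Ideal A) := by
        refine H59.mem_of_forall_mem_sup_pow ⊥ _ fun N => ?_
        obtain ⟨π₀, hπ₀⟩ := IsAlgClosed.exists_pow_nat_eq (p : AlgebraicClosure ℚ)
          (pow_pos hp.pos N)
        have h0 := root_ne_zero hp hπ₀
        have h1 := ord_coeff_mod hp hP ρ hdet bas hshape N π₀ (τ₀ π₀ / π₀) hπ₀ τ₀ hτ₀
          (by field_simp) (g * τ₀ * g⁻¹) hτ₁ 1
          (by rw [pow_one]; exact kum_conj hp hgfix hτ₀ hπ₀)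
        rw [Nat.cast_one, one_mul] at h1
        exact Ideal.mem_sup_right h1
      exact (Submodule.mem_bot A).1 hmem
    have hmat : mat bas (ρ.ρ (g * τ₀ * g⁻¹)) = mat bas (ρ.ρ τ₀) := by
      ext i j
      fin_cases i <;> fin_cases j
      · exact (hone _ hτ₁).trans (hone _ hτ₀).symm
      · exact hcoef
      · exact (hshape _ hτ₁.1).1.trans (hshape _ hτ₀.1).1.symm
      · exact (hshape _ hτ₁.1).2.trans (hshape _ hτ₀.1).2.symm
    have heq : ρ.ρ (g * τ₀ * g⁻¹) = ρ.ρ τ₀ :=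
      (LinearMap.toMatrixAlgEquiv bas).injective hmat
    have e : g * τ₀ = (g * τ₀ * g⁻¹) * g := by group
    rw [← map_mul, e, map_mul, heq]
  · -- (2)
    have hτJ : mat bas (ρ.ρ τ₀) 0 1 ∈ J := by
      have h1 := mat_sub_one_mem bas J (ρ.ρ τ₀) hJ 0 1
      rwa [Matrix.sub_apply, Matrix.one_apply_ne h01, sub_zero] at h1
    have hσJ : mat bas (ρ.ρ σ) 0 1 ∈ J := by
      refine H59.mem_of_forall_mem_sup_pow J _ fun N => ?_
      obtain ⟨m, hm⟩ := hprop σ hσ N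
      have e : mat bas (ρ.ρ σ) 0 1 = m * mat bas (ρ.ρ τ₀) 0 1 +
          (mat bas (ρ.ρ σ) 0 1 - m * mat bas (ρ.ρ τ₀) 0 1) := by ring
      rw [e]
      exact Submodule.add_mem_sup (J.mul_mem_left _ hτJ) hm
    refine H59.sub_mem_smul_top_of_mat bas J (ρ.ρ σ) (fun i j => ?_) v
    rw [Matrix.sub_apply]
    fin_cases i <;> fin_cases j
    · show mat bas (ρ.ρ σ) 0 0 - (1 : Matrix (Fin 2) (Fin 2) A) 0 0 ∈ J
      rw [hone σ hσ, Matrix.one_apply_eq, sub_self]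
      exact J.zero_mem
    · show mat bas (ρ.ρ σ) 0 1 - (1 : Matrix (Fin 2) (Fin 2) A) 0 1 ∈ J
      rw [Matrix.one_apply_ne h01, sub_zero]
      exact hσJ
    · show mat bas (ρ.ρ σ) 1 0 - (1 : Matrix (Fin 2) (Fin 2) A) 1 0 ∈ J
      rw [(hshape σ hσ.1).1, Matrix.one_apply_ne h01.symm, sub_zero]
      exact J.zero_mem
    · show mat bas (ρ.ρ σ) 1 1 - (1 : Matrix (Fin 2) (Fin 2) A) 1 1 ∈ J
      rw [(hshape σ hσ.1).2, Matrix.one_apply_eq, sub_self]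
      exact J.zero_mem

end Fermat.Agent.S59.NonMin.H48
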