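/-
S59, package RT-NONMIN, CASE C, leaf K-CORE (helper56), part 0: VAL.

`P` a place of `ℚ̄` over `p`, `I_P` its inertia group.  Every `w ≠ 0` fixed by `I_P` is a power of
`p` times a unit of `P` fixed by `I_P` (the inertia field is unramified: `R.H6.stmt_UnrFix`).
-/
import Fermat.Agent.R.H6_UnrFix

set_option autoImplicit false

namespace Fermat.Agent.S59.NonMin.H56K

/-- `ℚ̄`. -/
abbrev Qb : Type := AlgebraicClosure ℚ

/-- The absolute Galois group of `ℚ`. -/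
abbrev GQ : Type := AlgebraicClosure ℚ ≃ₐ[ℚ] AlgebraicClosure ℚ

variable {p : ℕ} (P : ValuationSubring Qb)

theorem val_p_lt_one (hP : P.LiesOverPrime p) : P.valuation (p : Qb) < 1 :=
  P.mem_nonunits_iff.1 hP

theorem val_p_ne_zero (hp : p.Prime) : P.valuation (p : Qb) ≠ 0 := by
  rw [ne_eq, map_eq_zero]
  exact_mod_cast hp.ne_zero

/-- `k ↦ |p|_P ^ k` is injective. -/
theorem zpow_val_p_injective (hp : p.Prime) (hP : P.LiesOverPrime p) {a b : ℤ}
    (h : P.valuation (p : Qb) ^ a = P.valuation (p : Qb) ^ b) : a = b := by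
  have h0 := val_p_ne_zero P hp
  have h1 := val_p_lt_one P hP
  have key : ∀ c : ℤ, 0 < c → P.valuation (p : Qb) ^ c < 1 := by
    intro c hc
    lift c to ℕ using hc.le
    rw [zpow_natCast]
    exact pow_lt_one₀ zero_le h1 (by omega)
  by_contra hne
  rcases lt_or_gt_of_ne hne with hlt | hlt
  · have h2 := key (b - a) (by omega)
    rw [zpow_sub₀ h0, ← h, div_self (zpow_ne_zero _ h0)] at h2
    exact lt_irrefl _ h2
  · have h2 := key (a - b) (by omega)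
    rw [zpow_sub₀ h0, h, div_self (zpow_ne_zero _ h0)] at h2
    exact lt_irrefl _ h2

/-- An element of valuation `1` is a unit of `P`. -/
theorem mem_of_val_eq_one {u : Qb} (hu : P.valuation u = 1) : u ∈ P ∧ u⁻¹ ∈ P ∧ u ≠ 0 := by
  refine ⟨(P.valuation_le_one_iff u).1 hu.le, (P.valuation_le_one_iff _).1 ?_, ?_⟩
  · rw [map_inv₀, hu, inv_one]
  · rintro rfl
    rw [map_zero] at hu
    exact zero_ne_one hu

theorem val_eq_one_of_mem {u : Qb} (h1 : u ∈ P) (h2 : u⁻¹ ∈ P) (h0 : u ≠ 0) :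
    P.valuation u = 1 := by
  have a1 := (P.valuation_le_one_iff u).2 h1
  have a2 := (P.valuation_le_one_iff _).2 h2
  rw [map_inv₀] at a2
  have hv0 : P.valuation u ≠ 0 := by rwa [ne_eq, map_eq_zero]
  have a3 : 1 ≤ P.valuation u := by
    have := (inv_le_one₀ (zero_lt_iff.2 hv0)).1 a2
    exact this
  exact le_antisymm a1 a3

/-- **VAL**: an inertia-fixed `w ≠ 0` is a power of `p` times an inertia-fixed unit. -/
theorem val_fixed (hp : p.Prime) (hP : P.LiesOverPrime p) (w : Qb) (hw : w ≠ 0)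
    (hfix : ∀ s ∈ P.inertiaSubgroupIn ℚ, s w = w) :
    ∃ k : ℤ, P.valuation (w * (p : Qb) ^ k) = 1 ∧
      ∀ s ∈ P.inertiaSubgroupIn ℚ, s (w * (p : Qb) ^ k) = w * (p : Qb) ^ k := by
  obtain ⟨k, hk⟩ := Fermat.Agent.R.H6.stmt_UnrFix p hp P hP w hw hfix
  refine ⟨-k, ?_, fun s hs => ?_⟩
  · rw [map_mul, map_zpow₀, hk, ← zpow_add₀ (val_p_ne_zero P hp), add_neg_cancel, zpow_zero]
  · rw [map_mul, map_zpow₀, hfix s hs, map_natCast]

/-- **VAL**, membership form. -/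
theorem val_fixed' (hp : p.Prime) (hP : P.LiesOverPrime p) (w : Qb) (hw : w ≠ 0)
    (hfix : ∀ s ∈ P.inertiaSubgroupIn ℚ, s w = w) :
    ∃ k : ℤ, (w * (p : Qb) ^ k ∈ P ∧ (w * (p : Qb) ^ k)⁻¹ ∈ P ∧ w * (p : Qb) ^ k ≠ 0) ∧
      ∀ s ∈ P.inertiaSubgroupIn ℚ, s (w * (p : Qb) ^ k) = w * (p : Qb) ^ k := by
  obtain ⟨k, h1, h2⟩ := val_fixed P hp hP w hw hfix
  exact ⟨k, mem_of_val_eq_one P h1, h2⟩

end Fermat.Agent.S59.NonMin.H56K
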