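/-
S59, package RT-NONMIN, CASE C, leaf K-CORE (helper56), part 1: Kummer theory by exchange.

* `exchange` : `H` a group of automorphisms of `ℚ̄` fixing the `N`-th roots of unity, `x`, `y`
  radicals (`x ^ N`, `y ^ N` fixed by `H`); if every `σ ∈ H` fixing `y` fixes `x`, then
  `x / y ^ e` is fixed by `H` for some `e`.
* `exists_quot_fixed` : the same for a finite list of radicals.
-/
import Fermat.Agent.S59.NonMin.H56_KVal

set_option autoImplicit false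

namespace Fermat.Agent.S59.NonMin.H56K

/-! ### 1. The Kummer character and the exchange lemma -/

section exchange

variable (H : Subgroup GQ)

/-- The Kummer character `σ ↦ σ x / x` of `x` on `H`. -/
noncomputable def kappa (x : Qb) (hx : x ≠ 0)
    (hfix : ∀ σ ∈ H, ∀ τ ∈ H, τ (σ x / x) = σ x / x) : H →* Qbˣ where
  toFun σ := Units.mk0 ((σ : GQ) x / x) (div_ne_zero ((map_ne_zero _).2 hx) hx)
  map_one' := by
    ext
    simp [div_self hx]
  map_mul' σ τ := by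
    ext
    simp only [Units.val_mk0, Units.val_mul, Subgroup.coe_mul, AlgEquiv.mul_apply]
    have h := hfix τ τ.2 σ σ.2
    rw [map_div₀] at h
    have hσx : (σ : GQ) x ≠ 0 := (map_ne_zero _).2 hx
    field_simp at h ⊢
    linear_combination h

theorem kappa_apply (x : Qb) (hx : x ≠ 0)
    (hfix : ∀ σ ∈ H, ∀ τ ∈ H, τ (σ x / x) = σ x / x) (σ : H) :
    ((kappa H x hx hfix σ : Qbˣ) : Qb) = (σ : GQ) x / x := rfl

theorem kappa_eq_one_iff (x : Qb) (hx : x ≠ 0)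
    (hfix : ∀ σ ∈ H, ∀ τ ∈ H, τ (σ x / x) = σ x / x) (σ : H) :
    kappa H x hx hfix σ = 1 ↔ (σ : GQ) x = x := by
  rw [Units.ext_iff, kappa_apply, Units.val_one, div_eq_one_iff_eq hx]

theorem div_pow_eq_one {N : ℕ} {x : Qb} (hx : x ≠ 0) {σ : GQ} (h : σ (x ^ N) = x ^ N) :
    (σ x / x) ^ N = 1 := by
  rw [div_pow, ← map_pow, h, div_self (pow_ne_zero _ hx)]

/-- **Exchange lemma** (Kummer theory for one radical). -/
theorem exchange (N : ℕ) (hN : 0 < N) (x y : Qb) (hx : x ≠ 0) (hy : y ≠ 0)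
    (hroot : ∀ σ ∈ H, ∀ ξ : Qb, ξ ^ N = 1 → σ ξ = ξ)
    (hxN : ∀ σ ∈ H, σ (x ^ N) = x ^ N) (hyN : ∀ σ ∈ H, σ (y ^ N) = y ^ N)
    (hker : ∀ σ ∈ H, σ y = y → σ x = x) :
    ∃ e : ℕ, ∀ σ ∈ H, σ (x / y ^ e) = x / y ^ e := by
  classical
  have fixx : ∀ σ ∈ H, ∀ τ ∈ H, τ (σ x / x) = σ x / x := fun σ hσ τ hτ =>
    hroot τ hτ _ (div_pow_eq_one hx (hxN σ hσ))
  have fixy : ∀ σ ∈ H, ∀ τ ∈ H, τ (σ y / y) = σ y / y := fun σ hσ τ hτ =>
    hroot τ hτ _ (div_pow_eq_one hy (hyN σ hσ))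
  set f := kappa H y hy fixy with hf
  set g := kappa H x hx fixx with hg
  have hfN : ∀ σ : H, (f σ) ^ N = 1 := by
    intro σ
    rw [Units.ext_iff, Units.val_pow_eq_pow_val, kappa_apply, Units.val_one]
    exact div_pow_eq_one hy (hyN σ σ.2)
  -- the range of `f` is finite, hence cyclic
  have hfin : Finite f.range := by
    have : NeZero N := ⟨hN.ne'⟩
    have hle : f.range ≤ rootsOfUnity N Qb := by
      rintro _ ⟨σ, rfl⟩
      rw [mem_rootsOfUnity]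
      exact hfN σ
    exact Finite.of_injective (Subgroup.inclusion hle) (Subgroup.inclusion_injective hle)
  have : IsCyclic f.range := inferInstance
  obtain ⟨⟨ω, σ₀, rfl⟩, hgen⟩ := IsCyclic.exists_generator (α := f.range)
  -- `θ = g σ₀` is a power of `ω = f σ₀`
  set d := orderOf (f σ₀) with hd
  have hdpos : 0 < d := by
    rw [hd, orderOf_pos_iff, isOfFinOrder_iff_pow_eq_one]
    exact ⟨N, hN, hfN σ₀⟩
  have hθ : (g σ₀) ^ d = 1 := by
    rw [← map_pow, kappa_eq_one_iff]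
    apply hker _ (σ₀ ^ d).2
    rw [← kappa_eq_one_iff H y hy fixy, ← hf, map_pow, hd, pow_orderOf_eq_one]
  have hprim : IsPrimitiveRoot ((f σ₀ : Qbˣ) : Qb) d :=
    IsPrimitiveRoot.coe_units_iff.2 (IsPrimitiveRoot.orderOf (f σ₀))
  have : NeZero d := ⟨hdpos.ne'⟩
  obtain ⟨e, -, he⟩ := hprim.eq_pow_of_pow_eq_one (ξ := ((g σ₀ : Qbˣ) : Qb)) (by
    rw [← Units.val_pow_eq_pow_val, hθ, Units.val_one])
  have he' : (f σ₀) ^ e = g σ₀ := by
    rw [Units.ext_iff, Units.val_pow_eq_pow_val]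
    exact he
  refine ⟨e, fun σ hσ => ?_⟩
  -- `g σ = (f σ) ^ e`
  have key : g ⟨σ, hσ⟩ = (f ⟨σ, hσ⟩) ^ e := by
    have hmem := hgen ⟨f ⟨σ, hσ⟩, ⟨⟨σ, hσ⟩, rfl⟩⟩
    obtain ⟨k, hk⟩ := Subgroup.mem_zpowers_iff.1 hmem
    have hk' : (f σ₀) ^ k = f ⟨σ, hσ⟩ := by
      have := congrArg (Subtype.val) hk
      simpa using this
    have h1 : f ((σ₀ ^ k)⁻¹ * ⟨σ, hσ⟩) = 1 := by
      rw [map_mul, map_inv, map_zpow, hk', inv_mul_cancel]
    have h2 : g ((σ₀ ^ k)⁻¹ * ⟨σ, hσ⟩) = 1 := by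
      rw [kappa_eq_one_iff] at h1 ⊢
      exact hker _ ((σ₀ ^ k)⁻¹ * ⟨σ, hσ⟩).2 h1
    rw [map_mul, map_inv, map_zpow, inv_mul_eq_one] at h2
    rw [← h2, ← hk', ← he', ← zpow_natCast, ← zpow_natCast, ← zpow_mul, ← zpow_mul, mul_comm]
  have key' : σ x / x = (σ y / y) ^ e := by
    have := congrArg (fun u : Qbˣ => (u : Qb)) key
    simp only [Units.val_pow_eq_pow_val] at this
    exact this
  have hσy : σ y ≠ 0 := (map_ne_zero _).2 hy
  rw [map_div₀, map_pow]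
  rw [div_pow] at key'
  field_simp at key' ⊢
  linear_combination key'

end exchange

/-! ### 2. Finitely many radicals -/

section list

variable {Γ₀ : Type*} [LinearOrderedCommGroupWithZero Γ₀] (v : Valuation Qb Γ₀)

/-- The elements of `H` fixing a list pointwise. -/
def fixList (H : Subgroup GQ) (Y : List Qb) : Subgroup GQ where
  carrier := {σ | σ ∈ H ∧ ∀ y ∈ Y, σ y = y}
  mul_mem' := by
    rintro a b ⟨ha, ha'⟩ ⟨hb, hb'⟩
    refine ⟨mul_mem ha hb, fun y hy => ?_⟩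
    rw [AlgEquiv.mul_apply, hb' y hy, ha' y hy]
  one_mem' := ⟨one_mem _, fun _ _ => rfl⟩
  inv_mem' := by
    rintro a ⟨ha, ha'⟩
    refine ⟨inv_mem ha, fun y hy => ?_⟩
    have h := ha' y hy
    calc a⁻¹ y = a⁻¹ (a y) := by rw [h]
      _ = (a⁻¹ * a) y := rfl
      _ = y := by rw [inv_mul_cancel]; rfl

theorem mem_fixList {H : Subgroup GQ} {Y : List Qb} {σ : GQ} :
    σ ∈ fixList H Y ↔ σ ∈ H ∧ ∀ y ∈ Y, σ y = y := Iff.rfl

/-- **Kummer theory for finitely many radicals.** -/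
theorem exists_quot_fixed (I H : Subgroup GQ) (hHI : H ≤ I) (N : ℕ) (hN : 0 < N)
    (hroot : ∀ σ ∈ H, ∀ ξ : Qb, ξ ^ N = 1 → σ ξ = ξ) :
    ∀ (Y : List Qb), (∀ y ∈ Y, v y = 1 ∧ ∀ σ ∈ I, σ (y ^ N) = y ^ N) →
    ∀ x : Qb, x ≠ 0 → (∀ σ ∈ I, σ (x ^ N) = x ^ N) →
      (∀ σ ∈ H, (∀ y ∈ Y, σ y = y) → σ x = x) →
      ∃ w : Qb, v w = 1 ∧ (∀ σ ∈ I, σ (w ^ N) = w ^ N) ∧ ∀ σ ∈ H, σ (x / w) = x / w := by
  intro Y
  induction Y with
  | nil =>
    intro _ x _ _ hx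
    refine ⟨1, map_one _, fun σ _ => by simp, fun σ hσ => ?_⟩
    rw [div_one]
    exact hx σ hσ (by simp)
  | cons y Y ih =>
    intro hY x hx0 hxN hx
    have hy1 := (hY y (by simp)).1
    have hyN := (hY y (by simp)).2
    have hy0 : y ≠ 0 := by
      rintro rfl
      rw [map_zero] at hy1
      exact zero_ne_one hy1
    obtain ⟨e, he⟩ := exchange (fixList H Y) N hN x y hx0 hy0
      (fun σ hσ => hroot σ hσ.1) (fun σ hσ => hxN σ (hHI hσ.1)) (fun σ hσ => hyN σ (hHI hσ.1))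
      (fun σ hσ hσy => hx σ hσ.1 (by
        intro y' hy'
        rcases List.mem_cons.1 hy' with rfl | h
        · exact hσy
        · exact hσ.2 y' h))
    obtain ⟨w₁, hw1, hwN, hw⟩ := ih (fun y' hy' => hY y' (List.mem_cons_of_mem _ hy'))
      (x / y ^ e) (div_ne_zero hx0 (pow_ne_zero _ hy0))
      (fun σ hσ => by
        rw [div_pow, map_div₀, hxN σ hσ, ← pow_mul, mul_comm, pow_mul, map_pow, hyN σ hσ])
      (fun σ hσ hσY => he σ ⟨hσ, hσY⟩)
    refine ⟨y ^ e * w₁, ?_, fun σ hσ => ?_, fun σ hσ => ?_⟩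
    · rw [map_mul, map_pow, hy1, one_pow, one_mul, hw1]
    · rw [mul_pow, map_mul, hwN σ hσ, ← pow_mul, mul_comm e N, pow_mul, map_pow, hyN σ hσ]
    · rw [← div_div]
      exact hw σ hσ

end list

end Fermat.Agent.S59.NonMin.H56K
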