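/-
S59, package RT-NONMIN, CASE C, leaf K-CORE (helper56), part 2: the key lemma and K-CORE.

`P` a place of `ℚ̄` over the odd prime `p`, `I` its inertia group, `E = ℚ̄^I` the inertia field
(unramified: `R.H6.stmt_UnrFix`).  A "peu radical" is a `y` with `y ^ (p ^ n)` a unit of `E`.

* `exists_moving` : some `γ₀ ∈ I` fixes no `p`-th root of unity but `1` (`ζ_p ∉ E`).
* `descent`       : `x ^ (p ^ m) ∈ E`, `x ∈ E(μ_{p^m})` ⟹ `x / η ∈ E` for a root of unity `η`.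
* `finite_key`    : a `p`-th root `π` of `p` is not in `E(μ_{p^m}, y₁, …, y_r)` (`y_i` peu radicals)
                    [exchange (`H56_KExch`) + descent + valuations].
* `key`           : some `σ ∈ I` fixes ALL peu radicals and moves `π` (compactness).
* `key_primitive` : such a `σ` acts on every `p ^ n`-th root of `p` by a primitive root of unity.
* `kcore`         : **K-CORE**: `y ^ (p ^ n) ∈ E`, `y` fixed by the peu inertia ⟹ `y = b · unit`,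
                    `b ∈ E` (in fact a power of `p`).
-/
import Fermat.Agent.S59.NonMin.H56_KExch
import Fermat.Agent.BADP.H97_KArithQ
import Fermat.Agent.L.Pivot.H59_TameGen

set_option autoImplicit false

namespace Fermat.Agent.S59.NonMin.H56K

variable {p : ℕ} (P : ValuationSubring Qb)

/-! ### 3. An element of inertia moving the `p`-th roots of unity -/

theorem exists_primitive_root_qb (n : ℕ) [NeZero n] : ∃ ζ : Qb, IsPrimitiveRoot ζ n :=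
  HasEnoughRootsOfUnity.exists_primitiveRoot Qb n

/-- Some element of the inertia group at `p` (odd) fixes no nontrivial `p`-th root of unity. -/
theorem exists_moving (hp : p.Prime) (hp2 : p ≠ 2) (hP : P.LiesOverPrime p) :
    ∃ γ₀ ∈ P.inertiaSubgroupIn ℚ, ∀ ξ : Qb, ξ ^ p = 1 → γ₀ ξ = ξ → ξ = 1 := by
  have : NeZero p := ⟨hp.ne_zero⟩
  obtain ⟨ζ, hζ⟩ := exists_primitive_root_qb p
  have hmove : ∃ γ₀ ∈ P.inertiaSubgroupIn ℚ, γ₀ ζ ≠ ζ := by
    by_contra hcon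
    push Not at hcon
    have hfix : ∀ s ∈ P.inertiaSubgroupIn ℚ, s (ζ - 1) = ζ - 1 := fun s hs => by
      rw [map_sub, hcon s hs, map_one]
    have hne : ζ - 1 ≠ 0 := sub_ne_zero.2 (hζ.ne_one hp.one_lt)
    obtain ⟨k, hk⟩ := Fermat.Agent.R.H6.stmt_UnrFix p hp P hP (ζ - 1) hne hfix
    have h1 := Fermat.Agent.BADP.H97.val_root_sub_one_pow P.valuation hp hζ
    rw [hk, ← zpow_natCast, ← zpow_mul] at h1
    have h2 : k * ((p - 1 : ℕ) : ℤ) = 1 :=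
      zpow_val_p_injective P hp hP (by rw [h1, zpow_one])
    have h3 : ((p - 1 : ℕ) : ℤ) ∣ 1 := Dvd.intro_left k h2
    have h4 : ((p - 1 : ℕ) : ℤ) = 1 := Int.eq_one_of_dvd_one (by positivity) h3
    have h5 := hp.two_le
    omega
  obtain ⟨γ₀, hγ₀, hne⟩ := hmove
  refine ⟨γ₀, hγ₀, fun ξ hξ hfix => ?_⟩
  by_contra hξ1
  have hord : orderOf ξ = p := by
    have : Fact p.Prime := ⟨hp⟩
    exact orderOf_eq_prime hξ hξ1
  have hprim : IsPrimitiveRoot ξ p := hord ▸ IsPrimitiveRoot.orderOf ξ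
  obtain ⟨i, -, hi⟩ := hprim.eq_pow_of_pow_eq_one hζ.pow_eq_one
  apply hne
  rw [← hi, map_pow, hfix]

/-! ### 4. Descent -/

/-- An automorphism fixing no nontrivial `p`-th root of unity fixes no nontrivial `p`-power root
of unity. -/
theorem eq_one_of_fixed {γ₀ : GQ} (h : ∀ ξ : Qb, ξ ^ p = 1 → γ₀ ξ = ξ → ξ = 1) :
    ∀ (m : ℕ) (ξ : Qb), ξ ^ p ^ m = 1 → γ₀ ξ = ξ → ξ = 1 := by
  intro m
  induction m with
  | zero => intro ξ hξ _; simpa using hξ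
  | succ m ih =>
    intro ξ hξ hfix
    have h1 : ξ ^ p = 1 := ih (ξ ^ p) (by rw [← pow_mul, ← pow_succ']; exact hξ)
      (by rw [map_pow, hfix])
    exact h ξ h1 hfix

/-- `ξ ↦ γ₀ ξ / ξ` is onto the `N`-th roots of unity if `γ₀` fixes none of them but `1`. -/
theorem exists_root_div (N : ℕ) (hN : 0 < N) (γ₀ : GQ)
    (h : ∀ ξ : Qb, ξ ^ N = 1 → γ₀ ξ = ξ → ξ = 1) (c : Qb) (hc : c ^ N = 1) :
    ∃ η : Qb, η ^ N = 1 ∧ γ₀ η / η = c := by
  classical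
  set μ : Finset Qb := Polynomial.nthRootsFinset N (1 : Qb) with hμ
  have hmem : ∀ ξ : Qb, ξ ∈ μ ↔ ξ ^ N = 1 := fun ξ => Polynomial.mem_nthRootsFinset hN _
  have hne : ∀ ξ ∈ μ, ξ ≠ 0 := by
    intro ξ hξ h0
    have := (hmem ξ).1 hξ
    rw [h0, zero_pow hN.ne'] at this
    exact zero_ne_one this
  have hinj : Set.InjOn (fun ξ : Qb => γ₀ ξ / ξ) μ := by
    intro a ha b hb hab
    have ha0 := hne a ha
    have hb0 := hne b hb
    have hγb : γ₀ b ≠ 0 := (map_ne_zero _).2 hb0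
    have h1 : γ₀ (a / b) = a / b := by
      rw [map_div₀]
      simp only at hab
      field_simp at hab ⊢
      linear_combination hab
    have h2 := h (a / b) (by rw [div_pow, (hmem a).1 ha, (hmem b).1 hb, div_one]) h1
    exact (div_eq_one_iff_eq hb0).1 h2
  have hsub : μ.image (fun ξ : Qb => γ₀ ξ / ξ) ⊆ μ := by
    intro y hy
    obtain ⟨ξ, hξ, rfl⟩ := Finset.mem_image.1 hy
    rw [hmem, div_pow, ← map_pow, (hmem ξ).1 hξ, map_one, div_one]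
  have heq : μ.image (fun ξ : Qb => γ₀ ξ / ξ) = μ :=
    Finset.eq_of_subset_of_card_le hsub (by rw [Finset.card_image_of_injOn hinj])
  have hcμ : c ∈ μ.image (fun ξ : Qb => γ₀ ξ / ξ) := by rw [heq, hmem]; exact hc
  obtain ⟨η, hη, hηc⟩ := Finset.mem_image.1 hcμ
  exact ⟨η, (hmem η).1 hη, hηc⟩

/-- **Descent** from `E(μ_{p^m})` to the inertia field `E`. -/
theorem descent (I : Subgroup GQ) (hp : p.Prime) (m : ℕ) (ζ : Qb)
    (hζ : IsPrimitiveRoot ζ (p ^ m))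
    (γ₀ : GQ) (hγ₀I : γ₀ ∈ I) (hγ₀ : ∀ ξ : Qb, ξ ^ p = 1 → γ₀ ξ = ξ → ξ = 1)
    (x : Qb) (hx0 : x ≠ 0) (hxN : ∀ σ ∈ I, σ (x ^ p ^ m) = x ^ p ^ m)
    (hx : ∀ σ ∈ I, σ ζ = ζ → σ x = x) :
    ∃ η : Qb, η ^ p ^ m = 1 ∧ ∀ σ ∈ I, σ (x / η) = x / η := by
  have hN : 0 < p ^ m := pow_pos hp.pos m
  have : NeZero (p ^ m) := ⟨hN.ne'⟩
  have hfix0 := eq_one_of_fixed hγ₀ m
  obtain ⟨η, hη, hηc⟩ := exists_root_div (p ^ m) hN γ₀ hfix0 (γ₀ x / x)
    (div_pow_eq_one hx0 (hxN γ₀ hγ₀I))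
  have hη0 : η ≠ 0 := by
    rintro rfl
    rw [zero_pow hN.ne'] at hη
    exact zero_ne_one hη
  refine ⟨η, hη, ?_⟩
  set x' := x / η with hx'
  have hx'0 : x' ≠ 0 := div_ne_zero hx0 hη0
  have hγx' : γ₀ x' = x' := by
    have hγη : γ₀ η ≠ 0 := (map_ne_zero _).2 hη0
    rw [hx', map_div₀]
    field_simp at hηc ⊢
    linear_combination -hηc
  have hx'N : ∀ σ ∈ I, σ (x' ^ p ^ m) = x' ^ p ^ m := by
    intro σ hσ
    rw [hx', div_pow, hη, div_one]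
    exact hxN σ hσ
  intro σ hσ
  -- `σ` and `γ₀` commute on `ζ`
  obtain ⟨a, -, ha⟩ := hζ.eq_pow_of_pow_eq_one (ξ := γ₀ ζ) (by rw [← map_pow, hζ.pow_eq_one, map_one])
  obtain ⟨b, -, hb⟩ := hζ.eq_pow_of_pow_eq_one (ξ := σ ζ) (by rw [← map_pow, hζ.pow_eq_one, map_one])
  have hcomm : σ (γ₀ ζ) = γ₀ (σ ζ) := by
    rw [← ha, ← hb, map_pow, map_pow, ← ha, ← hb, ← pow_mul, ← pow_mul, mul_comm]
  set τ : GQ := (γ₀ * σ)⁻¹ * (σ * γ₀) with hτ
  have hτI : τ ∈ I := mul_mem (inv_mem (mul_mem hγ₀I hσ)) (mul_mem hσ hγ₀I)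
  have hτζ : τ ζ = ζ := by
    have h1 : τ ζ = (γ₀ * σ)⁻¹ ((γ₀ * σ) ζ) := by
      rw [hτ, AlgEquiv.mul_apply, AlgEquiv.mul_apply, AlgEquiv.mul_apply, hcomm]
    rw [h1]
    change ((γ₀ * σ)⁻¹ * (γ₀ * σ)) ζ = ζ
    rw [inv_mul_cancel]
    rfl
  have hτx : τ x = x := hx τ hτI hτζ
  have hτη : τ η = η := by
    obtain ⟨i, -, hi⟩ := hζ.eq_pow_of_pow_eq_one hη
    rw [← hi, map_pow, hτζ]
  have hτx' : τ x' = x' := by rw [hx', map_div₀, hτx, hτη]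
  have hcomm' : σ (γ₀ x') = γ₀ (σ x') := by
    have h1 : (γ₀ * σ) (τ x') = (γ₀ * σ) x' := by rw [hτx']
    have h2 : (γ₀ * σ) (τ x') = ((γ₀ * σ) * τ) x' := rfl
    rw [h2, hτ, mul_inv_cancel_left] at h1
    exact h1
  rw [hγx'] at hcomm'
  -- `c = σ x' / x'` is a root of unity fixed by `γ₀`
  have hc1 : (σ x' / x') ^ p ^ m = 1 := div_pow_eq_one hx'0 (hx'N σ hσ)
  have hc2 : γ₀ (σ x' / x') = σ x' / x' := by
    rw [map_div₀, ← hcomm', hγx']
  have hc := hfix0 _ hc1 hc2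
  exact (div_eq_one_iff_eq hx'0).1 hc

/-! ### 5. The key lemma at a finite level -/

/-- The radicals of inertia-fixed units. -/
def IsPeuRad (p : ℕ) (P : ValuationSubring Qb) (y : Qb) : Prop :=
  ∃ n : ℕ, P.valuation (y ^ p ^ n) = 1 ∧ ∀ s ∈ P.inertiaSubgroupIn ℚ, s (y ^ p ^ n) = y ^ p ^ n

theorem IsPeuRad.val {y : Qb} (h : IsPeuRad p P y) (hp : p.Prime) : P.valuation y = 1 := by
  obtain ⟨n, h1, -⟩ := h
  rw [map_pow] at h1
  exact (pow_eq_one_iff.1 h1).resolve_right (pow_ne_zero n hp.ne_zero)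

theorem IsPeuRad.fixed_of_le {y : Qb} {n m : ℕ} (hnm : n ≤ m)
    (h : ∀ s ∈ P.inertiaSubgroupIn ℚ, s (y ^ p ^ n) = y ^ p ^ n) :
    ∀ s ∈ P.inertiaSubgroupIn ℚ, s (y ^ p ^ m) = y ^ p ^ m := by
  intro s hs
  obtain ⟨d, rfl⟩ := Nat.exists_eq_add_of_le hnm
  rw [pow_add, pow_mul, map_pow, h s hs]

/-- A common exponent for a finite list of radicals. -/
theorem exists_common_exp (Y : List Qb) (hY : ∀ y ∈ Y, IsPeuRad p P y) :
    ∃ m : ℕ, 1 ≤ m ∧ ∀ y ∈ Y, ∀ s ∈ P.inertiaSubgroupIn ℚ, s (y ^ p ^ m) = y ^ p ^ m := by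
  induction Y with
  | nil => exact ⟨1, le_rfl, fun y hy => by simp at hy⟩
  | cons y Y ih =>
    obtain ⟨m, hm1, hm⟩ := ih (fun y' hy' => hY y' (List.mem_cons_of_mem _ hy'))
    obtain ⟨n, -, hn⟩ := hY y (by simp)
    refine ⟨max m n, le_trans hm1 (le_max_left _ _), fun y' hy' => ?_⟩
    rcases List.mem_cons.1 hy' with rfl | h
    · exact IsPeuRad.fixed_of_le P (le_max_right _ _) hn
    · exact IsPeuRad.fixed_of_le P (le_max_left _ _) (hm y' h)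

/-- **Finite key lemma**: a `p`-th root of `p` is moved by some element of inertia fixing a given
finite list of radicals of inertia-fixed units. -/
theorem finite_key (hp : p.Prime) (hp2 : p ≠ 2) (hP : P.LiesOverPrime p) (π : Qb)
    (hπ : π ^ p = (p : Qb)) (Y : List Qb) (hY : ∀ y ∈ Y, IsPeuRad p P y) :
    ∃ σ ∈ P.inertiaSubgroupIn ℚ, (∀ y ∈ Y, σ y = y) ∧ σ π ≠ π := by
  by_contra hcon
  push Not at hcon
  set I := P.inertiaSubgroupIn ℚ with hI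
  obtain ⟨m, hm1, hm⟩ := exists_common_exp P Y hY
  have hN : 0 < p ^ m := pow_pos hp.pos m
  have : NeZero (p ^ m) := ⟨hN.ne'⟩
  obtain ⟨ζ, hζ⟩ := HasEnoughRootsOfUnity.exists_primitiveRoot Qb (p ^ m)
  have hp0 : (p : Qb) ≠ 0 := by exact_mod_cast hp.ne_zero
  have hπ0 : π ≠ 0 := by
    rintro rfl
    rw [zero_pow hp.ne_zero] at hπ
    exact hp0 hπ.symm
  have hπN : π ^ p ^ m = (p : Qb) ^ p ^ (m - 1) := by
    obtain ⟨m', rfl⟩ := Nat.exists_eq_add_of_le hm1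
    rw [pow_add, pow_one, pow_mul, hπ, Nat.add_sub_cancel_left]
  -- Kummer theory over `E(μ_{p^m})`
  obtain ⟨w, hw1, hwN, hw⟩ := exists_quot_fixed P.valuation I (fixList I [ζ])
    (fun σ hσ => hσ.1) (p ^ m) hN
    (fun σ hσ ξ hξ => by
      obtain ⟨i, -, hi⟩ := hζ.eq_pow_of_pow_eq_one hξ
      rw [← hi, map_pow, hσ.2 ζ (by simp)])
    Y (fun y hy => ⟨(hY y hy).val P hp, hm y hy⟩) π hπ0
    (fun σ _ => by rw [hπN, map_pow, map_natCast])
    (fun σ hσ hσY => hcon σ hσ.1 hσY)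
  have hw0 : w ≠ 0 := by
    rintro rfl
    rw [map_zero] at hw1
    exact zero_ne_one hw1
  -- descent to the inertia field
  obtain ⟨γ₀, hγ₀I, hγ₀⟩ := exists_moving P hp hp2 hP
  obtain ⟨η, hη, hfix⟩ := descent I hp m ζ hζ γ₀ hγ₀I hγ₀ (π / w) (div_ne_zero hπ0 hw0)
    (fun σ hσ => by rw [div_pow, map_div₀, hwN σ hσ, hπN, map_pow, map_natCast])
    (fun σ hσ hσζ => hw σ ⟨hσ, fun y hy => by
      rw [List.mem_singleton] at hy
      rw [hy]; exact hσζ⟩)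
  have hη0 : η ≠ 0 := by
    rintro rfl
    rw [zero_pow hN.ne'] at hη
    exact zero_ne_one hη
  -- valuations
  obtain ⟨k, hk⟩ := Fermat.Agent.R.H6.stmt_UnrFix p hp P hP (π / w / η)
    (div_ne_zero (div_ne_zero hπ0 hw0) hη0) hfix
  have hvη : P.valuation η = 1 := by
    have h1 : P.valuation η ^ p ^ m = 1 := by rw [← map_pow, hη, map_one]
    exact (pow_eq_one_iff.1 h1).resolve_right hN.ne'
  have h1 : P.valuation (π / w / η) ^ p ^ m = P.valuation (p : Qb) ^ p ^ (m - 1) := by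
    rw [map_div₀, map_div₀, hw1, hvη, div_one, div_one, ← map_pow, hπN, map_pow]
  rw [hk, ← zpow_natCast, ← zpow_natCast, ← zpow_mul] at h1
  have h2 := zpow_val_p_injective P hp hP h1
  obtain ⟨m', rfl⟩ := Nat.exists_eq_add_of_le hm1
  rw [Nat.add_sub_cancel_left, pow_add, pow_one] at h2
  push_cast at h2
  have hpm : ((p : ℤ) ^ m') ≠ 0 := pow_ne_zero _ (by exact_mod_cast hp.ne_zero)
  have h3 : k * (p : ℤ) = 1 := by
    have : (k * (p : ℤ)) * (p : ℤ) ^ m' = 1 * (p : ℤ) ^ m' := by linear_combination h2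
    exact mul_right_cancel₀ hpm this
  have h4 : (p : ℤ) ∣ 1 := Dvd.intro_left k h3
  have h5 : (p : ℤ) = 1 := Int.eq_one_of_dvd_one (by positivity) h4
  have h6 := hp.two_le
  omega

/-! ### 6. The key lemma (compactness) -/

/-- **Key lemma**: some element of the inertia group at `p` fixes all radicals of inertia-fixed
units and moves a given `p`-th root of `p`. -/
theorem key (hp : p.Prime) (hp2 : p ≠ 2) (hP : P.LiesOverPrime p) (π : Qb)
    (hπ : π ^ p = (p : Qb)) :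
    ∃ σ ∈ P.inertiaSubgroupIn ℚ, (∀ y, IsPeuRad p P y → σ y = y) ∧ σ π ≠ π := by
  classical
  have : IsGalois ℚ Qb := Fermat.Agent.Lib.InertiaLift.qbar_isGalois'
  let ι := {y : Qb // IsPeuRad p P y}
  let t : ι → Set GQ := fun y => {σ | σ y.1 ∈ ({y.1} : Set Qb)}
  have hclosed : ∀ y, IsClosed (t y) := fun y =>
    Fermat.Agent.L.Pivot.H59.isClosed_setOf_apply_mem y.1 _
  have hs : IsCompact ((P.inertiaSubgroupIn ℚ : Set GQ) ∩ {σ | σ π ∈ ({π}ᶜ : Set Qb)}) :=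
    ((Fermat.Agent.L.Pivot.H59.isClosed_inertiaSubgroupIn P).inter
      (Fermat.Agent.L.Pivot.H59.isClosed_setOf_apply_mem π _)).isCompact
  have hfin : ∀ u : Finset ι,
      (((P.inertiaSubgroupIn ℚ : Set GQ) ∩ {σ | σ π ∈ ({π}ᶜ : Set Qb)}) ∩
        ⋂ i ∈ u, t i).Nonempty := by
    intro u
    obtain ⟨σ, hσI, hσY, hσπ⟩ := finite_key P hp hp2 hP π hπ (u.toList.map Subtype.val) (by
      intro y hy
      obtain ⟨⟨y', hy'⟩, -, rfl⟩ := List.mem_map.1 hy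
      exact hy')
    refine ⟨σ, ⟨hσI, hσπ⟩, ?_⟩
    simp only [Set.mem_iInter]
    intro i hi
    exact hσY i.1 (List.mem_map.2 ⟨i, Finset.mem_toList.2 hi, rfl⟩)
  obtain ⟨σ, ⟨hσI, hσπ⟩, hσ⟩ := hs.inter_iInter_nonempty t hclosed hfin
  exact ⟨σ, hσI, fun y hy => Set.mem_iInter.1 hσ ⟨y, hy⟩, hσπ⟩

/-- An element as in `key` acts on every `p ^ n`-th root of `p` through a PRIMITIVE `p ^ n`-th
root of unity. -/
theorem key_primitive (hp : p.Prime) {σ : GQ} (hσ : ∀ y, IsPeuRad p P y → σ y = y) {π : Qb}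
    (hπ : π ^ p = (p : Qb)) (hσπ : σ π ≠ π) (n : ℕ) (π₀ : Qb) (hπ₀ : π₀ ^ p ^ n = (p : Qb)) :
    IsPrimitiveRoot (σ π₀ / π₀) (p ^ n) := by
  have hp0 : (p : Qb) ≠ 0 := by exact_mod_cast hp.ne_zero
  have hπ₀0 : π₀ ≠ 0 := by
    rintro rfl
    rw [zero_pow (pow_ne_zero n hp.ne_zero)] at hπ₀
    exact hp0 hπ₀.symm
  have hπ0 : π ≠ 0 := by
    rintro rfl
    rw [zero_pow hp.ne_zero] at hπ
    exact hp0 hπ.symm
  have hζN : (σ π₀ / π₀) ^ p ^ n = 1 :=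
    div_pow_eq_one hπ₀0 (by rw [hπ₀, map_natCast])
  cases n with
  | zero =>
    simp only [pow_zero, pow_one] at hπ₀ ⊢
    rw [hπ₀, map_natCast, div_self hp0]
    exact IsPrimitiveRoot.one
  | succ n =>
    -- `π' = π₀ ^ (p ^ n)` is a `p`-th root of `p`
    have hπ' : (π₀ ^ p ^ n) ^ p = (p : Qb) := by rw [← pow_mul, ← pow_succ]; exact hπ₀
    have hrad : IsPeuRad p P (π₀ ^ p ^ n / π) :=
      ⟨1, by rw [pow_one, div_pow, hπ', hπ, div_self hp0, map_one],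
        fun s _ => by rw [pow_one, div_pow, hπ', hπ, div_self hp0, map_one]⟩
    have h1 := hσ _ hrad
    have hne : (σ π₀ / π₀) ^ p ^ n ≠ 1 := by
      intro h
      apply hσπ
      rw [div_pow, ← map_pow, div_eq_one_iff_eq (pow_ne_zero _ hπ₀0)] at h
      rw [map_div₀, h] at h1
      have hσπ0 : σ π ≠ 0 := (map_ne_zero _).2 hπ0
      have hpow : π₀ ^ p ^ n ≠ 0 := pow_ne_zero _ hπ₀0
      field_simp at h1
      exact h1.symm
    have hord : orderOf (σ π₀ / π₀) = p ^ (n + 1) := by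
      have hdvd : orderOf (σ π₀ / π₀) ∣ p ^ (n + 1) := orderOf_dvd_of_pow_eq_one hζN
      obtain ⟨j, hj, hjeq⟩ := (Nat.dvd_prime_pow hp).1 hdvd
      rcases Nat.lt_or_ge j (n + 1) with hlt | hge
      · exfalso
        apply hne
        apply orderOf_dvd_iff_pow_eq_one.1
        rw [hjeq]
        exact pow_dvd_pow p (Nat.lt_succ_iff.1 hlt)
      · rw [hjeq, le_antisymm hj hge]
    rw [← hord]
    exact IsPrimitiveRoot.orderOf _

/-! ### 7. K-CORE -/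

/-- **K-CORE**, valuation form. -/
theorem kcore (hp : p.Prime) (hp2 : p ≠ 2) (hP : P.LiesOverPrime p) (y : Qb) (n : ℕ)
    (hy0 : y ≠ 0) (hyN : ∀ s ∈ P.inertiaSubgroupIn ℚ, s (y ^ p ^ n) = y ^ p ^ n)
    (hy : ∀ σ ∈ P.inertiaSubgroupIn ℚ, (∀ z, IsPeuRad p P z → σ z = z) → σ y = y) :
    ∃ b : Qb, b ≠ 0 ∧ (∀ s ∈ P.inertiaSubgroupIn ℚ, s b = b) ∧ P.valuation (y / b) = 1 := by
  have hp0 : (p : Qb) ≠ 0 := by exact_mod_cast hp.ne_zero
  obtain ⟨π, hπ⟩ := IsAlgClosed.exists_pow_nat_eq (p : Qb) hp.pos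
  obtain ⟨σ, hσI, hσ, hσπ⟩ := key P hp hp2 hP π hπ
  obtain ⟨π₀, hπ₀⟩ := IsAlgClosed.exists_pow_nat_eq (p : Qb) (pow_pos hp.pos n)
  have hprim := key_primitive P hp hσ hπ hσπ n π₀ hπ₀
  have hπ₀0 : π₀ ≠ 0 := by
    rintro rfl
    rw [zero_pow (pow_ne_zero n hp.ne_zero)] at hπ₀
    exact hp0 hπ₀.symm
  obtain ⟨k, hk1, hkfix⟩ := val_fixed P hp hP (y ^ p ^ n) (pow_ne_zero _ hy0) hyN
  -- `t = y π₀ ^ k` is a radical of a unit
  have ht : (y * π₀ ^ k) ^ p ^ n = y ^ p ^ n * (p : Qb) ^ k := by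
    rw [mul_pow, ← zpow_natCast (π₀ ^ k), ← zpow_mul, mul_comm k, zpow_mul, zpow_natCast, hπ₀]
  have hrad : IsPeuRad p P (y * π₀ ^ k) := ⟨n, by rw [ht]; exact hk1, by rw [ht]; exact hkfix⟩
  have h1 := hσ _ hrad
  have h2 := hy σ hσI hσ
  rw [map_mul, h2, map_zpow₀] at h1
  have h3 : (σ π₀ / π₀) ^ k = 1 := by
    rw [div_zpow, div_eq_one_iff_eq (zpow_ne_zero _ hπ₀0)]
    exact mul_left_cancel₀ hy0 h1
  obtain ⟨j, hj⟩ := (hprim.zpow_eq_one_iff_dvd k).1 h3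
  refine ⟨(p : Qb) ^ (-j), zpow_ne_zero _ hp0, fun s _ => by rw [map_zpow₀, map_natCast], ?_⟩
  have h4 : P.valuation (y / (p : Qb) ^ (-j)) ^ p ^ n = 1 := by
    have h5 : (y / (p : Qb) ^ (-j)) ^ p ^ n = y ^ p ^ n * (p : Qb) ^ k := by
      rw [div_pow, ← zpow_natCast ((p : Qb) ^ (-j)), ← zpow_mul, hj, neg_mul, zpow_neg,
        div_inv_eq_mul, mul_comm j]
    rw [← map_pow, h5]
    exact hk1
  exact (pow_eq_one_iff.1 h4).resolve_right (pow_ne_zero n hp.ne_zero)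

end Fermat.Agent.S59.NonMin.H56K
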