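import Fermat.Agent.S59.NonMin.Defs2

/-!
# S59, package RT-NONMIN, case C, leaf PEUFLAT (helper92): interface

* `Stmt_KCore` : **K-CORE** (owner helper56): let `K = ℚ̄^I` be the inertia field at `P` (`P` over
  `p`, `p` odd).  If `y ≠ 0`, `y ^ p ^ n ∈ K` and `y` is fixed by the peu ramifié inertia
  `Ipeu p P`, then `y = b · (P-unit)` with `b ∈ Kˣ`.
* `Stmt_PeuUnit` : Hilbert 90 for the inertia group, with unit solutions: a crossed homomorphism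
  `z : I → μ_{p^n}` which is trivial on `Ipeu p P` and on the inertia of a finite level is
  `σ ↦ σ y / y` for a `P`-unit `y`.   (`Stmt_KCore → Stmt_PeuUnit`: `H92_PeuUnit.lean`.)

No `sorry`; definitions only.
-/

set_option autoImplicit false

namespace Fermat.Agent.S59.NonMin.H92P

open Fermat.Agent.S59.NonMin

/-- **K-CORE**. -/
def Stmt_KCore : Prop :=
  ∀ (p : ℕ), p.Prime → p ≠ 2 →
  ∀ (P : ValuationSubring (AlgebraicClosure ℚ)), P.LiesOverPrime p →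
  ∀ (y : AlgebraicClosure ℚ) (n : ℕ), y ≠ 0 →
    (∀ s ∈ P.inertiaSubgroupIn ℚ, s (y ^ p ^ n) = y ^ p ^ n) →
    (∀ σ ∈ Ipeu p P, σ y = y) →
    ∃ b : AlgebraicClosure ℚ, b ≠ 0 ∧ (∀ s ∈ P.inertiaSubgroupIn ℚ, s b = b) ∧
      y / b ∈ P ∧ b / y ∈ P

/-- **Hilbert 90 with unit solutions**: a crossed homomorphism of the inertia group at `P` with
values in the `p ^ n`-th roots of unity, trivial on the peu ramifié inertia and on the elements
of the inertia group which fix a finite extension `L` of `ℚ`, is of the form `σ ↦ σ y / y` for a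
`P`-unit `y`. -/
def Stmt_PeuUnit : Prop :=
  ∀ (p : ℕ), p.Prime → p ≠ 2 →
  ∀ (P : ValuationSubring (AlgebraicClosure ℚ)), P.LiesOverPrime p →
  ∀ (n : ℕ) (z : (AlgebraicClosure ℚ ≃ₐ[ℚ] AlgebraicClosure ℚ) → AlgebraicClosure ℚ),
    (∀ σ ∈ P.inertiaSubgroupIn ℚ, z σ ^ p ^ n = 1) →
    (∀ σ ∈ P.inertiaSubgroupIn ℚ, ∀ τ ∈ P.inertiaSubgroupIn ℚ, z (σ * τ) = z σ * σ (z τ)) →
    (∃ L : IntermediateField ℚ (AlgebraicClosure ℚ), FiniteDimensional ℚ L ∧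
      ∀ σ ∈ P.inertiaSubgroupIn ℚ, σ ∈ L.fixingSubgroup → z σ = 1) →
    (∀ σ ∈ Ipeu p P, z σ = 1) →
    ∃ y : AlgebraicClosure ℚ, y ≠ 0 ∧ y ∈ P ∧ y⁻¹ ∈ P ∧
      ∀ σ ∈ P.inertiaSubgroupIn ℚ, σ y = z σ * y

end Fermat.Agent.S59.NonMin.H92P
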