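/-
S59, package RT-NONMIN, CASE C, leaf K-CORE (helper56), part 3: the statements in the vocabulary
of `NonMin/Defs2.lean` (`Ipeu`, `peuUnits`), `NonMin/H92_PeuFlatDefs.lean` (`H92P.Stmt_KCore`) and
`CaseC/Defs.lean` (`peuSubgroup`).

* `stmt_KCore`      : `H92P.Stmt_KCore` (K-CORE for `NonMin.Ipeu`).
* `stmt_KCore_peu`  : K-CORE for `CaseC.peuSubgroup`.
* `exists_h0`       : **H0-GEN**, uniform: ONE `h₀ ∈ Ipeu` acting on every `p ^ n`-th root of `p`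
                      through a primitive `p ^ n`-th root of unity.
* `stmt_H0GEN`, `stmt_H0GEN_peu` : H0-GEN in the form `∀ n, ∃ h₀ π₀ ζ, …`.
-/
import Fermat.Agent.S59.NonMin.H56_KCore
import Fermat.Agent.S59.NonMin.H92_PeuFlatDefs
import Fermat.Agent.S59.CaseC.Defs

set_option autoImplicit false

namespace Fermat.Agent.S59.NonMin.H56K

open Fermat.Agent.S59.NonMin

variable {p : ℕ} (P : ValuationSubring (AlgebraicClosure ℚ))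

theorem isPeuRad_of_mem_peuUnits {y : AlgebraicClosure ℚ} {n : ℕ}
    (h : y ^ p ^ n ∈ peuUnits P) : IsPeuRad p P y := by
  obtain ⟨h1, h2, h3, h4⟩ := h
  exact ⟨n, val_eq_one_of_mem P h1 h2 h3, h4⟩

theorem mem_Ipeu_iff {σ : AlgebraicClosure ℚ ≃ₐ[ℚ] AlgebraicClosure ℚ} :
    σ ∈ Ipeu p P ↔ σ ∈ P.inertiaSubgroupIn ℚ ∧ ∀ y, IsPeuRad p P y → σ y = y := by
  constructor
  · rintro ⟨h1, h2⟩
    refine ⟨h1, fun y hy => ?_⟩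
    obtain ⟨n, hn1, hn2⟩ := hy
    obtain ⟨a, b, c⟩ := mem_of_val_eq_one P hn1
    exact h2 y n ⟨a, b, c, hn2⟩
  · rintro ⟨h1, h2⟩
    exact ⟨h1, fun y n hy => h2 y (isPeuRad_of_mem_peuUnits P hy)⟩

theorem mem_peuSubgroup_iff {σ : AlgebraicClosure ℚ ≃ₐ[ℚ] AlgebraicClosure ℚ} :
    σ ∈ Fermat.Agent.S59.CaseC.peuSubgroup p P ↔ σ ∈ Ipeu p P := by
  constructor
  · rintro ⟨h1, h2⟩
    exact ⟨h1, fun y n hy => h2 y n hy.1 hy.2.1 hy.2.2.2⟩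
  · rintro ⟨h1, h2⟩
    refine ⟨h1, fun w n a b c => ?_⟩
    by_cases hw : w ^ p ^ n = 0
    · -- then `w = 0`
      have hw0 : w = 0 := by
        by_contra hw0
        exact pow_ne_zero _ hw0 hw
      rw [hw0, map_zero]
    · exact h2 w n ⟨a, b, hw, c⟩

/-- **K-CORE** (`H92P.Stmt_KCore`). -/
theorem stmt_KCore : Fermat.Agent.S59.NonMin.H92P.Stmt_KCore := by
  intro p hp hp2 P hP y n hy0 hyN hy
  obtain ⟨b, hb0, hbfix, hval⟩ := kcore P hp hp2 hP y n hy0 hyN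
    (fun σ hσ hσrad => hy σ ((mem_Ipeu_iff P).2 ⟨hσ, hσrad⟩))
  obtain ⟨h1, h2, -⟩ := mem_of_val_eq_one P hval
  refine ⟨b, hb0, hbfix, h1, ?_⟩
  rwa [inv_div] at h2

/-- **K-CORE** for `CaseC.peuSubgroup`. -/
theorem stmt_KCore_peu (p : ℕ) (hp : p.Prime) (hp2 : p ≠ 2)
    (P : ValuationSubring (AlgebraicClosure ℚ)) (hP : P.LiesOverPrime p)
    (y : AlgebraicClosure ℚ) (n : ℕ) (hy0 : y ≠ 0)
    (hyN : ∀ s ∈ P.inertiaSubgroupIn ℚ, s (y ^ p ^ n) = y ^ p ^ n)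
    (hy : ∀ σ ∈ Fermat.Agent.S59.CaseC.peuSubgroup p P, σ y = y) :
    ∃ b : AlgebraicClosure ℚ, b ≠ 0 ∧ (∀ s ∈ P.inertiaSubgroupIn ℚ, s b = b) ∧
      y / b ∈ P ∧ b / y ∈ P :=
  stmt_KCore p hp hp2 P hP y n hy0 hyN (fun σ hσ => hy σ ((mem_peuSubgroup_iff P).2 hσ))

/-- **H0-GEN**, uniform form: one element of the peu ramifié inertia acts on every `p ^ n`-th
root of `p` through a primitive `p ^ n`-th root of unity. -/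
theorem exists_h0 (p : ℕ) (hp : p.Prime) (hp2 : p ≠ 2)
    (P : ValuationSubring (AlgebraicClosure ℚ)) (hP : P.LiesOverPrime p) :
    ∃ h₀ ∈ Ipeu p P, ∀ (n : ℕ) (π₀ : AlgebraicClosure ℚ),
      π₀ ^ p ^ n = (p : AlgebraicClosure ℚ) → IsPrimitiveRoot (h₀ π₀ / π₀) (p ^ n) := by
  obtain ⟨π, hπ⟩ := IsAlgClosed.exists_pow_nat_eq (p : AlgebraicClosure ℚ) hp.pos
  obtain ⟨σ, hσI, hσ, hσπ⟩ := key P hp hp2 hP π hπ
  exact ⟨σ, (mem_Ipeu_iff P).2 ⟨hσI, hσ⟩, fun n π₀ hπ₀ => key_primitive P hp hσ hπ hσπ n π₀ hπ₀⟩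

/-- **H0-GEN** for `NonMin.Ipeu`. -/
theorem stmt_H0GEN (p : ℕ) (hp : p.Prime) (hp2 : p ≠ 2)
    (P : ValuationSubring (AlgebraicClosure ℚ)) (hP : P.LiesOverPrime p) (n : ℕ) :
    ∃ h₀ ∈ Ipeu p P, ∃ π₀ ζ : AlgebraicClosure ℚ, π₀ ^ p ^ n = (p : AlgebraicClosure ℚ) ∧
      IsPrimitiveRoot ζ (p ^ n) ∧ h₀ π₀ = ζ * π₀ := by
  obtain ⟨h₀, hh₀, h⟩ := exists_h0 p hp hp2 P hP
  obtain ⟨π₀, hπ₀⟩ := IsAlgClosed.exists_pow_nat_eq (p : AlgebraicClosure ℚ) (pow_pos hp.pos n)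
  have hπ₀0 : π₀ ≠ 0 := by
    rintro rfl
    rw [zero_pow (pow_ne_zero n hp.ne_zero)] at hπ₀
    exact (by exact_mod_cast hp.ne_zero : (p : AlgebraicClosure ℚ) ≠ 0) hπ₀.symm
  exact ⟨h₀, hh₀, π₀, h₀ π₀ / π₀, hπ₀, h n π₀ hπ₀, (div_mul_cancel₀ _ hπ₀0).symm⟩

/-- **H0-GEN** for `CaseC.peuSubgroup`. -/
theorem stmt_H0GEN_peu (p : ℕ) (hp : p.Prime) (hp2 : p ≠ 2)
    (P : ValuationSubring (AlgebraicClosure ℚ)) (hP : P.LiesOverPrime p) (n : ℕ) :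
    ∃ h₀ ∈ Fermat.Agent.S59.CaseC.peuSubgroup p P, ∃ π₀ ζ : AlgebraicClosure ℚ,
      π₀ ^ p ^ n = (p : AlgebraicClosure ℚ) ∧ IsPrimitiveRoot ζ (p ^ n) ∧ h₀ π₀ = ζ * π₀ := by
  obtain ⟨h₀, hh₀, h⟩ := stmt_H0GEN p hp hp2 P hP n
  exact ⟨h₀, (mem_peuSubgroup_iff P).2 hh₀, h⟩

/-- **H0-GEN**, uniform, for `CaseC.peuSubgroup`. -/
theorem exists_h0_peu (p : ℕ) (hp : p.Prime) (hp2 : p ≠ 2)
    (P : ValuationSubring (AlgebraicClosure ℚ)) (hP : P.LiesOverPrime p) :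
    ∃ h₀ ∈ Fermat.Agent.S59.CaseC.peuSubgroup p P, ∀ (n : ℕ) (π₀ : AlgebraicClosure ℚ),
      π₀ ^ p ^ n = (p : AlgebraicClosure ℚ) → IsPrimitiveRoot (h₀ π₀ / π₀) (p ^ n) := by
  obtain ⟨h₀, hh₀, h⟩ := exists_h0 p hp hp2 P hP
  exact ⟨h₀, (mem_peuSubgroup_iff P).2 hh₀, h⟩

end Fermat.Agent.S59.NonMin.H56K
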