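import Fermat.Agent.S59.NonMin.H92_PeuFlatDefs
import Fermat.Agent.S15.Desc.H97_GlobH90

/-!
# S59, case C, leaf PEUFLAT (helper92): Hilbert 90 over the inertia group with unit solutions

`peuUnit_of_kcore : Stmt_KCore → Stmt_PeuUnit`.  Hilbert 90 for the inertia group `I` of `P`
(`Lib.LocalKummer.exists_hilbert90` with `G := I`) gives `γ ≠ 0` with `σ γ = z σ * γ` for `σ ∈ I`;
then `γ ^ p ^ n` is fixed by `I` and `γ` is fixed by the peu ramifié inertia, so K-CORE makes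
`γ` a `P`-unit after division by an element of the inertia field.
-/

set_option autoImplicit false
set_option linter.unusedSectionVars false
set_option linter.style.haveILetI false
set_option linter.unusedVariables false

namespace Fermat.Agent.S59.NonMin.H92P

open Fermat.Agent.S59.NonMin

local notation "Qbar" => AlgebraicClosure ℚ
local notation "Γℚ" => (AlgebraicClosure ℚ ≃ₐ[ℚ] AlgebraicClosure ℚ)

/-- **Hilbert 90 over the inertia group.** -/
theorem exists_hilbert90_inertia (P : ValuationSubring Qbar) (z : Γℚ → Qbar)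
    (hz0 : ∀ σ ∈ P.inertiaSubgroupIn ℚ, z σ ≠ 0)
    (hzc : ∀ σ ∈ P.inertiaSubgroupIn ℚ, ∀ τ ∈ P.inertiaSubgroupIn ℚ,
      z (σ * τ) = z σ * σ (z τ))
    (L : IntermediateField ℚ Qbar) [FiniteDimensional ℚ L]
    (hzL : ∀ σ ∈ P.inertiaSubgroupIn ℚ, σ ∈ L.fixingSubgroup → z σ = 1) :
    ∃ γ : Qbar, γ ≠ 0 ∧ ∀ σ ∈ P.inertiaSubgroupIn ℚ, σ γ = z σ * γ := by
  classical
  haveI hfin : Finite (Γℚ ⧸ L.fixingSubgroup) :=
    Fermat.Agent.S15.Desc.H97.finite_quot_fixingSubgroup L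
  haveI : L.fixingSubgroup.FiniteIndex := Subgroup.finiteIndex_of_finite_quotient
  haveI : (L.fixingSubgroup.subgroupOf (P.inertiaSubgroupIn ℚ)).FiniteIndex := inferInstance
  haveI : Finite (↥(P.inertiaSubgroupIn ℚ) ⧸
      L.fixingSubgroup.subgroupOf (P.inertiaSubgroupIn ℚ)) :=
    Subgroup.finite_quotient_of_finiteIndex
  obtain ⟨γ, hγ0, hγ⟩ := Fermat.Agent.Lib.LocalKummer.exists_hilbert90
    (G := ↥(P.inertiaSubgroupIn ℚ)) (Ω := Qbar) (F := ↥L)
    (fun g => z g.1) (fun g h => hzc g.1 g.2 h.1 h.2) (fun g => hz0 g.1 g.2)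
    (L.fixingSubgroup.subgroupOf (P.inertiaSubgroupIn ℚ))
    (fun u hu => hzL u.1 u.2 (Subgroup.mem_subgroupOf.mp hu))
    ((L.val : L →ₐ[ℚ] Qbar) : L →* Qbar)
    (fun g hg => by
      rw [Subgroup.mem_subgroupOf, IntermediateField.mem_fixingSubgroup_iff]
      intro x hx
      exact hg ⟨x, hx⟩)
    (fun u hu x => by
      have h1 := Subgroup.mem_subgroupOf.mp hu
      rw [IntermediateField.mem_fixingSubgroup_iff] at h1
      exact h1 x x.2)
  exact ⟨γ, hγ0, fun σ hσ => hγ ⟨σ, hσ⟩⟩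

/-- **PEU-UNIT** from **K-CORE**. -/
theorem peuUnit_of_kcore (hK : Stmt_KCore) : Stmt_PeuUnit := by
  intro p hp hp2 P hP n z hzn hzc hL hzpeu
  obtain ⟨L, hLfin, hzL⟩ := hL
  haveI := hLfin
  have hz0 : ∀ σ ∈ P.inertiaSubgroupIn ℚ, z σ ≠ 0 := by
    intro σ hσ h0
    have h1 := hzn σ hσ
    rw [h0, zero_pow (pow_ne_zero n hp.ne_zero)] at h1
    exact zero_ne_one h1
  obtain ⟨γ, hγ0, hγ⟩ := exists_hilbert90_inertia P z hz0 hzc L hzL
  obtain ⟨b, hb0, hbI, h1, h2⟩ := hK p hp hp2 P hP γ n hγ0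
    (fun s hs => by rw [map_pow, hγ s hs, mul_pow, hzn s hs, one_mul])
    (fun σ hσ => by rw [hγ σ hσ.1, hzpeu σ hσ, one_mul])
  refine ⟨γ / b, div_ne_zero hγ0 hb0, h1, ?_, fun σ hσ => ?_⟩
  · rw [inv_div]
    exact h2
  · rw [map_div₀, hγ σ hσ, hbI σ hσ, mul_div_assoc]

end Fermat.Agent.S59.NonMin.H92P
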