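import Fermat.Agent.S59.NonMin.H92_PeuFlatLev
import Fermat.Agent.S59.NonMin.H92_PeuUnit

/-!
# S59, case C, leaf PEUFLAT (helper92): an ordinary peu ramifié representation is flat

* `M0`, `evc` : the image of the ordinary line in `V / J V` and its characters.
* `flat_level` : `V / J V` is flat at `p` (`flat_of_peu_abs`).
* `peuflat_of_peuUnit : Stmt_PeuUnit → Stmt_PEUFLAT`.
* `peuflat_of_kcore : Stmt_KCore → Stmt_PEUFLAT`.
-/

set_option autoImplicit false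
set_option linter.unusedSectionVars false
set_option linter.style.haveILetI false
set_option linter.unusedVariables false

namespace Fermat.Agent.S59.NonMin.H92P

open IsLocalRing Fermat.Agent.S59.NonMin

local notation "Qbar" => AlgebraicClosure ℚ
local notation "Γℚ" => (AlgebraicClosure ℚ ≃ₐ[ℚ] AlgebraicClosure ℚ)

section Main

variable {A : Type} [CommRing A] [IsLocalRing A] (ρ : GaloisRepAdic A) (J : Ideal A)
  (L : Submodule A ρ.V)

/-- The image of the ordinary line in the level `J`. -/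
def M0 : AddSubgroup (ρ.V ⧸ (J • ⊤ : Submodule A ρ.V)) :=
  (L.map (J • ⊤ : Submodule A ρ.V).mkQ).toAddSubgroup

theorem mem_M0 {x : ρ.V ⧸ (J • ⊤ : Submodule A ρ.V)} :
    x ∈ M0 ρ J L ↔ ∃ v ∈ L, Submodule.Quotient.mk v = x := by
  show x ∈ L.map (J • ⊤ : Submodule A ρ.V).mkQ ↔ _
  rw [Submodule.mem_map]
  rfl

/-- The value of a character of `M0`, extended by `1`. -/
noncomputable def evc (lam : Multiplicative ↥(M0 ρ J L) →* Qbarˣ)
    (x : ρ.V ⧸ (J • ⊤ : Submodule A ρ.V)) : Qbar := by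
  classical
  exact if hx : x ∈ M0 ρ J L then ((lam (Multiplicative.ofAdd ⟨x, hx⟩) : Qbarˣ) : Qbar) else 1

theorem evc_of_mem (lam : Multiplicative ↥(M0 ρ J L) →* Qbarˣ)
    {x : ρ.V ⧸ (J • ⊤ : Submodule A ρ.V)} (hx : x ∈ M0 ρ J L) :
    evc ρ J L lam x = ((lam (Multiplicative.ofAdd ⟨x, hx⟩) : Qbarˣ) : Qbar) := by
  classical
  unfold evc
  rw [dif_pos hx]

theorem evc_add (lam : Multiplicative ↥(M0 ρ J L) →* Qbarˣ)
    {w w' : ρ.V ⧸ (J • ⊤ : Submodule A ρ.V)} (hw : w ∈ M0 ρ J L) (hw' : w' ∈ M0 ρ J L) :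
    evc ρ J L lam (w + w') = evc ρ J L lam w * evc ρ J L lam w' := by
  rw [evc_of_mem ρ J L lam hw, evc_of_mem ρ J L lam hw',
    evc_of_mem ρ J L lam ((M0 ρ J L).add_mem hw hw'), ← Units.val_mul, ← map_mul]
  rfl

theorem evc_ne (lam : Multiplicative ↥(M0 ρ J L) →* Qbarˣ)
    {w : ρ.V ⧸ (J • ⊤ : Submodule A ρ.V)} (hw : w ∈ M0 ρ J L) : evc ρ J L lam w ≠ 0 := by
  rw [evc_of_mem ρ J L lam hw]
  exact Units.ne_zero _

theorem evc_zero (lam : Multiplicative ↥(M0 ρ J L) →* Qbarˣ) : evc ρ J L lam 0 = 1 := by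
  have h1 := evc_add ρ J L lam (M0 ρ J L).zero_mem (M0 ρ J L).zero_mem
  rw [add_zero] at h1
  have h2 := evc_ne ρ J L lam (M0 ρ J L).zero_mem
  have h3 : evc ρ J L lam 0 * (evc ρ J L lam 0 - 1) = 0 := by
    rw [mul_sub, mul_one, ← h1, sub_self]
  rcases mul_eq_zero.mp h3 with h | h
  · exact absurd h h2
  · exact sub_eq_zero.mp h

theorem evc_nsmul (lam : Multiplicative ↥(M0 ρ J L) →* Qbarˣ) (k : ℕ)
    {w : ρ.V ⧸ (J • ⊤ : Submodule A ρ.V)} (hw : w ∈ M0 ρ J L) :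
    evc ρ J L lam (k • w) = evc ρ J L lam w ^ k := by
  induction k with
  | zero => rw [zero_smul, pow_zero, evc_zero]
  | succ k ih => rw [succ_nsmul, evc_add ρ J L lam ((M0 ρ J L).nsmul_mem hw k) hw, ih, pow_succ]

/-- **The level `J` of an ordinary peu ramifié representation is flat.** -/
theorem flat_level (hPU : Stmt_PeuUnit) (p : ℕ) (hp : p.Prime) (hp2 : p ≠ 2)
    [Finite (ρ.V ⧸ (J • ⊤ : Submodule A ρ.V))]
    (P : ValuationSubring Qbar) (hP : P.LiesOverPrime p)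
    (b : Module.Basis (Fin 2) A ρ.V) (hLb : L = Submodule.span A {b 0})
    (hLD : ∀ σ ∈ P.decompositionSubgroup ℚ, ∀ v ∈ L, ρ.ρ σ v ∈ L)
    (hLI : ∀ σ ∈ P.inertiaSubgroupIn ℚ, ∀ v : ρ.V, ρ.ρ σ v - v ∈ L)
    (n : ℕ) (hmn : maximalIdeal A ^ n ≤ J)
    (hdet : ρ.DetIsCyclotomic p) (hpeu : ∀ σ ∈ Ipeu p P, ρ.ρ σ = 1) :
    ∃ (H' : Type) (_ : CommRing H') (_ : HopfAlgebra (GaloisRep.ratLocalizedAt p) H'),
      Module.Finite (GaloisRep.ratLocalizedAt p) H' ∧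
      Module.Flat (GaloisRep.ratLocalizedAt p) H' ∧
      Coalgebra.IsCocomm (GaloisRep.ratLocalizedAt p) H' ∧
      ∃ e : WithConv (H' →ₐ[GaloisRep.ratLocalizedAt p] AlgebraicClosure ℚ) ≃
          (ρ.V ⧸ (J • ⊤ : Submodule A ρ.V)),
        (∀ f g : WithConv (H' →ₐ[GaloisRep.ratLocalizedAt p] AlgebraicClosure ℚ),
          e (f * g) = e f + e g) ∧
        ∀ (σ : AlgebraicClosure ℚ ≃ₐ[ℚ] AlgebraicClosure ℚ)
          (f g : WithConv (H' →ₐ[GaloisRep.ratLocalizedAt p] AlgebraicClosure ℚ)),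
          (∀ h : H', g h = σ (f h)) → e g = ρ.levelAction J σ (e f) := by
  classical
  have hpn : ((p ^ n : ℕ) : A) ∈ J := by
    apply hmn
    rw [Nat.cast_pow]
    exact Ideal.pow_mem_pow hdet.1 n
  have hpn0 : p ^ n ≠ 0 := pow_ne_zero n hp.ne_zero
  haveI : NeZero (p ^ n) := ⟨hpn0⟩
  have hID : ∀ σ ∈ P.inertiaSubgroupIn ℚ, σ ∈ P.decompositionSubgroup ℚ := fun σ hσ =>
    Fermat.Agent.S05.H95.mem_decomposition_of_mem_inertia P hσ
  -- the action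
  have act_one : ∀ x : ρ.V ⧸ (J • ⊤ : Submodule A ρ.V), ρ.levelAction J 1 x = x := by
    intro x
    obtain ⟨v, rfl⟩ := Submodule.Quotient.mk_surjective _ x
    rw [levelAction_mk, map_one, Module.End.one_apply]
  have act_mul : ∀ (σ τ : Γℚ) (x : ρ.V ⧸ (J • ⊤ : Submodule A ρ.V)),
      ρ.levelAction J (σ * τ) x = ρ.levelAction J σ (ρ.levelAction J τ x) := by
    intro σ τ x
    obtain ⟨v, rfl⟩ := Submodule.Quotient.mk_surjective _ x
    rw [levelAction_mk, levelAction_mk, levelAction_mk, map_mul, Module.End.mul_apply]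
  have act_add : ∀ (σ : Γℚ) (x y : ρ.V ⧸ (J • ⊤ : Submodule A ρ.V)),
      ρ.levelAction J σ (x + y) = ρ.levelAction J σ x + ρ.levelAction J σ y :=
    fun σ x y => map_add _ x y
  have act_cont : ∃ L' : IntermediateField ℚ Qbar, FiniteDimensional ℚ L' ∧
      ∀ σ ∈ L'.fixingSubgroup, ∀ x : ρ.V ⧸ (J • ⊤ : Submodule A ρ.V),
        ρ.levelAction J σ x = x := by
    obtain ⟨L', hL', h1⟩ := ρ.isAdicContinuous n
    refine ⟨L', hL', fun σ hσ x => ?_⟩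
    obtain ⟨v, rfl⟩ := Submodule.Quotient.mk_surjective _ x
    rw [levelAction_mk, ← sub_eq_zero, ← Submodule.Quotient.mk_sub,
      Submodule.Quotient.mk_eq_zero]
    rw [IntermediateField.mem_fixingSubgroup_iff] at hσ
    exact Submodule.smul_mono_left hmn (h1 σ hσ v)
  -- the subgroup
  have hD : ∀ σ ∈ P.decompositionSubgroup ℚ, ∀ w ∈ M0 ρ J L,
      ρ.levelAction J σ w ∈ M0 ρ J L := by
    intro σ hσ w hw
    obtain ⟨v, hv, rfl⟩ := (mem_M0 ρ J L).mp hw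
    exact (mem_M0 ρ J L).mpr ⟨ρ.ρ σ v, hLD σ hσ v hv, rfl⟩
  have hI : ∀ σ ∈ P.inertiaSubgroupIn ℚ, ∀ x : ρ.V ⧸ (J • ⊤ : Submodule A ρ.V),
      ρ.levelAction J σ x - x ∈ M0 ρ J L := by
    intro σ hσ x
    obtain ⟨v, rfl⟩ := Submodule.Quotient.mk_surjective _ x
    exact (mem_M0 ρ J L).mpr ⟨ρ.ρ σ v - v, hLI σ hσ v, rfl⟩
  -- the characters
  have hkill : ∀ x : ρ.V ⧸ (J • ⊤ : Submodule A ρ.V), (p ^ n) • x = 0 := by
    intro x
    rw [← Nat.cast_smul_eq_nsmul A]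
    exact smul_level_eq_zero ρ J hpn x
  have ev_pow : ∀ lam, ∀ w ∈ M0 ρ J L, evc ρ J L lam w ^ p ^ n = 1 := by
    intro lam w hw
    rw [← evc_nsmul ρ J L lam _ hw, hkill, evc_zero]
  have ev_I : ∀ σ ∈ P.inertiaSubgroupIn ℚ, ∀ lam, ∀ w ∈ M0 ρ J L,
      evc ρ J L lam (ρ.levelAction J σ w) = σ (evc ρ J L lam w) := by
    intro σ hσ lam w hw
    obtain ⟨a, ha⟩ := exists_pow_rootsOfUnity (p ^ n) σ
    have h1 : LinearMap.det (ρ.ρ σ) - (a : A) ∈ J :=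
      (Ideal.span_singleton_le_iff_mem J).mpr hpn (hdet.2 n σ a ha)
    have h2 : ρ.levelAction J σ w = a • w := by
      obtain ⟨v, hv, rfl⟩ := (mem_M0 ρ J L).mp hw
      have hb0 : b 0 ∈ L := by rw [hLb]; exact Submodule.mem_span_singleton_self _
      have h3 : ρ.ρ σ v = LinearMap.det (ρ.ρ σ) • v := by
        apply apply_eq_det_smul_of_basis b (ρ.ρ σ)
        · rw [← hLb]; exact hLD σ (hID σ hσ) _ hb0
        · rw [← hLb]; exact hLI σ hσ _
        · rw [← hLb]; exact hv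
      rw [levelAction_mk, h3, Submodule.Quotient.mk_smul, ← Nat.cast_smul_eq_nsmul A,
        ← sub_eq_zero, ← sub_smul]
      exact smul_level_eq_zero ρ J h1 _
    rw [h2, evc_nsmul ρ J L lam _ hw, ha _ (ev_pow lam w hw)]
  have ev_sep : ∀ w ∈ M0 ρ J L, w ≠ 0 → ∃ lam, evc ρ J L lam w ≠ 1 := by
    intro w hw hw0
    haveI : NeZero ((Monoid.exponent (Multiplicative ↥(M0 ρ J L)) : ℕ) : ℚ) :=
      ⟨by exact_mod_cast Monoid.exponent_ne_zero_of_finite⟩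
    have ha : (Multiplicative.ofAdd (⟨w, hw⟩ : ↥(M0 ρ J L))) ≠ 1 := by
      intro h
      apply hw0
      have h1 : (⟨w, hw⟩ : ↥(M0 ρ J L)) = 0 := h
      exact congrArg Subtype.val h1
    obtain ⟨lam, hlam⟩ := CommGroup.exists_apply_ne_one_of_hasEnoughRootsOfUnity
      (Multiplicative ↥(M0 ρ J L)) Qbar ha
    refine ⟨lam, ?_⟩
    rw [evc_of_mem ρ J L lam hw]
    intro h
    exact hlam (Units.ext h)
  have ev_D : ∀ σ ∈ P.decompositionSubgroup ℚ, ∀ lam, ∃ lam', ∀ w ∈ M0 ρ J L,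
      evc ρ J L lam' w = σ (evc ρ J L lam (ρ.levelAction J σ⁻¹ w)) := by
    intro σ hσ lam
    have hσ' : σ⁻¹ ∈ P.decompositionSubgroup ℚ := inv_mem hσ
    let φ : ↥(M0 ρ J L) →+ ↥(M0 ρ J L) :=
      (((ρ.levelAction J σ⁻¹ : _ →ₗ[A] _).toAddMonoidHom).comp (M0 ρ J L).subtype).codRestrict
        (M0 ρ J L) (fun w => hD σ⁻¹ hσ' w.1 w.2)
    refine ⟨(Units.map ((σ : Qbar →+* Qbar) : Qbar →* Qbar)).comp
      (lam.comp (AddMonoidHom.toMultiplicative φ)), fun w hw => ?_⟩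
    rw [evc_of_mem ρ J L _ hw, evc_of_mem ρ J L lam (hD σ⁻¹ hσ' w hw)]
    rfl
  have hpeu' : ∀ σ ∈ Ipeu p P, ∀ x : ρ.V ⧸ (J • ⊤ : Submodule A ρ.V),
      ρ.levelAction J σ x = x := by
    intro σ hσ x
    obtain ⟨v, rfl⟩ := Submodule.Quotient.mk_surjective _ x
    rw [levelAction_mk, hpeu σ hσ, Module.End.one_apply]
  have hy := hy_of_peuUnit p P (fun σ x => ρ.levelAction J σ x) (M0 ρ J L) (evc ρ J L) hPU hp hp2
    hP act_mul act_add act_cont hD hI (fun lam w hw w' hw' => evc_add ρ J L lam hw hw')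
    (evc_zero ρ J L) ev_I n ev_pow hpeu'
  exact flat_of_peu_abs p P (fun σ x => ρ.levelAction J σ x) (M0 ρ J L) (evc ρ J L) hp hP
    act_one act_mul act_add act_cont hD hI (fun lam w hw w' hw' => evc_add ρ J L lam hw hw')
    (fun lam w hw => evc_ne ρ J L lam hw)
    (fun lam w hw => mem_of_pow_eq_one P hpn0 (ev_pow lam w hw)) ev_sep ev_I ev_D hy

end Main

/-- **PEUFLAT** from **PEU-UNIT**. -/
theorem peuflat_of_peuUnit (hPU : Stmt_PeuUnit) : Stmt_PEUFLAT := by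
  intro p hp hp2 A _ _ _ hres hpA ρ hdet hord hpeu
  refine ⟨hres, fun J hJ => ?_⟩
  obtain ⟨P, hP⟩ := Fermat.Agent.Lib.FrobExists.exists_liesOverPrime p hp
  obtain ⟨L, ⟨b, hLb⟩, hLD, hLI⟩ := hord P hP
  haveI : Finite (ρ.V ⧸ (J • ⊤ : Submodule A ρ.V)) := finite_level ρ J hJ
  obtain ⟨n, hn⟩ := exists_maxpow_le J hJ
  exact flat_level ρ J L hPU p hp hp2 P hP b hLb hLD hLI n hn hdet (hpeu P hP)

/-- **PEUFLAT** from **K-CORE**. -/
theorem peuflat_of_kcore (hK : Stmt_KCore) : Stmt_PEUFLAT :=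
  peuflat_of_peuUnit (peuUnit_of_kcore hK)

end Fermat.Agent.S59.NonMin.H92P
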