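/-
S59, package RT-NONMIN, CASE C: `Stmt_PEUFLAT` UNCONDITIONAL
(helper92's `H92P.peuflat_of_kcore` + helper56's K-CORE `H56K.stmt_KCore`).
-/
import Fermat.Agent.S59.NonMin.H56_KCoreB
import Fermat.Agent.S59.NonMin.H92_PeuFlat

set_option autoImplicit false

namespace Fermat.Agent.S59.NonMin.H56K

/-- **PEUFLAT**: an ordinary representation with cyclotomic determinant which is trivial on the
peu ramifié inertia is flat at `p`. -/
theorem stmt_PEUFLAT : Fermat.Agent.S59.NonMin.Stmt_PEUFLAT :=
  Fermat.Agent.S59.NonMin.H92P.peuflat_of_kcore stmt_KCore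

end Fermat.Agent.S59.NonMin.H56K
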