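/-
S59, case C, leaf EXISTS-i (helper77), core: every element of the decomposition group at a place
`P` of `ℚ̄` over `p` becomes, after multiplication by an element of the inertia group of `P`, an
element fixing all `p`-power roots of unity.

* `muField p`               : `ℚ(μ_{p^∞})`; `muField_normal`.
* `exists_int_sub_mem`      : an algebraic integer of `ℚ(μ_{p^∞})` is congruent to a rational
                              integer modulo every prime over `p` (`ζ ≡ 1`; the integers of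
                              `ℚ(ζ_{p^N})` are `ℤ[ζ]`).
* `exists_inertia_mul_fixes`: the leaf (via `Lib.InertiaLift.exists_mem_inertiaSubgroupIn_eqOn`).
-/
import Mathlib
import Fermat.Prelude.Def_EllipticCurve_FrobeniusTrace
import Fermat.Agent.Lib.FrobIntegers
import Fermat.Agent.Lib.FrobExists
import Fermat.Agent.Lib.InertiaBridge
import Fermat.Agent.Lib.InertiaConj
import Fermat.Agent.Lib.InertiaLift

set_option autoImplicit false

open scoped Pointwise

noncomputable section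

namespace Fermat.Agent.S59.NonMin.H77

open Fermat.Agent.Lib.FrobIntegers Fermat.Agent.Lib.FrobExists Polynomial

attribute [local instance] qbar_isAlgebraic qbar_isAlgClosure qbar_isGalois zbar_isInvariant
  zbarTopologicalSpace zbar_discreteTopology zbar_continuousSMul

/-- the field generated by the `p`-power roots of unity -/
def muField (p : ℕ) : IntermediateField ℚ (AlgebraicClosure ℚ) :=
  IntermediateField.adjoin ℚ {μ : AlgebraicClosure ℚ | ∃ n : ℕ, μ ^ p ^ n = 1}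

/-- the subgroup fixing the `p`-power roots of unity -/
def fixMu (p : ℕ) : Subgroup (AlgebraicClosure ℚ ≃ₐ[ℚ] AlgebraicClosure ℚ) :=
  (muField p).fixingSubgroup

theorem fixMu_apply {p : ℕ} {σ : AlgebraicClosure ℚ ≃ₐ[ℚ] AlgebraicClosure ℚ}
    (hσ : σ ∈ fixMu p) (n : ℕ) (μ : AlgebraicClosure ℚ) (hμ : μ ^ p ^ n = 1) : σ μ = μ :=
  (IntermediateField.mem_fixingSubgroup_iff _ σ).1 hσ μ
    (IntermediateField.subset_adjoin ℚ _ ⟨n, hμ⟩)

theorem fixMu_isClosed (p : ℕ) :
    IsClosed (fixMu p : Set (AlgebraicClosure ℚ ≃ₐ[ℚ] AlgebraicClosure ℚ)) :=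
  InfiniteGalois.fixingSubgroup_isClosed (muField p)

theorem fixMu_compactSpace (p : ℕ) : CompactSpace (fixMu p) :=
  isCompact_iff_compactSpace.1 (fixMu_isClosed p).isCompact

/-- an element fixed by `fixMu p` lies in `muField p` -/
theorem mem_muField_of_fixed (p : ℕ) (a : AlgebraicClosure ℚ)
    (ha : ∀ σ ∈ fixMu p, σ a = a) : a ∈ muField p := by
  have h := InfiniteGalois.fixedField_fixingSubgroup (muField p)
  rw [← h]
  rw [IntermediateField.mem_fixedField_iff]
  intro σ hσ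
  exact ha σ hσ

/-- an element of `muField p` lies in a cyclotomic field of level `p ^ N` -/
theorem exists_level_of_mem_muField (p : ℕ) (hp : p ≠ 0) (a : AlgebraicClosure ℚ)
    (ha : a ∈ muField p) :
    ∃ N : ℕ, a ∈ IntermediateField.adjoin ℚ
      {b : AlgebraicClosure ℚ | ∃ m ∈ ({p ^ N} : Set ℕ), m ≠ 0 ∧ b ^ m = 1} := by
  classical
  obtain ⟨T, hT, haT⟩ := IntermediateField.exists_finset_of_mem_adjoin ha
  have hN : ∃ N : ℕ, ∀ μ ∈ T, μ ^ p ^ N = 1 := by
    choose! n hn using fun μ (hμ : μ ∈ T) => hT hμ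
    refine ⟨T.sup n, fun μ hμ => ?_⟩
    have h1 : n μ ≤ T.sup n := Finset.le_sup hμ
    obtain ⟨d, hd⟩ := Nat.exists_eq_add_of_le h1
    rw [hd, pow_add, pow_mul, hn μ hμ, one_pow]
  obtain ⟨N, hN⟩ := hN
  refine ⟨N, IntermediateField.adjoin.mono ℚ _ _ ?_ haT⟩
  intro μ hμ
  exact ⟨p ^ N, rfl, pow_ne_zero _ hp, hN μ hμ⟩

/-- an algebraic integer of the cyclotomic field of level `p ^ N` is a polynomial in a primitive
root of unity -/
theorem exists_aeval_eq (p : ℕ) [hp : Fact p.Prime] (N : ℕ) (a : AlgebraicClosure ℚ)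
    (hint : IsIntegral ℤ a)
    (ha : a ∈ IntermediateField.adjoin ℚ
      {b : AlgebraicClosure ℚ | ∃ m ∈ ({p ^ N} : Set ℕ), m ≠ 0 ∧ b ^ m = 1}) :
    ∃ (ζ : AlgebraicClosure ℚ) (f : ℤ[X]), ζ ^ p ^ N = 1 ∧ aeval ζ f = a := by
  set K : IntermediateField ℚ (AlgebraicClosure ℚ) := IntermediateField.adjoin ℚ
      {b : AlgebraicClosure ℚ | ∃ m ∈ ({p ^ N} : Set ℕ), m ≠ 0 ∧ b ^ m = 1} with hK
  have hpN : p ^ N ≠ 0 := pow_ne_zero _ hp.out.ne_zero
  have : NeZero (p ^ N) := ⟨hpN⟩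
  obtain ⟨ζ₀, hζ₀⟩ := HasEnoughRootsOfUnity.exists_primitiveRoot (AlgebraicClosure ℚ) (p ^ N)
  have hcyc : IsCyclotomicExtension {p ^ N} ℚ K :=
    IntermediateField.isCyclotomicExtension_adjoin_of_exists_isPrimitiveRoot {p ^ N} ℚ
      (AlgebraicClosure ℚ) (fun n hn _ => by
        rw [Set.mem_singleton_iff] at hn
        subst hn
        exact ⟨ζ₀, hζ₀⟩)
  have hζK : ζ₀ ∈ K := IntermediateField.subset_adjoin ℚ _ ⟨p ^ N, rfl, hpN, hζ₀.pow_eq_one⟩
  set ζ : K := ⟨ζ₀, hζK⟩ with hζ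
  have hζprim : IsPrimitiveRoot ζ (p ^ N) :=
    IsPrimitiveRoot.of_map_of_injective (f := algebraMap K (AlgebraicClosure ℚ)) hζ₀
      (FaithfulSMul.algebraMap_injective K (AlgebraicClosure ℚ))
  have hcl := IsCyclotomicExtension.Rat.isIntegralClosure_adjoin_singleton_of_prime_pow
    (p := p) (k := N) (K := K) hζprim
  have hint' : IsIntegral ℤ (⟨a, ha⟩ : K) :=
    (isIntegral_algHom_iff (K.val.restrictScalars ℤ) Subtype.val_injective).1 hint
  obtain ⟨y, hy⟩ := hcl.isIntegral_iff.1 hint'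
  have hy2 : (y : K) ∈ Algebra.adjoin ℤ ({ζ} : Set K) := y.2
  rw [Algebra.adjoin_singleton_eq_range_aeval] at hy2
  obtain ⟨f, hf⟩ := hy2
  refine ⟨ζ₀, f, hζ₀.pow_eq_one, ?_⟩
  have h1 : (aeval ζ f : K) = ⟨a, ha⟩ := by
    rw [← hy]
    exact hf
  have h2 := congrArg (fun x : K => (x : AlgebraicClosure ℚ)) h1
  simp only at h2
  rw [← h2]
  exact Polynomial.aeval_algHom_apply (K.val.restrictScalars ℤ) ζ f

/-- a `p`-power root of unity is congruent to `1` modulo a prime over `p` -/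
theorem sub_one_mem_of_pow_eq_one (p : ℕ) [hp : Fact p.Prime] (Q : Ideal ZBar) [hQ : Q.IsPrime]
    (hpQ : (p : ZBar) ∈ Q) (ζ : ZBar) (N : ℕ) (hζ : ζ ^ p ^ N = 1) : ζ - 1 ∈ Q := by
  have hchar : CharP (ZBar ⧸ Q) p := by
    have hnt : Nontrivial (ZBar ⧸ Q) := Ideal.Quotient.nontrivial_iff.2 hQ.ne_top
    rw [CharP.charP_iff_prime_eq_zero hp.out]
    have : ((p : ZBar) : ZBar ⧸ Q) = 0 := Ideal.Quotient.eq_zero_iff_mem.mpr hpQ
    simpa using this
  have h1 : (Ideal.Quotient.mk Q ζ - 1) ^ p ^ N = 0 := by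
    rw [sub_pow_char_pow, one_pow, ← map_pow, hζ, map_one, sub_self]
  have h2 : Ideal.Quotient.mk Q ζ - 1 = 0 := by
    have : IsDomain (ZBar ⧸ Q) := Ideal.Quotient.isDomain Q
    exact pow_eq_zero_iff (pow_ne_zero _ hp.out.ne_zero) |>.1 h1
  rw [← map_one (Ideal.Quotient.mk Q), ← map_sub] at h2
  exact Ideal.Quotient.eq_zero_iff_mem.1 h2

/-- **Main lemma**: an algebraic integer of `muField p` is congruent to a rational integer
modulo every prime over `p`. -/
theorem exists_int_sub_mem (p : ℕ) [hp : Fact p.Prime] (Q : Ideal ZBar) [hQ : Q.IsPrime]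
    (hpQ : (p : ZBar) ∈ Q) (a : ZBar) (ha : (a : AlgebraicClosure ℚ) ∈ muField p) :
    ∃ n : ℤ, a - (n : ZBar) ∈ Q := by
  obtain ⟨N, hN⟩ := exists_level_of_mem_muField p hp.out.ne_zero _ ha
  obtain ⟨ζ, f, hζ, hf⟩ := exists_aeval_eq p N _ a.2 hN
  have hζint : IsIntegral ℤ ζ :=
    IsIntegral.of_pow (pow_pos hp.out.pos N) (by rw [hζ]; exact isIntegral_one)
  set ζ' : ZBar := ⟨ζ, hζint⟩ with hζ'
  have hζ'1 : ζ' ^ p ^ N = 1 := Subtype.ext (by simpa using hζ)
  have h1 : ζ' - 1 ∈ Q := sub_one_mem_of_pow_eq_one p Q hpQ ζ' N hζ'1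
  have h2 : a = aeval ζ' f := by
    apply Subtype.ext
    rw [← hf]
    exact Polynomial.aeval_algHom_apply (ZBar.val) ζ' f
  refine ⟨f.eval 1, ?_⟩
  have h3 : (aeval ζ' f : ZBar) - aeval (1 : ZBar) f ∈ Q := by
    obtain ⟨c, hc⟩ := Polynomial.sub_dvd_eval_sub ζ' 1 (f.map (algebraMap ℤ ZBar))
    rw [Polynomial.aeval_def, Polynomial.aeval_def, ← Polynomial.eval_map, ← Polynomial.eval_map, hc]
    exact Q.mul_mem_right _ h1
  have h4 : (aeval (1 : ZBar) f : ZBar) = ((f.eval 1 : ℤ) : ZBar) := by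
    have := Polynomial.aeval_algebraMap_apply_eq_algebraMap_eval (A := ZBar) (1 : ℤ) f
    simpa using this
  rw [h2, ← h4]
  exact h3

/-- `muField p` is normal over `ℚ`. -/
theorem muField_normal (p : ℕ) : Normal ℚ (muField p) := by
  refine (IntermediateField.normal_iff_forall_map_le (F := ℚ) (K := muField p)).2 ?_
  intro σ
  rw [muField, IntermediateField.adjoin_map]
  apply IntermediateField.adjoin.mono
  rintro _ ⟨μ, ⟨n, hn⟩, rfl⟩
  exact ⟨n, by rw [← map_pow, hn, map_one]⟩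

/-- **EXISTS-i** (core form): every element of the decomposition group at a place over `p` can be
corrected by an element of the inertia group to an element fixing the `p`-power roots of
unity. -/
theorem exists_inertia_mul_fixes (p : ℕ) (hp : p.Prime)
    (P : ValuationSubring (AlgebraicClosure ℚ)) (hP : P.LiesOverPrime p)
    (g : AlgebraicClosure ℚ ≃ₐ[ℚ] AlgebraicClosure ℚ) (hg : g ∈ P.decompositionSubgroup ℚ) :
    ∃ i ∈ P.inertiaSubgroupIn ℚ,
      ∀ (n : ℕ) (μ : AlgebraicClosure ℚ), μ ^ p ^ n = 1 → (g * i) μ = μ := by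
  have : Fact p.Prime := ⟨hp⟩
  have hQprime : (primeUnder P).IsPrime := primeUnder_isPrime P
  have hpQ : (p : ZBar) ∈ primeUnder P :=
    Fermat.Agent.Lib.InertiaConj.natCast_mem_primeUnder p P hP
  have hnormal : Normal ℚ (muField p) := muField_normal p
  have hginv : g⁻¹ ∈ P.decompositionSubgroup ℚ := inv_mem hg
  obtain ⟨i, hi, hiF⟩ := Fermat.Agent.Lib.InertiaLift.exists_mem_inertiaSubgroupIn_eqOn p hp P hP
    (muField p) g⁻¹ (by
      intro x hx hxi
      obtain ⟨n, hn⟩ := exists_int_sub_mem p (primeUnder P) hpQ ⟨x, hxi⟩ hx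
      rw [mem_primeUnder] at hn
      have hn' : P.valuation (x - (n : AlgebraicClosure ℚ)) < 1 := by
        simpa using hn
      rw [ValuationSubring.mem_nonunits_iff]
      have h1 : g⁻¹ x - x = g⁻¹ (x - (n : AlgebraicClosure ℚ)) - (x - (n : AlgebraicClosure ℚ)) := by
        rw [map_sub, map_intCast]
        ring
      rw [h1]
      exact Valuation.map_sub_lt _
        ((Fermat.Agent.Lib.InertiaBridge.valuation_map_lt_one_iff P g⁻¹ hginv _).2 hn') hn')
  refine ⟨i, hi, fun n μ hμ => ?_⟩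
  have hμF : μ ∈ muField p := IntermediateField.subset_adjoin ℚ _ ⟨n, hμ⟩
  show g (i μ) = μ
  rw [hiF μ hμF]
  exact AlgEquiv.apply_symm_apply g μ

end Fermat.Agent.S59.NonMin.H77
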