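/-
S59, case C, leaf EXISTS-i (helper77): for every `g` in the decomposition group at a place `P`
over `p` there is `i` in the inertia group of `P` such that `g * i` fixes the `p`-power roots of
unity (`NonMin.FixesPRoots`).  Core: `H77_ExistsICore.lean`.
-/
import Fermat.Agent.S59.NonMin.Defs2
import Fermat.Agent.S59.NonMin.H77_ExistsICore

set_option autoImplicit false

namespace Fermat.Agent.S59.NonMin

/-- **EXISTS-i**: the cyclotomic character is onto on inertia at `p`, in the form needed for the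
Selmer bridge: every element of the decomposition group at `P` can be moved into the kernel of
the `p`-adic cyclotomic character by an element of the inertia group. -/
def Stmt_EXISTSi : Prop :=
  ∀ (p : ℕ), p.Prime →
  ∀ (P : ValuationSubring (AlgebraicClosure ℚ)), P.LiesOverPrime p →
  ∀ g ∈ P.decompositionSubgroup ℚ, ∃ i ∈ P.inertiaSubgroupIn ℚ, FixesPRoots p (g * i)

namespace H77

theorem stmt_EXISTSi : Stmt_EXISTSi :=
  fun p hp P hP g hg => exists_inertia_mul_fixes p hp P hP g hg

/-- Variant: the corrected element stays in the decomposition group and has the same action on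
the residue field (it differs from `g` by inertia). -/
theorem exists_mem_decomposition_fixes (p : ℕ) (hp : p.Prime)
    (P : ValuationSubring (AlgebraicClosure ℚ)) (hP : P.LiesOverPrime p)
    (g : AlgebraicClosure ℚ ≃ₐ[ℚ] AlgebraicClosure ℚ) (hg : g ∈ P.decompositionSubgroup ℚ) :
    ∃ g' ∈ P.decompositionSubgroup ℚ, FixesPRoots p g' ∧ g⁻¹ * g' ∈ P.inertiaSubgroupIn ℚ := by
  obtain ⟨i, hi, hfix⟩ := exists_inertia_mul_fixes p hp P hP g hg
  have hidec : i ∈ P.decompositionSubgroup ℚ := by
    obtain ⟨j, -, rfl⟩ := hi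
    exact j.2
  refine ⟨g * i, mul_mem hg hidec, hfix, ?_⟩
  rw [inv_mul_cancel_left]
  exact hi

/-- **EXISTS-g**: there is a Frobenius element at `P` fixing the `p`-power roots of unity. -/
theorem exists_isFrobeniusAt_fixes (p : ℕ) (hp : p.Prime)
    (P : ValuationSubring (AlgebraicClosure ℚ)) (hP : P.LiesOverPrime p) :
    ∃ g : AlgebraicClosure ℚ ≃ₐ[ℚ] AlgebraicClosure ℚ, P.IsFrobeniusAt g p ∧ FixesPRoots p g := by
  obtain ⟨g₀, hg₀⟩ := Fermat.Agent.Lib.FrobExists.exists_isFrobeniusAt p hp P hP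
  obtain ⟨hdec, hfrob⟩ := hg₀
  obtain ⟨i, hi, hfix⟩ := exists_inertia_mul_fixes p hp P hP g₀ hdec
  obtain ⟨j, hj, rfl⟩ := hi
  refine ⟨g₀ * (P.decompositionSubgroup ℚ).subtype j, ⟨mul_mem hdec j.2, fun x => ?_⟩, hfix⟩
  have h1 : (⟨g₀ * (P.decompositionSubgroup ℚ).subtype j, mul_mem hdec j.2⟩ :
      P.decompositionSubgroup ℚ) = ⟨g₀, hdec⟩ * j := rfl
  have h2 : j • x = x := by
    have h3 := MonoidHom.mem_ker.mp hj
    exact congrArg (fun e : RingAut (IsLocalRing.ResidueField P) => e x) h3
  rw [h1, mul_smul, h2]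
  exact hfrob x

end H77

end Fermat.Agent.S59.NonMin
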