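/-
S59, RT-NONMIN case C, leaf SELMER-p (helper80), part 2: the peu ramifié inertia groups of the
places over `p` are conjugate.

* `conj_mem_Ipeu` : for places `P`, `P'` over `p` there is `g` with
  `σ ∈ Ipeu p P' → g⁻¹ σ g ∈ Ipeu p P`.
* `isPeuAt_of_one_place` : a representation trivial on `Ipeu p P` for ONE place `P` over `p` is
  peu ramifié at `p`.
-/
import Mathlib
import Fermat.Agent.S59.NonMin.Defs2
import Fermat.Agent.S55.CFT.GS.H6_UR_PL

set_option autoImplicit false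
set_option linter.unusedSectionVars false
set_option linter.style.haveILetI false

open IsLocalRing
open scoped Pointwise

namespace Fermat.Agent.S59.NonMin.H80

open Fermat.Agent.S55.CFT.GS.H6 Fermat.Agent.Lib.InertiaBridge

/-- Conjugation of the inertia group. -/
theorem conj_mem_inertia_of_smul (A : ValuationSubring (AlgebraicClosure ℚ))
    (g σ : AlgebraicClosure ℚ ≃ₐ[ℚ] AlgebraicClosure ℚ)
    (hσ : σ ∈ (g • A).inertiaSubgroupIn ℚ) : g⁻¹ * σ * g ∈ A.inertiaSubgroupIn ℚ := by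
  rw [mem_inertiaSubgroupIn_iff_forall] at hσ ⊢
  obtain ⟨hD, hI⟩ := hσ
  refine ⟨?_, fun a ha => ?_⟩
  · rw [ValuationSubring.decompositionSubgroup, MulAction.mem_stabilizer_iff] at hD ⊢
    rw [mul_smul, mul_smul, hD, inv_smul_smul]
  · have h0 : g⁻¹ (g a) = a := AlgEquiv.symm_apply_apply g a
    have h1 : g a ∈ g • A := by
      rw [ur_mem_smul_iff, h0]
      exact ha
    have h2 := hI (g a) h1
    rw [ur_valuation_smul_lt, map_sub, h0] at h2
    exact h2

/-- Transport of the units of the inertia field. -/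
theorem map_mem_peuUnits (A : ValuationSubring (AlgebraicClosure ℚ))
    (g : AlgebraicClosure ℚ ≃ₐ[ℚ] AlgebraicClosure ℚ) (u : AlgebraicClosure ℚ)
    (hu : u ∈ peuUnits A) : g u ∈ peuUnits (g • A) := by
  obtain ⟨h1, h2, h3, h4⟩ := hu
  have h0 : ∀ y : AlgebraicClosure ℚ, g⁻¹ (g y) = y := fun y => AlgEquiv.symm_apply_apply g y
  refine ⟨?_, ?_, ?_, fun s hs => ?_⟩
  · rw [ur_mem_smul_iff, h0]
    exact h1
  · rw [ur_mem_smul_iff, ← map_inv₀, h0]
    exact h2
  · exact (map_ne_zero g).2 h3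
  · have h5 := h4 _ (conj_mem_inertia_of_smul A g s hs)
    have h6 : g ((g⁻¹ * s * g) u) = s (g u) := by
      change g (g⁻¹ (s (g u))) = s (g u)
      exact AlgEquiv.apply_symm_apply g _
    rw [← h6, h5]

/-- Conjugation of the peu ramifié inertia. -/
theorem conj_mem_Ipeu_of_smul (p : ℕ) (A : ValuationSubring (AlgebraicClosure ℚ))
    (g σ : AlgebraicClosure ℚ ≃ₐ[ℚ] AlgebraicClosure ℚ) (hσ : σ ∈ Ipeu p (g • A)) :
    g⁻¹ * σ * g ∈ Ipeu p A := by
  obtain ⟨h1, h2⟩ := hσ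
  refine ⟨conj_mem_inertia_of_smul A g σ h1, fun y n hy => ?_⟩
  have h3 : (g y) ^ p ^ n ∈ peuUnits (g • A) := by
    rw [← map_pow]
    exact map_mem_peuUnits A g _ hy
  have h4 := h2 (g y) n h3
  change g⁻¹ (σ (g y)) = y
  rw [h4]
  exact AlgEquiv.symm_apply_apply g y

/-- The peu ramifié inertia groups over `p` are conjugate. -/
theorem conj_mem_Ipeu (p : ℕ) (hp : p.Prime) (P P' : ValuationSubring (AlgebraicClosure ℚ))
    (hP : P.LiesOverPrime p) (hP' : P'.LiesOverPrime p) :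
    ∃ g : AlgebraicClosure ℚ ≃ₐ[ℚ] AlgebraicClosure ℚ,
      ∀ σ ∈ Ipeu p P', g⁻¹ * σ * g ∈ Ipeu p P := by
  obtain ⟨g, hg⟩ := ur_exists_smul P P' p hp hP hP'
  refine ⟨g, fun σ hσ => ?_⟩
  rw [hg] at hσ
  exact conj_mem_Ipeu_of_smul p P g σ hσ

/-- A representation which is trivial on the peu ramifié inertia of one place over `p` is peu
ramifié at `p`. -/
theorem isPeuAt_of_one_place {C : Type} [CommRing C] [IsLocalRing C] (ρ : GaloisRepAdic C)
    (p : ℕ) (hp : p.Prime) (P : ValuationSubring (AlgebraicClosure ℚ)) (hP : P.LiesOverPrime p)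
    (h : ∀ σ ∈ Ipeu p P, ρ.ρ σ = 1) : IsPeuAt ρ p := by
  intro P' hP' σ hσ
  obtain ⟨g, hg⟩ := conj_mem_Ipeu p hp P P' hP hP'
  have h1 := h _ (hg σ hσ)
  have h2 : σ = g * (g⁻¹ * σ * g) * g⁻¹ := by group
  rw [h2, map_mul, map_mul, h1, mul_one, ← map_mul, mul_inv_cancel, map_one]

end Fermat.Agent.S59.NonMin.H80
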