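/-
S59, RT-NONMIN case C, leaf SELMER-p (helper80), part 1: ordinary lines in matrix form.

* `stable_iff`, `unip_iff` : a line `A ∙ b 0` is stable under `f` / `f - 1` maps into the line,
  in terms of the matrix of `f` in the basis `b`.
* `isOrdinaryAt_baseChangeAlong` : ordinary representations are stable under base change.
* `ord_rel` : the matrix computation `(χ₁(g) - χ₂(g)) w = 0`.
* `span_w_card_le` : the `𝒪`-span of the class of `w` in the cotangent space is a quotient of
  `𝒪 / c`.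
-/
import Mathlib
import Fermat.Agent.S59.Asm.H80_SelmerMat
import Fermat.Agent.S53.Dict
import Fermat.Prelude.Def_GaloisRep_LocalConditions

set_option autoImplicit false
set_option linter.unusedSectionVars false
set_option linter.style.haveILetI false

open IsLocalRing

namespace Fermat.Agent.S59.NonMin.H80

open Fermat.Agent.S53

section line

variable {A : Type} [CommRing A] {V : Type} [AddCommGroup V] [Module A V]
  (b : Module.Basis (Fin 2) A V)

theorem mem_span_iff (v : V) : v ∈ Submodule.span A {b 0} ↔ b.repr v 1 = 0 := by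
  constructor
  · intro hv
    obtain ⟨a, rfl⟩ := Submodule.mem_span_singleton.1 hv
    rw [map_smul, Finsupp.smul_apply, Module.Basis.repr_self, Finsupp.single_apply,
      if_neg (by decide), smul_zero]
  · intro hv
    have h1 := b.sum_repr v
    rw [Fin.sum_univ_two, hv, zero_smul, add_zero] at h1
    rw [← h1]
    exact Submodule.smul_mem _ _ (Submodule.mem_span_singleton_self _)

theorem repr_apply_one (f : Module.End A V) (v : V) :
    b.repr (f v) 1 = LinearMap.toMatrix b b f 1 0 * b.repr v 0 +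
      LinearMap.toMatrix b b f 1 1 * b.repr v 1 := by
  have h := congrFun (LinearMap.toMatrix_mulVec_repr b b f v) 1
  rw [← h, Matrix.mulVec, dotProduct, Fin.sum_univ_two]

theorem stable_iff (f : Module.End A V) :
    (∀ v ∈ Submodule.span A {b 0}, f v ∈ Submodule.span A {b 0}) ↔
      LinearMap.toMatrix b b f 1 0 = 0 := by
  constructor
  · intro h
    have h1 := (mem_span_iff b _).1 (h (b 0) (Submodule.mem_span_singleton_self _))
    rw [LinearMap.toMatrix_apply]
    exact h1
  · intro h v hv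
    rw [mem_span_iff] at hv ⊢
    rw [repr_apply_one, h, hv, zero_mul, mul_zero, add_zero]

theorem unip_iff (f : Module.End A V) :
    (∀ v, f v - v ∈ Submodule.span A {b 0}) ↔
      LinearMap.toMatrix b b f 1 0 = 0 ∧ LinearMap.toMatrix b b f 1 1 = 1 := by
  constructor
  · intro h
    have h0 := (mem_span_iff b _).1 (h (b 0))
    have h1 := (mem_span_iff b _).1 (h (b 1))
    rw [map_sub, Finsupp.sub_apply, Module.Basis.repr_self, Finsupp.single_apply,
      if_neg (by decide), sub_zero] at h0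
    rw [map_sub, Finsupp.sub_apply, Module.Basis.repr_self, Finsupp.single_apply,
      if_pos rfl, sub_eq_zero] at h1
    exact ⟨by rw [LinearMap.toMatrix_apply]; exact h0, by rw [LinearMap.toMatrix_apply]; exact h1⟩
  · rintro ⟨h0, h1⟩ v
    rw [mem_span_iff, map_sub, Finsupp.sub_apply, repr_apply_one, h0, h1, zero_mul, zero_add,
      one_mul, sub_self]

end line

/-- Ordinary representations are stable under base change. -/
theorem isOrdinaryAt_baseChangeAlong {A B : Type} [CommRing A] [IsLocalRing A] [CommRing B]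
    [IsLocalRing B] (φ : A →+* B) (hφ : IsLocalHom φ) (ρ : GaloisRepAdic A) (p : ℕ)
    (h : ρ.IsOrdinaryAt p) : (ρ.baseChangeAlong φ hφ).IsOrdinaryAt p := by
  intro P hP
  obtain ⟨L, ⟨b, hL⟩, hstab, hin⟩ := h P hP
  subst hL
  obtain ⟨bB, hbB⟩ := IsMatOf.baseChangeAlong φ hφ
    (⟨b, fun σ => rfl⟩ : IsMatOf ρ (fun σ => LinearMap.toMatrix b b (ρ.ρ σ)))
  have hbB' : ∀ σ i j, LinearMap.toMatrix bB bB ((ρ.baseChangeAlong φ hφ).ρ σ) i j =
      φ (LinearMap.toMatrix b b (ρ.ρ σ) i j) := fun σ i j => by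
    rw [hbB σ]; rfl
  refine ⟨Submodule.span B {bB 0}, ⟨bB, rfl⟩, fun σ hσ => ?_, fun σ hσ => ?_⟩
  · rw [stable_iff bB, hbB', (stable_iff b _).1 (hstab σ hσ), map_zero]
  · obtain ⟨h1, h2⟩ := (unip_iff b _).1 (hin σ hσ)
    rw [unip_iff bB, hbB', hbB', h1, h2, map_zero, map_one]
    exact ⟨rfl, rfl⟩

/-- The matrix computation. -/
theorem ord_rel {R : Type} [CommRing R] (T G : Matrix (Fin 2) (Fin 2) R)
    (hT10 : T 1 0 = 0) (hT11 : T 1 1 = 1) (hdetT : T.det = 1) (hG10 : G 1 0 = 0)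
    (hdetG : G.det = 1) (hcomm : G * T = T * G) :
    T 0 0 = 1 ∧ G 0 0 * G 1 1 = 1 ∧ (G 0 0 - G 1 1) * T 0 1 = 0 := by
  rw [Matrix.det_fin_two] at hdetT hdetG
  rw [hT10, hT11, mul_zero, sub_zero, mul_one] at hdetT
  rw [hG10, mul_zero, sub_zero] at hdetG
  refine ⟨hdetT, hdetG, ?_⟩
  have h := congrFun (congrFun hcomm 0) 1
  rw [Matrix.mul_apply, Matrix.mul_apply, Fin.sum_univ_two, Fin.sum_univ_two, hT11, hdetT] at h
  linear_combination h

section cot

variable (𝒪 : Type) [CommRing 𝒪] [IsDomain 𝒪] [IsDiscreteValuationRing 𝒪]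
  [Finite (ResidueField 𝒪)] {R' : Type} [CommRing R'] [Algebra 𝒪 R'] (x' : R' →ₐ[𝒪] 𝒪)

/-- The span of the class of `w` in the cotangent space. -/
theorem span_w_card_le (w d : R') (hd : d * w = 0) (c : 𝒪) (hc : c ^ 2 = (x' d) ^ 2)
    (hc0 : c ≠ 0) :
    ∃ hw : w ∈ RingHom.ker (x' : R' →+* 𝒪),
      ∃ E : Submodule 𝒪 (RingHom.ker (x' : R' →+* 𝒪)).Cotangent,
        (RingHom.ker (x' : R' →+* 𝒪)).toCotangent ⟨w, hw⟩ ∈ E ∧ Finite E ∧
          Nat.card E ≤ Nat.card (𝒪 ⧸ Ideal.span {c}) := by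
  classical
  have hd0 : x' d ≠ 0 := by
    intro h0
    rw [h0, zero_pow two_ne_zero] at hc
    exact hc0 (pow_eq_zero_iff two_ne_zero |>.1 hc)
  have hw : w ∈ RingHom.ker (x' : R' →+* 𝒪) := by
    rw [RingHom.mem_ker]
    have h1 : x' d * x' w = 0 := by rw [← map_mul, hd, map_zero]
    exact (mul_eq_zero.1 h1).resolve_left hd0
  refine ⟨hw, ?_⟩
  set m := (RingHom.ker (x' : R' →+* 𝒪)).toCotangent ⟨w, hw⟩ with hm
  have hkill : x' d • m = 0 := by
    rw [← Fermat.Agent.S59.Asm.H80.smul_cotangent_eq 𝒪 x' d m, hm, ← map_smul]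
    have e : d • (⟨w, hw⟩ : RingHom.ker (x' : R' →+* 𝒪)) = 0 := by
      apply Subtype.ext
      change d * w = 0
      exact hd
    rw [e, map_zero]
  have hspan : Ideal.span {x' d} = Ideal.span {c} := by
    rcases sq_eq_sq_iff_eq_or_eq_neg.1 hc with h | h
    · rw [h]
    · rw [h, Ideal.span_singleton_neg]
  have hdet : (Matrix.of (fun _ _ : Fin 1 => x' d)).det = x' d := by
    rw [Matrix.det_unique]; rfl
  obtain ⟨hfin, hcard⟩ := Fermat.Agent.S59.Asm.H2.stmt_SELqALG 𝒪 1
    (Matrix.of (fun _ _ : Fin 1 => x' d)) (by rw [hdet]; exact hd0)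
    (RingHom.ker (x' : R' →+* 𝒪)).Cotangent (fun _ => m) (fun i => by
      rw [Fin.sum_univ_one]
      exact hkill)
  rw [hdet, hspan] at hcard
  exact ⟨Submodule.span 𝒪 (Set.range fun _ : Fin 1 => m),
    Submodule.subset_span ⟨(0 : Fin 1), rfl⟩, hfin, hcard⟩

end cot

end Fermat.Agent.S59.NonMin.H80
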