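/-
S59, RT-NONMIN case C, leaf SELMER-p (helper80):

`selmerp_of : Stmt_KUMp → Stmt_PEUFLAT → Stmt_SELMERp`.

Proof.  In an ordinary basis at `P` the universal ordinary deformation satisfies
`ρ'(τ₀) = [[1, w], [0, 1]]` (`τ₀` the generator of the peu ramifié inertia of `Stmt_KUMp`) and
`ρ'(g) = [[χ₁, *], [0, χ₂]]`, `χ₁ χ₂ = 1`; `ρ'(g) ρ'(τ₀) = ρ'(τ₀) ρ'(g)` gives
`(χ₁ - χ₂) w = 0`.  As `x'(χ₁ - χ₂)² = tr² - 4 = c² ≠ 0`: `w ∈ 𝔭' = ker x'` and the class of `w`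
in `𝔭'/𝔭'²` spans a quotient of `𝒪 / c`.  Modulo `J = (w)` the representation `ρ'` is trivial on
the peu ramifié inertia (`Stmt_KUMp` (2)), hence flat (`Stmt_PEUFLAT`): `ker τ ⊆ J` by the
universal properties.
-/
import Mathlib
import Fermat.Agent.S59.NonMin.Defs2
import Fermat.Agent.S59.NonMin.H80_SelmerPMat
import Fermat.Agent.S59.NonMin.H80_SelmerPConj
import Fermat.Agent.S59.Asm.H80_SelmerKer
import Fermat.Agent.S59.Asm.H80_SelmerCot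

set_option autoImplicit false
set_option linter.unusedSectionVars false
set_option linter.style.haveILetI false

open IsLocalRing

namespace Fermat.Agent.S59.NonMin.H80

open Fermat.Agent.S53 Fermat.Agent.S59 Fermat.Agent.L.Pivot Fermat.Agent.S56.H92

/-- Elements fixing the `p`-power roots of unity have determinant `1`. -/
theorem det_eq_one_of_fixesPRoots {A : Type} [CommRing A] [IsLocalRing A] [IsNoetherianRing A]
    (p : ℕ) (ρ : GaloisRepAdic A) (hdet : ρ.DetIsCyclotomic p)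
    (σ : AlgebraicClosure ℚ ≃ₐ[ℚ] AlgebraicClosure ℚ) (hσ : FixesPRoots p σ) :
    LinearMap.det (ρ.ρ σ) = 1 := by
  rw [← sub_eq_zero]
  refine H59.eq_zero_of_forall_mem_span_pow p hdet.1 _ fun n => ?_
  have h := hdet.2 n σ 1 (fun μ hμ => by rw [pow_one]; exact hσ n μ hμ)
  rwa [Nat.cast_one] at h

/-- The peu ramifié inertia fixes the `p`-power roots of unity. -/
theorem fixesPRoots_of_mem_Ipeu (p : ℕ) (P : ValuationSubring (AlgebraicClosure ℚ))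
    (σ : AlgebraicClosure ℚ ≃ₐ[ℚ] AlgebraicClosure ℚ) (hσ : σ ∈ Ipeu p P) :
    FixesPRoots p σ := by
  intro n μ hμ
  refine hσ.2 μ n ?_
  rw [hμ]
  exact ⟨P.one_mem, by rw [inv_one]; exact P.one_mem, one_ne_zero, fun s _ => map_one s⟩

/-- If `ρ(σ) ≡ 1` modulo `J ⊆ ker π` then `π_* ρ (σ) = 1`. -/
theorem baseChangeAlong_eq_one {A C : Type} [CommRing A] [IsLocalRing A] [CommRing C]
    [IsLocalRing C] (π : A →+* C) (hπ : IsLocalHom π) (ρ : GaloisRepAdic A)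
    (σ : AlgebraicClosure ℚ ≃ₐ[ℚ] AlgebraicClosure ℚ) (J : Ideal A) (hJ : J ≤ RingHom.ker π)
    (h : ∀ v : ρ.V, ρ.ρ σ v - v ∈ J • (⊤ : Submodule A ρ.V)) :
    (ρ.baseChangeAlong π hπ).ρ σ = 1 := by
  obtain ⟨r, b, hb⟩ := exists_isMatOf ρ
  obtain ⟨bC, hbC⟩ := IsMatOf.baseChangeAlong π hπ (⟨b, hb⟩ : IsMatOf ρ r)
  apply (LinearMap.toMatrix bC bC).injective
  rw [hbC σ, LinearMap.toMatrix_one]
  ext i j
  have h1 : (Fermat.Agent.S59.TWGal.mat b (ρ.ρ σ) - 1) i j ∈ J :=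
    Fermat.Agent.S59.TWGal.mat_sub_one_mem b J (ρ.ρ σ) h i j
  have h2 : Fermat.Agent.S59.TWGal.mat b (ρ.ρ σ) = r σ := hb σ
  rw [h2] at h1
  have h3 : π ((r σ - 1) i j) = 0 := hJ h1
  rw [Matrix.sub_apply, map_sub, sub_eq_zero] at h3
  change π (r σ i j) = _
  rw [h3]
  by_cases hij : i = j
  · rw [hij, Matrix.one_apply_eq, Matrix.one_apply_eq, map_one]
  · rw [Matrix.one_apply_ne hij, Matrix.one_apply_ne hij, map_zero]

section quot

variable {𝒪 : Type} [CommRing 𝒪] [IsDomain 𝒪] [IsDiscreteValuationRing 𝒪]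
  [IsAdicComplete (maximalIdeal 𝒪) 𝒪] [Finite (ResidueField 𝒪)]
variable {ρbar : ResidualGaloisRep (ResidueField 𝒪)}
variable {𝒟 𝒟' : ∀ ⦃A : Type⦄ [CommRing A] [IsLocalRing A] [Algebra 𝒪 A], GaloisRepAdic A → Prop}

/-- If `D'.ρ` modulo `J` is of type `𝒟` (and `𝒟'`), then `ker τ ≤ J`. -/
theorem ker_le_of_quot
    (D : GaloisRep.DeformationRingData 𝒪 ρbar 𝒟) (D' : GaloisRep.DeformationRingData 𝒪 ρbar 𝒟')
    (τ : D'.R →ₐ[𝒪] D.R) (hτ : IsLocalHom (τ : D'.R →+* D.R))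
    (heq : (D'.ρ.baseChangeAlong (τ : D'.R →+* D.R) hτ).IsEquiv D.ρ)
    (J : Ideal D'.R) (hJ : J ≠ ⊤)
    (h : ∀ (C : Type) [CommRing C] [IsLocalRing C] [IsNoetherianRing C] [Algebra 𝒪 C]
      (π : D'.R →ₐ[𝒪] C) (hπ : IsLocalHom (π : D'.R →+* C)),
      J ≤ RingHom.ker (π : D'.R →+* C) → Finite (ResidueField C) →
        𝒟 (D'.ρ.baseChangeAlong (π : D'.R →+* C) hπ) ∧
          𝒟' (D'.ρ.baseChangeAlong (π : D'.R →+* C) hπ)) :
    RingHom.ker (τ : D'.R →+* D.R) ≤ J := by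
  classical
  letI : IsLocalRing (D'.R ⧸ J) := Fermat.Agent.L.Pivot.H52.isLocalRing_quotient J hJ
  haveI : IsAdicComplete (maximalIdeal (D'.R ⧸ J)) (D'.R ⧸ J) :=
    Fermat.Agent.L.Pivot.H52.isAdicComplete_quotient J hJ
  haveI hmk : IsLocalHom (Ideal.Quotient.mk J) :=
    Fermat.Agent.L.Pivot.H52.isLocalHom_quotient_mk J hJ
  haveI : IsLocalHom (algebraMap 𝒪 (D'.R ⧸ J)) := by
    refine ⟨fun a ha => ?_⟩
    have h1 : IsUnit (algebraMap 𝒪 D'.R a) := isUnit_of_map_unit (Ideal.Quotient.mk J) _ ha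
    exact isUnit_of_map_unit (algebraMap 𝒪 D'.R) a h1
  have hres : Function.Surjective (residue (D'.R ⧸ J) ∘ algebraMap 𝒪 (D'.R ⧸ J)) := by
    intro y
    obtain ⟨c, rfl⟩ := residue_surjective y
    obtain ⟨a, rfl⟩ := Ideal.Quotient.mk_surjective c
    obtain ⟨c0, hc0⟩ := exists_sub_mem_maximalIdeal D'.residue_surjective a
    refine ⟨c0, ?_⟩
    simp only [Function.comp_apply]
    rw [← sub_eq_zero, ← map_sub, residue_eq_zero_iff]
    have h2 := Fermat.Agent.L.Pivot.H52.mk_mem_maximalIdeal J hJ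
      ((maximalIdeal D'.R).neg_mem hc0)
    have e : Ideal.Quotient.mk J (-(a - algebraMap 𝒪 D'.R c0)) =
        algebraMap 𝒪 (D'.R ⧸ J) c0 - Ideal.Quotient.mk J a := by
      rw [neg_sub, map_sub]; rfl
    rw [e] at h2
    exact h2
  have hπ : IsLocalHom ((Ideal.Quotient.mkₐ 𝒪 J : D'.R →ₐ[𝒪] D'.R ⧸ J) : D'.R →+* D'.R ⧸ J) :=
    hmk
  have hresC : Finite (ResidueField (D'.R ⧸ J)) :=
    Fermat.Agent.S53.H50.finite_residueField_of_surjective 𝒪 _ hres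
  have hle : J ≤ RingHom.ker ((Ideal.Quotient.mkₐ 𝒪 J : D'.R →ₐ[𝒪] D'.R ⧸ J) :
      D'.R →+* D'.R ⧸ J) := by
    intro y hy
    rw [RingHom.mem_ker]
    exact Ideal.Quotient.eq_zero_iff_mem.2 hy
  obtain ⟨h1, h2⟩ := h (D'.R ⧸ J) (Ideal.Quotient.mkₐ 𝒪 J) hπ hle hresC
  have key := Fermat.Agent.S59.Asm.H80.ker_le_ker_of_isOfType D D' τ hτ heq (D'.R ⧸ J) hres
    (Ideal.Quotient.mkₐ 𝒪 J) hπ h1 h2
  intro y hy
  have h3 := key hy
  rw [RingHom.mem_ker] at h3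
  exact Ideal.Quotient.eq_zero_iff_mem.1 h3

end quot

/-- **SELMER-p**. -/
theorem selmerp_of (hK : Stmt_KUMp) (hF : Stmt_PEUFLAT) : Stmt_SELMERp := by
  intro 𝒪 _ _ _ _ _ p _ hp2 hp𝒪 ρbar Smin Sig hpSmin hprime D D' τ hτ heq x P hP g hg hgμ c hc
    hc0 hfin
  classical
  have hp : p.Prime := Fact.out
  have h𝒟 : GaloisRep.IsDeformationCondition 𝒪 (cond 𝒪 p true Smin Sig) := by
    rw [H99.cond_eq_condB]
    exact H99.isDeformationCondition_condB 𝒪 p hp2 true Smin Sig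
  have hτs : Function.Surjective τ :=
    Asm.H99.surjective_of_isEquiv h𝒟 D D'.ρ D'.residual_isEquiv τ hτ heq
  obtain ⟨⟨hdet, hord, hunr⟩, hunip⟩ := (D'.isOfType : condOrd 𝒪 p Smin Sig D'.ρ)
  obtain ⟨τ₀, hτ₀, hKUM⟩ := hK p hp hp2 P hP
  obtain ⟨hcomm, hgen⟩ := hKUM D'.R hdet.1 D'.ρ hdet hord
  obtain ⟨L, ⟨b, hL⟩, hstab, hin⟩ := hord P hP
  subst hL
  -- the matrices in the ordinary basis
  obtain ⟨T, hTdef⟩ : ∃ T : M2 D'.R, T = LinearMap.toMatrix b b (D'.ρ.ρ τ₀) := ⟨_, rfl⟩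
  obtain ⟨G, hGdef⟩ : ∃ G : M2 D'.R, G = LinearMap.toMatrix b b (D'.ρ.ρ g) := ⟨_, rfl⟩
  have hT : T 1 0 = 0 ∧ T 1 1 = 1 := by
    rw [hTdef]; exact (unip_iff b _).1 (hin τ₀ hτ₀.1)
  have hG10 : G 1 0 = 0 := by
    rw [hGdef]; exact (stable_iff b _).1 (hstab g hg)
  have hdetT : T.det = 1 := by
    rw [hTdef, LinearMap.det_toMatrix]
    exact det_eq_one_of_fixesPRoots p D'.ρ hdet τ₀ (fixesPRoots_of_mem_Ipeu p P τ₀ hτ₀)
  have hdetG : G.det = 1 := by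
    rw [hGdef, LinearMap.det_toMatrix]
    exact det_eq_one_of_fixesPRoots p D'.ρ hdet g hgμ
  have hcommM : G * T = T * G := by
    rw [hGdef, hTdef, ← LinearMap.toMatrix_mul, ← LinearMap.toMatrix_mul]
    exact congrArg _ (hcomm g hg hgμ)
  obtain ⟨hT00, hGG, hrel⟩ := ord_rel T G hT.1 hT.2 hdetT hG10 hdetG hcommM
  -- the trace
  obtain ⟨b1, hb1⟩ : IsMatOf D.ρ
      (fun σ => (LinearMap.toMatrix b b (D'.ρ.ρ σ)).map (τ : D'.R →+* D.R)) :=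
    Asm.H99.isMatOf_of_isEquiv (IsMatOf.baseChangeAlong (τ : D'.R →+* D.R) hτ
      (⟨b, fun σ => rfl⟩ : IsMatOf D'.ρ (fun σ => LinearMap.toMatrix b b (D'.ρ.ρ σ)))) heq
  have hb1' : LinearMap.toMatrix b1 b1 (D.ρ.ρ g) = G.map (τ : D'.R →+* D.R) := by
    rw [hGdef]; exact hb1 g
  have htr : x (D.ρ.trace g) = (x.comp τ) (G 0 0) + (x.comp τ) (G 1 1) := by
    unfold GaloisRepAdic.trace
    rw [LinearMap.trace_eq_matrix_trace D.R b1 (D.ρ.ρ g), hb1', Matrix.trace_fin_two, map_add]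
    rfl
  have hGGx : (x.comp τ) (G 0 0) * (x.comp τ) (G 1 1) = 1 := by
    rw [← map_mul, hGG, map_one]
  have hc' : c ^ 2 = ((x.comp τ) (G 0 0 - G 1 1)) ^ 2 := by
    rw [hc, htr, map_sub]
    linear_combination (4 : 𝒪) * hGGx
  obtain ⟨hw, E, hE, hEfin, hEcard⟩ :=
    span_w_card_le 𝒪 (x.comp τ) (T 0 1) (G 0 0 - G 1 1) hrel c hc' hc0
  -- `ρ'(τ₀) ≡ 1` modulo `J = (w)`
  have hJτ₀ : ∀ v : D'.ρ.V, D'.ρ.ρ τ₀ v - v ∈
      Ideal.span {T 0 1} • (⊤ : Submodule D'.R D'.ρ.V) := by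
    intro v
    refine H59.sub_mem_smul_top_of_mat b _ _ (fun i j => ?_) v
    have e : Fermat.Agent.S59.TWGal.mat b (D'.ρ.ρ τ₀) = T := hTdef.symm
    rw [e, Matrix.sub_apply]
    fin_cases i <;> fin_cases j
    · change T 0 0 - (1 : M2 D'.R) 0 0 ∈ _
      rw [hT00, Matrix.one_apply_eq, sub_self]
      exact Ideal.zero_mem _
    · change T 0 1 - (1 : M2 D'.R) 0 1 ∈ _
      rw [Matrix.one_apply_ne (by decide), sub_zero]
      exact Ideal.subset_span rfl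
    · change T 1 0 - (1 : M2 D'.R) 1 0 ∈ _
      rw [hT.1, Matrix.one_apply_ne (by decide), sub_zero]
      exact Ideal.zero_mem _
    · change T 1 1 - (1 : M2 D'.R) 1 1 ∈ _
      rw [hT.2, Matrix.one_apply_eq, sub_self]
      exact Ideal.zero_mem _
  have hJI := hgen _ hJτ₀
  have hJle : Ideal.span {T 0 1} ≤ RingHom.ker ((x.comp τ : D'.R →ₐ[𝒪] 𝒪) : D'.R →+* 𝒪) := by
    rw [Ideal.span_le]
    rintro y hy
    rw [Set.mem_singleton_iff.1 hy]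
    exact hw
  have hJne : Ideal.span {T 0 1} ≠ ⊤ := by
    intro h
    have h1 : (1 : D'.R) ∈ RingHom.ker ((x.comp τ : D'.R →ₐ[𝒪] 𝒪) : D'.R →+* 𝒪) :=
      hJle (h ▸ Submodule.mem_top)
    rw [RingHom.mem_ker, map_one] at h1
    exact one_ne_zero h1
  have hker : RingHom.ker (τ : D'.R →+* D.R) ≤ Ideal.span {T 0 1} := by
    refine ker_le_of_quot D D' τ hτ heq _ hJne ?_
    intro C _ _ _ _ π hπ hJπ hresC
    have hdetC := detIsCyclotomic_baseChangeAlong (π : D'.R →+* C) hπ D'.ρ p hdet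
    have hordC := isOrdinaryAt_baseChangeAlong (π : D'.R →+* C) hπ D'.ρ p hord
    have hunrC : ∀ q : ℕ, q.Prime → q ∉ Smin ∪ Sig →
        (D'.ρ.baseChangeAlong (π : D'.R →+* C) hπ).IsUnramifiedAt q :=
      fun q hq hqS => isUnramifiedAt_baseChangeAlong (π : D'.R →+* C) hπ D'.ρ q (hunr q hq hqS)
    have hunipC : ∀ q ∈ Smin, q.Prime → q ≠ p →
        (D'.ρ.baseChangeAlong (π : D'.R →+* C) hπ).IsUnipotentOnInertiaAt q :=
      fun q hqS hq hqp => isUnipotentOnInertiaAt_baseChangeAlong (π : D'.R →+* C) hπ D'.ρ q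
        (hunip q hqS hq hqp)
    have hpeuC : IsPeuAt (D'.ρ.baseChangeAlong (π : D'.R →+* C) hπ) p :=
      isPeuAt_of_one_place _ p hp P hP fun σ hσ =>
        baseChangeAlong_eq_one (π : D'.R →+* C) hπ D'.ρ σ _ hJπ (hJI σ hσ)
    have hflatC := hF p hp hp2 C hresC hdetC.1 _ hdetC hordC hpeuC
    have hC1 : cond 𝒪 p true Smin Sig (D'.ρ.baseChangeAlong (π : D'.R →+* C) hπ) := by
      change Fermat.Agent.S56.condFl 𝒪 p Smin Sig (D'.ρ.baseChangeAlong (π : D'.R →+* C) hπ)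
      exact ⟨⟨hdetC, hflatC, hunrC⟩, hunipC⟩
    have hC2 : condOrd 𝒪 p Smin Sig (D'.ρ.baseChangeAlong (π : D'.R →+* C) hπ) :=
      ⟨⟨hdetC, hordC, hunrC⟩, hunipC⟩
    exact ⟨hC1, hC2⟩
  -- the count
  have hS : ∀ s ∈ ({T 0 1} : Set D'.R),
      s ∈ RingHom.ker ((x.comp τ : D'.R →ₐ[𝒪] 𝒪) : D'.R →+* 𝒪) := by
    intro s hs
    rw [Set.mem_singleton_iff.1 hs]
    exact hw
  obtain ⟨hfin', hcard'⟩ := Fermat.Agent.S59.Asm.H80.card_cotangent_le τ x hτs (x.comp τ) rfl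
    {T 0 1} hS (hker.trans le_sup_left) E
    (by
      intro s hs
      have e : s = T 0 1 := Set.mem_singleton_iff.1 hs
      subst e
      exact hE) hEfin hfin
  exact ⟨hfin', hcard'.trans (Nat.mul_le_mul_left _ hEcard)⟩

end Fermat.Agent.S59.NonMin.H80
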