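/-
S59, package RT-NONMIN, leaf CQNE, final wiring (helper56, on helper7's ALG + ASM):
`stmt_CQNE : NonMin.Stmt_CQNE` — no character of the Hecke algebra of `S₂(Γ₀(N))` takes `T_q`
(`q ∤ N`) to a square root of `(q + 1)²`.

* `stmt_NormLt`    : helper7's `CQNE.Stmt_NormLt` (from `H56.norm_lt_of_heckeTLin_eq_smul`).
* `stmt_HeckeIneq` : helper7's `CQNE.Stmt_HeckeIneq`.
* `stmt_Decay`     : helper7's `CQNE.Stmt_Decay`.
* `stmt_CQNE`      : the leaf.
-/
import Fermat.Agent.S59.NonMin.H56_CQNEAnalytic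
import Fermat.Agent.S59.NonMin.CQNE.H7_Asm
import Fermat.Agent.S59.NonMin.CQNE.H7_Eig

set_option autoImplicit false

open UpperHalfPlane ModularForm

namespace Fermat.Agent.S59.NonMin.H56

theorem stmt_NormLt : Fermat.Agent.S59.NonMin.CQNE.Stmt_NormLt :=
  fun _N _ _q hq hqN f hf c h => norm_lt_of_heckeTLin_eq_smul hq hqN f hf c h

theorem stmt_HeckeIneq : Fermat.Agent.S59.NonMin.CQNE.Stmt_HeckeIneq :=
  fun _N _ _q hq hqN f a h z => cuspPhi_hecke_range hq hqN f a h z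

theorem stmt_Decay : Fermat.Agent.S59.NonMin.CQNE.Stmt_Decay := by
  intro N _ f ε hε
  obtain ⟨Y, hY⟩ := cuspPhi_decay f (ε / 2) (by positivity)
  refine ⟨Y, fun z hz => ?_⟩
  have h := hY z hz 1
  rw [one_smul] at h
  have h' : ‖f z‖ * z.im ≤ ε / 2 := h
  linarith

/-- **CQNE**. -/
theorem stmt_CQNE : Fermat.Agent.S59.NonMin.Stmt_CQNE :=
  Fermat.Agent.S59.NonMin.CQNE.H7.stmt_CQNE_of_normLt
    Fermat.Agent.S59.NonMin.CQNE.H7.stmt_EigOfChar stmt_NormLt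

end Fermat.Agent.S59.NonMin.H56
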