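/-
S59, package RT-NONMIN, CASE C (helper56): VAL in the vocabulary of `NonMin/Defs2.lean`.
-/
import Fermat.Agent.S59.NonMin.H56_KVal
import Fermat.Agent.S59.NonMin.Defs2

set_option autoImplicit false

namespace Fermat.Agent.S59.NonMin.H56K

/-- **VAL**: an inertia-fixed `w ≠ 0` is a power of `p` times a unit of the inertia field. -/
theorem stmt_VAL (p : ℕ) (hp : p.Prime) (P : ValuationSubring (AlgebraicClosure ℚ))
    (hP : P.LiesOverPrime p) (w : AlgebraicClosure ℚ) (hw : w ≠ 0)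
    (hfix : ∀ s ∈ P.inertiaSubgroupIn ℚ, s w = w) :
    ∃ k : ℤ, w * (p : AlgebraicClosure ℚ) ^ k ∈ Fermat.Agent.S59.NonMin.peuUnits P := by
  obtain ⟨k, ⟨h1, h2, h3⟩, h4⟩ := val_fixed' P hp hP w hw hfix
  exact ⟨k, h1, h2, h3, h4⟩

/-- Membership in `peuUnits` in terms of the valuation. -/
theorem mem_peuUnits_iff (P : ValuationSubring (AlgebraicClosure ℚ)) (u : AlgebraicClosure ℚ) :
    u ∈ Fermat.Agent.S59.NonMin.peuUnits P ↔
      P.valuation u = 1 ∧ ∀ s ∈ P.inertiaSubgroupIn ℚ, s u = u := by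
  constructor
  · rintro ⟨h1, h2, h3, h4⟩
    exact ⟨val_eq_one_of_mem P h1 h2 h3, h4⟩
  · rintro ⟨h1, h4⟩
    obtain ⟨a, b, c⟩ := mem_of_val_eq_one P h1
    exact ⟨a, b, c, h4⟩

end Fermat.Agent.S59.NonMin.H56K
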