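import Fermat.Agent.S59.NonMin.H48_H90
import Fermat.Agent.S59.NonMin.H56_KValB

/-!
# S59, case C, leaf KUM-p (helper48): the cocycle form

* `kum_char` : a continuous cocycle `c : I_P → μ_{p^n}` is, on the peu ramifié inertia `Ipeu p P`,
  a power of the Kummer character of `p`: `c h = (h π₀ / π₀) ^ (-k)` for all `h ∈ Ipeu`
  (Hilbert 90 over the inertia field + `H56K.stmt_VAL`).
* `kum_core` : a continuous cocycle `b : I_P → A(1)` with values in an abelian group killed by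
  `p ^ n`: if `h₀, h ∈ Ipeu`, `h₀ π₀ = ξ π₀` and `h π₀ = ξ ^ m π₀`, then `b h = m • b h₀`
  (characters of the finite group generated by the values of `b`).
  NO hypothesis on `ξ` (it need not be primitive).
-/

set_option autoImplicit false

namespace Fermat.Agent.S59.NonMin.H48

/-- The Galois group of `ℚ`. -/
local notation "Γℚ" => AlgebraicClosure ℚ ≃ₐ[ℚ] AlgebraicClosure ℚ

/-- Every automorphism acts on the `N`-th roots of unity by a power. -/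
theorem exists_pow_action (g : Γℚ) (N : ℕ) (hN : 0 < N) :
    ∃ a : ℕ, ∀ μ : AlgebraicClosure ℚ, μ ^ N = 1 → g μ = μ ^ a := by
  haveI : NeZero N := ⟨hN.ne'⟩
  obtain ⟨ζ₁, hζ₁⟩ := HasEnoughRootsOfUnity.exists_primitiveRoot (AlgebraicClosure ℚ) N
  have h1 : (g ζ₁) ^ N = 1 := by rw [← map_pow, hζ₁.pow_eq_one, map_one]
  obtain ⟨a, -, ha⟩ := hζ₁.eq_pow_of_pow_eq_one h1
  refine ⟨a, fun μ hμ => ?_⟩
  obtain ⟨j, -, rfl⟩ := hζ₁.eq_pow_of_pow_eq_one hμ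
  rw [map_pow, ← ha, ← pow_mul, ← pow_mul, mul_comm]

/-- **The Kummer class of a cocycle with values in `μ_{p^n}` on the inertia group**: on the peu
ramifié inertia it is a power of the Kummer character of `p`. -/
theorem kum_char (p : ℕ) (hp : p.Prime)
    (P : ValuationSubring (AlgebraicClosure ℚ)) (hP : P.LiesOverPrime p) (n : ℕ)
    (c : Γℚ → AlgebraicClosure ℚ)
    (hc1 : ∀ g ∈ P.inertiaSubgroupIn ℚ, c g ^ p ^ n = 1)
    (hcoc : ∀ g ∈ P.inertiaSubgroupIn ℚ, ∀ h ∈ P.inertiaSubgroupIn ℚ, c (g * h) = c g * g (c h))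
    (F : IntermediateField ℚ (AlgebraicClosure ℚ)) [FiniteDimensional ℚ F]
    (hF : ∀ g ∈ P.inertiaSubgroupIn ℚ, (∀ x ∈ F, g x = x) → c g = 1) :
    ∃ k : ℤ, ∀ π₀ : AlgebraicClosure ℚ, π₀ ^ p ^ n = (p : AlgebraicClosure ℚ) →
      ∀ h ∈ Ipeu p P, c h * (h π₀) ^ k = π₀ ^ k := by
  have hc0 : ∀ g ∈ P.inertiaSubgroupIn ℚ, c g ≠ 0 := by
    intro g hg h0
    have := hc1 g hg
    rw [h0, zero_pow (pow_ne_zero n hp.ne_zero)] at this
    exact zero_ne_one this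
  obtain ⟨y, hy0, hy⟩ := hilbert90_sub (P.inertiaSubgroupIn ℚ) c hc0 hcoc F hF
  have hw0 : y ^ p ^ n ≠ 0 := pow_ne_zero _ hy0
  have hwfix : ∀ s ∈ P.inertiaSubgroupIn ℚ, s (y ^ p ^ n) = y ^ p ^ n := by
    intro s hs
    rw [map_pow, hy s hs, mul_pow, hc1 s hs, one_mul]
  obtain ⟨k, hk⟩ := H56K.stmt_VAL p hp P hP _ hw0 hwfix
  refine ⟨k, fun π₀ hπ₀ h hh => ?_⟩
  have hpow : (y * π₀ ^ k) ^ p ^ n = y ^ p ^ n * (p : AlgebraicClosure ℚ) ^ k := by
    rw [mul_pow, ← zpow_natCast (π₀ ^ k), ← zpow_mul, mul_comm k, zpow_mul, zpow_natCast, hπ₀]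
  have hfix := hh.2 (y * π₀ ^ k) n (by rw [hpow]; exact hk)
  rw [map_mul, hy h hh.1, map_zpow₀] at hfix
  have h1 : c h * (h π₀) ^ k * y = π₀ ^ k * y := by
    rw [mul_comm (π₀ ^ k) y, ← hfix]
    ring
  exact mul_right_cancel₀ hy0 h1

/-- **KUM-p, cocycle form.**  `A` an abelian group killed by `p ^ n`, `b : I_P → A` a continuous
cocycle for the cyclotomic action.  If `h₀, h` are in the peu ramifié inertia, `π₀ ^ (p ^ n) = p`,
`h₀ π₀ = ξ π₀` and `h π₀ = ξ ^ m π₀`, then `b h = m • b h₀`. -/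
theorem kum_core (p : ℕ) (hp : p.Prime)
    (P : ValuationSubring (AlgebraicClosure ℚ)) (hP : P.LiesOverPrime p)
    (A : Type) [AddCommGroup A] (n : ℕ) (hA : ∀ x : A, (p ^ n) • x = 0) (b : Γℚ → A)
    (F : IntermediateField ℚ (AlgebraicClosure ℚ)) [FiniteDimensional ℚ F]
    (hF : ∀ σ ∈ P.inertiaSubgroupIn ℚ, (∀ x ∈ F, σ x = x) → b σ = 0)
    (hcoc : ∀ σ ∈ P.inertiaSubgroupIn ℚ, ∀ τ ∈ P.inertiaSubgroupIn ℚ, ∀ a : ℕ,
      (∀ μ : AlgebraicClosure ℚ, μ ^ p ^ n = 1 → σ μ = μ ^ a) → b (σ * τ) = b σ + a • b τ)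
    (π₀ ξ : AlgebraicClosure ℚ) (hπ₀ : π₀ ^ p ^ n = (p : AlgebraicClosure ℚ))
    (h₀ : Γℚ) (hh₀ : h₀ ∈ Ipeu p P) (hξ : h₀ π₀ = ξ * π₀)
    (h : Γℚ) (hh : h ∈ Ipeu p P) (m : ℕ) (hm : h π₀ = ξ ^ m * π₀) :
    b h = m • b h₀ := by
  classical
  have hpn : 0 < p ^ n := pow_pos hp.pos n
  have hπ0 : π₀ ≠ 0 := by
    intro h0
    rw [h0, zero_pow hpn.ne'] at hπ₀
    exact (Nat.cast_ne_zero.2 hp.ne_zero) hπ₀.symm
  -- `b` only depends on the restriction to `F`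
  have hwd : ∀ σ ∈ P.inertiaSubgroupIn ℚ, ∀ σ' ∈ P.inertiaSubgroupIn ℚ,
      resH90 F σ = resH90 F σ' → b σ = b σ' := by
    intro g hg g' hg' hres
    have ht : g⁻¹ * g' ∈ P.inertiaSubgroupIn ℚ := mul_mem (inv_mem hg) hg'
    have hfix : ∀ x ∈ F, (g⁻¹ * g') x = x := by
      intro x hx
      have h1 : g (⟨x, hx⟩ : F) = g' (⟨x, hx⟩ : F) := by
        have := congrArg (fun φ : F →ₐ[ℚ] AlgebraicClosure ℚ => φ ⟨x, hx⟩) hres
        exact this
      show g⁻¹ (g' x) = x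
      have h2 : g' x = g x := h1.symm
      rw [h2]
      show (g⁻¹ * g) x = x
      rw [inv_mul_cancel]
      rfl
    obtain ⟨a, ha⟩ := exists_pow_action g (p ^ n) hpn
    have h1 := hcoc g hg _ ht a ha
    rw [mul_inv_cancel_left, hF _ ht hfix, smul_zero, add_zero] at h1
    exact h1.symm
  -- the finite group generated by the values
  let f : (F →ₐ[ℚ] AlgebraicClosure ℚ) → A := fun φ =>
    if h : ∃ r ∈ P.inertiaSubgroupIn ℚ, resH90 F r = φ then b h.choose else 0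
  have hf : ∀ σ ∈ P.inertiaSubgroupIn ℚ, b σ = f (resH90 F σ) := by
    intro r hr
    have h : ∃ r' ∈ P.inertiaSubgroupIn ℚ, resH90 F r' = resH90 F r := ⟨r, hr, rfl⟩
    show b r = (if h : ∃ r' ∈ P.inertiaSubgroupIn ℚ, resH90 F r' = resH90 F r
      then b h.choose else 0)
    rw [dif_pos h]
    exact (hwd _ h.choose_spec.1 _ hr h.choose_spec.2).symm
  let B : AddSubgroup A := AddSubgroup.closure (Set.range f)
  have hbB : ∀ σ ∈ P.inertiaSubgroupIn ℚ, b σ ∈ B := fun σ hσ => by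
    rw [hf σ hσ]
    exact AddSubgroup.subset_closure (Set.mem_range_self _)
  haveI hfg : AddGroup.FG B := AddGroup.closure_finite_fg (Set.range f)
  haveI hfin : Finite B := by
    refine AddCommGroup.finite_of_fg_isAddTorsion B (fun x => ?_)
    rw [isOfFinAddOrder_iff_nsmul_eq_zero]
    exact ⟨p ^ n, hpn, Subtype.ext (hA x)⟩
  by_contra hne
  have hxB : b h - m • b h₀ ∈ B := B.sub_mem (hbB h hh.1) (B.nsmul_mem (hbB h₀ hh₀.1) m)
  have hx1 : Multiplicative.ofAdd (⟨b h - m • b h₀, hxB⟩ : B) ≠ 1 := by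
    intro h1
    have h2 : (⟨b h - m • b h₀, hxB⟩ : B) = 0 := h1
    have h3 := congrArg Subtype.val h2
    exact hne (sub_eq_zero.1 h3)
  haveI : NeZero (Monoid.exponent (Multiplicative B)) :=
    ⟨Monoid.exponent_ne_zero_of_finite⟩
  obtain ⟨lam, hlam⟩ := CommGroup.exists_apply_ne_one_of_hasEnoughRootsOfUnity
    (Multiplicative B) (AlgebraicClosure ℚ) hx1
  -- the cocycle with values in `μ_{p^n}`
  let L : B → AlgebraicClosure ℚ := fun x => ((lam (Multiplicative.ofAdd x) : (AlgebraicClosure ℚ)ˣ) :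
    AlgebraicClosure ℚ)
  have hL_add : ∀ x y : B, L (x + y) = L x * L y := by
    intro x y
    show ((lam (Multiplicative.ofAdd (x + y)) : (AlgebraicClosure ℚ)ˣ) : AlgebraicClosure ℚ) = _
    rw [ofAdd_add, map_mul, Units.val_mul]
  have hL_zero : L 0 = 1 := by
    show ((lam (Multiplicative.ofAdd (0 : B)) : (AlgebraicClosure ℚ)ˣ) : AlgebraicClosure ℚ) = 1
    rw [ofAdd_zero, map_one, Units.val_one]
  have hL_nsmul : ∀ (a : ℕ) (x : B), L (a • x) = L x ^ a := by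
    intro a x
    induction a with
    | zero => rw [zero_smul, pow_zero, hL_zero]
    | succ a ih => rw [succ_nsmul, hL_add, ih, pow_succ]
  have hL_pow : ∀ x : B, L x ^ p ^ n = 1 := by
    intro x
    rw [← hL_nsmul, show (p ^ n) • x = 0 from Subtype.ext (hA x), hL_zero]
  let c : Γℚ → AlgebraicClosure ℚ := fun g => if hg : b g ∈ B then L ⟨b g, hg⟩ else 1
  have hc : ∀ g (hg : g ∈ P.inertiaSubgroupIn ℚ), c g = L ⟨b g, hbB g hg⟩ := by
    intro g hg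
    show (if hg : b g ∈ B then L ⟨b g, hg⟩ else 1) = _
    rw [dif_pos (hbB g hg)]
  have hc1 : ∀ g ∈ P.inertiaSubgroupIn ℚ, c g ^ p ^ n = 1 := by
    intro g hg
    rw [hc g hg]
    exact hL_pow _
  have hccoc : ∀ g ∈ P.inertiaSubgroupIn ℚ, ∀ h ∈ P.inertiaSubgroupIn ℚ,
      c (g * h) = c g * g (c h) := by
    intro g hg t ht
    obtain ⟨a, ha⟩ := exists_pow_action g (p ^ n) hpn
    rw [hc _ (mul_mem hg ht), hc g hg, hc t ht, ha _ (hL_pow _), ← hL_nsmul, ← hL_add]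
    congr 1
    exact Subtype.ext (hcoc g hg t ht a ha)
  have hcF : ∀ g ∈ P.inertiaSubgroupIn ℚ, (∀ x ∈ F, g x = x) → c g = 1 := by
    intro g hg hfix
    rw [hc g hg, show (⟨b g, hbB g hg⟩ : B) = 0 from Subtype.ext (hF g hg hfix), hL_zero]
  obtain ⟨k, hk⟩ := kum_char p hp P hP n c hc1 hccoc F hcF
  have e1 := hk π₀ hπ₀ h hh
  have e0 := hk π₀ hπ₀ h₀ hh₀
  -- `ξ ≠ 0`
  have hξ0 : ξ ≠ 0 := by
    intro h0
    rw [h0, zero_mul] at hξ
    exact hπ0 ((map_eq_zero_iff h₀ h₀.injective).1 hξ)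
  have hπk : π₀ ^ k ≠ 0 := zpow_ne_zero k hπ0
  have hξk : ξ ^ k ≠ 0 := zpow_ne_zero k hξ0
  -- `c h₀ = ξ ^ (-k)`, `c h = (ξ ^ m) ^ (-k)`
  have e0' : c h₀ * ξ ^ k = 1 := by
    rw [hξ, mul_zpow, ← mul_assoc] at e0
    exact mul_right_cancel₀ hπk (by rw [e0, one_mul])
  have e1' : c h * (ξ ^ k) ^ m = 1 := by
    rw [hm, mul_zpow, ← mul_assoc, ← zpow_natCast ξ m, ← zpow_mul, mul_comm (m : ℤ) k,
      zpow_mul, zpow_natCast] at e1
    exact mul_right_cancel₀ hπk (by rw [e1, one_mul])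
  have e2 : c h = c h₀ ^ m := by
    have h3 : c h₀ ^ m * (ξ ^ k) ^ m = 1 := by rw [← mul_pow, e0', one_pow]
    have h4 : (ξ ^ k) ^ m ≠ 0 := pow_ne_zero m hξk
    exact mul_right_cancel₀ h4 (by rw [e1', h3])
  -- contradiction
  apply hlam
  have h5 : L ⟨b h - m • b h₀, hxB⟩ = 1 := by
    have h6 : (⟨b h, hbB h hh.1⟩ : B) = ⟨b h - m • b h₀, hxB⟩ + m • ⟨b h₀, hbB h₀ hh₀.1⟩ := by
      apply Subtype.ext
      show b h = b h - m • b h₀ + m • b h₀
      abel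
    have h7 : L ⟨b h, hbB h hh.1⟩ = L ⟨b h₀, hbB h₀ hh₀.1⟩ ^ m := by
      rw [← hc h hh.1, ← hc h₀ hh₀.1]
      exact e2
    rw [h6, hL_add, hL_nsmul] at h7
    have h8 : L ⟨b h₀, hbB h₀ hh₀.1⟩ ^ m ≠ 0 := by
      apply pow_ne_zero
      exact Units.ne_zero _
    exact mul_right_cancel₀ h8 (by rw [h7, one_mul])
  exact Units.ext h5

end Fermat.Agent.S59.NonMin.H48
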