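import Fermat.Agent.S59.NonMin.H12_Base
import Fermat.Agent.S59.NonMin.H92_EtaNe

/-!
# S59 RT-NONMIN, leaf BASE (helper12): unconditional form

`stmt_BASE : Stmt_BASE` = `stmt_BASE_of` + helper92's `stmt_ETANE`.
-/

set_option autoImplicit false

namespace Fermat.Agent.S59.NonMin.H12

/-- **BASE**, unconditionally. -/
theorem stmt_BASE : Stmt_BASE := stmt_BASE_of Fermat.Agent.S59.NonMin.H92.stmt_ETANE

end Fermat.Agent.S59.NonMin.H12
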