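import Fermat.Agent.S59.NonMin.H90_StepAux
import Fermat.Agent.S59.NonMin.H90_StepEigen
import Fermat.Agent.S59.Asm.Leaves5
import Fermat.Agent.S59.Asm.H85_LocMod
import Fermat.Agent.S59.Asm.H85_ResLoc
import Fermat.Agent.S59.Asm.Cond
import Fermat.Agent.S59.Min
import Fermat.Agent.S59.Datum.Defs
import Fermat.Agent.S54.Core
import Fermat.Agent.Lib.FrobExists

/-!
# S59, RT-NONMIN, leaf STEP (helper90)

`stmt_STEP_of : Stmt_DEF → Datum.Stmt_DATUM → Asm.Stmt_SELMERq → Stmt_TAU2 → Stmt_PRES →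
  Stmt_ETANE → Stmt_CQNE → Asm.Stmt_COND → Stmt_STEP`,
following `NOTES/plan/S59_NONMIN.md` §3.  The compatibility `res ∘ φ' = φ ∘ τ` is proved with
target `D.R` (`compat_of_bijective`), so nothing is needed about the representation over `T`
beyond the fields of `RTProp`.  The inputs `Stmt_DEF` (`H99.stmt_DEF`) and `Stmt_DATUM`
(`Datum.stmt_DATUM`) are hypotheses in order to keep the closure of this file small.
-/

set_option autoImplicit false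
set_option linter.unusedSectionVars false
set_option linter.unusedVariables false
set_option linter.style.haveILetI false

open Polynomial CuspForm IsLocalRing

namespace Fermat.Agent.S59.NonMin.H90

open Fermat.Agent.S59 Fermat.Agent.S59.Asm

set_option maxHeartbeats 6400000 in
set_option synthInstance.maxHeartbeats 400000 in
/-- **STEP**. -/
theorem stmt_STEP_of (hDEF : Fermat.Agent.S59.Stmt_DEF)
    (hDATUM : Fermat.Agent.S59.Datum.Stmt_DATUM) (hSEL : Asm.Stmt_SELMERq) (hTAU2 : Stmt_TAU2)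
    (hPRES : Stmt_PRES) (hETANE : Stmt_ETANE) (hCQNE : Stmt_CQNE) (hCOND : Asm.Stmt_COND) :
    Stmt_STEP := by
  intro 𝒪 _ _ _ _ _ _ p _ hp2 hp𝒪 fl ρbar Smin hyp hbar hnfl Sig s _ hL hF x hx d hd hRT q hq hqp
    hqN hqS _ st _
  obtain ⟨hrk, D, H, φ, hφ, ηhat, πx, hHπ, hφb, hφe, hηhat, hπx, hfin, hcard⟩ := hRT
  have hp : p.Prime := Fact.out
  obtain ⟨hlev1, hlev2⟩ := level_facts (N := s.N) hq
  -- the sets of primes
  have hqS' : q ∉ s.S := fun h => hqS (Finset.mem_coe.2 h)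
  have hqSmin : q ∉ Smin := fun h => hqS' (by rw [hL.hS]; exact Finset.mem_union_left _ h)
  have hqSig : q ∉ Sig := fun h => hqS' (by rw [hL.hS]; exact Finset.mem_union_right _ h)
  have hS' : insert q s.S = Smin ∪ insert q Sig := by rw [hL.hS, Finset.union_insert]
  have hpS : p ∈ s.S := by rw [hL.hS]; exact Finset.mem_union_left _ hyp.hpSmin
  have hpS' : p ∈ insert q s.S := Finset.mem_insert_of_mem hpS
  have hprimes : ∀ q' ∈ Smin ∪ Sig, q'.Prime := by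
    intro q' hq'
    rcases Finset.mem_union.1 hq' with h | h
    · exact hyp.hS q' h
    · exact (hL.hSig q' h).1
  have hprimes' : ∀ q' ∈ Smin ∪ insert q Sig, q'.Prime := by
    intro q' hq'
    rcases Finset.mem_union.1 hq' with h | h
    · exact hyp.hS q' h
    · rcases Finset.mem_insert.1 h with h | h
      · rw [h]; exact hq
      · exact (hL.hSig q' h).1
  -- the level
  have hdvd' : ∀ q' : ℕ, q'.Prime → q' ∣ s.N * q ^ 2 → q' ∈ insert q s.S := by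
    intro q' hq' h
    rcases hlev1 q' hq' h with h1 | h1
    · exact Finset.mem_insert_of_mem (hL.dvd_mem q' hq' h1)
    · rw [h1]; exact Finset.mem_insert_self _ _
  have hmin' : ∀ q' ∈ Smin, q' ≠ p → q' ∣ s.N * q ^ 2 ∧ ¬ q' ^ 2 ∣ s.N * q ^ 2 := by
    intro q' hq' hne
    obtain ⟨h1, h2⟩ := hL.hmin q' hq' hne
    refine ⟨Dvd.dvd.mul_right h1 _, fun h => h2 (hlev2 q' (hyp.hS q' hq') ?_ h)⟩
    rintro rfl
    exact hqSmin hq'
  have hfl' : fl = true → ¬ p ∣ s.N * q ^ 2 := by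
    intro h hdiv
    rcases hlev1 p hp hdiv with h1 | h1
    · exact hL.hfl h h1
    · exact hqp h1.symm
  have hso' : fl = false → p ∣ s.N * q ^ 2 ∧ ¬ p ^ 2 ∣ s.N * q ^ 2 := by
    intro h
    obtain ⟨h1, h2⟩ := hL.hso h
    exact ⟨Dvd.dvd.mul_right h1 _, fun h3 => h2 (hlev2 p hp (fun h4 => hqp h4.symm) h3)⟩
  have hF' : Fermat.Agent.S59.Datum.FrobHyp ρbar (s.N * q ^ 2) (insert q s.S)
      (s.θ.comp st.rest) := by
    intro ℓ hℓ hℓN' hℓS' A hA σ hσ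
    have hℓN : ¬ ℓ ∣ s.N := fun h => hℓN' (Dvd.dvd.mul_right h _)
    have hℓS : ℓ ∉ (↑s.S : Set ℕ) := fun h => hℓS' (by
      rw [Finset.coe_insert]
      exact Set.mem_insert_of_mem _ h)
    rw [RingHom.comp_apply, st.rest_T ℓ hℓ hℓN' hℓS' hℓN hℓS]
    exact hF ℓ hℓ hℓN hℓS A hA σ hσ
  -- Step 1: the objects at the next level
  obtain ⟨D'⟩ := hDEF 𝒪 p hp2 hp𝒪 fl ρbar hyp.habs Smin (insert q Sig) hyp.hpSmin
    hprimes' (cond_mono (Finset.empty_subset _) hbar)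
  obtain ⟨H', hH'π, hH'det, hH'res⟩ := hDATUM 𝒪 p hp2 hp𝒪
    (s.N * q ^ 2) (insert q s.S) hpS' hdvd' ρbar hyp.habs (s.θ.comp st.rest) hF'
  have hcond' : cond 𝒪 p fl Smin (insert q Sig) H'.ρ :=
    hCOND 𝒪 p hp2 hp𝒪 fl ρbar Smin hyp hbar hnfl (insert q Sig) (s.N * q ^ 2) (insert q s.S)
      hS' hdvd' hmin' hfl' hso' (s.θ.comp st.rest) hF' H' hH'π hH'det hH'res
  obtain ⟨φ', hφ's, hφ'l, hφ'e⟩ := Fermat.Agent.S54.surjective_of_frobExists
    (fun ℓ hℓ => Fermat.Agent.Lib.FrobExists.exists_place_and_frobenius ℓ hℓ) D' H'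
    (fun q' hq' h => Finset.mem_coe.2 (hdvd' q' hq' h)) hcond' hH'res
  obtain ⟨ηhat', hηhat'⟩ := H85.stmt_LOCMOD 𝒪 (s.N * q ^ 2) (↑(insert q s.S) : Set ℕ)
    (s.θ.comp st.rest) st.M'
  obtain ⟨res, hres⟩ := H85.stmt_RESLOC 𝒪 s.N (s.N * q ^ 2) (↑s.S : Set ℕ)
    (↑(insert q s.S) : Set ℕ) s.θ st.rest
  obtain ⟨τ, hτs, hτl, hτe⟩ := hTAU2 𝒪 p hp2 hp𝒪 fl ρbar Smin Sig (insert q Sig)
    (Finset.subset_insert _ _) hyp.hpSmin hprimes' D D'
  obtain ⟨n, γ', hγ'⟩ := hPRES 𝒪 ρbar (cond 𝒪 p fl Smin (insert q Sig)) D'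
  -- generators
  have hadj : Algebra.adjoin 𝒪 (Set.range (CuspForm.heckeLocal.π s.N (↑s.S : Set ℕ) 𝒪 s.θ))
      = ⊤ := by
    rw [← hHπ]
    exact H.adjoin_range_π
  have hadj' : Algebra.adjoin 𝒪 (Set.range (CuspForm.heckeLocal.π (s.N * q ^ 2)
      (↑(insert q s.S) : Set ℕ) 𝒪 (s.θ.comp st.rest))) = ⊤ := by
    rw [← hH'π]
    exact H'.adjoin_range_π
  -- Step 2: compatibility
  have hbad : ∀ ℓ : ℕ, ℓ.Prime → ℓ ∉ insert q s.S ∪ (s.N * q ^ 2).primeFactors →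
      (¬ ℓ ∣ s.N * q ^ 2) ∧ ℓ ∉ (↑(insert q s.S) : Set ℕ) ∧ (¬ ℓ ∣ s.N) ∧
        ℓ ∉ (↑s.S : Set ℕ) := by
    intro ℓ hℓ hℓS
    have h1 : ¬ ℓ ∣ s.N * q ^ 2 := fun h => hℓS (Finset.mem_union_right _
      (Nat.mem_primeFactors.2 ⟨hℓ, h, NeZero.ne _⟩))
    have h2 : ℓ ∉ (↑(insert q s.S) : Set ℕ) := fun h => hℓS (Finset.mem_union_left _
      (Finset.mem_coe.1 h))
    refine ⟨h1, h2, fun h => h1 (Dvd.dvd.mul_right h _), fun h => h2 ?_⟩
    rw [Finset.coe_insert]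
    exact Set.mem_insert_of_mem _ h
  have hcompat : res.comp φ' = φ.comp τ := by
    refine compat_of_bijective ρbar (cond 𝒪 p fl Smin Sig) (cond 𝒪 p fl Smin (insert q Sig))
      D D' (cond_mono (Finset.subset_insert _ _) D.isOfType) H.ρ H'.ρ τ hτl hτe φ hφb hφ hφe
      φ' hφ'l hφ'e res (insert q s.S ∪ (s.N * q ^ 2).primeFactors) ?_
    intro ℓ hℓ hℓS B hB σ hσ
    obtain ⟨h1, h2, h3, h4⟩ := hbad ℓ hℓ hℓS
    rw [H.charpoly_frob ℓ hℓ h3 h4 B hB σ hσ]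
    refine H77.map_charpoly_frob (res : CuspForm.heckeLocal (s.N * q ^ 2)
      (↑(insert q s.S) : Set ℕ) 𝒪 (s.θ.comp st.rest) →+*
        CuspForm.heckeLocal s.N (↑s.S : Set ℕ) 𝒪 s.θ)
      (H'.π (CuspForm.heckeAlgebra.T hℓ h1 h2)) _ ℓ ?_ _
      (H'.charpoly_frob ℓ hℓ h1 h2 B hB σ hσ)
    rw [hH'π, hHπ, ← st.rest_T ℓ hℓ h1 h2 h3 h4]
    exact hres _
  -- Step 3: the Selmer bound
  obtain ⟨A, σ, hA, hσ⟩ := Fermat.Agent.Lib.FrobExists.exists_place_and_frobenius q hq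
  have htr : (πx.comp φ) (D.ρ.trace σ) = x (CuspForm.heckeAlgebra.T hq hqN hqS) := by
    have h1 := map_trace_of_isEquiv (φ : D.R →+* CuspForm.heckeLocal s.N (↑s.S : Set ℕ) 𝒪 s.θ)
      hφ D.ρ H.ρ hφe σ (H.charpoly_frob q hq hqN hqS A hA σ hσ)
    have h2 : φ (D.ρ.trace σ) = H.π (CuspForm.heckeAlgebra.T hq hqN hqS) := h1
    rw [AlgHom.comp_apply, h2, hHπ, hπx]
  have hq1 : ((q : 𝒪) - 1) ≠ 0 := by
    intro h
    have h1 : (q : 𝒪) = ((1 : ℕ) : 𝒪) := by rw [Nat.cast_one]; exact sub_eq_zero.mp h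
    exact hq.one_lt.ne' (Nat.cast_injective h1)
  have hcq : x (CuspForm.heckeAlgebra.T hq hqN hqS) ^ 2 ≠ ((q : 𝒪) + 1) ^ 2 := by
    intro h
    apply hCQNE s.N (↑s.S : Set ℕ) q hq hqN hqS (FractionRing 𝒪)
      ((algebraMap 𝒪 (FractionRing 𝒪)).comp x)
    rw [RingHom.comp_apply, ← map_pow, h, map_pow, map_add, map_natCast, map_one]
  have hc0 : ((q : 𝒪) - 1) * ((πx.comp φ) (D.ρ.trace σ) ^ 2 - ((q : 𝒪) + 1) ^ 2) ≠ 0 := by
    rw [htr]
    exact mul_ne_zero hq1 (sub_ne_zero.mpr hcq)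
  have hsel := hSEL 𝒪 p hp2 hp𝒪 fl ρbar Smin Sig q hq hqp hqSmin hqSig hyp.hpSmin hprimes D D'
    τ hτl hτe (πx.comp φ) A hA σ hσ hc0 hfin
  -- the element `e`
  have hspan : Ideal.span {(st.u : 𝒪) * (((q : 𝒪) - 1) *
        ((πx.comp φ) (D.ρ.trace σ) ^ 2 - ((q : 𝒪) + 1) ^ 2))}
      = Ideal.span {((q : 𝒪) - 1) *
        ((πx.comp φ) (D.ρ.trace σ) ^ 2 - ((q : 𝒪) + 1) ^ 2)} :=
    Ideal.span_singleton_eq_span_singleton.mpr (associated_unit_mul_left _ _ st.u.isUnit)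
  rw [← hspan] at hsel
  -- Step 4: the maps `α`, `α'`
  have hα : ∀ (t : CuspForm.heckeLocal (s.N * q ^ 2) (↑(insert q s.S) : Set ℕ) 𝒪
      (s.θ.comp st.rest)) (v : s.M.V), st.α (ηhat (res t) v) = ηhat' t (st.α v) :=
    intertwine_of_gen_left hadj' ηhat ηhat' res st.α fun t v => by
      rw [hres, hηhat, hηhat']
      exact st.α_η t v
  have hα' : ∀ (t : CuspForm.heckeLocal (s.N * q ^ 2) (↑(insert q s.S) : Set ℕ) 𝒪
      (s.θ.comp st.rest)) (w : st.M'.V), st.α' (ηhat' t w) = ηhat (res t) (st.α' w) :=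
    intertwine_of_gen_right hadj' ηhat ηhat' res st.α' fun t w => by
      rw [hres, hηhat, hηhat']
      exact st.α'_η t w
  -- eigenspaces
  have hπx' : ∀ t, (πx.comp res) (CuspForm.heckeLocal.π (s.N * q ^ 2)
      (↑(insert q s.S) : Set ℕ) 𝒪 (s.θ.comp st.rest) t) = (x.comp st.rest) t := by
    intro t
    rw [AlgHom.comp_apply, hres, hπx]
    rfl
  have hT1 : torsP ηhat πx = s.eigen x := torsP_eq_eigen s x ηhat πx hadj hηhat hπx
  have hT2 : torsP ηhat' (πx.comp res) = NMState.eigen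
      (⟨s.N * q ^ 2, insert q s.S, s.θ.comp st.rest, st.M'⟩ : NMState 𝒪) (x.comp st.rest) :=
    torsP_eq_eigen (⟨s.N * q ^ 2, insert q s.S, s.θ.comp st.rest, st.M'⟩ : NMState 𝒪)
      (x.comp st.rest) ηhat' (πx.comp res) hadj' hηhat' hπx'
  have hc : ∀ v ∈ torsP ηhat πx, st.α' (st.α v) = ((st.u : 𝒪) * (((q : 𝒪) - 1) *
      ((πx.comp φ) (D.ρ.trace σ) ^ 2 - ((q : 𝒪) + 1) ^ 2))) • v := by
    intro v hv
    rw [hT1] at hv
    rw [htr]
    exact comp_eq_smul_of_mem_eigen s hq hqN hqS st x v hv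
  have hrkP : Module.finrank 𝒪 (torsP ηhat πx) = d := by rw [hT1]; exact hrk
  have hrk' := st.rank x hx
  rw [hrk] at hrk'
  have hrkP' : Module.finrank 𝒪 (torsP ηhat' (πx.comp res)) ≤ d := by rw [hT2]; exact hrk'
  -- congruence ideals
  have hη := hETANE 𝒪 s.N s.S hL.dvd_mem s.θ πx
  have hη' := hETANE 𝒪 (s.N * q ^ 2) (insert q s.S) hdvd' (s.θ.comp st.rest) (πx.comp res)
  -- Step 5: the numerical criterion
  obtain ⟨hφ'b, hfin', hcard'⟩ := step_core τ φ φ' hφ's res hcompat πx γ' hγ' ηhat ηhat' hη hη'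
    st.α hα st.α' hα' st.α_inj st.α_sat st.α'_surj _ hc d hd hrkP hrkP' hcard hsel
  -- Step 6: the rank of the new eigenspace
  have hge : d ≤ Module.finrank 𝒪 (NMState.eigen
      (⟨s.N * q ^ 2, insert q s.S, s.θ.comp st.rest, st.M'⟩ : NMState 𝒪)
      (x.comp st.rest)) := by
    rw [← hrk]
    exact finrank_eigen_le_of_injective s
      (⟨s.N * q ^ 2, insert q s.S, s.θ.comp st.rest, st.M'⟩ : NMState 𝒪) st.rest x st.α
      st.α_η st.α_inj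
  exact ⟨le_antisymm hrk' hge, D', H', φ', hφ'l, ηhat', πx.comp res, hH'π, hφ'b, hφ'e, hηhat',
    hπx', hfin', hcard'⟩

end Fermat.Agent.S59.NonMin.H90
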