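import Fermat.Agent.S59.NonMin.Defs
import Fermat.Agent.S59.Asm.H99_Tau
import Fermat.Agent.S59.Asm.Main

/-!
# S59, package RT-NONMIN, leaf TAU2 (helper92): `R_{Sig'} ↠ R_{Sig}` for `Sig ⊆ Sig'`

As `Asm.H99.stmt_TAU`, with `Asm.cond_mono` and `Asm.H99.surjective_of_isEquiv`.
-/

set_option autoImplicit false
set_option linter.unusedSectionVars false
set_option linter.style.haveILetI false
set_option linter.unusedVariables false

namespace Fermat.Agent.S59.NonMin.H92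

open IsLocalRing Fermat.Agent.S59 Fermat.Agent.S59.Asm

/-- **TAU2**. -/
theorem stmt_TAU2 : Stmt_TAU2 := by
  intro 𝒪 _ _ _ _ _ p _ hp2 _hp𝒪 fl ρbar Smin Sig Sig' hsub _hpS _hprime D D'
  have h𝒟 : GaloisRep.IsDeformationCondition 𝒪 (Fermat.Agent.S59.cond 𝒪 p fl Smin Sig) := by
    rw [Fermat.Agent.S59.H99.cond_eq_condB]
    exact Fermat.Agent.S59.H99.isDeformationCondition_condB 𝒪 p hp2 fl Smin Sig
  have hQ : Fermat.Agent.S59.cond 𝒪 p fl Smin Sig' D.ρ :=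
    Fermat.Agent.S59.Asm.cond_mono hsub D.isOfType
  obtain ⟨τ, ⟨hτ, hτeq⟩, -⟩ := D'.universal D.R D.residue_surjective D.ρ hQ D.residual_isEquiv
  exact ⟨τ, Fermat.Agent.S59.Asm.H99.surjective_of_isEquiv h𝒟 D D'.ρ D'.residual_isEquiv τ hτ
    hτeq, hτ, hτeq⟩

end Fermat.Agent.S59.NonMin.H92
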