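import Fermat.Agent.S59.NonMin.Defs2
import Fermat.Agent.S59.Datum.H85_Ring
import Fermat.Agent.R.H2_SepTCore
import Fermat.Agent.R.H2_PDVR

/-!
# S59 RT-NONMIN, leaf AUG (helper12)

`stmt_AUG : Stmt_AUG`: after a finite extension `𝒪'` of `𝒪` (a complete discrete valuation ring,
finite free over `𝒪`) the local Hecke ring `T = heckeLocal N S 𝒪 θ` has a point with values in
`𝒪'`: a character `x₀` of the Hecke algebra lifting `θ`.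

Proof: `𝔮` a minimal prime of `T`; `T ⧸ 𝔮` is a finite faithful domain over `𝒪`, its
normalisation is `𝒪'` (`R.H2.exists_dvr_of_finite_domain`); `x₀ = (T → T ⧸ 𝔮 → 𝒪') ∘ π`.
-/

set_option autoImplicit false
set_option linter.style.haveILetI false
set_option linter.unusedVariables false

open Polynomial CuspForm CongruenceSubgroup ModularFormClass IsLocalRing

namespace Fermat.Agent.S59.NonMin.H12

open Fermat.Agent.S59 Fermat.Agent.S59.Asm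

/-- **AUG**. -/
theorem stmt_AUG : Stmt_AUG := by
  intro 𝒪 _ _ _ _ _ _ N _ _ S θ
  obtain ⟨hres, -, -, -⟩ := Fermat.Agent.S59.Datum.H85.stmt_Ring 𝒪 N (↑S : Set ℕ) θ
  -- a minimal prime
  obtain ⟨𝔮, h𝔮, -⟩ := Ideal.exists_minimalPrimes_le
    (bot_le : (⊥ : Ideal (CuspForm.heckeLocal N (↑S : Set ℕ) 𝒪 θ)) ≤
      maximalIdeal (CuspForm.heckeLocal N (↑S : Set ℕ) 𝒪 θ))
  have h𝔮' : 𝔮 ∈ minimalPrimes (CuspForm.heckeLocal N (↑S : Set ℕ) 𝒪 θ) := h𝔮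
  haveI h𝔮prime : 𝔮.IsPrime := h𝔮.1.1
  have hinj : Function.Injective
      (algebraMap 𝒪 (CuspForm.heckeLocal N (↑S : Set ℕ) 𝒪 θ ⧸ 𝔮)) :=
    Fermat.Agent.R.H2.injective_algebraMap_quotient_minimalPrime' 𝒪
      (CuspForm.heckeLocal N (↑S : Set ℕ) 𝒪 θ) 𝔮 h𝔮'
  haveI : FaithfulSMul 𝒪 (CuspForm.heckeLocal N (↑S : Set ℕ) 𝒪 θ ⧸ 𝔮) :=
    (faithfulSMul_iff_algebraMap_injective 𝒪 _).2 hinj
  obtain ⟨O', iCR, iD, iDVR, iAC, iFin, iCZ, iAlg, iMF, iLH, j, hO'inj, hjinj, hjO, hjmax⟩ :=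
    Fermat.Agent.R.H2.exists_dvr_of_finite_domain 𝒪 (CuspForm.heckeLocal N (↑S : Set ℕ) 𝒪 θ ⧸ 𝔮)
  haveI : FaithfulSMul 𝒪 O' := (faithfulSMul_iff_algebraMap_injective 𝒪 O').2 hO'inj
  have iFree : Module.Free 𝒪 O' := inferInstance
  -- the point
  let ψ : CuspForm.heckeLocal N (↑S : Set ℕ) 𝒪 θ →+* O' := j.comp (Ideal.Quotient.mk 𝔮)
  have hψO : ∀ a : 𝒪, ψ (algebraMap 𝒪 _ a) = algebraMap 𝒪 O' a := fun a => hjO a
  have hψloc : ∀ t : CuspForm.heckeLocal N (↑S : Set ℕ) 𝒪 θ,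
      t ∈ maximalIdeal (CuspForm.heckeLocal N (↑S : Set ℕ) 𝒪 θ) → ψ t ∈ maximalIdeal O' := by
    intro t ht
    obtain ⟨𝔫, h𝔫⟩ := Ideal.exists_maximal (CuspForm.heckeLocal N (↑S : Set ℕ) 𝒪 θ ⧸ 𝔮)
    have h1 : (maximalIdeal O').comap j = 𝔫 := hjmax 𝔫 h𝔫
    have h2 : (𝔫.comap (Ideal.Quotient.mk 𝔮)).IsMaximal :=
      Ideal.comap_isMaximal_of_surjective _ Ideal.Quotient.mk_surjective
    have h3 : 𝔫.comap (Ideal.Quotient.mk 𝔮) = maximalIdeal _ := IsLocalRing.eq_maximalIdeal h2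
    rw [← h3, Ideal.mem_comap, ← h1, Ideal.mem_comap] at ht
    exact ht
  refine ⟨O', iCR, iD, iDVR, iAC, iFin, iCZ, iAlg, iMF, iFree, iLH,
    ψ.comp (CuspForm.heckeLocal.π N (↑S : Set ℕ) 𝒪 θ), ?_⟩
  intro t
  obtain ⟨a, ha⟩ := IsLocalRing.residue_surjective (θ t)
  have h1 : CuspForm.heckeLocal.π N (↑S : Set ℕ) 𝒪 θ t - algebraMap 𝒪 _ a ∈
      maximalIdeal (CuspForm.heckeLocal N (↑S : Set ℕ) 𝒪 θ) := by
    rw [← IsLocalRing.residue_eq_zero_iff, map_sub, hres t, ← ha, sub_eq_zero]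
    rfl
  have h2 := hψloc _ h1
  rw [map_sub, hψO, ← IsLocalRing.residue_eq_zero_iff, map_sub, sub_eq_zero] at h2
  rw [RingHom.comp_apply, h2, ← ha]
  rfl

end Fermat.Agent.S59.NonMin.H12
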