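import Fermat.Agent.S59.NumCrit.H90_NC2
import Fermat.Agent.S59.NumCrit.H90_OmegaFree
import Fermat.Agent.S59.NumCrit.H12_Omega

/-!
# S59 RT-NONMIN, leaf BASE (helper12): the abstract core

`φ : R ↠ T`, `T` finite free over the complete discrete valuation ring `𝒪`, `V` a `T`-module,
finite free over `𝒪`, and free and nontrivial over `R`; `R = 𝒪⟦X_1..X_r⟧/(g_1..g_r)`;
`π : T → 𝒪` with `η = π (Ann (ker π)) ≠ 0`.  Then (`base_core`)

* `φ` is bijective;
* with `d = rank_R V > 0`: `rank_𝒪 V[𝔭] = d`, `Φ_R` is finite and `(#Φ_R)^d = #Ω(V)`.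
-/

set_option autoImplicit false
set_option linter.style.haveILetI false
set_option linter.unusedSectionVars false

open Module

namespace Fermat.Agent.S59.NonMin.H12

open Fermat.Agent.S59.NumCrit

/-- a free nontrivial module is faithful. -/
theorem eq_zero_of_forall_smul_eq_zero {R V : Type*} [CommRing R] [AddCommGroup V] [Module R V]
    [Module.Free R V] [Nontrivial V] (a : R) (h : ∀ v : V, a • v = 0) : a = 0 := by
  classical
  let b := Module.Free.chooseBasis R V
  obtain ⟨i⟩ := b.index_nonempty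
  have h1 := congrArg (fun x => b.repr x i) (h (b i))
  simp only [map_smul, Module.Basis.repr_self, Finsupp.smul_apply, Finsupp.single_eq_same,
    smul_eq_mul, mul_one, map_zero, Finsupp.zero_apply] at h1
  exact h1

section eta

variable {𝒪 R T : Type*} [CommRing 𝒪] [CommRing R] [Algebra 𝒪 R] [CommRing T] [Algebra 𝒪 T]

/-- the congruence ideal is invariant under isomorphisms. -/
theorem eta_comp_of_bijective (φ : R →ₐ[𝒪] T) (hφ : Function.Bijective φ) (π : T →ₐ[𝒪] 𝒪) :
    eta (π.comp φ) = eta π := by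
  ext a
  rw [H90.mem_eta_iff, H90.mem_eta_iff]
  constructor
  · rintro ⟨x, hx, rfl⟩
    refine ⟨φ x, ?_, rfl⟩
    rw [Submodule.mem_annihilator]
    intro t ht
    obtain ⟨y, rfl⟩ := hφ.2 t
    have hy : y ∈ RingHom.ker (π.comp φ) := by
      rw [RingHom.mem_ker] at ht ⊢
      exact ht
    have := Submodule.mem_annihilator.mp hx y hy
    rw [smul_eq_mul] at this ⊢
    rw [← map_mul, this, map_zero]
  · rintro ⟨t, ht, rfl⟩
    obtain ⟨x, rfl⟩ := hφ.2 t
    refine ⟨x, ?_, rfl⟩
    rw [Submodule.mem_annihilator]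
    intro y hy
    have hy' : φ y ∈ RingHom.ker π := by
      rw [RingHom.mem_ker] at hy ⊢
      exact hy
    have := Submodule.mem_annihilator.mp ht (φ y) hy'
    rw [smul_eq_mul] at this ⊢
    apply hφ.1
    rw [map_mul, this, map_zero]

end eta

section rank

variable {𝒪 T V : Type*} [CommRing 𝒪] [IsDomain 𝒪] [CommRing T] [Algebra 𝒪 T]
  [Module.Free 𝒪 T] [AddCommGroup V] [Module 𝒪 V] [Module T V] [IsScalarTower 𝒪 T V]
  {π : T →ₐ[𝒪] 𝒪}

/-- `𝔭 ∩ Ann 𝔭 = 0` when `η ≠ 0` and `T` is torsion-free. -/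
theorem eq_zero_of_mem_ann_of_mem_ker {i : T} (hi : i ∈ (RingHom.ker π).annihilator)
    (hi0 : π i ≠ 0) {t : T} (ht : t ∈ (RingHom.ker π).annihilator) (ht0 : π t = 0) : t = 0 := by
  have h1 : (algebraMap 𝒪 T (π i) - i) * t = 0 := by
    have h := Submodule.mem_annihilator.mp ht (i - algebraMap 𝒪 T (π i))
      (H12.sub_algebraMap_mem_ker (π := π) i)
    rw [smul_eq_mul] at h
    rw [← neg_sub, neg_mul, mul_comm, h, neg_zero]
  have h2 : i * t = 0 := by
    have h := Submodule.mem_annihilator.mp hi t (RingHom.mem_ker.mpr ht0)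
    rw [smul_eq_mul] at h
    exact h
  have h3 : π i • t = 0 := by
    rw [Algebra.smul_def]
    have : algebraMap 𝒪 T (π i) * t = (algebraMap 𝒪 T (π i) - i) * t + i * t := by ring
    rw [this, h1, h2, add_zero]
  rcases smul_eq_zero.mp h3 with h | h
  · exact absurd h hi0
  · exact h

/-- for `i ∈ Ann 𝔭`: `t i = π(t) i`. -/
theorem mul_eq_smul_of_mem_ann {i : T} (hi : i ∈ (RingHom.ker π).annihilator) (t : T) :
    t * i = π t • i := by
  have h := Submodule.mem_annihilator.mp hi (t - algebraMap 𝒪 T (π t))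
    (H12.sub_algebraMap_mem_ker (π := π) t)
  rw [smul_eq_mul, mul_sub, sub_eq_zero] at h
  rw [Algebra.smul_def, mul_comm, h, mul_comm]

/-- the rank of `V[𝔭]` for `V ≅ T^d`. -/
theorem finrank_torsionBySet_ker [Module.Finite 𝒪 V] [IsNoetherianRing 𝒪] (hη : eta π ≠ ⊥)
    (d : ℕ) (E : V ≃ₗ[T] (Fin d → T)) :
    Module.finrank 𝒪
      ((Submodule.torsionBySet T V (RingHom.ker π : Set T)).restrictScalars 𝒪) = d := by
  classical
  obtain ⟨e, he, he0⟩ := Submodule.exists_mem_ne_zero_of_ne_bot hη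
  obtain ⟨i, hi, rfl⟩ := H90.mem_eta_iff.mp he
  set N : Submodule 𝒪 V :=
    (Submodule.torsionBySet T V (RingHom.ker π : Set T)).restrictScalars 𝒪 with hN
  have hmemN : ∀ v : V, v ∈ N ↔ ∀ t ∈ RingHom.ker π, t • v = 0 := by
    intro v
    rw [hN, Submodule.restrictScalars_mem, Submodule.mem_torsionBySet_iff]
    exact ⟨fun h t ht => h ⟨t, ht⟩, fun h t => h t.1 t.2⟩
  let E𝒪 : V ≃ₗ[𝒪] (Fin d → T) := E.restrictScalars 𝒪
  have hE𝒪 : ∀ v, E𝒪 v = E v := fun _ => rfl
  -- `N → 𝒪^d`
  let g : N →ₗ[𝒪] (Fin d → 𝒪) :=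
    (LinearMap.pi fun j => (π.toLinearMap).comp (LinearMap.proj j)).comp
      (E𝒪.toLinearMap.comp N.subtype)
  have hg : ∀ (v : N) (j : Fin d), g v j = π (E v j) := fun _ _ => rfl
  have hginj : Function.Injective g := by
    rw [← LinearMap.ker_eq_bot, LinearMap.ker_eq_bot']
    intro v hv
    apply Subtype.ext
    apply E.injective
    rw [ZeroMemClass.coe_zero, map_zero]
    funext j
    have h1 : π (E v j) = 0 := by rw [← hg, hv]; rfl
    have h2 : E (v : V) j ∈ (RingHom.ker π).annihilator := by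
      rw [Submodule.mem_annihilator]
      intro t ht
      have h3 := (hmemN v).mp v.2 t ht
      have h4 : t • E (v : V) = 0 := by rw [← map_smul, h3, map_zero]
      have h5 := congrFun h4 j
      rw [Pi.smul_apply] at h5
      rw [smul_eq_mul, mul_comm]
      rw [smul_eq_mul, mul_comm] at h5
      rw [mul_comm]
      exact h5
    exact eq_zero_of_mem_ann_of_mem_ker hi he0 h2 h1
  -- `𝒪^d → N`
  have hmem : ∀ c : Fin d → 𝒪, E.symm (fun j => c j • i) ∈ N := by
    intro c
    rw [hmemN]
    intro t ht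
    rw [← map_smul]
    have : t • (fun j => c j • i) = (0 : Fin d → T) := by
      funext j
      rw [Pi.smul_apply, smul_eq_mul, Pi.zero_apply, mul_smul_comm, mul_eq_smul_of_mem_ann hi t,
        RingHom.mem_ker.mp ht, zero_smul, smul_zero]
    rw [this, map_zero]
  let h : (Fin d → 𝒪) →ₗ[𝒪] N :=
    { toFun := fun c => ⟨E.symm (fun j => c j • i), hmem c⟩
      map_add' := fun c c' => by
        apply Subtype.ext
        show E.symm (fun j => (c + c') j • i) = E.symm (fun j => c j • i) + E.symm (fun j => c' j • i)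
        rw [← map_add]
        congr 1
        funext j
        rw [Pi.add_apply, Pi.add_apply, add_smul]
      map_smul' := fun a c => by
        apply Subtype.ext
        show E.symm (fun j => (a • c) j • i) = a • E.symm (fun j => c j • i)
        have h1 : (fun j => (a • c) j • i) = a • (fun j => c j • i) := by
          funext j
          rw [Pi.smul_apply, Pi.smul_apply, smul_eq_mul, mul_smul]
        rw [h1]
        exact (E𝒪.symm.map_smul a _) }
  have hh : ∀ c, ((h c : N) : V) = E.symm (fun j => c j • i) := fun _ => rfl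
  have hhinj : Function.Injective h := by
    rw [← LinearMap.ker_eq_bot, LinearMap.ker_eq_bot']
    intro c hc
    have h1 : E.symm (fun j => c j • i) = 0 := by rw [← hh, hc]; rfl
    have h2 : (fun j => c j • i) = (0 : Fin d → T) := by
      apply E.symm.injective
      rw [h1, map_zero]
    funext j
    have h3 := congrArg π (congrFun h2 j)
    rw [Pi.zero_apply, map_zero, map_smul, smul_eq_mul] at h3
    rcases mul_eq_zero.mp h3 with h4 | h4
    · exact h4
    · exact absurd h4 he0
  apply le_antisymm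
  · have := LinearMap.finrank_le_finrank_of_injective hginj
    rwa [Module.finrank_fin_fun] at this
  · have := LinearMap.finrank_le_finrank_of_injective hhinj
    rwa [Module.finrank_fin_fun] at this

end rank

end Fermat.Agent.S59.NonMin.H12

namespace Fermat.Agent.S59.NonMin.H12

open Fermat.Agent.S59.NumCrit

/-- **BASE, abstract core.** -/
theorem base_core {𝒪 R T V : Type*} [CommRing 𝒪] [IsDomain 𝒪] [IsDiscreteValuationRing 𝒪]
    [IsAdicComplete (IsLocalRing.maximalIdeal 𝒪) 𝒪] [Finite (IsLocalRing.ResidueField 𝒪)]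
    [CommRing R] [Algebra 𝒪 R] [CommRing T] [Algebra 𝒪 T] [Module.Finite 𝒪 T] [Module.Free 𝒪 T]
    [AddCommGroup V] [Module 𝒪 V] [Module.Finite 𝒪 V]
    [Module T V] [IsScalarTower 𝒪 T V] [Module R V] [Module.Free R V] [Nontrivial V]
    (φ : R →ₐ[𝒪] T) (hφ : Function.Surjective φ) (hRT : ∀ (a : R) (v : V), a • v = φ a • v)
    (π : T →ₐ[𝒪] 𝒪) (hη : eta π ≠ ⊥)
    (r : ℕ) (γ : MvPowerSeries (Fin r) 𝒪 →ₐ[𝒪] R) (g : Fin r → MvPowerSeries (Fin r) 𝒪)
    (hγ : Function.Surjective γ) (hg : RingHom.ker γ = Ideal.span (Set.range g)) :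
    Function.Bijective φ ∧ ∃ d : ℕ, 0 < d ∧
      Module.finrank 𝒪
        ((Submodule.torsionBySet T V (RingHom.ker π : Set T)).restrictScalars 𝒪) = d ∧
      Finite (RingHom.ker (π.comp φ)).Cotangent ∧
      Nat.card (RingHom.ker (π.comp φ)).Cotangent ^ d = Nat.card (V ⧸ H90.omegaSub π V) := by
  classical
  -- `φ` is injective
  have hinj : Function.Injective φ := by
    rw [injective_iff_map_eq_zero]
    intro a ha
    apply eq_zero_of_forall_smul_eq_zero (V := V) a
    intro v
    rw [hRT, ha, zero_smul]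
  have hbij : Function.Bijective φ := ⟨hinj, hφ⟩
  refine ⟨hbij, ?_⟩
  -- `R` is finite free over `𝒪`
  let eφ : R ≃ₐ[𝒪] T := AlgEquiv.ofBijective φ hbij
  haveI : Module.Finite 𝒪 R := Module.Finite.equiv eφ.symm.toLinearEquiv
  haveI : Module.Free 𝒪 R := Module.Free.of_equiv eφ.symm.toLinearEquiv
  -- NC2
  have hnc2 := H90.nc2_complete γ hγ (π.comp φ) g hg
  rw [eta_comp_of_bijective φ hbij π] at hnc2
  -- `𝒪 / η` is finite
  have hfinI : Finite (𝒪 ⧸ eta π) := by
    obtain ⟨e, he⟩ : ∃ e : 𝒪, eta π = Ideal.span {e} :=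
      (IsPrincipalIdealRing.principal (eta π)).principal
    have he0 : e ≠ 0 := by
      rintro rfl
      apply hη
      rw [he]
      exact Ideal.span_singleton_eq_bot.mpr rfl
    obtain ⟨k, -, hk⟩ := H8.exists_card_span_singleton he0
    apply Nat.finite_of_card_ne_zero
    rw [he, hk]
    apply pow_ne_zero
    haveI : Finite (𝒪 ⧸ IsLocalRing.maximalIdeal 𝒪) :=
      inferInstanceAs (Finite (IsLocalRing.ResidueField 𝒪))
    exact Nat.card_pos.ne'
  have hfinΦ : Finite (RingHom.ker (π.comp φ)).Cotangent := by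
    apply Nat.finite_of_card_ne_zero
    rw [hnc2]
    exact Nat.card_pos.ne'
  -- a basis of `V` over `T`
  haveI : IsScalarTower 𝒪 R V := ⟨fun a x v => by
    rw [hRT, map_smul, smul_assoc, ← hRT]⟩
  haveI : Module.Finite R V := Module.Finite.of_restrictScalars_finite 𝒪 R V
  let ι := Module.Free.ChooseBasisIndex R V
  let b : Module.Basis ι R V := Module.Free.chooseBasis R V
  let d := Fintype.card ι
  let b' : Module.Basis (Fin d) R V := b.reindex (Fintype.equivFin ι)
  let bT : Module.Basis (Fin d) T V := b'.mapCoeffs (RingEquiv.ofBijective φ hbij)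
    (fun c x => (hRT c x).symm)
  let E : V ≃ₗ[T] (Fin d → T) := bT.equivFun
  have hd : 0 < d := by
    obtain ⟨i⟩ := b.index_nonempty
    exact Fintype.card_pos_iff.mpr ⟨i⟩
  refine ⟨d, hd, finrank_torsionBySet_ker hη d E, hfinΦ, ?_⟩
  rw [hnc2]
  exact (H90.card_omega_of_free d E hη).symm

end Fermat.Agent.S59.NonMin.H12
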