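import Fermat.Agent.S59.NonMin.Defs
import Fermat.Agent.S59.NonMin.H12_BaseCore

/-!
# S59 RT-NONMIN, leaf BASE (helper12)

`stmt_BASE_of : Stmt_ETANE → Stmt_BASE`: at the minimal level, if the Hecke module is free over
the deformation ring and the deformation ring is a complete intersection, then `R = T`,
`rank M[x] = d` and `(#Φ_R)^d = #Ω_x(M)` (`d` = the rank of `M` over `R`).
Abstract core: `H12.base_core` (NC2 + `card_omega_of_free`).
-/

set_option autoImplicit false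
set_option linter.style.haveILetI false
set_option linter.unusedVariables false

open Polynomial CuspForm CongruenceSubgroup ModularFormClass IsLocalRing

namespace Fermat.Agent.S59.NonMin.H12

open Fermat.Agent.S59 Fermat.Agent.S59.Asm Fermat.Agent.S59.NumCrit

/-- the eigenspace of `x` is `V[ker πx]`. -/
theorem eigen_eq_torsionBySet {𝒪 : Type} [CommRing 𝒪] [IsLocalRing 𝒪] (s : NMState 𝒪)
    {T : Type} [CommRing T] [Algebra 𝒪 T]
    (π₀ : CuspForm.heckeAlgebra s.N 2 (↑s.S : Set ℕ) →+* T)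
    (hgen : Algebra.adjoin 𝒪 (Set.range π₀) = ⊤)
    (x : CuspForm.heckeAlgebra s.N 2 (↑s.S : Set ℕ) →+* 𝒪)
    (ηhat : T →ₐ[𝒪] Module.End 𝒪 s.M.V) (hηhat : ∀ t, ηhat (π₀ t) = s.M.η t)
    (πx : T →ₐ[𝒪] 𝒪) (hπx : ∀ t, πx (π₀ t) = x t) :
    s.eigen x =
      letI : Module T s.M.V := Module.compHom s.M.V (ηhat : T →+* Module.End 𝒪 s.M.V)
      haveI : IsScalarTower 𝒪 T s.M.V := ⟨fun a τ v => by
        show ηhat (a • τ) v = a • ηhat τ v
        rw [map_smul]; rfl⟩
      (Submodule.torsionBySet T s.M.V (RingHom.ker πx : Set T)).restrictScalars 𝒪 := by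
  letI : Module T s.M.V := Module.compHom s.M.V (ηhat : T →+* Module.End 𝒪 s.M.V)
  haveI : IsScalarTower 𝒪 T s.M.V := ⟨fun a τ v => by
    show ηhat (a • τ) v = a • ηhat τ v
    rw [map_smul]; rfl⟩
  have hsmul : ∀ (τ : T) (v : s.M.V), τ • v = ηhat τ v := fun _ _ => rfl
  ext v
  rw [NMState.mem_eigen, Submodule.restrictScalars_mem, Submodule.mem_torsionBySet_iff]
  constructor
  · intro h
    have key : ∀ τ : T, ηhat τ v = πx τ • v := by
      intro τ
      have hτ : τ ∈ Algebra.adjoin 𝒪 (Set.range π₀) := by rw [hgen]; trivial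
      induction hτ using Algebra.adjoin_induction with
      | mem y hy =>
        obtain ⟨t, rfl⟩ := hy
        rw [hηhat, hπx, h]
      | algebraMap a =>
        rw [AlgHom.commutes, AlgHom.commutes]
        rfl
      | add y z _ _ hy hz =>
        rw [map_add, map_add, LinearMap.add_apply, hy, hz, add_smul]
      | mul y z _ _ hy hz =>
        rw [map_mul, map_mul, Module.End.mul_apply, hz, map_smul, hy, smul_smul, mul_comm]
    rintro ⟨τ, hτ⟩
    show τ • v = 0
    rw [hsmul, key, RingHom.mem_ker.mp hτ, zero_smul]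
  · intro h t
    have hv : v ∈ Submodule.torsionBySet T s.M.V (RingHom.ker πx : Set T) := by
      rw [Submodule.mem_torsionBySet_iff]
      exact h
    have := H12.smul_eq_of_mem_torsionBySet_ker (π := πx) (π₀ t) hv
    rw [hsmul, hηhat, hπx] at this
    exact this

/-- **BASE**. -/
theorem stmt_BASE_of (hE : Stmt_ETANE) : Stmt_BASE := by
  intro 𝒪 _ _ _ _ _ _ p _ hp2 hp𝒪 fl ρbar Smin hres s _ hlev x hx D H hHπ φ hφloc hφsurj hequiv
    ηhat hηhat r γ g hγ hg hfree hnt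
  obtain ⟨πx, hπx⟩ := H.exists_point x hx
  rw [hHπ] at hπx
  have hη : eta πx ≠ ⊥ := hE 𝒪 s.N s.S hlev.dvd_mem s.θ πx
  have hgen : Algebra.adjoin 𝒪 (Set.range (CuspForm.heckeLocal.π s.N (↑s.S : Set ℕ) 𝒪 s.θ)) = ⊤ := by
    rw [← hHπ]
    exact H.adjoin_range_π
  have heig := eigen_eq_torsionBySet s (CuspForm.heckeLocal.π s.N (↑s.S : Set ℕ) 𝒪 s.θ) hgen x
    ηhat hηhat πx hπx
  letI modT : Module (CuspForm.heckeLocal s.N (↑s.S : Set ℕ) 𝒪 s.θ) s.M.V :=
    Module.compHom s.M.V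
      (ηhat : CuspForm.heckeLocal s.N (↑s.S : Set ℕ) 𝒪 s.θ →+* Module.End 𝒪 s.M.V)
  haveI : IsScalarTower 𝒪 (CuspForm.heckeLocal s.N (↑s.S : Set ℕ) 𝒪 s.θ) s.M.V :=
    ⟨fun a τ v => by
      show ηhat (a • τ) v = a • ηhat τ v
      rw [map_smul]; rfl⟩
  letI modR : Module D.R s.M.V := Module.compHom s.M.V
    ((ηhat.comp φ : D.R →ₐ[𝒪] Module.End 𝒪 s.M.V) : D.R →+* Module.End 𝒪 s.M.V)
  haveI : Module.Free D.R s.M.V := hfree
  have hRT : ∀ (a : D.R) (v : s.M.V), a • v = φ a • v := fun _ _ => rfl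
  obtain ⟨hbij, d, hd, hrank, hfin, hcard⟩ := base_core φ hφsurj hRT πx hη r γ g hγ hg
  refine ⟨d, hd, ?_, D, H, φ, hφloc, ηhat, πx, hHπ, hbij, hequiv, hηhat, hπx, hfin, hcard⟩
  rw [heig]
  exact hrank

end Fermat.Agent.S59.NonMin.H12
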