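import Mathlib

/-!
# S59, case C, leaf KUM-p (helper48): Hilbert 90 over the fixed field of a subgroup of `G_ℚ`

`hilbert90_sub`: let `H` be a subgroup of `Gal(ℚ̄/ℚ)` and `c : H → ℚ̄ˣ` a 1-cocycle
(`c (g h) = c g · g (c h)`) which is trivial on the elements of `H` fixing a number field `F`.
Then `c g = g y / y` for some `y ≠ 0`.

Proof: Poincaré series over the (finite) set of restrictions to `F` of the elements of `H`,
Dedekind's independence of characters.
-/

set_option autoImplicit false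

namespace Fermat.Agent.S59.NonMin.H48

/-- The Galois group of `ℚ`. -/
local notation "Γℚ" => AlgebraicClosure ℚ ≃ₐ[ℚ] AlgebraicClosure ℚ

/-- Composition with `g` on the embeddings of `F`. -/
noncomputable def compEquivH90 (F : IntermediateField ℚ (AlgebraicClosure ℚ)) (g : Γℚ) :
    (F →ₐ[ℚ] AlgebraicClosure ℚ) ≃ (F →ₐ[ℚ] AlgebraicClosure ℚ) where
  toFun φ := (g : AlgebraicClosure ℚ →ₐ[ℚ] AlgebraicClosure ℚ).comp φ
  invFun φ := ((g⁻¹ : Γℚ) : AlgebraicClosure ℚ →ₐ[ℚ] AlgebraicClosure ℚ).comp φ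
  left_inv φ := by
    ext x
    show (g⁻¹ * g) (φ x) = φ x
    rw [inv_mul_cancel]
    rfl
  right_inv φ := by
    ext x
    show (g * g⁻¹) (φ x) = φ x
    rw [mul_inv_cancel]
    rfl

theorem compEquivH90_apply (F : IntermediateField ℚ (AlgebraicClosure ℚ)) (g : Γℚ)
    (φ : F →ₐ[ℚ] AlgebraicClosure ℚ) (x : F) : compEquivH90 F g φ x = g (φ x) := rfl

/-- The restriction of an automorphism to `F`. -/
noncomputable def resH90 (F : IntermediateField ℚ (AlgebraicClosure ℚ)) (g : Γℚ) :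
    F →ₐ[ℚ] AlgebraicClosure ℚ :=
  (g : AlgebraicClosure ℚ →ₐ[ℚ] AlgebraicClosure ℚ).comp F.val

theorem resH90_apply (F : IntermediateField ℚ (AlgebraicClosure ℚ)) (g : Γℚ) (x : F) :
    resH90 F g x = g (x : AlgebraicClosure ℚ) := rfl

theorem compEquivH90_res (F : IntermediateField ℚ (AlgebraicClosure ℚ)) (g r : Γℚ) :
    compEquivH90 F g (resH90 F r) = resH90 F (g * r) := rfl

/-- **Hilbert 90** for a subgroup `H` of `G_ℚ` and a continuous cocycle. -/
theorem hilbert90_sub (H : Subgroup Γℚ) (c : Γℚ → AlgebraicClosure ℚ)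
    (hc0 : ∀ g ∈ H, c g ≠ 0)
    (hcoc : ∀ g ∈ H, ∀ h ∈ H, c (g * h) = c g * g (c h))
    (F : IntermediateField ℚ (AlgebraicClosure ℚ)) [FiniteDimensional ℚ F]
    (hF : ∀ g ∈ H, (∀ x ∈ F, g x = x) → c g = 1) :
    ∃ y : AlgebraicClosure ℚ, y ≠ 0 ∧ ∀ g ∈ H, g y = c g * y := by
  classical
  -- `c` only depends on the restriction to `F`
  have hwd : ∀ g ∈ H, ∀ g' ∈ H, resH90 F g = resH90 F g' → c g = c g' := by
    intro g hg g' hg' h
    have ht : g⁻¹ * g' ∈ H := H.mul_mem (H.inv_mem hg) hg'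
    have hfix : ∀ x ∈ F, (g⁻¹ * g') x = x := by
      intro x hx
      have h1 : g (⟨x, hx⟩ : F) = g' (⟨x, hx⟩ : F) := by
        have := congrArg (fun φ : F →ₐ[ℚ] AlgebraicClosure ℚ => φ ⟨x, hx⟩) h
        exact this
      show g⁻¹ (g' x) = x
      have h2 : g' x = g x := h1.symm
      rw [h2]
      show (g⁻¹ * g) x = x
      rw [inv_mul_cancel]
      rfl
    have h1 := hcoc g hg _ ht
    rw [mul_inv_cancel_left, hF _ ht hfix, map_one, mul_one] at h1
    exact h1.symm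
  -- the coefficients
  let a : (F →ₐ[ℚ] AlgebraicClosure ℚ) → AlgebraicClosure ℚ := fun φ =>
    if h : ∃ r ∈ H, resH90 F r = φ then c h.choose else 0
  have ha_res : ∀ r ∈ H, a (resH90 F r) = c r := by
    intro r hr
    have h : ∃ r' ∈ H, resH90 F r' = resH90 F r := ⟨r, hr, rfl⟩
    show (if h : ∃ r' ∈ H, resH90 F r' = resH90 F r then c h.choose else 0) = c r
    rw [dif_pos h]
    exact hwd _ h.choose_spec.1 _ hr h.choose_spec.2
  have ha_not : ∀ φ, (¬ ∃ r ∈ H, resH90 F r = φ) → a φ = 0 := by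
    intro φ h
    show (if h : ∃ r' ∈ H, resH90 F r' = φ then c h.choose else 0) = 0
    rw [dif_neg h]
  have ha_comp : ∀ g ∈ H, ∀ φ, a (compEquivH90 F g φ) = c g * g (a φ) := by
    intro g hg φ
    by_cases h : ∃ r ∈ H, resH90 F r = φ
    · obtain ⟨r, hr, rfl⟩ := h
      rw [compEquivH90_res, ha_res _ (H.mul_mem hg hr), ha_res r hr, hcoc g hg r hr]
    · rw [ha_not φ h, map_zero, mul_zero]
      apply ha_not
      rintro ⟨r, hr, hrφ⟩
      apply h
      refine ⟨g⁻¹ * r, H.mul_mem (H.inv_mem hg) hr, ?_⟩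
      rw [← compEquivH90_res, hrφ]
      exact (compEquivH90 F g).symm_apply_apply φ
  -- Dedekind
  have hli := linearIndependent_toLinearMap ℚ F (AlgebraicClosure ℚ)
  have hex : ∃ θ : F, (∑ φ : F →ₐ[ℚ] AlgebraicClosure ℚ, a φ * φ θ) ≠ 0 := by
    by_contra hcon
    push Not at hcon
    have h1 : (∑ φ : F →ₐ[ℚ] AlgebraicClosure ℚ, a φ • (φ.toLinearMap)) = 0 := by
      apply LinearMap.ext
      intro θ
      rw [LinearMap.sum_apply, LinearMap.zero_apply]
      simpa using hcon θ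
    have h2 := (Fintype.linearIndependent_iff.1 hli) a h1 (resH90 F 1)
    rw [ha_res 1 H.one_mem] at h2
    exact hc0 1 H.one_mem h2
  obtain ⟨θ, hθ⟩ := hex
  set y₀ : AlgebraicClosure ℚ := ∑ φ : F →ₐ[ℚ] AlgebraicClosure ℚ, a φ * φ θ with hy₀
  have hkey : ∀ g ∈ H, c g * g y₀ = y₀ := by
    intro g hg
    rw [hy₀, map_sum, Finset.mul_sum]
    rw [← Equiv.sum_comp (compEquivH90 F g) (fun φ => a φ * φ θ)]
    refine Finset.sum_congr rfl fun φ _ => ?_
    rw [ha_comp g hg φ, compEquivH90_apply, map_mul, mul_assoc]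
  refine ⟨y₀⁻¹, inv_ne_zero hθ, fun g hg => ?_⟩
  have h1 := hkey g hg
  have hg0 : g y₀ ≠ 0 := (map_ne_zero_iff g g.injective).2 hθ
  rw [map_inv₀]
  field_simp
  rw [mul_comm]
  exact h1.symm

end Fermat.Agent.S59.NonMin.H48
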