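/-
S59, package RT-NONMIN, leaf CQNE, analysis core (helper56), part 1: the abstract maximum principle.

`phi : ℍ → ℝ` nonnegative, bounded, tending to `0` at `i∞` uniformly over the `SL(2, ℤ)`-translates,
and satisfying the Hecke inequality `(q + 1) phi z ≤ ∑_{x ∈ P¹(𝔽_q)} phi (δ_x z)` vanishes
identically.
-/
import Mathlib
import Fermat.Prelude.Def_ModularForm_HeckeOperator
import Fermat.Prelude.Thm_ModularForm_heckeT_slash_eq_self_of_mem_Gamma0

set_option autoImplicit false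

open UpperHalfPlane ModularForm CongruenceSubgroup Matrix.SpecialLinearGroup Filter
open scoped MatrixGroups ModularForm Modular
open P2MW.S_ModularForm_heckeT_slash_eq_self_of_mem_Gamma0.ModularForm.HeckeSlashInvariance

noncomputable section

namespace Fermat.Agent.S59.NonMin.H56

/-- The supremum of `phi` over the `SL(2, ℤ)`-orbit of `z`. -/
def orbSup (phi : ℍ → ℝ) (z : ℍ) : ℝ := ⨆ γ : SL(2, ℤ), phi (γ • z)

section core

variable {phi : ℍ → ℝ} {C : ℝ}

theorem bddAbove_orb (hC : ∀ z, phi z ≤ C) (z : ℍ) :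
    BddAbove (Set.range fun γ : SL(2, ℤ) => phi (γ • z)) :=
  ⟨C, by rintro _ ⟨γ, rfl⟩; exact hC _⟩

theorem le_orbSup (hC : ∀ z, phi z ≤ C) (z : ℍ) : phi z ≤ orbSup phi z := by
  have h := le_ciSup (bddAbove_orb hC z) 1
  simp only [one_smul] at h
  exact h

theorem le_orbSup_smul (hC : ∀ z, phi z ≤ C) (γ : SL(2, ℤ)) (z : ℍ) :
    phi (γ • z) ≤ orbSup phi z :=
  le_ciSup (bddAbove_orb hC z) γ

theorem orbSup_le (hC : ∀ z, phi z ≤ C) (z : ℍ) : orbSup phi z ≤ C :=
  ciSup_le fun _ => hC _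

theorem orbSup_smul (g : SL(2, ℤ)) (z : ℍ) : orbSup phi (g • z) = orbSup phi z := by
  unfold orbSup
  have : (fun γ : SL(2, ℤ) => phi (γ • g • z)) = (fun γ : SL(2, ℤ) => phi (γ • z)) ∘
      (Equiv.mulRight g) := by
    funext γ
    simp only [Function.comp_apply, Equiv.coe_mulRight, mul_smul]
  rw [this]
  exact (Equiv.mulRight g).iSup_comp (g := fun γ : SL(2, ℤ) => phi (γ • z))

variable {q : ℕ} [Fact q.Prime]

theorem smul_smul_eq (γ : SL(2, ℤ)) (x : OnePoint (ZMod q)) (z : ℍ) :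
    ∃ g' : SL(2, ℤ), heckeRep q x • γ • z = g' • (heckeRep q (redMatrix q γ • x) • z) := by
  obtain ⟨g', -, hg'⟩ :=
    heckeRep_mul (N := 1) (p := q) (Fact.out : q.Prime).not_dvd_one γ (by simp) x
  refine ⟨g', ?_⟩
  rw [MulAction.compHom_smul_def (mapGL ℝ) γ z, MulAction.compHom_smul_def (mapGL ℝ) g',
    ← mul_smul, hg', mul_smul]

/-- The Hecke inequality passes to the orbit supremum. -/
theorem hecke_orbSup (hC : ∀ z, phi z ≤ C)
    (hh : ∀ z : ℍ, ((q : ℝ) + 1) * phi z ≤ ∑ x : OnePoint (ZMod q), phi (heckeRep q x • z))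
    (z : ℍ) :
    ((q : ℝ) + 1) * orbSup phi z ≤ ∑ x : OnePoint (ZMod q), orbSup phi (heckeRep q x • z) := by
  have key : ∀ γ : SL(2, ℤ), ((q : ℝ) + 1) * phi (γ • z) ≤
      ∑ x : OnePoint (ZMod q), orbSup phi (heckeRep q x • z) := by
    intro γ
    refine (hh (γ • z)).trans ?_
    calc ∑ x : OnePoint (ZMod q), phi (heckeRep q x • γ • z)
        ≤ ∑ x : OnePoint (ZMod q), orbSup phi (heckeRep q (redMatrix q γ • x) • z) := by
          refine Finset.sum_le_sum fun x _ => ?_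
          obtain ⟨g', hg'⟩ := smul_smul_eq γ x z
          rw [hg']
          exact le_orbSup_smul hC g' _
      _ = ∑ x : OnePoint (ZMod q), orbSup phi (heckeRep q x • z) :=
          Equiv.sum_comp (MulAction.toPerm (redMatrix q γ))
            (fun x => orbSup phi (heckeRep q x • z))
  have hpos : 0 < (q : ℝ) + 1 := by positivity
  rw [← le_div_iff₀' hpos]
  exact ciSup_le fun γ => by rw [le_div_iff₀' hpos]; exact key γ

/-- One step: `(q + 1) G(z) ≤ G(q z) + q M`. -/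
theorem hecke_step {M : ℝ} (hC : ∀ z, phi z ≤ C) (hM : ∀ z, orbSup phi z ≤ M)
    (hh : ∀ z : ℍ, ((q : ℝ) + 1) * phi z ≤ ∑ x : OnePoint (ZMod q), phi (heckeRep q x • z))
    (z : ℍ) :
    ((q : ℝ) + 1) * orbSup phi z ≤ orbSup phi (heckeDiagMatrix q • z) + q * M := by
  refine (hecke_orbSup hC hh z).trans ?_
  have hsplit : ∑ x : OnePoint (ZMod q), orbSup phi (heckeRep q x • z) =
      orbSup phi (heckeDiagMatrix q • z) +
        ∑ j : ZMod q, orbSup phi (heckeMatrix q j.val • z) :=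
    Fintype.sum_option (fun x : OnePoint (ZMod q) => orbSup phi (heckeRep q x • z))
  rw [hsplit]
  have hsum : ∑ j : ZMod q, orbSup phi (heckeMatrix q j.val • z) ≤ q * M := by
    calc ∑ j : ZMod q, orbSup phi (heckeMatrix q j.val • z) ≤ ∑ _j : ZMod q, M :=
          Finset.sum_le_sum fun j _ => hM _
      _ = q * M := by
          rw [Finset.sum_const, Finset.card_univ, ZMod.card, nsmul_eq_mul]
  linarith

theorem im_heckeDiag_smul (z : ℍ) : (heckeDiagMatrix q • z).im = q * z.im := by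
  have h := coe_heckeDiagMatrix_smul (Fact.out : q.Prime).ne_zero z
  have h2 := congrArg Complex.im h
  simpa using h2

theorem im_heckeDiag_pow_smul (j : ℕ) (z : ℍ) :
    ((heckeDiagMatrix q ^ j) • z).im = (q : ℝ) ^ j * z.im := by
  induction j with
  | zero => simp
  | succ j ih =>
    rw [pow_succ', mul_smul, im_heckeDiag_smul, ih]
    ring

theorem hecke_iter {M : ℝ} (hC : ∀ z, phi z ≤ C) (hM : ∀ z, orbSup phi z ≤ M)
    (hh : ∀ z : ℍ, ((q : ℝ) + 1) * phi z ≤ ∑ x : OnePoint (ZMod q), phi (heckeRep q x • z))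
    (j : ℕ) (z : ℍ) :
    M - orbSup phi ((heckeDiagMatrix q ^ j) • z) ≤ ((q : ℝ) + 1) ^ j * (M - orbSup phi z) := by
  induction j with
  | zero => simp
  | succ j ih =>
    have h1 := hecke_step hC hM hh ((heckeDiagMatrix q ^ j) • z)
    rw [← mul_smul, ← pow_succ'] at h1
    have hpos : 0 ≤ (q : ℝ) + 1 := by positivity
    calc M - orbSup phi ((heckeDiagMatrix q ^ (j + 1)) • z)
        ≤ ((q : ℝ) + 1) * (M - orbSup phi ((heckeDiagMatrix q ^ j) • z)) := by linarith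
      _ ≤ ((q : ℝ) + 1) * (((q : ℝ) + 1) ^ j * (M - orbSup phi z)) :=
          mul_le_mul_of_nonneg_left ih hpos
      _ = ((q : ℝ) + 1) ^ (j + 1) * (M - orbSup phi z) := by ring

/-- **The maximum principle.** -/
theorem phi_eq_zero (h0 : ∀ z, 0 ≤ phi z) (hC : ∀ z, phi z ≤ C)
    (hdecay : ∀ ε : ℝ, 0 < ε → ∃ Y : ℝ, ∀ z : ℍ, Y ≤ z.im → ∀ γ : SL(2, ℤ), phi (γ • z) ≤ ε)
    (hh : ∀ z : ℍ, ((q : ℝ) + 1) * phi z ≤ ∑ x : OnePoint (ZMod q), phi (heckeRep q x • z))
    (z₁ : ℍ) : phi z₁ = 0 := by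
  by_contra hne
  have hz₁ : 0 < phi z₁ := lt_of_le_of_ne (h0 z₁) (Ne.symm hne)
  have hbdd : BddAbove (Set.range phi) := ⟨C, by rintro _ ⟨z, rfl⟩; exact hC z⟩
  set M : ℝ := ⨆ z, phi z with hMdef
  have hphiM : ∀ z, phi z ≤ M := fun z => le_ciSup hbdd z
  have hMpos : 0 < M := hz₁.trans_le (hphiM z₁)
  have hGM : ∀ z, orbSup phi z ≤ M := orbSup_le hphiM
  -- decay
  obtain ⟨Y, hY⟩ := hdecay (M / 2) (by positivity)
  have hq1 : (1 : ℝ) < q := by exact_mod_cast (Fact.out : q.Prime).one_lt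
  obtain ⟨j, hj⟩ := pow_unbounded_of_one_lt (2 * Y) hq1
  have hpow : 0 < ((q : ℝ) + 1) ^ j := by positivity
  set et : ℝ := M / (4 * ((q : ℝ) + 1) ^ j) with het
  have hetpos : 0 < et := by positivity
  obtain ⟨z₀, hz₀⟩ := exists_lt_of_lt_ciSup (show M - et < ⨆ z, phi z by rw [← hMdef]; linarith)
  obtain ⟨g, hg⟩ := ModularGroup.exists_smul_mem_fd z₀
  set w : ℍ := g • z₀ with hw
  have him : (1 : ℝ) / 2 ≤ w.im := by
    have h3 := ModularGroup.three_le_four_mul_im_sq_of_mem_fd hg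
    have hpos := w.im_pos
    nlinarith
  have hGw : M - et < orbSup phi w := by
    rw [hw, orbSup_smul]
    exact hz₀.trans_le (le_orbSup hphiM z₀)
  have hiter := hecke_iter hphiM hGM hh j w
  have hlarge : Y ≤ ((heckeDiagMatrix q ^ j) • w).im := by
    rw [im_heckeDiag_pow_smul]
    have : (0 : ℝ) < (q : ℝ) ^ j := by positivity
    nlinarith
  have hsmall : orbSup phi ((heckeDiagMatrix q ^ j) • w) ≤ M / 2 :=
    ciSup_le fun γ => hY _ hlarge γ
  have h1 : ((q : ℝ) + 1) ^ j * (M - orbSup phi w) < ((q : ℝ) + 1) ^ j * et :=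
    mul_lt_mul_of_pos_left (by linarith) hpow
  have h2 : ((q : ℝ) + 1) ^ j * et = M / 4 := by
    rw [het]; field_simp
  linarith

end core

end Fermat.Agent.S59.NonMin.H56

end
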