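/-
S59, package RT-NONMIN, leaf CQNE, analysis core (helper56), part 2: a `T_q`-eigenvalue `c` on
weight `2` cusp forms of level `Γ₀(N)`, `q ∤ N`, satisfies `‖c‖ < q + 1`.

`cuspPhi f z = ‖f z‖ · Im z` is nonnegative, bounded, decays at `i∞` uniformly over the
`SL(2, ℤ)`-translates (finitely many cosets of `Γ₀(N)`), and `T_q f = c f` gives
`‖c‖ cuspPhi f z ≤ ∑_{x ∈ P¹(𝔽_q)} cuspPhi f (δ_x z)`; so `‖c‖ ≥ q + 1` forces `cuspPhi f = 0` by the
maximum principle `phi_eq_zero` of `H56_CQNECore`.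
-/
import Mathlib
import Fermat.Prelude.Def_ModularForm_HeckeOperatorForms
import Fermat.Agent.S59.NonMin.H56_CQNECore

set_option autoImplicit false

open UpperHalfPlane ModularForm CongruenceSubgroup Matrix.SpecialLinearGroup Filter
open scoped MatrixGroups ModularForm Modular Topology ComplexConjugate
open P2MW.S_ModularForm_heckeT_slash_eq_self_of_mem_Gamma0.ModularForm.HeckeSlashInvariance

noncomputable section

namespace Fermat.Agent.S59.NonMin.H56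

variable {N : ℕ}

/-- `cuspPhi f z = ‖f z‖ · Im z`. -/
def cuspPhi (f : CuspForm (Gamma0 N) 2) (z : ℍ) : ℝ := ‖f z‖ * z.im

theorem cuspPhi_nonneg (f : CuspForm (Gamma0 N) 2) (z : ℍ) : 0 ≤ cuspPhi f z :=
  mul_nonneg (norm_nonneg _) z.im_pos.le

theorem cuspPhi_sq (f : CuspForm (Gamma0 N) 2) (z : ℍ) :
    cuspPhi f z ^ 2 = ‖petersson 2 f f z‖ := by
  unfold cuspPhi petersson
  rw [norm_mul, norm_mul, Complex.norm_conj, norm_zpow, Complex.norm_real,
    Real.norm_of_nonneg z.im_pos.le]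
  norm_cast
  ring

theorem cuspPhi_eq_sqrt (f : CuspForm (Gamma0 N) 2) (z : ℍ) :
    cuspPhi f z = Real.sqrt ‖petersson 2 f f z‖ := by
  rw [← cuspPhi_sq, Real.sqrt_sq (cuspPhi_nonneg f z)]

variable [NeZero N]

theorem cuspPhi_bdd (f : CuspForm (Gamma0 N) 2) : ∃ C : ℝ, ∀ z, cuspPhi f z ≤ C := by
  obtain ⟨C, hC⟩ := CuspFormClass.petersson_bounded_left 2 (Gamma0 N : Subgroup (GL (Fin 2) ℝ)) f f
  refine ⟨Real.sqrt C, fun z => ?_⟩
  rw [cuspPhi_eq_sqrt]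
  exact Real.sqrt_le_sqrt (hC z)

theorem cuspPhi_smul_of_mem (f : CuspForm (Gamma0 N) 2) {j : SL(2, ℤ)} (hj : j ∈ Gamma0 N)
    (z : ℍ) : cuspPhi f (j • z) = cuspPhi f z := by
  rw [cuspPhi_eq_sqrt, cuspPhi_eq_sqrt, MulAction.compHom_smul_def (mapGL ℝ) j z]
  congr 1
  exact SlashInvariantFormClass.norm_petersson_smul (Subgroup.mem_map_of_mem (mapGL ℝ) hj)

open ConjAct Pointwise in
theorem tendsto_petersson_smul (f : CuspForm (Gamma0 N) 2) (g : SL(2, ℤ)) :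
    Tendsto (fun z : ℍ => ‖petersson 2 f f (g • z)‖) atImInfty (𝓝 0) := by
  rw [← tendsto_zero_iff_norm_tendsto_zero]
  simp_rw [← UpperHalfPlane.petersson_slash_SL]
  have : ((toConjAct (g : GL (Fin 2) ℝ)⁻¹) • (Gamma0 N : Subgroup (GL (Fin 2) ℝ))).IsArithmetic := by
    simpa [(show Rat.castHom ℝ = algebraMap ℚ ℝ by rfl), map_inv, map_mapGL]
      using! Subgroup.IsArithmetic.conj (Gamma0 N : Subgroup (GL (Fin 2) ℝ)) (mapGL ℚ g)⁻¹
  exact (CuspFormClass.zero_at_infty <| CuspForm.translate f g).petersson_isZeroAtImInfty_left 2 _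
    (ModularForm.translate f g)

theorem tendsto_cuspPhi_smul (f : CuspForm (Gamma0 N) 2) (g : SL(2, ℤ)) :
    Tendsto (fun z : ℍ => cuspPhi f (g • z)) atImInfty (𝓝 0) := by
  have h := (tendsto_petersson_smul f g).sqrt
  simp only [Real.sqrt_zero] at h
  refine h.congr fun z => ?_
  rw [cuspPhi_eq_sqrt]

/-- Uniform decay over all `SL(2, ℤ)`-translates. -/
theorem cuspPhi_decay (f : CuspForm (Gamma0 N) 2) (ε : ℝ) (hε : 0 < ε) :
    ∃ Y : ℝ, ∀ z : ℍ, Y ≤ z.im → ∀ γ : SL(2, ℤ), cuspPhi f (γ • z) ≤ ε := by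
  have : Fintype (SL(2, ℤ) ⧸ Gamma0 N) := Subgroup.fintypeQuotientOfFiniteIndex
  have hev : ∀ᶠ z in atImInfty, ∀ c : SL(2, ℤ) ⧸ Gamma0 N,
      cuspPhi f ((Quotient.out c : SL(2, ℤ))⁻¹ • z) ≤ ε := by
    rw [Filter.eventually_all]
    intro c
    exact (tendsto_cuspPhi_smul f (Quotient.out c : SL(2, ℤ))⁻¹).eventually_le_const hε
  obtain ⟨Y, hY⟩ := (UpperHalfPlane.atImInfty_mem _).mp hev
  refine ⟨Y, fun z hz γ => ?_⟩
  have h1 := hY z hz (QuotientGroup.mk γ⁻¹)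
  set g : SL(2, ℤ) := Quotient.out (QuotientGroup.mk γ⁻¹ : SL(2, ℤ) ⧸ Gamma0 N) with hg
  have hmem : g⁻¹ * γ⁻¹ ∈ Gamma0 N := by
    rw [← QuotientGroup.eq]
    exact QuotientGroup.out_eq' _
  have hmem' : γ * g ∈ Gamma0 N := by
    have := inv_mem hmem
    simpa [mul_inv_rev] using this
  have : γ • z = (γ * g) • (g⁻¹ • z) := by
    rw [← mul_smul, mul_assoc, mul_inv_cancel, mul_one]
  rw [this, cuspPhi_smul_of_mem f hmem']
  exact h1

omit [NeZero N] in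
theorem im_heckeMatrix_smul' {q : ℕ} (hq : q ≠ 0) (j : ℕ) (z : ℍ) :
    (heckeMatrix q j • z).im = z.im / q := by
  have h := congrArg Complex.im (coe_heckeMatrix_smul hq j z)
  rw [UpperHalfPlane.coe_im] at h
  rw [h]
  have : ((z : ℂ) + (j : ℂ)) / (q : ℂ) = (((z : ℂ) + (j : ℂ)) / ((q : ℝ) : ℂ)) := by
    push_cast; rfl
  rw [this, Complex.div_ofReal_im]
  simp

omit [NeZero N] in
theorem im_heckeDiagMatrix_smul' {q : ℕ} (hq : q ≠ 0) (z : ℍ) :
    (heckeDiagMatrix q • z).im = q * z.im := by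
  have h := congrArg Complex.im (coe_heckeDiagMatrix_smul hq z)
  rw [UpperHalfPlane.coe_im] at h
  rw [h]
  simp

omit [NeZero N] in
/-- The Hecke relation in absolute values (sum over `range q`). -/
theorem cuspPhi_hecke_range {q : ℕ} (hq : q.Prime) (hqN : ¬ q ∣ N)
    (f : CuspForm (Gamma0 N) 2) (c : ℂ) (h : CuspForm.heckeTLin 2 hq hqN f = c • f) (z : ℍ) :
    ‖c‖ * cuspPhi f z ≤
      (∑ j ∈ Finset.range q, cuspPhi f (heckeMatrix q j • z)) +
        cuspPhi f (heckeDiagMatrix q • z) := by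
  have hq0 : q ≠ 0 := hq.ne_zero
  have hqpos : (0 : ℝ) < q := by exact_mod_cast hq.pos
  have h1 : c * f z = (q : ℂ)⁻¹ * ∑ j ∈ Finset.range q, f (heckeMatrix q j • z)
      + (q : ℂ) ^ ((2 : ℤ) - 1) * f (heckeDiagMatrix q • z) := by
    have h2 : (CuspForm.heckeTLin 2 hq hqN f) z = (c • f) z := by rw [h]
    rw [CuspForm.heckeTLin_apply_apply, heckeT_apply 2 hq0] at h2
    rw [h2]
    rfl
  have h3 : ‖c‖ * cuspPhi f z = ‖c * f z‖ * z.im := by
    unfold cuspPhi; rw [norm_mul]; ring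
  rw [h3, h1]
  have hnq : ‖(q : ℂ)‖ = q := by simp
  calc ‖(q : ℂ)⁻¹ * ∑ j ∈ Finset.range q, f (heckeMatrix q j • z)
        + (q : ℂ) ^ ((2 : ℤ) - 1) * f (heckeDiagMatrix q • z)‖ * z.im
      ≤ ((q : ℝ)⁻¹ * ∑ j ∈ Finset.range q, ‖f (heckeMatrix q j • z)‖
        + (q : ℝ) * ‖f (heckeDiagMatrix q • z)‖) * z.im := by
        refine mul_le_mul_of_nonneg_right ?_ z.im_pos.le
        refine (norm_add_le _ _).trans ?_
        rw [norm_mul, norm_mul, norm_inv, hnq]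
        have : ‖(q : ℂ) ^ ((2 : ℤ) - 1)‖ = q := by
          rw [show (2 : ℤ) - 1 = 1 by norm_num, zpow_one, hnq]
        rw [this]
        gcongr
        exact norm_sum_le _ _
    _ = (∑ j ∈ Finset.range q, cuspPhi f (heckeMatrix q j • z)) +
        cuspPhi f (heckeDiagMatrix q • z) := by
        unfold cuspPhi
        rw [im_heckeDiagMatrix_smul' hq0]
        simp_rw [im_heckeMatrix_smul' hq0]
        rw [← Finset.sum_mul, add_mul]
        field_simp

omit [NeZero N] in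
/-- The Hecke relation in absolute values (sum over `P¹(𝔽_q)`). -/
theorem cuspPhi_hecke {q : ℕ} [Fact q.Prime] (hq : q.Prime) (hqN : ¬ q ∣ N)
    (f : CuspForm (Gamma0 N) 2) (c : ℂ) (h : CuspForm.heckeTLin 2 hq hqN f = c • f) (z : ℍ) :
    ‖c‖ * cuspPhi f z ≤ ∑ x : OnePoint (ZMod q), cuspPhi f (heckeRep q x • z) := by
  refine (cuspPhi_hecke_range hq hqN f c h z).trans (le_of_eq ?_)
  have hsplit : ∑ x : OnePoint (ZMod q), cuspPhi f (heckeRep q x • z) =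
      cuspPhi f (heckeDiagMatrix q • z) +
        ∑ j : ZMod q, cuspPhi f (heckeMatrix q j.val • z) :=
    Fintype.sum_option (fun x : OnePoint (ZMod q) => cuspPhi f (heckeRep q x • z))
  rw [hsplit, sum_range_eq_sum_zmod (p := q) (fun j => cuspPhi f (heckeMatrix q j • z)), add_comm]

/-- **CQNE, analytic core**: a `T_q`-eigenvalue on `S₂(Γ₀(N))`, `q ∤ N`, has absolute value
`< q + 1`. -/
theorem norm_lt_of_heckeTLin_eq_smul {q : ℕ} (hq : q.Prime) (hqN : ¬ q ∣ N)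
    (f : CuspForm (Gamma0 N) 2) (hf : f ≠ 0) (c : ℂ)
    (h : CuspForm.heckeTLin 2 hq hqN f = c • f) : ‖c‖ < (q : ℝ) + 1 := by
  by_contra hlt
  rw [not_lt] at hlt
  have : Fact q.Prime := ⟨hq⟩
  obtain ⟨C, hC⟩ := cuspPhi_bdd f
  have hh : ∀ z : ℍ, ((q : ℝ) + 1) * cuspPhi f z ≤
      ∑ x : OnePoint (ZMod q), cuspPhi f (heckeRep q x • z) := fun z =>
    (mul_le_mul_of_nonneg_right hlt (cuspPhi_nonneg f z)).trans (cuspPhi_hecke hq hqN f c h z)
  have hzero : ∀ z, cuspPhi f z = 0 :=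
    phi_eq_zero (cuspPhi_nonneg f) hC (cuspPhi_decay f) hh
  apply hf
  refine DFunLike.ext _ _ fun z => ?_
  have h0 := hzero z
  unfold cuspPhi at h0
  rcases mul_eq_zero.mp h0 with h1 | h1
  · simpa using h1
  · exact absurd h1 z.im_pos.ne'

end Fermat.Agent.S59.NonMin.H56

end
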