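import Fermat.Agent.S59.NonMin.Defs
import Fermat.Agent.S59.NumCrit.Diamond
import Fermat.Agent.S59.NumCrit.H90_Growth2

/-!
# S59, RT-NONMIN, leaf STEP (helper90): the algebraic core of the induction step

`step_core`: rings `R' ↠ R` (deformation rings), `T' → T` (Hecke rings), `φ : R → T`,
`φ' : R' ↠ T'` with `res ∘ φ' = φ ∘ τ`, a point `πx : T → 𝒪`, modules `V`, `V'` with the level
raising maps `α`, `α'` (`α' ∘ α = e` on `V[𝔭]`), the numerical equality `(#Φ_R)^d = #Ω(V)` and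
the Selmer bound `#Φ_R' ≤ #Φ_R · #(𝒪/e)` give `φ'` bijective and `(#Φ_R')^d = #Ω(V')`
(`NumCrit.H90.card_omega_growth` + `NumCrit.nc1_diamond`).
-/

set_option autoImplicit false
set_option linter.unusedSectionVars false
set_option linter.style.haveILetI false

open IsLocalRing

namespace Fermat.Agent.S59.NonMin.H90

open Fermat.Agent.S59 Fermat.Agent.S59.NumCrit

section torsP

variable {𝒪 T V : Type} [CommRing 𝒪] [CommRing T] [Algebra 𝒪 T] [AddCommGroup V] [Module 𝒪 V]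

/-- The `𝔭`-torsion `V[𝔭]`, `𝔭 = ker π`, of a module `V` over `T` (the structure being given by
`ηhat`), as an `𝒪`-submodule. -/
def torsP (ηhat : T →ₐ[𝒪] Module.End 𝒪 V) (π : T →ₐ[𝒪] 𝒪) : Submodule 𝒪 V where
  carrier := {v | ∀ t : T, π t = 0 → ηhat t v = 0}
  add_mem' := fun {a b} ha hb t ht => by rw [map_add, ha t ht, hb t ht, add_zero]
  zero_mem' := fun t _ => map_zero _
  smul_mem' := fun c {v} hv t ht => by rw [map_smul, hv t ht, smul_zero]

theorem mem_torsP {ηhat : T →ₐ[𝒪] Module.End 𝒪 V} {π : T →ₐ[𝒪] 𝒪} {v : V} :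
    v ∈ torsP ηhat π ↔ ∀ t : T, π t = 0 → ηhat t v = 0 := Iff.rfl

/-- `t` acts on `V[𝔭]` as `π t`. -/
theorem apply_eq_smul_of_mem_torsP {ηhat : T →ₐ[𝒪] Module.End 𝒪 V} {π : T →ₐ[𝒪] 𝒪} {v : V}
    (hv : v ∈ torsP ηhat π) (t : T) : ηhat t v = π t • v := by
  have h1 : π (t - algebraMap 𝒪 T (π t)) = 0 := by
    rw [map_sub, AlgHom.commutes]
    exact sub_self _
  have h2 := hv _ h1
  rw [map_sub, LinearMap.sub_apply, AlgHom.commutes, Module.algebraMap_end_apply,
    sub_eq_zero] at h2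
  exact h2

/-- `V[𝔭]` in terms of generators of `T`. -/
theorem mem_torsP_iff_of_adjoin {ι : Type} {g : ι → T}
    (hadj : Algebra.adjoin 𝒪 (Set.range g) = ⊤)
    {ηhat : T →ₐ[𝒪] Module.End 𝒪 V} {π : T →ₐ[𝒪] 𝒪} {v : V} :
    v ∈ torsP ηhat π ↔ ∀ i, ηhat (g i) v = π (g i) • v := by
  constructor
  · intro hv i
    exact apply_eq_smul_of_mem_torsP hv (g i)
  · intro h
    have key : ∀ t : T, ηhat t v = π t • v := by
      intro t
      have ht : t ∈ Algebra.adjoin 𝒪 (Set.range g) := by rw [hadj]; exact Algebra.mem_top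
      induction ht using Algebra.adjoin_induction with
      | mem x hx =>
        obtain ⟨i, rfl⟩ := hx
        exact h i
      | algebraMap a =>
        rw [AlgHom.commutes, AlgHom.commutes, Module.algebraMap_end_apply]
        rfl
      | add x y _ _ hx hy =>
        rw [map_add, LinearMap.add_apply, hx, hy, map_add, add_smul]
      | mul x y _ _ hx hy =>
        rw [map_mul, Module.End.mul_apply, hy, map_smul, hx, map_mul, smul_smul, mul_comm]
    intro t ht
    rw [key t, ht, zero_smul]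

end torsP

section core

variable {𝒪 : Type} [CommRing 𝒪] [IsDomain 𝒪] [IsDiscreteValuationRing 𝒪]
  [IsAdicComplete (maximalIdeal 𝒪) 𝒪] [Finite (ResidueField 𝒪)]

/-- the module structure given by `ηhat` is compatible with the `𝒪`-module structure -/
theorem isScalarTower_compHom {T V : Type} [CommRing T] [Algebra 𝒪 T] [AddCommGroup V]
    [Module 𝒪 V] (ηhat : T →ₐ[𝒪] Module.End 𝒪 V) :
    @IsScalarTower 𝒪 T V _ (Module.compHom V (ηhat : T →+* Module.End 𝒪 V)).toSMul _ :=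
  letI : Module T V := Module.compHom V (ηhat : T →+* Module.End 𝒪 V)
  ⟨fun a t v => by
    show ηhat (a • t) v = a • ηhat t v
    rw [map_smul]
    rfl⟩

/-- `torsP` is the `𝔭`-torsion for the module structure given by `ηhat`. -/
theorem torsP_eq_torsionBySet {T V : Type} [CommRing T] [Algebra 𝒪 T] [AddCommGroup V]
    [Module 𝒪 V] (ηhat : T →ₐ[𝒪] Module.End 𝒪 V) (π : T →ₐ[𝒪] 𝒪) :
    letI : Module T V := Module.compHom V (ηhat : T →+* Module.End 𝒪 V)
    haveI : IsScalarTower 𝒪 T V := isScalarTower_compHom ηhat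
    torsP ηhat π = (Submodule.torsionBySet T V (RingHom.ker π : Set T)).restrictScalars 𝒪 := by
  letI : Module T V := Module.compHom V (ηhat : T →+* Module.End 𝒪 V)
  haveI : IsScalarTower 𝒪 T V := isScalarTower_compHom ηhat
  ext v
  rw [Submodule.restrictScalars_mem, Submodule.mem_torsionBySet_iff, mem_torsP]
  constructor
  · rintro h ⟨t, ht⟩
    exact h t ht
  · intro h t ht
    exact h ⟨t, ht⟩

/-- **The algebraic core of STEP.** -/
theorem step_core
    {R R' T T' : Type} [CommRing R] [Algebra 𝒪 R] [CommRing R'] [Algebra 𝒪 R']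
    [CommRing T] [Algebra 𝒪 T] [CommRing T'] [Algebra 𝒪 T']
    [Module.Finite 𝒪 T'] [Module.Free 𝒪 T']
    (τ : R' →ₐ[𝒪] R) (φ : R →ₐ[𝒪] T) (φ' : R' →ₐ[𝒪] T') (hφ' : Function.Surjective φ')
    (res : T' →ₐ[𝒪] T) (hcompat : res.comp φ' = φ.comp τ) (πx : T →ₐ[𝒪] 𝒪)
    {n : ℕ} (γ' : MvPowerSeries (Fin n) 𝒪 →ₐ[𝒪] R') (hγ' : Function.Surjective γ')
    {V V' : Type} [AddCommGroup V] [Module 𝒪 V] [Module.Finite 𝒪 V] [Module.Free 𝒪 V]
    [AddCommGroup V'] [Module 𝒪 V'] [Module.Finite 𝒪 V'] [Module.Free 𝒪 V']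
    (ηhat : T →ₐ[𝒪] Module.End 𝒪 V) (ηhat' : T' →ₐ[𝒪] Module.End 𝒪 V')
    (hη : eta πx ≠ ⊥) (hη' : eta (πx.comp res) ≠ ⊥)
    (α : V →ₗ[𝒪] V') (hα : ∀ (t : T') (v : V), α (ηhat (res t) v) = ηhat' t (α v))
    (α' : V' →ₗ[𝒪] V) (hα' : ∀ (t : T') (w : V'), α' (ηhat' t w) = ηhat (res t) (α' w))
    (hinj : Function.Injective α)
    (hsat : ∀ (a : 𝒪) (w : V'), a ≠ 0 → a • w ∈ LinearMap.range α → w ∈ LinearMap.range α)
    (hsurj : Function.Surjective α')
    (e : 𝒪) (hc : ∀ v ∈ torsP ηhat πx, α' (α v) = e • v)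
    (d : ℕ) (hd : 0 < d)
    (hrk : Module.finrank 𝒪 (torsP ηhat πx) = d)
    (hrk' : Module.finrank 𝒪 (torsP ηhat' (πx.comp res)) ≤ d)
    (hcard : Nat.card (RingHom.ker ((πx.comp φ : R →ₐ[𝒪] 𝒪) : R →+* 𝒪)).Cotangent ^ d =
      omegaCard ηhat πx)
    (hsel : Finite (RingHom.ker (((πx.comp φ).comp τ : R' →ₐ[𝒪] 𝒪) : R' →+* 𝒪)).Cotangent ∧
      Nat.card (RingHom.ker (((πx.comp φ).comp τ : R' →ₐ[𝒪] 𝒪) : R' →+* 𝒪)).Cotangent ≤
        Nat.card (RingHom.ker ((πx.comp φ : R →ₐ[𝒪] 𝒪) : R →+* 𝒪)).Cotangent *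
          Nat.card (𝒪 ⧸ Ideal.span {e})) :
    Function.Bijective φ' ∧
    Finite (RingHom.ker (((πx.comp res).comp φ' : R' →ₐ[𝒪] 𝒪) : R' →+* 𝒪)).Cotangent ∧
    Nat.card (RingHom.ker (((πx.comp res).comp φ' : R' →ₐ[𝒪] 𝒪) : R' →+* 𝒪)).Cotangent ^ d =
      omegaCard ηhat' (πx.comp res) := by
  classical
  -- the two points of `R'` agree
  have hpt : ((πx.comp res).comp φ' : R' →ₐ[𝒪] 𝒪) = (πx.comp φ).comp τ := by
    rw [AlgHom.comp_assoc, hcompat, AlgHom.comp_assoc]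
  rw [← hpt] at hsel
  obtain ⟨hfin', hle⟩ := hsel
  -- module structures
  letI instT : Module T V := Module.compHom V (ηhat : T →+* Module.End 𝒪 V)
  letI instT' : Module T' V' := Module.compHom V' (ηhat' : T' →+* Module.End 𝒪 V')
  haveI : IsScalarTower 𝒪 T V := isScalarTower_compHom ηhat
  haveI : IsScalarTower 𝒪 T' V' := isScalarTower_compHom ηhat'
  have hsm : ∀ (t : T) (v : V), t • v = ηhat t v := fun _ _ => rfl
  have hsm' : ∀ (t : T') (w : V'), t • w = ηhat' t w := fun _ _ => rfl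
  -- ranks
  have e1 := torsP_eq_torsionBySet ηhat πx
  have e2 := torsP_eq_torsionBySet ηhat' (πx.comp res)
  have hrkT : Module.finrank 𝒪
      ((Submodule.torsionBySet T V (RingHom.ker πx : Set T)).restrictScalars 𝒪) = d := by
    rw [← hrk]
    exact (LinearEquiv.ofEq _ _ e1).finrank_eq.symm
  have hrkT' : Module.finrank 𝒪 ((Submodule.torsionBySet T' V'
      (RingHom.ker (πx.comp res) : Set T')).restrictScalars 𝒪) ≤ d := by
    refine le_trans (le_of_eq ?_) hrk'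
    exact (LinearEquiv.ofEq _ _ e2).finrank_eq.symm
  -- GROWTH
  have hgrow := NumCrit.H90.card_omega_growth_tors res πx hη hη' α
    (fun t v => by rw [hsm, hsm', hα]) α' (fun t w => by rw [hsm, hsm', hα'])
    hinj hsat hsurj e (fun v hv => hc v (by rw [e1]; exact hv)) (by rw [hrkT]; exact hrkT')
  rw [hrkT] at hgrow
  -- the numerical inequality at the new level
  have hcard' : Nat.card (RingHom.ker ((πx.comp res).comp φ')).Cotangent ^ d
      ≤ Nat.card (V' ⧸ (Submodule.torsionBySet T' V' (RingHom.ker (πx.comp res) : Set T')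
        ⊔ Submodule.torsionBySet T' V' ((RingHom.ker (πx.comp res)).annihilator : Set T'))) := by
    refine le_trans (Nat.pow_le_pow_left hle d) ?_
    rw [mul_pow, hcard]
    exact hgrow
  haveI : Finite (RingHom.ker ((πx.comp res).comp φ')).Cotangent := hfin'
  obtain ⟨hbij, -, -, -, heq⟩ := nc1_diamond γ' hγ' φ' hφ' (πx.comp res) hη' d hd hrkT' hcard'
  exact ⟨hbij, hfin', heq⟩

end core

end Fermat.Agent.S59.NonMin.H90
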