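import Fermat.Agent.Lib.HopfOrderLoc.LocalGen
import Fermat.Agent.S05.H95_Inertia

/-!
# S59, case C, leaf PEUFLAT (helper92): the abstract Hopf order of an ordinary, peu ramifié module

`flat_of_peu_abs`: let `M` be a finite abelian group with an action of `G_ℚ` through a finite
quotient, `P` a place of `ℚ̄` over `p` (inertia `I`, decomposition group `D`), `M₀ ⊂ M` a
`D`-stable subgroup such that `I` acts trivially on `M / M₀`, and `ev : Λ → M₀ → ℚ̄` a finite
family of characters of `M₀` with unit values which separates the points of `M₀`, is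
`I`-equivariant and stable under the twists by `D`.  Suppose that for every `lam ∈ Λ` and `r ∈ M`
the crossed homomorphism `σ ↦ ev lam (σ r - r)` of `I` is `σ ↦ σ y / y` for a `P`-unit `y`
(this is where "peu ramifié" enters).  Then `M` is flat at `p`
(`Lib.HopfOrderLoc.flat_of_local_generators`).

Generators: `e_v` (the indicator of the class of `v` modulo `M₀`) and
`t_lam (x) = ev lam (x - rep x) * y_{lam, rep x}`.
-/

set_option autoImplicit false
set_option linter.unusedSectionVars false
set_option linter.style.haveILetI false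
set_option linter.unusedVariables false

namespace Fermat.Agent.S59.NonMin.H92P

open Fermat.Agent.Lib.HopfOrder Fermat.Agent.Lib.HopfOrderLoc

local notation "Qbar" => AlgebraicClosure ℚ
local notation "Γℚ" => (AlgebraicClosure ℚ ≃ₐ[ℚ] AlgebraicClosure ℚ)

section Act

variable {M : Type} [AddCommGroup M] (act : Γℚ → M → M)

theorem act_zero (act_add : ∀ σ x y, act σ (x + y) = act σ x + act σ y) (σ : Γℚ) :
    act σ 0 = 0 := by
  have h := act_add σ 0 0
  rw [add_zero] at h
  exact left_eq_add.mp h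

theorem act_neg (act_add : ∀ σ x y, act σ (x + y) = act σ x + act σ y) (σ : Γℚ) (x : M) :
    act σ (-x) = - act σ x := by
  have h := act_add σ x (-x)
  rw [add_neg_cancel, act_zero act act_add] at h
  exact eq_neg_of_add_eq_zero_right h.symm

theorem act_sub (act_add : ∀ σ x y, act σ (x + y) = act σ x + act σ y) (σ : Γℚ) (x y : M) :
    act σ (x - y) = act σ x - act σ y := by
  rw [sub_eq_add_neg, act_add, act_neg act act_add, ← sub_eq_add_neg]

end Act

section Rep

variable {M : Type} [AddCommGroup M] (M₀ : AddSubgroup M)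

/-- A system of representatives of the classes modulo `M₀`. -/
theorem exists_rep : ∃ rep : M → M, (∀ x, x - rep x ∈ M₀) ∧
    ∀ x x', x - x' ∈ M₀ → rep x = rep x' := by
  refine ⟨fun x => (QuotientAddGroup.mk x : M ⧸ M₀).out, fun x => ?_, fun x x' h => ?_⟩
  · have h1 : (QuotientAddGroup.mk ((QuotientAddGroup.mk x : M ⧸ M₀).out) : M ⧸ M₀) =
        QuotientAddGroup.mk x := QuotientAddGroup.out_eq' _
    have h2 := (QuotientAddGroup.eq.mp h1)
    have h3 : x - (QuotientAddGroup.mk x : M ⧸ M₀).out =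
        -(QuotientAddGroup.mk x : M ⧸ M₀).out + x := by abel
    rw [h3]
    exact h2
  · have h1 : (QuotientAddGroup.mk x : M ⧸ M₀) = QuotientAddGroup.mk x' := by
      rw [QuotientAddGroup.eq]
      have h3 : -x + x' = -(x - x') := by abel
      rw [h3]
      exact M₀.neg_mem h
    show (QuotientAddGroup.mk x : M ⧸ M₀).out = (QuotientAddGroup.mk x' : M ⧸ M₀).out
    rw [h1]

end Rep

section GenRing

variable {M ι : Type} [Finite M] (A : Subring Qbar) (h : ι → M → Qbar)

/-- A finite sum of products `constant * generator * function in the ring` lies in `genRing`. -/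
theorem sum_mem_genRing (s : Finset M) (g : M → M → Qbar)
    (hg : ∀ v ∈ s, g v ∈ genRing A h) : (fun x => ∑ v ∈ s, g v x) ∈ genRing A h := by
  have h1 : (fun x => ∑ v ∈ s, g v x) = ∑ v ∈ s, g v := by
    funext x
    rw [Finset.sum_apply]
  rw [h1]
  exact Subring.sum_mem _ hg

end GenRing

section Abs

variable {M : Type} [AddCommGroup M] [Finite M]
  (p : ℕ) (P : ValuationSubring Qbar) (act : Γℚ → M → M) (M₀ : AddSubgroup M)
  {Λ : Type} [Finite Λ] (ev : Λ → M → Qbar)

/-- **The abstract Hopf order of an ordinary peu ramifié module.** -/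
theorem flat_of_peu_abs (hp : p.Prime) (hP : P.LiesOverPrime p)
    (act_one : ∀ x, act 1 x = x) (act_mul : ∀ σ τ x, act (σ * τ) x = act σ (act τ x))
    (act_add : ∀ σ x y, act σ (x + y) = act σ x + act σ y)
    (act_cont : ∃ L : IntermediateField ℚ Qbar, FiniteDimensional ℚ L ∧
      ∀ σ ∈ L.fixingSubgroup, ∀ x, act σ x = x)
    (hD : ∀ σ ∈ P.decompositionSubgroup ℚ, ∀ w ∈ M₀, act σ w ∈ M₀)
    (hI : ∀ σ ∈ P.inertiaSubgroupIn ℚ, ∀ x, act σ x - x ∈ M₀)
    (ev_add : ∀ lam, ∀ w ∈ M₀, ∀ w' ∈ M₀, ev lam (w + w') = ev lam w * ev lam w')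
    (ev_ne : ∀ lam, ∀ w ∈ M₀, ev lam w ≠ 0)
    (ev_mem : ∀ lam, ∀ w ∈ M₀, ev lam w ∈ P)
    (ev_sep : ∀ w ∈ M₀, w ≠ 0 → ∃ lam, ev lam w ≠ 1)
    (ev_I : ∀ σ ∈ P.inertiaSubgroupIn ℚ, ∀ lam, ∀ w ∈ M₀, ev lam (act σ w) = σ (ev lam w))
    (ev_D : ∀ σ ∈ P.decompositionSubgroup ℚ, ∀ lam, ∃ lam', ∀ w ∈ M₀,
      ev lam' w = σ (ev lam (act σ⁻¹ w)))
    (hy : ∀ lam (r : M), ∃ y : Qbar, y ≠ 0 ∧ y ∈ P ∧ y⁻¹ ∈ P ∧
      ∀ σ ∈ P.inertiaSubgroupIn ℚ, σ y = ev lam (act σ r - r) * y) :
    ∃ (H' : Type) (_ : CommRing H') (_ : HopfAlgebra (GaloisRep.ratLocalizedAt p) H'),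
      Module.Finite (GaloisRep.ratLocalizedAt p) H' ∧
      Module.Flat (GaloisRep.ratLocalizedAt p) H' ∧
      Coalgebra.IsCocomm (GaloisRep.ratLocalizedAt p) H' ∧
      ∃ e : WithConv (H' →ₐ[GaloisRep.ratLocalizedAt p] AlgebraicClosure ℚ) ≃ M,
        (∀ f g : WithConv (H' →ₐ[GaloisRep.ratLocalizedAt p] AlgebraicClosure ℚ),
          e (f * g) = e f + e g) ∧
        ∀ (σ : AlgebraicClosure ℚ ≃ₐ[ℚ] AlgebraicClosure ℚ)
          (f g : WithConv (H' →ₐ[GaloisRep.ratLocalizedAt p] AlgebraicClosure ℚ)),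
          (∀ h : H', g h = σ (f h)) → e g = act σ (e f) := by
  classical
  haveI : Fintype M := Fintype.ofFinite M
  obtain ⟨rep, hrep, hrep'⟩ := exists_rep M₀
  -- basic facts
  have hID : ∀ σ ∈ P.inertiaSubgroupIn ℚ, σ ∈ P.decompositionSubgroup ℚ := fun σ hσ =>
    Fermat.Agent.S05.H95.mem_decomposition_of_mem_inertia P hσ
  have hPD : ∀ σ ∈ P.decompositionSubgroup ℚ, ∀ x ∈ P, σ x ∈ P := fun σ hσ x hx =>
    Fermat.Agent.S05.H95.mem_of_mem_decomposition P hσ hx
  have hrr : ∀ x, rep (rep x) = rep x := fun x => by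
    apply hrep'
    have h1 : rep x - x = -(x - rep x) := by abel
    rw [h1]
    exact M₀.neg_mem (hrep x)
  have hradd : ∀ x y, rep (x + y) = rep (rep x + rep y) := fun x y => by
    apply hrep'
    have h1 : x + y - (rep x + rep y) = (x - rep x) + (y - rep y) := by abel
    rw [h1]
    exact M₀.add_mem (hrep x) (hrep y)
  have hev0 : ∀ lam, ev lam 0 = 1 := fun lam => by
    have h1 := ev_add lam 0 M₀.zero_mem 0 M₀.zero_mem
    rw [add_zero] at h1
    have h2 := ev_ne lam 0 M₀.zero_mem
    have h3 : ev lam 0 * (ev lam 0 - 1) = 0 := by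
      rw [mul_sub, mul_one, ← h1, sub_self]
    rcases mul_eq_zero.mp h3 with h | h
    · exact absurd h h2
    · exact sub_eq_zero.mp h
  have hevinv : ∀ lam, ∀ w ∈ M₀, (ev lam w)⁻¹ ∈ P := fun lam w hw => by
    have h1 := ev_add lam w hw (-w) (M₀.neg_mem hw)
    rw [add_neg_cancel, hev0] at h1
    have h2 : (ev lam w)⁻¹ = ev lam (-w) := by
      rw [inv_eq_of_mul_eq_one_right h1.symm]
    rw [h2]
    exact ev_mem lam (-w) (M₀.neg_mem hw)
  -- the units
  choose yy hyy0 hyyP hyyP' hyyI using hy
  -- the generators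
  let h : M ⊕ Λ → M → Qbar := fun j x =>
    match j with
    | Sum.inl v => if rep x = rep v then 1 else 0
    | Sum.inr lam => ev lam (x - rep x) * yy lam (rep x)
  have hl : ∀ v x, h (Sum.inl v) x = if rep x = rep v then 1 else 0 := fun v x => rfl
  have hr : ∀ lam x, h (Sum.inr lam) x = ev lam (x - rep x) * yy lam (rep x) := fun lam x => rfl
  -- functions which are constant on the classes
  have hclass : ∀ g : M → Qbar, (∀ v, g v ∈ P) →
      (fun x => g (rep x)) ∈ genRing P.toSubring h := by
    intro g hg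
    have h1 : (fun x => g (rep x)) =
        fun x => ∑ v ∈ Finset.univ.image rep, (fun y => g v * h (Sum.inl v) y) x := by
      funext x
      rw [Finset.sum_eq_single (rep x)]
      · show g (rep x) = g (rep x) * h (Sum.inl (rep x)) x
        rw [hl, hrr, if_pos rfl, mul_one]
      · intro v hv hne
        obtain ⟨u, -, rfl⟩ := Finset.mem_image.mp hv
        show g (rep u) * h (Sum.inl (rep u)) x = 0
        rw [hl, hrr, if_neg (fun h' => hne h'.symm), mul_zero]
      · intro hx
        exact absurd (Finset.mem_image.mpr ⟨x, Finset.mem_univ _, rfl⟩) hx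
    rw [h1]
    apply sum_mem_genRing
    intro v _
    exact Subring.mul_mem _ (const_mem_genRing P.toSubring h (hg v))
      (gen_mem_genRing P.toSubring h (Sum.inl v))
  have hclass2 : ∀ G : M → M → Qbar, (∀ a b, G a b ∈ P) →
      (fun q : M × M => G (rep q.1) (rep q.2)) ∈ pairRing P.toSubring h := by
    intro G hG
    have h1 : (fun q : M × M => G (rep q.1) (rep q.2)) =
        ∑ a ∈ Finset.univ.image rep, ∑ b ∈ Finset.univ.image rep,
          (fun _ : M × M => G a b) * ((fun q : M × M => h (Sum.inl a) q.1) *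
            (fun q : M × M => h (Sum.inl b) q.2)) := by
      funext q
      rw [Finset.sum_apply, Finset.sum_eq_single (rep q.1)]
      · rw [Finset.sum_apply, Finset.sum_eq_single (rep q.2)]
        · show G (rep q.1) (rep q.2) = G (rep q.1) (rep q.2) *
            (h (Sum.inl (rep q.1)) q.1 * h (Sum.inl (rep q.2)) q.2)
          rw [hl, hl, hrr, hrr, if_pos rfl, if_pos rfl, mul_one, mul_one]
        · intro v hv hne
          obtain ⟨u, -, rfl⟩ := Finset.mem_image.mp hv
          show G (rep q.1) (rep u) * (h (Sum.inl (rep q.1)) q.1 * h (Sum.inl (rep u)) q.2) = 0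
          rw [hl (rep u), hrr, if_neg (fun h' => hne h'.symm), mul_zero, mul_zero]
        · intro hx
          exact absurd (Finset.mem_image.mpr ⟨q.2, Finset.mem_univ _, rfl⟩) hx
      · intro v hv hne
        obtain ⟨u, -, rfl⟩ := Finset.mem_image.mp hv
        rw [Finset.sum_apply]
        apply Finset.sum_eq_zero
        intro b _
        show G (rep u) b * (h (Sum.inl (rep u)) q.1 * h (Sum.inl b) q.2) = 0
        rw [hl (rep u), hrr, if_neg (fun h' => hne h'.symm), zero_mul, mul_zero]
      · intro hx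
        exact absurd (Finset.mem_image.mpr ⟨q.1, Finset.mem_univ _, rfl⟩) hx
    rw [h1]
    apply Subring.sum_mem
    intro a _
    apply Subring.sum_mem
    intro b _
    exact Subring.mul_mem _ (const_mem_pairRing P.toSubring h (hG a b))
      (Subring.mul_mem _ (fst_mem_pairRing P.toSubring h (Sum.inl a))
        (snd_mem_pairRing P.toSubring h (Sum.inl b)))
  have hsub : ∀ σ, ∀ x y, act σ (x - y) = act σ x - act σ y := act_sub act act_add
  -- the action of `D` on the classes
  have hrepD : ∀ σ ∈ P.decompositionSubgroup ℚ, ∀ x, rep (act σ x) = rep (act σ (rep x)) := by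
    intro σ hσ x
    apply hrep'
    rw [← hsub]
    exact hD σ hσ _ (hrep x)
  refine flat_of_local_generators p hp P hP act h act_one act_mul act_add act_cont ?_ ?_ ?_ ?_ ?_
  · -- integral
    rintro (v | lam) x
    · rw [hl]
      split_ifs
      · exact P.one_mem
      · exact P.zero_mem
    · rw [hr]
      exact mul_mem (ev_mem lam _ (hrep x)) (hyyP lam _)
  · -- equivariant
    rintro (v | lam) σ hσ x
    · have h1 : rep (act σ x) = rep x := hrep' _ _ (hI σ hσ x)
      rw [hl, hl, h1]
      split_ifs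
      · rw [map_one]
      · rw [map_zero]
    · have h1 : rep (act σ x) = rep x := hrep' _ _ (hI σ hσ x)
      rw [hr, hr, h1, map_mul, hyyI lam (rep x) σ hσ]
      have h2 : act σ x - rep x = act σ (x - rep x) + (act σ (rep x) - rep x) := by
        rw [hsub]
        abel
      rw [h2, ev_add lam _ (hD σ (hID σ hσ) _ (hrep x)) _ (hI σ hσ (rep x)),
        ev_I σ hσ lam _ (hrep x)]
      ring
  · -- stable
    rintro (v | lam) σ hσ
    · have hσ' : σ⁻¹ ∈ P.decompositionSubgroup ℚ := inv_mem hσ
      have h1 : twist act σ (h (Sum.inl v)) =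
          fun x => (fun u => if rep (act σ⁻¹ u) = rep v then (1 : Qbar) else 0) (rep x) := by
        funext x
        show σ (h (Sum.inl v) (act σ⁻¹ x)) =
          if rep (act σ⁻¹ (rep x)) = rep v then (1 : Qbar) else 0
        rw [hl, hrepD σ⁻¹ hσ' x]
        split_ifs
        · rw [map_one]
        · rw [map_zero]
      rw [h1]
      refine hclass (fun u => if rep (act σ⁻¹ u) = rep v then (1 : Qbar) else 0) ?_
      intro u
      show (if rep (act σ⁻¹ u) = rep v then (1 : Qbar) else 0) ∈ P
      split_ifs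
      · exact P.one_mem
      · exact P.zero_mem
    · have hσ' : σ⁻¹ ∈ P.decompositionSubgroup ℚ := inv_mem hσ
      obtain ⟨lam', hlam'⟩ := ev_D σ hσ lam
      have h1 : twist act σ (h (Sum.inr lam)) =
          (fun x => (fun u => σ (ev lam (act σ⁻¹ u - rep (act σ⁻¹ u))) *
            σ (yy lam (rep (act σ⁻¹ u))) * (yy lam' u)⁻¹) (rep x)) * h (Sum.inr lam') := by
        funext x
        show σ (h (Sum.inr lam) (act σ⁻¹ x)) =
          (σ (ev lam (act σ⁻¹ (rep x) - rep (act σ⁻¹ (rep x)))) *
            σ (yy lam (rep (act σ⁻¹ (rep x)))) * (yy lam' (rep x))⁻¹) * h (Sum.inr lam') x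
        rw [hr, hr, hrepD σ⁻¹ hσ' x, hlam' _ (hrep x)]
        have h2 : act σ⁻¹ x - rep (act σ⁻¹ (rep x)) =
            (act σ⁻¹ (rep x) - rep (act σ⁻¹ (rep x))) + act σ⁻¹ (x - rep x) := by
          rw [hsub]
          abel
        rw [h2, ev_add lam _ (hrep _) _ (hD σ⁻¹ hσ' _ (hrep x)), map_mul, map_mul]
        have h3 := hyy0 lam' (rep x)
        field_simp
      rw [h1]
      apply Subring.mul_mem _ _ (gen_mem_genRing P.toSubring h (Sum.inr lam'))
      refine hclass (fun u => σ (ev lam (act σ⁻¹ u - rep (act σ⁻¹ u))) *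
            σ (yy lam (rep (act σ⁻¹ u))) * (yy lam' u)⁻¹) ?_
      intro u
      exact mul_mem (mul_mem (hPD σ hσ _ (ev_mem lam _ (hrep _)))
        (hPD σ hσ _ (hyyP lam _))) (hyyP' lam' u)
  · -- separates
    intro x y hxy
    by_cases hc : rep x = rep y
    · have h1 : x - rep x - (y - rep x) ≠ 0 := by
        intro h0
        apply hxy
        have h2 : x - rep x - (y - rep x) = x - y := by abel
        rw [h2] at h0
        exact sub_eq_zero.mp h0
      have hyM : y - rep x ∈ M₀ := by rw [hc]; exact hrep y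
      obtain ⟨lam, hlam⟩ := ev_sep _ (M₀.sub_mem (hrep x) hyM) h1
      refine ⟨Sum.inr lam, ?_⟩
      rw [hr, hr, ← hc]
      intro heq
      apply hlam
      have h3 := mul_right_cancel₀ (hyy0 lam (rep x)) heq
      have h4 : x - rep x = (x - rep x - (y - rep x)) + (y - rep x) := by abel
      rw [h4, ev_add lam _ (M₀.sub_mem (hrep x) hyM) _ hyM] at h3
      exact mul_right_cancel₀ (ev_ne lam _ hyM) (h3.trans (one_mul _).symm)
    · refine ⟨Sum.inl x, ?_⟩
      rw [hl, hl, if_pos rfl, if_neg (fun h' => hc h'.symm)]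
      exact one_ne_zero
  · -- comultiplication
    rintro (v | lam)
    · have h1 : (fun q : M × M => h (Sum.inl v) (q.1 + q.2)) =
          fun q : M × M => (fun a b => if rep (a + b) = rep v then (1 : Qbar) else 0)
            (rep q.1) (rep q.2) := by
        funext q
        show h (Sum.inl v) (q.1 + q.2) =
          if rep (rep q.1 + rep q.2) = rep v then (1 : Qbar) else 0
        rw [hl, hradd]
      rw [h1]
      refine hclass2 (fun a b => if rep (a + b) = rep v then (1 : Qbar) else 0) ?_
      intro a b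
      show (if rep (a + b) = rep v then (1 : Qbar) else 0) ∈ P
      split_ifs
      · exact P.one_mem
      · exact P.zero_mem
    · have h1 : (fun q : M × M => h (Sum.inr lam) (q.1 + q.2)) =
          (fun q : M × M => (fun a b => ev lam (a + b - rep (a + b)) * yy lam (rep (a + b)) *
            (yy lam a)⁻¹ * (yy lam b)⁻¹) (rep q.1) (rep q.2)) *
          ((fun q : M × M => h (Sum.inr lam) q.1) * (fun q : M × M => h (Sum.inr lam) q.2)) := by
        funext q
        show h (Sum.inr lam) (q.1 + q.2) =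
          (ev lam (rep q.1 + rep q.2 - rep (rep q.1 + rep q.2)) *
            yy lam (rep (rep q.1 + rep q.2)) * (yy lam (rep q.1))⁻¹ * (yy lam (rep q.2))⁻¹) *
          (h (Sum.inr lam) q.1 * h (Sum.inr lam) q.2)
        rw [hr, hr, hr, hradd q.1 q.2]
        have h2 : q.1 + q.2 - rep (rep q.1 + rep q.2) =
            (q.1 - rep q.1) + ((q.2 - rep q.2) +
              (rep q.1 + rep q.2 - rep (rep q.1 + rep q.2))) := by abel
        rw [h2, ev_add lam _ (hrep _) _ (M₀.add_mem (hrep _) (hrep _)),
          ev_add lam _ (hrep _) _ (hrep _)]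
        have h3 := hyy0 lam (rep q.1)
        have h4 := hyy0 lam (rep q.2)
        field_simp
      rw [h1]
      apply Subring.mul_mem _ _ (Subring.mul_mem _ (fst_mem_pairRing P.toSubring h (Sum.inr lam))
        (snd_mem_pairRing P.toSubring h (Sum.inr lam)))
      refine hclass2 (fun a b => ev lam (a + b - rep (a + b)) * yy lam (rep (a + b)) *
            (yy lam a)⁻¹ * (yy lam b)⁻¹) ?_
      intro a b
      exact mul_mem (mul_mem (mul_mem (ev_mem lam _ (hrep _)) (hyyP lam _))
        (hyyP' lam a)) (hyyP' lam b)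

end Abs

end Fermat.Agent.S59.NonMin.H92P
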