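import Fermat.Agent.S59.NonMin.H92_PeuFlatAbs
import Fermat.Agent.S59.NonMin.H92_PeuFlatDefs
import Fermat.Agent.Lib.FrobExists

/-!
# S59, case C, leaf PEUFLAT (helper92): the finite levels of an ordinary peu ramifié representation

* `exists_pow_rootsOfUnity`, `mem_of_pow_eq_one`, `apply_eq_det_smul_of_basis`,
  `exists_maxpow_le`, `finite_level` : auxiliary facts.
* `hy_of_peuUnit` : the hypothesis `hy` of `flat_of_peu_abs` from `Stmt_PeuUnit`.
* `flat_level` : `V / J V` is flat (`J` of finite index).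
* `peuflat_of_peuUnit : Stmt_PeuUnit → Stmt_PEUFLAT`, `peuflat_of_kcore`.
-/

set_option autoImplicit false
set_option linter.unusedSectionVars false
set_option linter.style.haveILetI false
set_option linter.unusedVariables false

namespace Fermat.Agent.S59.NonMin.H92P

open IsLocalRing Fermat.Agent.S59.NonMin

local notation "Qbar" => AlgebraicClosure ℚ
local notation "Γℚ" => (AlgebraicClosure ℚ ≃ₐ[ℚ] AlgebraicClosure ℚ)

section Cyc

/-- Every element of `G_ℚ` acts on the `N`-th roots of unity by a power map. -/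
theorem exists_pow_rootsOfUnity (N : ℕ) [NeZero N] (σ : Γℚ) :
    ∃ a : ℕ, ∀ μ : Qbar, μ ^ N = 1 → σ μ = μ ^ a := by
  refine ⟨(modularCyclotomicCharacter.toFun N (σ : Qbar ≃+* Qbar)).val, fun μ hμ => ?_⟩
  have hμ0 : μ ≠ 0 := by
    rintro rfl
    rw [zero_pow (NeZero.ne N)] at hμ
    exact zero_ne_one hμ
  have ht : Units.mk0 μ hμ0 ∈ rootsOfUnity N Qbar := by
    rw [mem_rootsOfUnity]
    ext
    simpa using hμ
  have := modularCyclotomicCharacter.toFun_spec' (σ : Qbar ≃+* Qbar) ht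
  simpa using this

/-- Roots of unity lie in every valuation subring. -/
theorem mem_of_pow_eq_one (P : ValuationSubring Qbar) {x : Qbar} {N : ℕ} (hN : N ≠ 0)
    (hx : x ^ N = 1) : x ∈ P := by
  rw [← P.valuation_le_one_iff]
  have h1 : P.valuation x ^ N = 1 := by rw [← map_pow, hx, map_one]
  exact le_of_eq ((pow_eq_one_iff.mp h1).resolve_right hN)

end Cyc

section Det

variable {A : Type} [CommRing A] {V : Type} [AddCommGroup V] [Module A V]

/-- An endomorphism of a free module of rank `2` which stabilises the line `L` spanned by the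
first basis vector and is trivial modulo `L` acts on `L` through its determinant. -/
theorem apply_eq_det_smul_of_basis (b : Module.Basis (Fin 2) A V) (f : V →ₗ[A] V)
    (hL : f (b 0) ∈ Submodule.span A {b 0}) (hf : f (b 1) - b 1 ∈ Submodule.span A {b 0})
    {v : V} (hv : v ∈ Submodule.span A {b 0}) : f v = LinearMap.det f • v := by
  obtain ⟨c, hc⟩ := Submodule.mem_span_singleton.mp hL
  obtain ⟨u, hu⟩ := Submodule.mem_span_singleton.mp hf
  obtain ⟨t, rfl⟩ := Submodule.mem_span_singleton.mp hv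
  have hb1 : f (b 1) = b 1 + u • b 0 := by rw [hu]; abel
  have hdet : LinearMap.det f = c := by
    rw [← LinearMap.det_toMatrix b, Matrix.det_fin_two]
    have h00 : LinearMap.toMatrix b b f 0 0 = c := by
      rw [LinearMap.toMatrix_apply, ← hc, map_smul, Module.Basis.repr_self]
      simp
    have h10 : LinearMap.toMatrix b b f 1 0 = 0 := by
      rw [LinearMap.toMatrix_apply, ← hc, map_smul, Module.Basis.repr_self]
      simp
    have h11 : LinearMap.toMatrix b b f 1 1 = 1 := by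
      rw [LinearMap.toMatrix_apply, hb1, map_add, map_smul, Module.Basis.repr_self,
        Module.Basis.repr_self]
      simp
    rw [h00, h10, h11]
    ring
  rw [map_smul, ← hc, hdet, smul_comm]

end Det

section Level

variable {A : Type} [CommRing A] [IsLocalRing A]

/-- An ideal of finite index of a local ring contains a power of the maximal ideal. -/
theorem exists_maxpow_le (J : Ideal A) (hfin : Finite (A ⧸ J)) :
    ∃ n : ℕ, maximalIdeal A ^ n ≤ J := by
  by_cases hJ : J = ⊤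
  · exact ⟨0, by rw [hJ]; exact le_top⟩
  haveI := hfin
  haveI : IsArtinianRing (A ⧸ J) := inferInstance
  obtain ⟨n, hn⟩ := IsArtinianRing.isNilpotent_jacobson_bot (R := A ⧸ J)
  refine ⟨n, ?_⟩
  have h1 : (Ideal.jacobson (⊥ : Ideal (A ⧸ J))).comap (Ideal.Quotient.mk J) =
      maximalIdeal A := by
    rw [Ideal.comap_jacobson_of_surjective Ideal.Quotient.mk_surjective,
      ← RingHom.ker_eq_comap_bot, Ideal.mk_ker, IsLocalRing.jacobson_eq_maximalIdeal J hJ]
  intro x hx
  rw [← h1] at hx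
  have h2 := Ideal.le_comap_pow (Ideal.Quotient.mk J) n hx
  rw [Ideal.mem_comap, hn, Ideal.zero_eq_bot, Ideal.mem_bot] at h2
  exact Ideal.Quotient.eq_zero_iff_mem.mp h2

variable (ρ : GaloisRepAdic A) (J : Ideal A)

/-- The finite levels are finite. -/
theorem finite_level (hfin : Finite (A ⧸ J)) :
    Finite (ρ.V ⧸ (J • ⊤ : Submodule A ρ.V)) := by
  haveI := hfin
  haveI : Module.Finite (A ⧸ J) (ρ.V ⧸ (J • ⊤ : Submodule A ρ.V)) :=
    Module.Finite.of_restrictScalars_finite A (A ⧸ J) _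
  exact Module.finite_of_finite (A ⧸ J)

theorem levelAction_mk (σ : Γℚ) (v : ρ.V) :
    ρ.levelAction J σ (Submodule.Quotient.mk v) = Submodule.Quotient.mk (ρ.ρ σ v) := rfl

/-- `J` kills the level `J`. -/
theorem smul_level_eq_zero {j : A} (hj : j ∈ J) (x : ρ.V ⧸ (J • ⊤ : Submodule A ρ.V)) :
    j • x = 0 := by
  obtain ⟨v, rfl⟩ := Submodule.Quotient.mk_surjective _ x
  rw [← Submodule.Quotient.mk_smul, Submodule.Quotient.mk_eq_zero]
  exact Submodule.smul_mem_smul hj Submodule.mem_top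

end Level

section Hy

variable {M : Type} [AddCommGroup M] (p : ℕ) (P : ValuationSubring Qbar) (act : Γℚ → M → M)
  (M₀ : AddSubgroup M) {Λ : Type} (ev : Λ → M → Qbar)

/-- The hypothesis `hy` of `flat_of_peu_abs` from `Stmt_PeuUnit`. -/
theorem hy_of_peuUnit (hPU : Stmt_PeuUnit) (hp : p.Prime) (hp2 : p ≠ 2)
    (hP : P.LiesOverPrime p)
    (act_mul : ∀ σ τ x, act (σ * τ) x = act σ (act τ x))
    (act_add : ∀ σ x y, act σ (x + y) = act σ x + act σ y)
    (act_cont : ∃ L : IntermediateField ℚ Qbar, FiniteDimensional ℚ L ∧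
      ∀ σ ∈ L.fixingSubgroup, ∀ x, act σ x = x)
    (hD : ∀ σ ∈ P.decompositionSubgroup ℚ, ∀ w ∈ M₀, act σ w ∈ M₀)
    (hI : ∀ σ ∈ P.inertiaSubgroupIn ℚ, ∀ x, act σ x - x ∈ M₀)
    (ev_add : ∀ lam, ∀ w ∈ M₀, ∀ w' ∈ M₀, ev lam (w + w') = ev lam w * ev lam w')
    (ev_zero : ∀ lam, ev lam 0 = 1)
    (ev_I : ∀ σ ∈ P.inertiaSubgroupIn ℚ, ∀ lam, ∀ w ∈ M₀, ev lam (act σ w) = σ (ev lam w))
    (n : ℕ) (ev_pow : ∀ lam, ∀ w ∈ M₀, ev lam w ^ p ^ n = 1)
    (hpeu : ∀ σ ∈ Ipeu p P, ∀ x, act σ x = x) :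
    ∀ lam (r : M), ∃ y : Qbar, y ≠ 0 ∧ y ∈ P ∧ y⁻¹ ∈ P ∧
      ∀ σ ∈ P.inertiaSubgroupIn ℚ, σ y = ev lam (act σ r - r) * y := by
  intro lam r
  obtain ⟨L, hL, hLfix⟩ := act_cont
  have hID : ∀ σ ∈ P.inertiaSubgroupIn ℚ, σ ∈ P.decompositionSubgroup ℚ := fun σ hσ =>
    Fermat.Agent.S05.H95.mem_decomposition_of_mem_inertia P hσ
  refine hPU p hp hp2 P hP n (fun σ => ev lam (act σ r - r))
    (fun σ hσ => ev_pow lam _ (hI σ hσ r)) ?_ ⟨L, hL, ?_⟩ ?_
  · intro σ hσ τ hτ
    show ev lam (act (σ * τ) r - r) = ev lam (act σ r - r) * σ (ev lam (act τ r - r))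
    have h1 : act (σ * τ) r - r = act σ (act τ r - r) + (act σ r - r) := by
      rw [act_mul, act_sub act act_add]
      abel
    rw [h1, ev_add lam _ (hD σ (hID σ hσ) _ (hI τ hτ r)) _ (hI σ hσ r),
      ev_I σ hσ lam _ (hI τ hτ r), mul_comm]
  · intro σ hσ hσL
    show ev lam (act σ r - r) = 1
    rw [hLfix σ hσL r, sub_self, ev_zero]
  · intro σ hσ
    show ev lam (act σ r - r) = 1
    rw [hpeu σ hσ r, sub_self, ev_zero]

end Hy

end Fermat.Agent.S59.NonMin.H92P
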